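import Fermat.Agent.Curves.BasicModular
import Fermat.Agent.GaloisReps.TateConstructCommute

/-!
# Pushforward of classes along the degeneracy maps

`pushPic φ` is the map of degree zero class groups induced by the pushforward of divisors along
`φ : F →ₐ[K] F'`; `pushAlpha`, `pushBeta` are its instances for the two degeneracy maps
`X₀(N ℓ) → X₀(N)`.
-/

set_option autoImplicit false

noncomputable section

open AlgebraicCurve AlgebraicCurve.SemilinearAut ModularCurve
open scoped Pointwise

namespace FLTA.Carayol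

section Generic

variable {K F F' : Type*} [Field K] [CharZero K] [Field F] [Field F'] [Algebra K F] [Algebra K F']
variable [Curves.IsSepFunctionField K F] [Curves.IsSepFunctionField K F']

theorem pushDiv_mem_principal (φ : F →ₐ[K] F') {D : Divisor K F'}
    (hD : D ∈ Divisor.principal (K := K) (F := F')) :
    Divisor.pushforwardAlong φ (Curves.isIntegral_of_algHom φ) D ∈
      Divisor.principal (K := K) (F := F) :=
  Divisor.isPrincipal_pushforwardAlong φ (Curves.isIntegral_of_algHom φ) (Curves.finiteAlong φ)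
    (Curves.normFormulaAlong φ (Curves.finiteAlong φ) (Curves.separableAlong_of_charZero φ)) hD

/-- Pushforward on degree zero classes. -/
def pushPic (φ : F →ₐ[K] F') : Pic0 K F' →+ Pic0 K F :=
  QuotientAddGroup.map _ _
    (((Divisor.pushforwardAlong φ (Curves.isIntegral_of_algHom φ)).domRestrict
      (Divisor.degZero (K := K) (F := F'))).codRestrict _
      fun D => Divisor.pushforwardAlong_mem_degZero φ (Curves.isIntegral_of_algHom φ) D.2)
    (by
      rintro ⟨D, hD0⟩ hD
      simp only [AddSubgroup.mem_addSubgroupOf] at hD ⊢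
      exact pushDiv_mem_principal φ hD)

theorem pushPic_mk (φ : F →ₐ[K] F') (D : Divisor.degZero (K := K) (F := F')) :
    pushPic φ (Pic0.mk D) =
      Pic0.mk ⟨Divisor.pushforwardAlong φ (Curves.isIntegral_of_algHom φ) D,
        Divisor.pushforwardAlong_mem_degZero φ (Curves.isIntegral_of_algHom φ) D.2⟩ :=
  rfl

/-- A class is killed by the pushforward exactly when the pushforward of its divisor is
principal. -/
theorem pushPic_mk_eq_zero_iff (φ : F →ₐ[K] F') (D : Divisor.degZero (K := K) (F := F')) :
    pushPic φ (Pic0.mk D) = 0 ↔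
      (Divisor.pushforwardAlong φ (Curves.isIntegral_of_algHom φ) (D : Divisor K F')).IsPrincipal := by
  rw [pushPic_mk, Pic0.mk, QuotientAddGroup.eq_zero_iff, AddSubgroup.mem_addSubgroupOf]
  exact Iff.rfl

theorem pushPic_smul (φ : F →ₐ[K] F') {g : SemilinearAut K F} {g' : SemilinearAut K F'}
    (hint : ∀ x : F, g' • φ x = φ (g • x)) (P : Pic0 K F') :
    pushPic φ (g' • P) = g • pushPic φ P := by
  obtain ⟨D, rfl⟩ := Pic0.mk_surjective P
  rw [pic0_smul_mk, pushPic_mk, pushPic_mk, pic0_smul_mk]
  exact congrArg Pic0.mk (Subtype.ext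
    (GaloisReps.pushforwardAlong_smul φ _ hint (D : Divisor K F')))

end Generic

section Modular

variable (N ℓ : ℕ) [NeZero N] [NeZero ℓ]

local notation "Qbar" => AlgebraicClosure ℚ

/-- The pushforward of classes along `τ ↦ τ`. -/
def pushAlpha : JZero (N * ℓ) →+ JZero N :=
  pushPic (heckeAlphaBar Qbar N ℓ)

/-- The pushforward of classes along `τ ↦ ℓ τ`. -/
def pushBeta : JZero (N * ℓ) →+ JZero N :=
  pushPic (heckeBetaBar Qbar N ℓ)

theorem pushAlpha_galois (σ : Qbar ≃ₐ[ℚ] Qbar) (P : JZero (N * ℓ)) :
    pushAlpha N ℓ (σ • P) = σ • pushAlpha N ℓ P := by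
  rw [galois_smul_pic0_def, galois_smul_pic0_def]
  exact pushPic_smul _ (GaloisReps.heckeAlphaBar_galois N ℓ σ) P

theorem pushBeta_galois (σ : Qbar ≃ₐ[ℚ] Qbar) (P : JZero (N * ℓ)) :
    pushBeta N ℓ (σ • P) = σ • pushBeta N ℓ P := by
  rw [galois_smul_pic0_def, galois_smul_pic0_def]
  exact pushPic_smul _ (GaloisReps.heckeBetaBar_galois N ℓ σ) P

end Modular

end FLTA.Carayol
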