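/-
Comparison of two dimensional Galois representations through their Frobenius elements.
-/
import Fermat.Agent.GaloisReps.DetTrick
import Fermat.Agent.RepTheory.Carayol
import Fermat.Agent.Density.Frobenius

set_option autoImplicit false

open Polynomial

namespace FLTA.Carayol

local notation "Γℚ" => AlgebraicClosure ℚ ≃ₐ[ℚ] AlgebraicClosure ℚ

section Matrix2

variable {R : Type*} [CommRing R]

/-- Cayley–Hamilton in size two. -/
theorem mul_self_two (M : Matrix (Fin 2) (Fin 2) R) :
    M * M = M.trace • M - M.det • (1 : Matrix (Fin 2) (Fin 2) R) := by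
  ext i j
  fin_cases i <;> fin_cases j <;>
    simp [Matrix.mul_apply, Fin.sum_univ_two, Matrix.trace_fin_two, Matrix.det_fin_two] <;> ring

/-- Trace and determinant of powers are functions of trace and determinant. -/
theorem trace_det_pow_eq {M M' : Matrix (Fin 2) (Fin 2) R} (ht : M.trace = M'.trace)
    (hd : M.det = M'.det) (k : ℕ) :
    (M ^ k).trace = (M' ^ k).trace ∧ (M ^ k).det = (M' ^ k).det := by
  refine ⟨?_, by rw [Matrix.det_pow, Matrix.det_pow, hd]⟩
  have hrec : ∀ (X : Matrix (Fin 2) (Fin 2) R) (m : ℕ),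
      (X ^ (m + 2)).trace = X.trace * (X ^ (m + 1)).trace - X.det * (X ^ m).trace := by
    intro X m
    rw [pow_add, pow_two, mul_self_two, mul_sub, mul_smul_comm, mul_smul_comm, mul_one,
      ← pow_succ, Matrix.trace_sub, Matrix.trace_smul, Matrix.trace_smul, smul_eq_mul, smul_eq_mul]
  induction k using Nat.twoStepInduction with
  | zero => simp
  | one => simpa using ht
  | more m h0 h1 => rw [hrec, hrec, ht, hd, h0, h1]

end Matrix2

section Residual

variable {k : Type} [Field k]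

/-- Residual representations with the same characteristic polynomials at Frobenius elements
outside a finite set have the same characteristic polynomials. -/
theorem residual_charpoly_eq_of_frobenius (ρ₁ ρ₂ : ResidualGaloisRep k) (S : Finset ℕ)
    (h : ∀ ℓ : ℕ, ℓ.Prime → ℓ ∉ S → ∀ A : ValuationSubring (AlgebraicClosure ℚ),
      A.LiesOverPrime ℓ → ∀ τ : Γℚ, A.IsFrobeniusAt τ ℓ →
        (ρ₁.ρ τ).charpoly = (ρ₂.ρ τ).charpoly) (σ : Γℚ) :
    (ρ₁.ρ σ).charpoly = (ρ₂.ρ σ).charpoly := by
  classical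
  let b₁ := Module.finBasisOfFinrankEq k ρ₁.V ρ₁.finrank_eq
  let b₂ := Module.finBasisOfFinrankEq k ρ₂.V ρ₂.finrank_eq
  let φ₁ := RepTheory.matHom b₁ ρ₁.ρ
  let φ₂ := RepTheory.matHom b₂ ρ₂.ρ
  have hfin : GaloisFactorsThroughFiniteLevel (φ₁.prod φ₂) := by
    refine Density.galoisFactorsThroughFiniteLevel_prod ?_ ?_
    · obtain ⟨L, hL, h1⟩ := ρ₁.factorsThroughFiniteLevel
      exact ⟨L, hL, fun g hg => by simp [φ₁, RepTheory.matHom, h1 g hg]⟩
    · obtain ⟨L, hL, h1⟩ := ρ₂.factorsThroughFiniteLevel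
      exact ⟨L, hL, fun g hg => by simp [φ₂, RepTheory.matHom, h1 g hg]⟩
  have key := Density.forall_of_frobenius (φ₁.prod φ₂) hfin S
    (fun x => x.1.trace = x.2.trace ∧ x.1.det = x.2.det)
    (fun x m hx => trace_det_pow_eq hx.1 hx.2 m) ?_ σ
  · rw [← LinearMap.charpoly_toMatrix (ρ₁.ρ σ) b₁, ← LinearMap.charpoly_toMatrix (ρ₂.ρ σ) b₂,
      Matrix.charpoly_fin_two, Matrix.charpoly_fin_two]
    simp only [MonoidHom.prod_apply, φ₁, φ₂, RepTheory.matHom_apply] at key
    rw [key.1, key.2]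
  · intro ℓ hℓ hS A hA τ hτ
    have e := h ℓ hℓ hS A hA τ hτ
    obtain ⟨et, ed⟩ := RepTheory.trace_eq_of_charpoly_eq ρ₁.finrank_eq ρ₂.finrank_eq e
    simp only [MonoidHom.prod_apply, φ₁, φ₂, RepTheory.matHom_apply]
    rw [LinearMap.det_toMatrix, LinearMap.det_toMatrix,
      ← LinearMap.trace_eq_matrix_trace k b₁, ← LinearMap.trace_eq_matrix_trace k b₂]
    exact ⟨et, ed⟩

end Residual

section Adic

variable {A : Type} [CommRing A] [IsLocalRing A] [IsNoetherianRing A]

/-- Adic representations with the same characteristic polynomials at Frobenius elements outside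
a finite set have the same characteristic polynomials. -/
theorem adic_charpoly_eq_of_frobenius (ρ₁ ρ₂ : GaloisRepAdic A) (S : Finset ℕ)
    (h : ∀ ℓ : ℕ, ℓ.Prime → ℓ ∉ S → ∀ P : ValuationSubring (AlgebraicClosure ℚ),
      P.LiesOverPrime ℓ → ∀ τ : Γℚ, P.IsFrobeniusAt τ ℓ →
        (ρ₁.ρ τ).charpoly = (ρ₂.ρ τ).charpoly) (σ : Γℚ) :
    (ρ₁.ρ σ).charpoly = (ρ₂.ρ σ).charpoly := by
  classical
  let b₁ := Module.finBasisOfFinrankEq A ρ₁.V ρ₁.finrank_eq
  let b₂ := Module.finBasisOfFinrankEq A ρ₂.V ρ₂.finrank_eq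
  rw [← LinearMap.charpoly_toMatrix (ρ₁.ρ σ) b₁, ← LinearMap.charpoly_toMatrix (ρ₂.ρ σ) b₂,
    Matrix.charpoly_fin_two, Matrix.charpoly_fin_two]
  suffices H : ∀ n : ℕ,
      (LinearMap.toMatrix b₁ b₁ (ρ₁.ρ σ)).trace - (LinearMap.toMatrix b₂ b₂ (ρ₂.ρ σ)).trace
        ∈ IsLocalRing.maximalIdeal A ^ n ∧
      (LinearMap.toMatrix b₁ b₁ (ρ₁.ρ σ)).det - (LinearMap.toMatrix b₂ b₂ (ρ₂.ρ σ)).det
        ∈ IsLocalRing.maximalIdeal A ^ n by
    rw [sub_eq_zero.mp (GaloisReps.eq_zero_of_forall_mem_maximalIdeal_pow fun n => (H n).1),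
      sub_eq_zero.mp (GaloisReps.eq_zero_of_forall_mem_maximalIdeal_pow fun n => (H n).2)]
  intro n
  let π := Ideal.Quotient.mk (IsLocalRing.maximalIdeal A ^ n)
  let ψ : ∀ (ρ : GaloisRepAdic A), Module.Basis (Fin 2) A ρ.V →
      Γℚ →* Matrix (Fin 2) (Fin 2) (A ⧸ IsLocalRing.maximalIdeal A ^ n) :=
    fun ρ b => π.mapMatrix.toMonoidHom.comp (RepTheory.matHom b ρ.ρ)
  have hlev : ∀ (ρ : GaloisRepAdic A) (b : Module.Basis (Fin 2) A ρ.V),
      GaloisFactorsThroughFiniteLevel (ψ ρ b) := by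
    intro ρ b
    obtain ⟨L, hL, h1⟩ := ρ.isAdicContinuous n
    refine ⟨L, hL, fun g hg => ?_⟩
    ext i j
    have h2 := GaloisReps.repr_mem_of_mem_smul_top b _ (h1 g hg (b j)) i
    rw [map_sub, Finsupp.sub_apply, b.repr_self] at h2
    show π (LinearMap.toMatrix b b (ρ.ρ g) i j) = _
    rw [LinearMap.toMatrix_apply, Ideal.Quotient.eq.mpr h2]
    by_cases hij : i = j
    · subst hij; simp [π]
    · simp [π, Ne.symm hij, hij]
  have key := Density.forall_of_frobenius ((ψ ρ₁ b₁).prod (ψ ρ₂ b₂))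
    (Density.galoisFactorsThroughFiniteLevel_prod (hlev ρ₁ b₁) (hlev ρ₂ b₂)) S
    (fun x => x.1.trace = x.2.trace ∧ x.1.det = x.2.det)
    (fun x m hx => trace_det_pow_eq hx.1 hx.2 m) ?_ σ
  · simp only [MonoidHom.prod_apply, ψ, MonoidHom.coe_comp, RingHom.toMonoidHom_eq_coe,
      RingHom.coe_monoidHom_mk, MonoidHom.coe_coe, Function.comp_apply,
      RingHom.mapMatrix_apply, RepTheory.matHom_apply] at key
    rw [← Ideal.Quotient.eq, ← Ideal.Quotient.eq, AddMonoidHom.map_trace, AddMonoidHom.map_trace,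
      RingHom.map_det, RingHom.map_det]
    exact key
  · intro ℓ hℓ hS P hP τ hτ
    obtain ⟨et, ed⟩ := RepTheory.trace_eq_of_charpoly_eq ρ₁.finrank_eq ρ₂.finrank_eq
      (h ℓ hℓ hS P hP τ hτ)
    simp only [MonoidHom.prod_apply, ψ, MonoidHom.coe_comp, RingHom.toMonoidHom_eq_coe,
      MonoidHom.coe_coe, Function.comp_apply, RingHom.mapMatrix_apply, RepTheory.matHom_apply]
    refine ⟨?_, ?_⟩
    · rw [← AddMonoidHom.map_trace, ← AddMonoidHom.map_trace,
        ← LinearMap.trace_eq_matrix_trace A b₁, ← LinearMap.trace_eq_matrix_trace A b₂, et]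
    · rw [← RingHom.mapMatrix_apply, ← RingHom.map_det, ← RingHom.mapMatrix_apply,
        ← RingHom.map_det, LinearMap.det_toMatrix, LinearMap.det_toMatrix, ed]

end Adic

section Spans

variable {k : Type*} [Field k] {G : Type*} [Monoid G]
  {V : Type*} [AddCommGroup V] [Module k V] [Module.Finite k V]
  {W : Type*} [AddCommGroup W] [Module k W] [Module.Finite k W]
  {ρ : G →* Module.End k V} {ρ' : G →* Module.End k W}

/-- A relation holding in a representation holds in any absolutely irreducible one with the same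
traces. -/
theorem repAlgHom_eq_zero_of_trace_eq (hs : RepTheory.Spans ρ)
    (ht : ∀ g, LinearMap.trace k V (ρ g) = LinearMap.trace k W (ρ' g))
    {c : MonoidAlgebra k G} (hc : RepTheory.repAlgHom ρ' c = 0) :
    RepTheory.repAlgHom ρ c = 0 := by
  refine (RepTheory.traceDual_bijective (A := k) (V := V)).1 ?_
  rw [map_zero]
  refine LinearMap.ext fun y => ?_
  obtain ⟨d, rfl⟩ := RepTheory.repAlgHom_surjective hs y
  rw [RepTheory.traceDual_apply, ← map_mul, RepTheory.trace_repAlgHom_eq ht, map_mul, hc,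
    zero_mul, map_zero, LinearMap.zero_apply]

/-- An element killed by a representation is killed by any absolutely irreducible one with the
same traces. -/
theorem eq_one_of_trace_eq (hs : RepTheory.Spans ρ)
    (ht : ∀ g, LinearMap.trace k V (ρ g) = LinearMap.trace k W (ρ' g))
    {h : G} (hh : ρ' h = 1) : ρ h = 1 := by
  have hc : RepTheory.repAlgHom ρ' (MonoidAlgebra.of k G h - 1) = 0 := by
    rw [map_sub, map_one, RepTheory.repAlgHom_of, hh, sub_self]
  have := repAlgHom_eq_zero_of_trace_eq hs ht hc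
  rwa [map_sub, map_one, RepTheory.repAlgHom_of, sub_eq_zero] at this

/-- Absolute irreducibility only depends on the traces. -/
theorem spans_of_trace_eq (hdim : Module.finrank k V = Module.finrank k W)
    (hs : RepTheory.Spans ρ)
    (ht : ∀ g, LinearMap.trace k V (ρ g) = LinearMap.trace k W (ρ' g)) :
    RepTheory.Spans ρ' := by
  let f := (RepTheory.repAlgHom ρ).toLinearMap
  let f' := (RepTheory.repAlgHom ρ').toLinearMap
  have hker : LinearMap.ker f' ≤ LinearMap.ker f := fun c hc =>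
    repAlgHom_eq_zero_of_trace_eq hs ht hc
  have hsurj : Function.Surjective (Submodule.liftQ (LinearMap.ker f') f hker) := by
    intro y
    obtain ⟨c, rfl⟩ := RepTheory.repAlgHom_surjective hs y
    exact ⟨Submodule.Quotient.mk c, rfl⟩
  let e := f'.quotKerEquivRange
  haveI : Module.Finite k (MonoidAlgebra k G ⧸ LinearMap.ker f') :=
    Module.Finite.equiv e.symm
  have h1 : Module.finrank k (Module.End k V)
      ≤ Module.finrank k (LinearMap.range f') := by
    rw [← e.finrank_eq]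
    exact LinearMap.finrank_le_finrank_of_surjective hsurj
  have h2 : LinearMap.range f' = ⊤ := by
    refine Submodule.eq_top_of_finrank_eq (le_antisymm (Submodule.finrank_le _) ?_)
    simpa [Module.finrank_linearMap, hdim] using h1
  exact RepTheory.spans_of_repAlgHom_surjective (LinearMap.range_eq_top.mp h2)

end Spans

end FLTA.Carayol
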