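import Fermat.Agent.Galois.PlacesFinite
import Fermat.Agent.EllReduction.MultModel
import Mathlib.NumberTheory.RamificationInertia.HilbertTheory

/-!
# The value group of the inertia field at a place of `AlgebraicClosure ℚ`
-/

set_option autoImplicit false

open scoped Pointwise NumberField
open ValuationSubring

namespace FLTA.Carayol

open FLTA.Galois FLTA.EllReduction

local notation "Qbar" => AlgebraicClosure ℚ
local notation "Γ" => AlgebraicClosure ℚ ≃ₐ[ℚ] AlgebraicClosure ℚ

/-- The inertia field has ramification index one: an element `x` of a normal number field that is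
fixed by the inertia group lies in a subfield where `q` is a uniformiser of the place. -/
lemma exists_subfield_unramified {q : ℕ} (hq : q.Prime) {A : ValuationSubring Qbar}
    (hA : A.LiesOverPrime q) (L : IntermediateField ℚ Qbar) [FiniteDimensional ℚ L] [Normal ℚ L]
    (x : L) (hfix : ∀ σ ∈ A.inertiaSubgroupIn ℚ, σ (x : Qbar) = x) :
    ∃ K : IntermediateField ℚ L, x ∈ K ∧
      ((placeIdeal A L).under (𝓞 K)).ramificationIdx ℤ = 1 := by
  have : NumberField L := { to_finiteDimensional := inferInstance }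
  have : IsGalois ℚ L := isGalois_iff.mpr ⟨inferInstance, inferInstance⟩
  have := IsGaloisGroup.of_isFractionRing (L ≃ₐ[ℚ] L) ℤ (𝓞 L) ℚ L
  have := Fact.mk hq
  let p : Ideal ℤ := Ideal.span {(q : ℤ)}
  have hp : p.IsMaximal := Int.ideal_span_isMaximal_of_prime q
  have : Finite (ℤ ⧸ p) := Finite.of_equiv _ (Int.quotientSpanNatEquivZMod q).symm.toEquiv
  have : Finite p.ResidueField :=
    Finite.of_surjective _ (Ideal.bijective_algebraMap_quotient_residueField p).2
  let P := placeIdeal A L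
  have hPmax : P.IsMaximal := placeIdeal_isMaximal hq hA
  have : P.LiesOver p := placeIdeal_liesOver hq hA
  let H : Subgroup (L ≃ₐ[ℚ] L) := P.inertia (L ≃ₐ[ℚ] L)
  let K : IntermediateField ℚ L := FixedPoints.intermediateField H
  have : IsGaloisGroup H K L := IsGaloisGroup.subgroup (L ≃ₐ[ℚ] L) ℚ L H
  refine ⟨K, ?_, ?_⟩
  · rintro ⟨g, hg⟩
    have hg' : g ∈ P.inertia (L ≃ₐ[ℚ] L) := hg
    rw [show P = placeIdeal A L from rfl, ← map_inertia_eq hq hA] at hg'
    obtain ⟨σ, hσ, rfl⟩ := hg'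
    exact Subtype.ext ((AlgEquiv.restrictNormal_commutes σ L x).trans (hfix σ hσ))
  · have : IsGaloisGroup H (𝓞 K) (𝓞 L) := IsGaloisGroup.of_isFractionRing H (𝓞 K) (𝓞 L) K L
    let pK : Ideal (𝓞 K) := P.under (𝓞 K)
    have : pK.IsMaximal := Ideal.IsMaximal.under (𝓞 K) P
    have : P.LiesOver pK := ⟨rfl⟩
    have : pK.LiesOver p := Ideal.LiesOver.tower_bot P pK p
    have hqpK : (q : 𝓞 K) ∈ pK := by
      have := natCast_mem_placeIdeal (L := L) hA
      simpa [pK, Ideal.mem_comap] using this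
    have : Finite (𝓞 K ⧸ pK) := Ideal.finiteQuotientOfFreeOfNeBot pK fun h => hq.ne_zero (by
      rw [h, Ideal.mem_bot] at hqpK
      exact_mod_cast hqpK)
    have : Finite pK.ResidueField :=
      Finite.of_surjective _ (Ideal.bijective_algebraMap_quotient_residueField pK).2
    have htop : P.inertia H = ⊤ := eq_top_iff.mpr fun g _ y => g.2 y
    have h1 : P.ramificationIdx (𝓞 K) = P.ramificationIdx ℤ := by
      rw [← Ideal.ramificationIdxIn_eq_ramificationIdx pK P H,
        ← Ideal.card_inertia_eq_ramificationIdxIn (G := H) pK P, htop,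
        ← Ideal.ramificationIdxIn_eq_ramificationIdx p P (L ≃ₐ[ℚ] L),
        ← Ideal.card_inertia_eq_ramificationIdxIn (G := L ≃ₐ[ℚ] L) p P,
        Nat.card_congr Subgroup.topEquiv.toEquiv]
    have h2 := Ideal.ramificationIdx_tower (R := ℤ) pK P
    rw [h1] at h2
    exact (right_eq_mul₀ (Ideal.ramificationIdx_pos P ℤ).ne').mp h2

/-- An element fixed by the inertia group of `A` has valuation in the group generated by `v q`. -/
theorem exists_zpow_of_inertia_fixed {q : ℕ} (hq : q.Prime) {A : ValuationSubring Qbar}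
    (hA : A.LiesOverPrime q) {x : Qbar} (hx0 : x ≠ 0)
    (hfix : ∀ σ ∈ A.inertiaSubgroupIn ℚ, σ x = x) :
    ∃ j : ℤ, A.valuation x = A.valuation (q : Qbar) ^ j := by
  obtain ⟨m, hm0, hmint⟩ : ∃ m : ℤ, m ≠ 0 ∧ IsIntegral ℤ (m • x) := by
    have : Algebra.IsAlgebraic ℚ Qbar := AlgebraicClosure.isAlgebraic ℚ
    have : Algebra.IsAlgebraic ℤ Qbar := (IsFractionRing.comap_isAlgebraic_iff (A := ℤ)).mpr this
    obtain ⟨m, hm0, hm⟩ := (Algebra.IsAlgebraic.isAlgebraic (R := ℤ) x).exists_integral_multiple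
    exact ⟨m, hm0, hm⟩
  set z : Qbar := m • x with hz
  have hz0 : z ≠ 0 := smul_ne_zero hm0 hx0
  have hzfix : ∀ σ ∈ A.inertiaSubgroupIn ℚ, σ z = z := fun σ hσ => by
    rw [hz, map_zsmul, hfix σ hσ]
  have : Algebra.IsAlgebraic ℚ Qbar := AlgebraicClosure.isAlgebraic ℚ
  let L₀ : IntermediateField ℚ Qbar := IntermediateField.adjoin ℚ {z}
  have : FiniteDimensional ℚ L₀ := IntermediateField.adjoin.finiteDimensional
    (Algebra.IsIntegral.isIntegral z)
  let L : IntermediateField ℚ Qbar := IntermediateField.normalClosure ℚ L₀ Qbar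
  have : FiniteDimensional ℚ L := normalClosure.is_finiteDimensional ℚ L₀ Qbar
  have : Normal ℚ L := normalClosure.normal ℚ L₀ Qbar
  have : NumberField L := { to_finiteDimensional := inferInstance }
  have hzL : z ∈ L := IntermediateField.le_normalClosure L₀
    (IntermediateField.subset_adjoin ℚ {z} rfl)
  obtain ⟨K, hzK, hK⟩ := exists_subfield_unramified hq hA L ⟨z, hzL⟩ hzfix
  have : NumberField K := NumberField.of_intermediateField K
  let pK : Ideal (𝓞 K) := (placeIdeal A L).under (𝓞 K)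
  have hPmax : (placeIdeal A L).IsMaximal := placeIdeal_isMaximal hq hA
  have : pK.IsMaximal := Ideal.IsMaximal.under (𝓞 K) (placeIdeal A L)
  let ι : 𝓞 K → Qbar := fun y => (((y : K) : L) : Qbar)
  have hιint : ∀ y, IsIntegral ℤ (ι y) := fun y => by
    have h := NumberField.RingOfIntegers.isIntegral_coe y
    exact (h.map K.val.toIntAlgHom).map L.val.toIntAlgHom
  have hpK : ∀ y : 𝓞 K, y ∈ pK ↔ ι y ∈ A.nonunits := fun y => Iff.rfl
  have hle : ∀ y, A.valuation (ι y) ≤ 1 := fun y =>
    valuation_le_one_of_mem (mem_of_isIntegral (hιint y))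
  have hunit : ∀ y, y ∉ pK → A.valuation (ι y) = 1 := fun y hy =>
    le_antisymm (hle y) (not_lt.mp fun h => hy ((hpK y).mpr h))
  have hqpK : (q : 𝓞 K) ∈ pK := (hpK _).mpr (by
    show ((((q : 𝓞 K) : K) : L) : Qbar) ∈ A.nonunits
    simpa [ValuationSubring.LiesOverPrime] using hA)
  have hspan : Ideal.map (algebraMap ℤ (𝓞 K)) (Ideal.span {(q : ℤ)}) = Ideal.span {(q : 𝓞 K)} := by
    rw [Ideal.map_span, Set.image_singleton, map_natCast]
  have hspan0 : Ideal.span {(q : 𝓞 K)} ≠ ⊥ := by
    rw [Ne, Ideal.span_singleton_eq_bot]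
    exact_mod_cast hq.ne_zero
  have : pK.LiesOver (Ideal.span {(q : ℤ)}) := by
    have : (placeIdeal A L).LiesOver (Ideal.span {(q : ℤ)}) := placeIdeal_liesOver hq hA
    have : (placeIdeal A L).LiesOver pK := ⟨rfl⟩
    exact Ideal.LiesOver.tower_bot (placeIdeal A L) pK _
  obtain ⟨I, hI⟩ : pK ∣ Ideal.span {(q : 𝓞 K)} :=
    Ideal.dvd_iff_le.mpr ((Ideal.span_singleton_le_iff_mem _).mpr hqpK)
  obtain ⟨s, hsI, hs⟩ : ∃ s ∈ I, s ∉ pK := by
    by_contra! hc
    have h2 : pK ^ 2 ∣ Ideal.span {(q : 𝓞 K)} := by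
      rw [hI, sq]
      exact mul_dvd_mul_left _ (Ideal.dvd_iff_le.mpr hc)
    have hmult := Ideal.IsDedekindDomain.ramificationIdx_eq_multiplicity (Ideal.span {(q : ℤ)}) pK
      (by rw [hspan]; exact hspan0)
    rw [show pK.ramificationIdx ℤ = 1 from hK, hspan] at hmult
    have hfin : FiniteMultiplicity pK (Ideal.span {(q : 𝓞 K)}) :=
      FiniteMultiplicity.of_not_isUnit (fun hu => Ideal.IsPrime.ne_top' (Ideal.isUnit_iff.mp hu))
        hspan0
    have := hfin.le_multiplicity_of_pow_dvd h2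
    omega
  have hvq : A.valuation (q : Qbar) < 1 := (show A.valuation (q : Qbar) < 1 from hA)
  have hvq0 : A.valuation (q : Qbar) ≠ 0 :=
    A.valuation.ne_zero_iff.mpr (Nat.cast_ne_zero.mpr hq.ne_zero)
  have key : ∀ (n : ℕ) (y : 𝓞 K), A.valuation (q : Qbar) ^ n < A.valuation (ι y) →
      ∃ j : ℕ, A.valuation (ι y) = A.valuation (q : Qbar) ^ j := by
    intro n
    induction n with
    | zero => intro y hy; rw [pow_zero] at hy; exact absurd (hle y) (not_le.mpr hy)
    | succ n ih =>
      intro y hy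
      by_cases hy' : y ∈ pK
      · have hmem : y * s ∈ Ideal.span {(q : 𝓞 K)} := hI ▸ Ideal.mul_mem_mul hy' hsI
        obtain ⟨w, hw⟩ := Ideal.mem_span_singleton.mp hmem
        have he : A.valuation (ι y) = A.valuation (q : Qbar) * A.valuation (ι w) := by
          let f : 𝓞 K →+* Qbar :=
            (L.val : L →+* Qbar).comp ((K.val : K →+* L).comp (algebraMap (𝓞 K) K))
          have := congrArg (fun t => A.valuation (f t)) hw
          simp only [map_mul, map_natCast] at this
          rw [show A.valuation (f s) = 1 from hunit s hs, mul_one] at this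
          exact this
        rw [he, pow_succ'] at hy
        obtain ⟨j, hj⟩ := ih w (lt_of_mul_lt_mul_left' hy)
        exact ⟨j + 1, by rw [he, hj, pow_succ']⟩
      · exact ⟨0, by rw [pow_zero]; exact hunit y hy'⟩
  let zK : 𝓞 K := ⟨⟨⟨z, hzL⟩, hzK⟩, (isIntegral_algHom_iff K.val.toRingHom.toIntAlgHom
    K.val.injective).mp ((isIntegral_algHom_iff L.val.toRingHom.toIntAlgHom L.val.injective).mp
      hmint)⟩
  obtain ⟨d, i, hd, hdi⟩ : ∃ (d : ℕ) (i : ℤ), 0 < d ∧
      A.valuation z ^ d = A.valuation (q : Qbar) ^ i := by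
    have : @Algebra.IsAlgebraic ℚ Qbar _ _ DivisionRing.toRatAlgebra :=
      AlgebraicClosure.isAlgebraic ℚ
    exact FreyAux.exists_zpow_eq A hq hA hz0
  have hbound : A.valuation (q : Qbar) ^ (i.natAbs + 1) < A.valuation z := by
    by_contra hc
    rw [not_lt] at hc
    have h1 : A.valuation z ^ d ≤ A.valuation (q : Qbar) ^ (i.natAbs + 1) :=
      (pow_le_of_le_one zero_le (valuation_le_one_of_mem (mem_of_isIntegral hmint))
        hd.ne').trans hc
    rw [hdi, ← zpow_natCast (A.valuation (q : Qbar))] at h1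
    have := (zpow_right_strictAnti₀ (zero_lt_iff.mpr hvq0) hvq).le_iff_ge.mp h1
    omega
  obtain ⟨j, hj⟩ := key _ zK hbound
  refine ⟨(j : ℤ) - padicValInt q m, ?_⟩
  have hj' : A.valuation z = A.valuation (q : Qbar) ^ j := hj
  rw [hz, zsmul_eq_mul, map_mul, FreyAux.valuation_intCast A hq hA hm0] at hj'
  rw [zpow_sub₀ hvq0, zpow_natCast, zpow_natCast, eq_div_iff (pow_ne_zero _ hvq0), mul_comm, hj']

end FLTA.Carayol
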