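import Mathlib.LinearAlgebra.Determinant
import Mathlib.RingTheory.Norm.Basic
import Mathlib.RingTheory.AdjoinRoot
import Mathlib.RingTheory.Coprime.Basic
import Mathlib.LinearAlgebra.Dimension.Constructions

/-!
# Chinese remainder theorem for `AdjoinRoot`, with norms
-/

set_option autoImplicit false

open Polynomial

namespace FLTA.Carayol

/-- The norm of a product algebra. -/
theorem norm_prod {R S T : Type*} [CommRing R] [CommRing S] [CommRing T] [Algebra R S]
    [Algebra R T] [Module.Free R S] [Module.Finite R S] [Module.Free R T] [Module.Finite R T]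
    (x : S × T) : Algebra.norm R x = Algebra.norm R x.1 * Algebra.norm R x.2 := by
  rw [Algebra.norm_apply, Algebra.norm_apply, Algebra.norm_apply, ← LinearMap.det_prodMap]
  congr 1

variable {K : Type*} [Field K] {f g : K[X]}

/-- The two projections of `K[X]/(fg)`. -/
noncomputable def crtHom (f g : K[X]) :
    AdjoinRoot (f * g) →ₐ[K] AdjoinRoot f × AdjoinRoot g :=
  AlgHom.prod (AdjoinRoot.algHomOfDvd K (f * g) f (dvd_mul_right f g))
    (AdjoinRoot.algHomOfDvd K (f * g) g (dvd_mul_left g f))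

theorem crtHom_mk (p : K[X]) :
    crtHom f g (AdjoinRoot.mk _ p) = (AdjoinRoot.mk f p, AdjoinRoot.mk g p) := by
  refine Prod.ext ?_ ?_
  · show AdjoinRoot.algHomOfDvd K (f * g) f _ (AdjoinRoot.mk _ p) = _
    rw [← AdjoinRoot.aeval_eq, ← Polynomial.aeval_algHom_apply, AdjoinRoot.algHomOfDvd_root,
      AdjoinRoot.aeval_eq]
  · show AdjoinRoot.algHomOfDvd K (f * g) g _ (AdjoinRoot.mk _ p) = _
    rw [← AdjoinRoot.aeval_eq, ← Polynomial.aeval_algHom_apply, AdjoinRoot.algHomOfDvd_root,
      AdjoinRoot.aeval_eq]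

theorem crtHom_injective (h : IsCoprime f g) : Function.Injective (crtHom f g) := by
  rw [injective_iff_map_eq_zero]
  intro x hx
  obtain ⟨p, rfl⟩ := AdjoinRoot.mk_surjective x
  rw [crtHom_mk, Prod.mk_eq_zero, AdjoinRoot.mk_eq_zero, AdjoinRoot.mk_eq_zero] at hx
  exact AdjoinRoot.mk_eq_zero.2 (h.mul_dvd hx.1 hx.2)

theorem crtHom_bijective (hf : f.Monic) (hg : g.Monic) (h : IsCoprime f g) :
    Function.Bijective (crtHom f g) := by
  have := hf.free_adjoinRoot
  have := hg.free_adjoinRoot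
  have := hf.finite_adjoinRoot
  have := hg.finite_adjoinRoot
  have := (hf.mul hg).finite_adjoinRoot
  refine ⟨crtHom_injective h, ?_⟩
  refine (LinearMap.injective_iff_surjective_of_finrank_eq_finrank
    (f := (crtHom f g).toLinearMap) ?_).1 (crtHom_injective h)
  rw [Module.finrank_prod, (AdjoinRoot.powerBasis' (hf.mul hg)).finrank,
    (AdjoinRoot.powerBasis' hf).finrank, (AdjoinRoot.powerBasis' hg).finrank,
    AdjoinRoot.powerBasis'_dim, AdjoinRoot.powerBasis'_dim, AdjoinRoot.powerBasis'_dim,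
    hf.natDegree_mul hg]

theorem norm_crt (hf : f.Monic) (hg : g.Monic) (h : IsCoprime f g) (x : AdjoinRoot (f * g)) :
    Algebra.norm K x =
      Algebra.norm K (AdjoinRoot.algHomOfDvd K (f * g) f (dvd_mul_right f g) x) *
        Algebra.norm K (AdjoinRoot.algHomOfDvd K (f * g) g (dvd_mul_left g f) x) := by
  have := hf.free_adjoinRoot
  have := hg.free_adjoinRoot
  have := hf.finite_adjoinRoot
  have := hg.finite_adjoinRoot
  rw [← Algebra.norm_eq_of_algEquiv (AlgEquiv.ofBijective _ (crtHom_bijective hf hg h)) x,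
    norm_prod]
  rfl

/-- The degree-one factor. -/
theorem norm_adjoinRoot_X_sub_C (a : K) (x : AdjoinRoot (X - C a)) :
    Algebra.norm K x = AdjoinRoot.lift (RingHom.id K) a (by simp) x := by
  obtain ⟨p, rfl⟩ := AdjoinRoot.mk_surjective x
  rw [AdjoinRoot.lift_mk]
  have hp : AdjoinRoot.mk (X - C a) p =
      algebraMap K (AdjoinRoot (X - C a)) (p.eval₂ (RingHom.id K) a) := by
    rw [AdjoinRoot.algebraMap_eq, ← AdjoinRoot.mk_C, AdjoinRoot.mk_eq_mk, eval₂_id]
    exact X_sub_C_dvd_sub_C_eval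
  rw [hp, Algebra.norm_algebraMap,
    (AdjoinRoot.powerBasis' (monic_X_sub_C a)).finrank, AdjoinRoot.powerBasis'_dim,
    natDegree_X_sub_C, pow_one]

end FLTA.Carayol
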