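import Fermat.Agent.Carayol.Pairs
import Fermat.Agent.Carayol.CRT
import Mathlib.RingTheory.Polynomial.UniqueFactorization
import Mathlib.LinearAlgebra.FiniteDimensional.Lemmas

/-!
# The three branches of the algebra of pairs

Let `Φ` be monic with a root `x₀`, `φ = Φ/(X - x₀)` (root `x₁`) and `G = (φ/(X - x₁))`
(root `x₂`). The branches of ordered pairs of roots are `(x₀, x₁)`, `(x₁, x₀)` and `(x₁, x₂)`.
-/

set_option autoImplicit false

open Polynomial

namespace FLTA.Carayol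

variable {R S : Type*} [CommRing R] [CommRing S]

theorem map_map_algebraMap {T : Type*} [CommRing T] (Φ : R[X]) (f : R →+* S) (g : S →+* T) :
    (Φ.map f).map g = Φ.map (g.comp f) := Polynomial.map_map f g Φ

/-- Divided difference at a root of the quotient by another root. -/
theorem divDiff_eq_mul_divDiff {Φ : R[X]} {a b : R} (ha : Φ.eval a = 0)
    (hb : (divDiff Φ a).eval b = 0) :
    divDiff Φ b = (X - C a) * divDiff (divDiff Φ a) b := by
  have hb' : Φ.eval b = 0 := by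
    have := sub_mul_divDiff_eval Φ a b
    rw [hb, mul_zero, ha, sub_zero] at this
    exact this.symm
  refine (eq_divDiff_of_mul_eq ?_).symm
  have h1 := sub_mul_divDiff (divDiff Φ a) b
  have h2 := sub_mul_divDiff Φ a
  rw [hb, map_zero, sub_zero] at h1
  rw [ha, map_zero, sub_zero] at h2
  rw [hb', map_zero, sub_zero, mul_left_comm, h1, h2]

/-- A chosen root of `Φ`. -/
structure RootSplit (Φ : R[X]) where
  /-- the root -/
  x₀ : R
  eval_x₀ : Φ.eval x₀ = 0

namespace RootSplit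

variable {Φ : R[X]} (s : RootSplit Φ)

/-- The complementary factor. -/
noncomputable def quo : R[X] := divDiff Φ s.x₀

theorem sub_mul_quo : (X - C s.x₀) * s.quo = Φ := by
  rw [quo, sub_mul_divDiff, s.eval_x₀, map_zero, sub_zero]

/-- The algebra of `x₁`. -/
abbrev E : Type _ := AdjoinRoot s.quo

/-- The polynomial of `x₂` over the algebra of `x₁`. -/
noncomputable def G : s.E[X] := divDiff (s.quo.map (AdjoinRoot.of s.quo)) (AdjoinRoot.root s.quo)

/-- The algebra of `(x₁, x₂)`. -/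
abbrev E' : Type _ := AdjoinRoot s.G

theorem eval₂_x₀ : Φ.eval₂ (AdjoinRoot.of s.quo) (AdjoinRoot.of s.quo s.x₀) = 0 := by
  rw [eval₂_at_apply, s.eval_x₀, map_zero]

theorem eval₂_root : Φ.eval₂ (AdjoinRoot.of s.quo) (AdjoinRoot.root s.quo) = 0 := by
  refine (congrArg (eval₂ (AdjoinRoot.of s.quo) (AdjoinRoot.root s.quo))
    s.sub_mul_quo).symm.trans ?_
  rw [eval₂_mul, AdjoinRoot.eval₂_root, mul_zero]

theorem divDiff_x₀_root :
    (divDiff (Φ.map (AdjoinRoot.of s.quo)) (AdjoinRoot.of s.quo s.x₀)).eval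
      (AdjoinRoot.root s.quo) = 0 := by
  rw [← map_divDiff, eval_map]
  exact AdjoinRoot.eval₂_root _

/-- The branch `(x₀, x₁)`. -/
noncomputable def br₀ : Pairs Φ →+* s.E :=
  Pairs.lift (AdjoinRoot.of s.quo) (AdjoinRoot.of s.quo s.x₀) (AdjoinRoot.root s.quo)
    s.eval₂_x₀ s.divDiff_x₀_root

/-- The branch `(x₁, x₀)`. -/
noncomputable def br₁ : Pairs Φ →+* s.E :=
  Pairs.lift (AdjoinRoot.of s.quo) (AdjoinRoot.root s.quo) (AdjoinRoot.of s.quo s.x₀)
    s.eval₂_root (by rw [divDiff_eval_comm, s.divDiff_x₀_root])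

theorem divDiff_root_root :
    (divDiff (Φ.map ((AdjoinRoot.of s.G).comp (AdjoinRoot.of s.quo)))
      (AdjoinRoot.of s.G (AdjoinRoot.root s.quo))).eval (AdjoinRoot.root s.G) = 0 := by
  set j := (AdjoinRoot.of s.G).comp (AdjoinRoot.of s.quo) with hj
  have hq : divDiff (Φ.map j) (j s.x₀) = s.quo.map j := (map_divDiff j Φ s.x₀).symm
  have ha : (Φ.map j).eval (j s.x₀) = 0 := by
    rw [eval_map, eval₂_at_apply, s.eval_x₀, map_zero]
  have hb : (divDiff (Φ.map j) (j s.x₀)).eval (AdjoinRoot.of s.G (AdjoinRoot.root s.quo)) = 0 := by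
    rw [hq, eval_map, hj, ← hom_eval₂, AdjoinRoot.eval₂_root, map_zero]
  rw [divDiff_eq_mul_divDiff ha hb, eval_mul, hq, hj, ← Polynomial.map_map, ← map_divDiff,
    eval_map]
  have : (divDiff (s.quo.map (AdjoinRoot.of s.quo)) (AdjoinRoot.root s.quo)).eval₂
      (AdjoinRoot.of s.G) (AdjoinRoot.root s.G) = 0 := AdjoinRoot.eval₂_root s.G
  rw [this, mul_zero]

/-- The branch `(x₁, x₂)`. -/
noncomputable def brₘ : Pairs Φ →+* s.E' :=
  Pairs.lift ((AdjoinRoot.of s.G).comp (AdjoinRoot.of s.quo))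
    (AdjoinRoot.of s.G (AdjoinRoot.root s.quo)) (AdjoinRoot.root s.G)
    (by rw [← hom_eval₂, s.eval₂_root, map_zero]) s.divDiff_root_root

theorem monic_quo (hΦ : Φ.Monic) (hd : 0 < Φ.natDegree) : s.quo.Monic := monic_divDiff hΦ hd _

theorem natDegree_quo [Nontrivial R] (hΦ : Φ.Monic) (hd : 0 < Φ.natDegree) :
    s.quo.natDegree = Φ.natDegree - 1 := natDegree_divDiff hΦ hd _

theorem monic_G (hΦ : Φ.Monic) (hd : 1 < Φ.natDegree) : s.G.Monic := by
  nontriviality s.E
  have := (AdjoinRoot.of s.quo).domain_nontrivial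
  refine monic_divDiff ((s.monic_quo hΦ (by omega)).map _) ?_ _
  rw [(s.monic_quo hΦ (by omega)).natDegree_map, s.natDegree_quo hΦ (by omega)]
  omega

theorem natDegree_G [Nontrivial s.E] (hΦ : Φ.Monic) (hd : 1 < Φ.natDegree) :
    s.G.natDegree = Φ.natDegree - 2 := by
  have := (AdjoinRoot.of s.quo).domain_nontrivial
  rw [G, natDegree_divDiff ((s.monic_quo hΦ (by omega)).map _) (by
    rw [(s.monic_quo hΦ (by omega)).natDegree_map, s.natDegree_quo hΦ (by omega)]; omega),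
    (s.monic_quo hΦ (by omega)).natDegree_map, s.natDegree_quo hΦ (by omega)]
  omega

/-- The root of a base change. -/
def map (f : R →+* S) : RootSplit (Φ.map f) where
  x₀ := f s.x₀
  eval_x₀ := by rw [eval_map, eval₂_at_apply, s.eval_x₀, map_zero]

@[simp] theorem map_x₀ (f : R →+* S) : (s.map f).x₀ = f s.x₀ := rfl

theorem quo_map (f : R →+* S) : (s.map f).quo = s.quo.map f := (map_divDiff f Φ s.x₀).symm

/-- Base change of the algebra of `x₁`. -/
noncomputable def mapE (f : R →+* S) : s.E →+* (s.map f).E :=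
  AdjoinRoot.map f s.quo (s.map f).quo (s.quo_map f).dvd

theorem mapE_comp_of (f : R →+* S) :
    (s.mapE f).comp (AdjoinRoot.of s.quo) = (AdjoinRoot.of (s.map f).quo).comp f :=
  RingHom.ext fun a => AdjoinRoot.map_of f _ _ (s.quo_map f).dvd a

theorem G_map (f : R →+* S) : s.G.map (s.mapE f) = (s.map f).G := by
  rw [G, map_divDiff, Polynomial.map_map, mapE_comp_of, ← Polynomial.map_map, ← s.quo_map,
    mapE, AdjoinRoot.map_root]
  rfl

/-- Base change of the algebra of `(x₁, x₂)`. -/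
noncomputable def mapE' (f : R →+* S) : s.E' →+* (s.map f).E' :=
  AdjoinRoot.map (s.mapE f) s.G (s.map f).G (s.G_map f).symm.dvd

theorem mapE_br₀ (f : R →+* S) (y : Pairs Φ) :
    s.mapE f (s.br₀ y) = (s.map f).br₀ (Pairs.map f rfl y) := by
  have : (s.mapE f).comp s.br₀ = (s.map f).br₀.comp (Pairs.map f rfl) := by
    refine Pairs.ringHom_ext (RingHom.ext fun a => ?_) ?_ ?_ <;>
      simp [br₀, mapE]
  exact RingHom.congr_fun this y

theorem mapE_br₁ (f : R →+* S) (y : Pairs Φ) :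
    s.mapE f (s.br₁ y) = (s.map f).br₁ (Pairs.map f rfl y) := by
  have : (s.mapE f).comp s.br₁ = (s.map f).br₁.comp (Pairs.map f rfl) := by
    refine Pairs.ringHom_ext (RingHom.ext fun a => ?_) ?_ ?_ <;>
      simp [br₁, mapE]
  exact RingHom.congr_fun this y

theorem mapE'_brₘ (f : R →+* S) (y : Pairs Φ) :
    s.mapE' f (s.brₘ y) = (s.map f).brₘ (Pairs.map f rfl y) := by
  have : (s.mapE' f).comp s.brₘ = (s.map f).brₘ.comp (Pairs.map f rfl) := by
    refine Pairs.ringHom_ext (RingHom.ext fun a => ?_) ?_ ?_ <;>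
      simp [brₘ, mapE', mapE]
  exact RingHom.congr_fun this y

/-- The two projections of the algebra of one root: to `x₀`. -/
noncomputable def proj₀ : AdjoinRoot Φ →+* R :=
  AdjoinRoot.lift (RingHom.id R) s.x₀ (by rw [eval₂_id, s.eval_x₀])

/-- The two projections of the algebra of one root: to `x₁`. -/
noncomputable def proj₁ : AdjoinRoot Φ →+* s.E :=
  AdjoinRoot.lift (AdjoinRoot.of s.quo) (AdjoinRoot.root s.quo) s.eval₂_root

theorem sndPoly_map_proj₀ : (sndPoly Φ).map s.proj₀ = s.quo := by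
  have e : s.proj₀.comp (AdjoinRoot.of Φ) = RingHom.id R := by
    rw [proj₀, AdjoinRoot.lift_comp_of]
  rw [sndPoly, map_divDiff, Polynomial.map_map, e, Polynomial.map_id, proj₀,
    AdjoinRoot.lift_root, quo]

/-- The norm to the first root, at `x₀`. -/
theorem proj₀_normFst (hΦ : Φ.Monic) (hd : 0 < Φ.natDegree) (y : Pairs Φ) :
    s.proj₀ (Pairs.normFst Φ y) = Algebra.norm R (s.br₀ y) := by
  have hbr : s.br₀ = AdjoinRoot.map s.proj₀ (sndPoly Φ) s.quo s.sndPoly_map_proj₀.symm.dvd := by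
    refine Pairs.ringHom_ext (RingHom.ext fun a => ?_) ?_ ?_ <;>
      simp [br₀, Pairs.lift, Pairs.ofBase, Pairs.fst, Pairs.snd, proj₀]
  rw [hbr]
  exact (norm_adjoinRoot_map (Pairs.monic_sndPoly hΦ hd) _ s.sndPoly_map_proj₀ y).symm

theorem sndPoly_map_proj₁ :
    (sndPoly Φ).map s.proj₁ = (X - C (AdjoinRoot.of s.quo s.x₀)) * s.G := by
  have e : s.proj₁.comp (AdjoinRoot.of Φ) = AdjoinRoot.of s.quo := by
    rw [proj₁, AdjoinRoot.lift_comp_of]
  rw [sndPoly, map_divDiff, Polynomial.map_map, e, proj₁, AdjoinRoot.lift_root,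
    divDiff_eq_mul_divDiff (a := AdjoinRoot.of s.quo s.x₀)
      (by rw [eval_map, s.eval₂_x₀]) s.divDiff_x₀_root, ← map_divDiff]
  rfl

section Field

variable {L : Type*} [Field L] {Ψ : L[X]} (t : RootSplit Ψ)

/-- The branches separate the points. -/
theorem br_injective (hΦ : Ψ.Monic) (hd : 1 < Ψ.natDegree) [hq : Fact (Irreducible t.quo)]
    (h0 : t.quo.eval t.x₀ ≠ 0) {y : Pairs Ψ} (h₀ : t.br₀ y = 0)
    (h₁ : t.br₁ y = 0) (hₘ : t.brₘ y = 0) : y = 0 := by
  have hs := Pairs.monic_sndPoly hΦ (by omega)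
  obtain ⟨p, rfl⟩ := AdjoinRoot.mk_surjective y
  have hinj : ∀ a : AdjoinRoot Ψ, t.proj₀ a = 0 → t.proj₁ a = 0 → a = 0 := by
    intro a ha₀ ha₁
    obtain ⟨g, rfl⟩ := AdjoinRoot.mk_surjective a
    rw [proj₀, AdjoinRoot.lift_mk, eval₂_id] at ha₀
    rw [proj₁, AdjoinRoot.lift_mk, ← AdjoinRoot.algebraMap_eq, ← aeval_def, AdjoinRoot.aeval_eq,
      AdjoinRoot.mk_eq_zero] at ha₁
    rw [AdjoinRoot.mk_eq_zero, ← t.sub_mul_quo]
    refine IsCoprime.mul_dvd ?_ (dvd_iff_isRoot.2 ha₀) ha₁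
    exact (irreducible_X_sub_C _).coprime_iff_not_dvd.2 fun h => h0 (dvd_iff_isRoot.1 h)
  set r := p %ₘ sndPoly Ψ with hr
  have hpr : AdjoinRoot.mk (sndPoly Ψ) p = AdjoinRoot.mk (sndPoly Ψ) r := by
    rw [AdjoinRoot.mk_eq_mk, hr, modByMonic_eq_sub_mul_div, sub_sub_cancel]
    exact dvd_mul_right _ _
  rw [hpr] at h₀ h₁ hₘ ⊢
  suffices r = 0 by rw [this, map_zero]
  have hne : Ψ.natDegree ≠ 0 := by omega
  have : Nontrivial (AdjoinRoot Ψ) := AdjoinRoot.nontrivial Ψ
    (fun h => hne (natDegree_eq_zero_iff_degree_le_zero.2 h.le))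
  have hrdeg : r.natDegree < Ψ.natDegree - 1 := by
    rw [← Pairs.natDegree_sndPoly hΦ (by omega), hr]
    refine natDegree_modByMonic_lt _ hs fun h1 => ?_
    have := congrArg natDegree h1
    rw [natDegree_one, Pairs.natDegree_sndPoly hΦ (by omega)] at this
    omega
  have e0 : (r.map t.proj₀) = 0 := by
    refine eq_zero_of_dvd_of_natDegree_lt (p := t.quo) ?_ ?_
    · rw [← AdjoinRoot.mk_eq_zero, ← AdjoinRoot.aeval_eq, aeval_def, eval₂_map]
      have hc : (algebraMap L t.E).comp t.proj₀ = t.br₀.comp (AdjoinRoot.of (sndPoly Ψ)) := by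
        refine AdjoinRoot.ringHom_ext (RingHom.ext fun a => ?_) ?_ <;>
          simp [br₀, Pairs.lift, proj₀]
      have hrt : AdjoinRoot.root t.quo = t.br₀ (AdjoinRoot.root (sndPoly Ψ)) := by
        simp [br₀, Pairs.lift]
      rw [hc, hrt, ← hom_eval₂, ← AdjoinRoot.algebraMap_eq, ← aeval_def, AdjoinRoot.aeval_eq]
      exact h₀
    · rw [t.natDegree_quo hΦ (by omega)]
      exact natDegree_map_le.trans_lt hrdeg
  have e1 : r.map t.proj₁ = 0 := by
    refine eq_zero_of_dvd_of_natDegree_lt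
      (p := (X - C (AdjoinRoot.of t.quo t.x₀)) * t.G) (IsCoprime.mul_dvd ?_ ?_ ?_) ?_
    · refine (irreducible_X_sub_C _).coprime_iff_not_dvd.2 fun h => ?_
      have hG0 : t.G.eval (AdjoinRoot.of t.quo t.x₀) = 0 := dvd_iff_isRoot.1 h
      have := sub_mul_divDiff_eval (t.quo.map (AdjoinRoot.of t.quo)) (AdjoinRoot.root t.quo)
        (AdjoinRoot.of t.quo t.x₀)
      rw [← G, hG0, mul_zero, eval_map, eval_map, AdjoinRoot.eval₂_root, sub_zero,
        eval₂_at_apply, eq_comm, map_eq_zero_iff _ (AdjoinRoot.of t.quo).injective] at this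
      exact h0 this
    · rw [dvd_iff_isRoot, IsRoot, eval_map]
      have hc : t.proj₁ = t.br₁.comp (AdjoinRoot.of (sndPoly Ψ)) := by
        refine AdjoinRoot.ringHom_ext (RingHom.ext fun a => ?_) ?_ <;>
          simp [br₁, Pairs.lift, proj₁]
      have hrt : AdjoinRoot.of t.quo t.x₀ = t.br₁ (AdjoinRoot.root (sndPoly Ψ)) := by
        simp [br₁, Pairs.lift]
      rw [hc, hrt, ← hom_eval₂, ← AdjoinRoot.algebraMap_eq, ← aeval_def, AdjoinRoot.aeval_eq]
      exact h₁
    · rw [← AdjoinRoot.mk_eq_zero, ← AdjoinRoot.aeval_eq, aeval_def, eval₂_map]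
      have hc : (algebraMap t.E t.E').comp t.proj₁ = t.brₘ.comp (AdjoinRoot.of (sndPoly Ψ)) := by
        refine AdjoinRoot.ringHom_ext (RingHom.ext fun a => ?_) ?_ <;>
          simp [brₘ, Pairs.lift, proj₁]
      have hrt : AdjoinRoot.root t.G = t.brₘ (AdjoinRoot.root (sndPoly Ψ)) := by
        simp [brₘ, Pairs.lift]
      rw [hc, hrt, ← hom_eval₂, ← AdjoinRoot.algebraMap_eq, ← aeval_def, AdjoinRoot.aeval_eq]
      exact hₘ
    · rw [(monic_X_sub_C _).natDegree_mul (t.monic_G hΦ hd), natDegree_X_sub_C,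
        t.natDegree_G hΦ hd]
      exact natDegree_map_le.trans_lt (by omega)
  ext i
  rw [coeff_zero]
  refine hinj _ ?_ ?_
  · rw [← coeff_map, e0, coeff_zero]
  · rw [← coeff_map, e1, coeff_zero]

/-- The norm to the first root, at `x₁`. -/
theorem proj₁_normFst (hΦ : Ψ.Monic) (hd : 1 < Ψ.natDegree) [Fact (Irreducible t.quo)]
    (h0 : t.quo.eval t.x₀ ≠ 0) (y : Pairs Ψ) :
    t.proj₁ (Pairs.normFst Ψ y) = t.br₁ y * Algebra.norm t.E (t.brₘ y) := by
  set a := AdjoinRoot.of t.quo t.x₀ with ha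
  have hcop : IsCoprime (X - C a) t.G := by
    refine (irreducible_X_sub_C _).coprime_iff_not_dvd.2 fun h => ?_
    have hG0 : t.G.eval a = 0 := dvd_iff_isRoot.1 h
    have := sub_mul_divDiff_eval (t.quo.map (AdjoinRoot.of t.quo)) (AdjoinRoot.root t.quo) a
    rw [← G, hG0, mul_zero, eval_map, eval_map, AdjoinRoot.eval₂_root, sub_zero, ha,
      eval₂_at_apply, eq_comm, map_eq_zero_iff _ (AdjoinRoot.of t.quo).injective] at this
    exact h0 this
  set Y := AdjoinRoot.map t.proj₁ (sndPoly Ψ) ((X - C a) * t.G) t.sndPoly_map_proj₁.symm.dvd y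
    with hY
  have key : Algebra.norm t.E Y = t.proj₁ (Pairs.normFst Ψ y) :=
    norm_adjoinRoot_map (Pairs.monic_sndPoly hΦ (by omega)) _ t.sndPoly_map_proj₁ y
  rw [← key, norm_crt (monic_X_sub_C a) (t.monic_G hΦ hd) hcop, norm_adjoinRoot_X_sub_C]
  have e₁ : ((AdjoinRoot.lift (RingHom.id t.E) a (by simp)).comp
      ((AdjoinRoot.algHomOfDvd t.E ((X - C a) * t.G) (X - C a) (dvd_mul_right _ _)).toRingHom.comp
        (AdjoinRoot.map t.proj₁ (sndPoly Ψ) ((X - C a) * t.G) t.sndPoly_map_proj₁.symm.dvd)))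
      = t.br₁ := by
    refine Pairs.ringHom_ext (RingHom.ext fun r => ?_) ?_ ?_ <;>
      simp [br₁, Pairs.lift, Pairs.ofBase, Pairs.fst, Pairs.snd, proj₁, ha,
        AdjoinRoot.algHomOfDvd]
  have e₂ : ((AdjoinRoot.algHomOfDvd t.E ((X - C a) * t.G) t.G (dvd_mul_left _ _)).toRingHom.comp
        (AdjoinRoot.map t.proj₁ (sndPoly Ψ) ((X - C a) * t.G) t.sndPoly_map_proj₁.symm.dvd))
      = t.brₘ := by
    refine Pairs.ringHom_ext (RingHom.ext fun r => ?_) ?_ ?_ <;>
      simp [brₘ, Pairs.lift, Pairs.ofBase, Pairs.fst, Pairs.snd, proj₁,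
        AdjoinRoot.algHomOfDvd]
  rw [← e₁, ← e₂, hY]
  rfl

/-- Every triple of branch values is attained. -/
theorem br_surjective (hΦ : Ψ.Monic) (hd : 1 < Ψ.natDegree) [Fact (Irreducible t.quo)]
    (h0 : t.quo.eval t.x₀ ≠ 0) (a b : t.E) (c : t.E') :
    ∃ y, t.br₀ y = a ∧ t.br₁ y = b ∧ t.brₘ y = c := by
  let f : Pairs Ψ →ₗ[L] t.E × t.E × t.E' :=
    { toFun := fun y => (t.br₀ y, t.br₁ y, t.brₘ y)
      map_add' := fun y z => by simp
      map_smul' := fun r y => by
        simp only [RingHom.id_apply, Algebra.smul_def, map_mul]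
        have hP : algebraMap L (Pairs Ψ) r = Pairs.ofBase Ψ r := rfl
        have hE : algebraMap L t.E r = AdjoinRoot.of t.quo r := rfl
        have hE' : algebraMap L t.E' r = AdjoinRoot.of t.G (AdjoinRoot.of t.quo r) := rfl
        rw [Prod.ext_iff, Prod.ext_iff]
        simp only [Prod.fst_mul, Prod.snd_mul, Prod.algebraMap_apply, hE, hE', hP]
        refine ⟨?_, ?_, ?_⟩ <;> simp [br₀, br₁, brₘ] }
  have := hΦ.free_adjoinRoot
  have := hΦ.finite_adjoinRoot
  have hs := Pairs.monic_sndPoly hΦ (Φ := Ψ) (by omega)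
  have := hs.free_adjoinRoot
  have := hs.finite_adjoinRoot
  have hq := t.monic_quo hΦ (by omega)
  have := hq.free_adjoinRoot
  have := hq.finite_adjoinRoot
  have hG := t.monic_G hΦ hd
  have := hG.free_adjoinRoot
  have := hG.finite_adjoinRoot
  have : Module.Finite L t.E' := Module.Finite.trans t.E t.E'
  have : Module.Finite L (Pairs Ψ) := Module.Finite.trans (AdjoinRoot Ψ) (Pairs Ψ)
  have : Nontrivial (AdjoinRoot Ψ) := AdjoinRoot.nontrivial Ψ
    (fun h => (show Ψ.natDegree ≠ 0 by omega) (natDegree_eq_zero_iff_degree_le_zero.2 h.le))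
  have hrank : Module.finrank L (Pairs Ψ) = Module.finrank L (t.E × t.E × t.E') := by
    rw [Module.finrank_prod, Module.finrank_prod,
      ← Module.finrank_mul_finrank L (AdjoinRoot Ψ) (Pairs Ψ),
      ← Module.finrank_mul_finrank L t.E t.E']
    rw [(AdjoinRoot.powerBasis' hΦ).finrank, (AdjoinRoot.powerBasis' hs).finrank,
      (AdjoinRoot.powerBasis' hq).finrank, (AdjoinRoot.powerBasis' hG).finrank]
    simp only [AdjoinRoot.powerBasis'_dim]
    rw [Pairs.natDegree_sndPoly hΦ (by omega), t.natDegree_quo hΦ (by omega),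
      t.natDegree_G hΦ hd]
    obtain ⟨k, hk⟩ := Nat.exists_eq_add_of_le (show 2 ≤ Ψ.natDegree by omega)
    rw [hk, show 2 + k - 1 = k + 1 by omega, show 2 + k - 2 = k by omega]
    ring
  have hinj : Function.Injective f := by
    rw [injective_iff_map_eq_zero]
    intro y hy
    have hy' : (t.br₀ y, t.br₁ y, t.brₘ y) = 0 := hy
    simp only [Prod.mk_eq_zero] at hy'
    exact t.br_injective hΦ hd h0 hy'.1 hy'.2.1 hy'.2.2
  obtain ⟨y, hy⟩ := (LinearMap.injective_iff_surjective_of_finrank_eq_finrank hrank).1 hinj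
    (a, b, c)
  have hy' : (t.br₀ y, t.br₁ y, t.brₘ y) = (a, b, c) := hy
  simp only [Prod.mk.injEq] at hy'
  exact ⟨y, hy'⟩

end Field

end RootSplit

end FLTA.Carayol
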