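import Fermat.Agent.Carayol.SSRoot
import Fermat.Prelude.Thm_IsLocalRing_isAdicComplete_of_module_finite
import Mathlib.RingTheory.RootsOfUnity.PrimitiveRoots

/-!
# Roots in finite regular extensions

`O` is a two-dimensional regular local ring finite over the complete regular local ring `R`.
A fraction over `O` which is locally an `n`-th power up to units at all primes not containing
the vertical parameter `π`, and an `n`-th power over the completion at `π`, is an `n`-th power.
-/

set_option autoImplicit false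
set_option linter.style.haveILetI false

open IsLocalRing Ideal Polynomial

namespace FLTA.Carayol

universe u v w

variable {R : Type*} [CommRing R] [IsLocalRing R] {O : Type w} [CommRing O] [IsLocalRing O]
  [Algebra R O]

theorem not_dvd_algebraMap_of_isReg2 [Algebra.IsIntegral R O] [IsLocalHom (algebraMap R O)]
    (hR : IsReg2 R) (hO : IsReg2 O) {π : R} (hπ : π ∈ maximalIdeal R)
    (hπ2 : π ∉ maximalIdeal R ^ 2) {p : O} (hp : Prime p) (hpπ : p ∣ algebraMap R O π) {r : R}
    (hr : ¬ π ∣ r) : ¬ p ∣ algebraMap R O r := by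
  intro hpr
  obtain ⟨d, hd⟩ := hR.exists_gen_of_not_mem_sq hπ hπ2
  obtain ⟨k, u, hu, hru⟩ := hR.exists_eq_unit_mul_pow hd (x := r)
    (fun hmem => hr (mem_span_singleton.1 hmem))
  obtain ⟨t, ht⟩ := mem_span_singleton'.1 hru
  have hpu : p ∣ algebraMap R O u * algebraMap R O d ^ k := by
    rw [← map_pow, ← map_mul,
      show u * d ^ k = r - t * π by linear_combination ht, map_sub, map_mul]
    exact dvd_sub hpr (hpπ.mul_left _)
  have hpd : p ∣ algebraMap R O d := by
    refine (hp.dvd_or_dvd hpu).elim (fun h1 => ?_) hp.dvd_of_dvd_pow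
    exact absurd (isUnit_of_dvd_unit h1 (hu.map _)) hp.not_isUnit
  have : (span ({p} : Set O)).IsPrime := (span_singleton_prime hp.ne_zero).2 hp
  have hle : maximalIdeal R ≤ (span ({p} : Set O)).comap (algebraMap R O) := by
    rw [hd, span_le, Set.insert_subset_iff, Set.singleton_subset_iff]
    exact ⟨mem_span_singleton.2 hpπ, mem_span_singleton.2 hpd⟩
  have hmax : ((span ({p} : Set O)).comap (algebraMap R O)).IsMaximal := by
    rw [← (maximalIdeal.isMaximal R).eq_of_le (Ideal.IsPrime.ne_top inferInstance) hle]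
    exact maximalIdeal.isMaximal R
  have := Ideal.isMaximal_of_isIntegral_of_isMaximal_comap _ hmax
  exact hO.maximalIdeal_ne_span_singleton p (eq_maximalIdeal this).symm

omit [IsLocalRing O] in
/-- Divisibility of multiplicities from a local representation. -/
theorem dvd_multiplicity_sub_of_rep [IsDomain O] [WfDvdMonoid O] {KO : Type*} [Field KO]
    [Algebra O KO] [IsFractionRing O KO] {n : ℕ} {f g : KO} {u v a b p : O} (hp : Prime p)
    (hu : u ≠ 0) (hv : v ≠ 0) (hf : f * algebraMap O KO v = algebraMap O KO u)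
    (hg : f * algebraMap O KO b = g ^ n * algebraMap O KO a) (ha : ¬ p ∣ a) (hb : ¬ p ∣ b) :
    (n : ℤ) ∣ (multiplicity p u : ℤ) - multiplicity p v := by
  obtain ⟨s, t, ht, rfl⟩ := IsFractionRing.div_surjective O g
  have ht0 : t ≠ 0 := nonZeroDivisors.ne_zero ht
  have hb0 : b ≠ 0 := fun h => hb (h ▸ dvd_zero p)
  have ha0 : a ≠ 0 := fun h => ha (h ▸ dvd_zero p)
  have htK : algebraMap O KO t ≠ 0 :=
    (map_ne_zero_iff _ (IsFractionRing.injective O KO)).2 ht0
  have h1 : u * t ^ n * b = v * s ^ n * a := by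
    apply IsFractionRing.injective O KO
    rw [map_mul, map_mul, map_mul, map_mul, map_pow, map_pow, ← hf]
    rw [div_pow] at hg
    field_simp at hg
    linear_combination (algebraMap O KO v) * hg
  have hs0 : s ^ n ≠ 0 := by
    intro h
    rw [h, mul_zero, zero_mul] at h1
    exact mul_ne_zero (mul_ne_zero hu (pow_ne_zero _ ht0)) hb0 h1
  have hfin : ∀ {x : O}, x ≠ 0 → FiniteMultiplicity p x := fun hx =>
    FiniteMultiplicity.of_prime_left hp hx
  have h2 := congrArg (multiplicity p) h1
  rw [multiplicity_mul hp (hfin (mul_ne_zero (mul_ne_zero hu (pow_ne_zero _ ht0)) hb0)),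
    multiplicity_mul hp (hfin (mul_ne_zero hu (pow_ne_zero _ ht0))),
    multiplicity_mul hp (hfin (mul_ne_zero (mul_ne_zero hv hs0) ha0)),
    multiplicity_mul hp (hfin (mul_ne_zero hv hs0)),
    multiplicity_eq_zero.2 ha, multiplicity_eq_zero.2 hb,
    FiniteMultiplicity.multiplicity_pow hp (hfin ht0), add_zero, add_zero] at h2
  rcases Nat.eq_zero_or_pos n with rfl | hn
  · simp only [pow_zero, multiplicity_of_one_right hp.not_isUnit, zero_mul, add_zero] at h2
    exact ⟨0, by rw [h2]; simp⟩
  have hs : s ≠ 0 := fun h => hs0 (by rw [h, zero_pow hn.ne'])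
  rw [FiniteMultiplicity.multiplicity_pow hp (hfin hs)] at h2
  refine ⟨(multiplicity p s : ℤ) - multiplicity p t, ?_⟩
  have h3 : (multiplicity p u : ℤ) + n * multiplicity p t =
      multiplicity p v + n * multiplicity p s := by exact_mod_cast h2
  linear_combination h3

/-- **The root in a branch.** -/
theorem exists_root_of_finite [IsDomain R] [IsNoetherianRing R]
    [IsAdicComplete (maximalIdeal R) R] [Module.Finite R O] [FaithfulSMul R O]
    (hR : IsReg2 R) (hO : IsReg2 O) {n : ℕ} (hn : IsUnit (n : R))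
    (hres : Function.Surjective fun r : R => residue O (algebraMap R O r))
    (hk : ∀ c : ResidueField R, c ≠ 0 → ∃ d, d ^ n = c)
    (π : R) [Fact (Prime π)] (hπ : π ∈ maximalIdeal R) (hπ2 : π ∉ maximalIdeal R ^ 2)
    {L : Type u} [Field L] [Algebra (HatAt π) L] [IsFractionRing (HatAt π) L]
    {KO : Type v} [Field KO] [Algebra O KO] [IsFractionRing O KO]
    {LO : Type*} [CommRing LO] (jO : KO →+* LO) (ιL : L →+* LO)
    (hext : ∀ (M : Type w) [Field M] (μ : L →+* M) (g : O →+* M),
      μ.comp ((algebraMap (HatAt π) L).comp (toHat π)) = g.comp (algebraMap R O) →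
      ∃ ψ : LO →+* M, (∀ x, ψ (jO (algebraMap O KO x)) = g x) ∧ ψ.comp ιL = μ)
    {f : KO} (hf : f ≠ 0)
    (hgen : ∀ p : O, Prime p → ¬ p ∣ algebraMap R O π → ∃ (g : KO) (a b : O),
      ¬ p ∣ a ∧ ¬ p ∣ b ∧ f * algebraMap O KO b = g ^ n * algebraMap O KO a)
    (hloc : ∃ Y : LO, Y ^ n = jO f) :
    ∃ G : KO, G ^ n = f := by
  have := hO.isDomain
  have := hO.isNoetherian
  have := hO.uniqueFactorizationMonoid
  have : IsLocalHom (algebraMap R O) :=
    RingHom.IsIntegral.isLocalHom
      (algebraMap_isIntegral_iff.2 (Algebra.IsIntegral.of_finite R O))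
      (FaithfulSMul.algebraMap_injective R O)
  have : HenselianLocalRing O := by
    have : IsAdicComplete (maximalIdeal O) O :=
      IsLocalRing.isAdicComplete_of_module_finite (𝒪 := R) (T := O)
    exact ⟨fun f hf a₀ h₁ h₂ =>
      HenselianRing.is_henselian (I := maximalIdeal O) f hf a₀ h₁ (h₂.map _)⟩
  obtain ⟨u, v, hv, huv⟩ := IsFractionRing.div_surjective O f
  have hv0 : v ≠ 0 := nonZeroDivisors.ne_zero hv
  have hvK : algebraMap O KO v ≠ 0 := (map_ne_zero_iff _ (IsFractionRing.injective O KO)).2 hv0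
  have hu0 : u ≠ 0 := by rintro rfl; rw [map_zero, zero_div] at huv; exact hf huv.symm
  have hfuv : f * algebraMap O KO v = algebraMap O KO u := by
    rw [← huv, div_mul_cancel₀ _ hvK]
  have hn' : IsUnit (n : O) := by simpa using hn.map (algebraMap R O)
  have hk' : ∀ c : ResidueField O, c ≠ 0 → ∃ d, d ^ n = c := by
    intro c hc
    obtain ⟨r, rfl⟩ := hres c
    have hr : residue R r ≠ 0 := fun h0 => hc (by
      have := map_zero (ResidueField.map (algebraMap R O))
      rwa [← h0, ResidueField.map_residue] at this)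
    obtain ⟨d, hd⟩ := hk _ hr
    exact ⟨ResidueField.map (algebraMap R O) d, by
      rw [← map_pow, hd, ResidueField.map_residue]⟩
  obtain ⟨G, hG⟩ := exists_pow_eq_div (K := KO) hn' hk' hu0 hv0 fun p hp => by
    by_cases hpπ : p ∣ algebraMap R O π
    swap
    · obtain ⟨g, a, b, ha, hb, hab⟩ := hgen p hp hpπ
      exact dvd_multiplicity_sub_of_rep hp hu0 hv0 hfuv hab ha hb
    have : Fact (Prime p) := ⟨hp⟩
    let g₀ : R →+* HatAt p := (toHat p).comp (algebraMap R O)
    have hg0 : g₀ π ∈ maximalIdeal (HatAt p) := by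
      obtain ⟨c, hc⟩ := hpπ
      simp only [g₀, RingHom.comp_apply, hc, map_mul]
      exact Ideal.mul_mem_right _ _ (toHat_self_mem p)
    obtain ⟨F, hF⟩ := exists_hat_lift π g₀ hg0 fun r hr =>
      isUnit_toHat p (not_dvd_algebraMap_of_isReg2 hR hO hπ hπ2 hp hpπ hr)
    have hFinj : Function.Injective F := by
      rw [injective_iff_map_eq_zero]
      intro x hx
      by_contra hx0
      obtain ⟨k, e, rfl⟩ := exists_eq_unit_mul_pow_hat π hx0
      rw [map_mul, (e.isUnit.map F).mul_right_eq_zero, map_pow] at hx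
      have h0 := eq_zero_of_pow_eq_zero hx
      rw [← RingHom.comp_apply, hF] at h0
      simp only [g₀, RingHom.comp_apply] at h0
      rw [map_eq_zero_iff _ (toHat_injective p),
        map_eq_zero_iff _ (FaithfulSMul.algebraMap_injective R O)] at h0
      exact (Fact.out : Prime π).ne_zero h0
    let M := FractionRing (HatAt p)
    let μ : L →+* M := IsFractionRing.lift (g := (algebraMap (HatAt p) M).comp F)
      ((IsFractionRing.injective (HatAt p) M).comp hFinj)
    let g' : O →+* M := (algebraMap (HatAt p) M).comp (toHat p)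
    have hbase : μ.comp ((algebraMap (HatAt π) L).comp (toHat π)) = g'.comp (algebraMap R O) := by
      ext r
      simp only [μ, g', RingHom.comp_apply, IsFractionRing.lift_algebraMap]
      rw [← RingHom.comp_apply F, hF]
      rfl
    obtain ⟨ψ, hψ, -⟩ := hext M μ g' hbase
    obtain ⟨Y, hY⟩ := hloc
    refine dvd_multiplicity_sub_of_pow_eq p hu0 hv0 (Z := ψ Y) ?_
    show g' v * ψ Y ^ n = g' u
    rw [← hψ v, ← hψ u, ← map_pow, hY, ← map_mul, ← map_mul, mul_comm, hfuv]
  exact ⟨G, hG.trans huv⟩

/-- In a domain two `n`-th roots differ by a root of unity. -/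
theorem exists_pow_mul_eq {K M : Type*} [CommRing K] [CommRing M] [IsDomain M] {n : ℕ}
    [NeZero n] {ζ : K} (hζ : IsPrimitiveRoot ζ n) (j : K →+* M) (hj : Function.Injective j)
    {G Y : M} (h : Y ^ n = G ^ n) : ∃ i : ℕ, Y = j ζ ^ i * G := by
  rcases eq_or_ne G 0 with rfl | hG
  · rw [zero_pow (NeZero.ne n)] at h
    exact ⟨0, by rw [eq_zero_of_pow_eq_zero h, mul_zero]⟩
  let L := FractionRing M
  have hinj := IsFractionRing.injective M L
  have hζ' : IsPrimitiveRoot (algebraMap M L (j ζ)) n :=
    (hζ.map_of_injective hj).map_of_injective hinj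
  have hG' : algebraMap M L G ≠ 0 := (map_ne_zero_iff _ hinj).2 hG
  obtain ⟨i, -, hi⟩ := hζ'.eq_pow_of_pow_eq_one (ξ := algebraMap M L Y / algebraMap M L G)
    (by rw [div_pow, ← map_pow, ← map_pow, h, div_self]; rw [map_pow]; exact pow_ne_zero _ hG')
  refine ⟨i, hinj ?_⟩
  rw [map_mul, map_pow, hi, div_mul_cancel₀ _ hG']

end FLTA.Carayol
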