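import Fermat.Agent.Carayol.Branch
import Fermat.Agent.Carayol.DivisorRoot

/-!
# Combining roots on the three branches

If an element has an `n`-th root on each branch over `K` and an `n`-th root `Y` over `L ⊇ K`,
then it has a root over `K` mapping to `Y`.
-/

set_option autoImplicit false

open Polynomial

namespace FLTA.Carayol

variable {K L : Type*} [Field K] [Field L]

/-- **Combination of branch roots.** -/
theorem RootSplit.exists_root_of_branches {Ψ : K[X]} (s : RootSplit Ψ) (hΨ : Ψ.Monic)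
    (hd : 1 < Ψ.natDegree) [Fact (Irreducible s.quo)] (h0 : s.quo.eval s.x₀ ≠ 0) (ι : K →+* L)
    [Fact (Irreducible (s.map ι).quo)] (hG : Irreducible (s.map ι).G) {n : ℕ} [NeZero n] {ζ : K}
    (hζ : IsPrimitiveRoot ζ n) (y : Pairs Ψ) (h₀ : ∃ g, g ^ n = s.br₀ y)
    (h₁ : ∃ g, g ^ n = s.br₁ y) (hm : ∃ g, g ^ n = s.brₘ y)
    (Y : Pairs (Ψ.map ι)) (hY : Y ^ n = Pairs.map ι rfl y) :
    ∃ G : Pairs Ψ, G ^ n = y ∧ Pairs.map ι rfl G = Y := by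
  obtain ⟨g₀, hg₀⟩ := h₀
  obtain ⟨g₁, hg₁⟩ := h₁
  obtain ⟨gₘ, hgₘ⟩ := hm
  have := Fact.mk hG
  let j : K →+* (s.map ι).E := (AdjoinRoot.of (s.map ι).quo).comp ι
  have hj : Function.Injective j := j.injective
  let j' : K →+* (s.map ι).E' := (AdjoinRoot.of (s.map ι).G).comp j
  obtain ⟨i₀, hi₀⟩ := exists_pow_mul_eq hζ j hj (G := s.mapE ι g₀) (Y := (s.map ι).br₀ Y)
    (by rw [← map_pow, hY, ← s.mapE_br₀, ← map_pow, hg₀])
  obtain ⟨i₁, hi₁⟩ := exists_pow_mul_eq hζ j hj (G := s.mapE ι g₁) (Y := (s.map ι).br₁ Y)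
    (by rw [← map_pow, hY, ← s.mapE_br₁, ← map_pow, hg₁])
  obtain ⟨iₘ, hiₘ⟩ := exists_pow_mul_eq hζ j' j'.injective (G := s.mapE' ι gₘ)
    (Y := (s.map ι).brₘ Y) (by rw [← map_pow, hY, ← s.mapE'_brₘ, ← map_pow, hgₘ])
  obtain ⟨G, hG₀, hG₁, hGm⟩ := s.br_surjective hΨ hd h0 (AdjoinRoot.of s.quo ζ ^ i₀ * g₀)
    (AdjoinRoot.of s.quo ζ ^ i₁ * g₁) (AdjoinRoot.of s.G (AdjoinRoot.of s.quo ζ) ^ iₘ * gₘ)
  have hone : ∀ i : ℕ, (ζ ^ i) ^ n = 1 := fun i => by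
    rw [← pow_mul, mul_comm, pow_mul, hζ.pow_eq_one, one_pow]
  refine ⟨G, sub_eq_zero.1 (s.br_injective hΨ hd h0 ?_ ?_ ?_), ?_⟩
  · rw [map_sub, map_pow, hG₀, mul_pow, hg₀, ← map_pow, ← map_pow, hone, map_one, one_mul,
      sub_self]
  · rw [map_sub, map_pow, hG₁, mul_pow, hg₁, ← map_pow, ← map_pow, hone, map_one, one_mul,
      sub_self]
  · rw [map_sub, map_pow, hGm, mul_pow, hgₘ, ← map_pow, ← map_pow, ← map_pow, ← map_pow, hone,
      map_one, map_one, one_mul, sub_self]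
  have hdL : 1 < (Ψ.map ι).natDegree := by rwa [hΨ.natDegree_map]
  have h0L : (s.map ι).quo.eval (s.map ι).x₀ ≠ 0 := by
    rw [RootSplit.quo_map, RootSplit.map_x₀, eval_map, eval₂_at_apply]
    exact (map_ne_zero ι).2 h0
  refine sub_eq_zero.1 ((s.map ι).br_injective (hΨ.map ι) hdL h0L ?_ ?_ ?_)
  · rw [map_sub, ← s.mapE_br₀, hG₀, hi₀]
    simp [j, mapE]
  · rw [map_sub, ← s.mapE_br₁, hG₁, hi₁]
    simp [j, mapE]
  · rw [map_sub, ← s.mapE'_brₘ, hGm, hiₘ]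
    simp [j, j', mapE', mapE]

end FLTA.Carayol
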