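import Fermat.Agent.Carayol.Branch
import Mathlib.RingTheory.RootsOfUnity.PrimitiveRoots
import Mathlib.RingTheory.Localization.FractionRing

/-!
# Comparison of local roots with the branch roots

After raising to the power `q^2 - 1` the `n`-th roots at the points with an irreducible
one-root algebra all restrict to one element over the Gauss point.
-/

set_option autoImplicit false
set_option linter.style.haveILetI false

open Polynomial

namespace FLTA.Carayol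

universe u v w w'

theorem exists_zeta_ratio {Fg : Type*} [Field Fg] {R : Type*} [CommRing R] [IsDomain R]
    (f : Fg →+* R) {n : ℕ} [NeZero n] {ζ : Fg} (hζ : IsPrimitiveRoot ζ n) {a b : R} (hb : b ≠ 0)
    (h : a ^ n = b ^ n) : ∃ i : ℕ, a = f (ζ ^ i) * b := by
  let ι : R →+* FractionRing R := algebraMap R (FractionRing R)
  have hι : Function.Injective ι := IsFractionRing.injective R (FractionRing R)
  have hb' : ι b ≠ 0 := (map_ne_zero_iff _ hι).2 hb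
  obtain ⟨i, -, hi⟩ := (hζ.map_of_injective (ι.comp f).injective).eq_pow_of_pow_eq_one
    (ξ := ι a / ι b) (by rw [div_pow, ← map_pow, ← map_pow, h, map_pow, div_self (pow_ne_zero _ hb')])
  refine ⟨i, hι ?_⟩
  rw [map_mul, map_pow, map_pow, ← RingHom.comp_apply, hi, div_mul_cancel₀ _ hb']

theorem ne_zero_of_pow_eq_isUnit {R : Type*} [CommRing R] [Nontrivial R] {n : ℕ} (hn : n ≠ 0)
    {a b : R} (h : a ^ n = b) (hb : IsUnit b) : a ≠ 0 := by
  rintro rfl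
  rw [zero_pow hn] at h
  exact hb.ne_zero h.symm

theorem isUnit_of_pow_eq_isUnit {R : Type*} [CommRing R] {n : ℕ} (hn : n ≠ 0) {a b : R}
    (h : a ^ n = b) (hb : IsUnit b) : IsUnit a :=
  (isUnit_pow_iff hn).1 (h ▸ hb)

namespace RootSplit

section Swap

variable {R : Type*} [CommRing R] {Ψ : R[X]} (t : RootSplit Ψ)

theorem quo_eval₂_root_G :
    t.quo.eval₂ ((AdjoinRoot.of t.G).comp (AdjoinRoot.of t.quo)) (AdjoinRoot.root t.G) = 0 := by
  have h := sub_mul_divDiff_eval ((t.quo.map (AdjoinRoot.of t.quo)).map (AdjoinRoot.of t.G))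
    (AdjoinRoot.of t.G (AdjoinRoot.root t.quo)) (AdjoinRoot.root t.G)
  rw [← map_divDiff, eval_map (AdjoinRoot.of t.G) (AdjoinRoot.root t.G),
    show eval₂ (AdjoinRoot.of t.G) (AdjoinRoot.root t.G)
      (divDiff (t.quo.map (AdjoinRoot.of t.quo)) (AdjoinRoot.root t.quo)) = 0 from
        AdjoinRoot.eval₂_root t.G, mul_zero, Polynomial.map_map, eval_map, eval_map,
    ← hom_eval₂, AdjoinRoot.eval₂_root, map_zero, sub_zero] at h
  exact h.symm

/-- The exchange of `x₁` and `x₂`. -/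
noncomputable def swapE' : t.E' →+* t.E' :=
  AdjoinRoot.lift
    (AdjoinRoot.lift ((AdjoinRoot.of t.G).comp (AdjoinRoot.of t.quo)) (AdjoinRoot.root t.G)
      t.quo_eval₂_root_G)
    (AdjoinRoot.of t.G (AdjoinRoot.root t.quo)) (by
      show (divDiff (t.quo.map (AdjoinRoot.of t.quo)) (AdjoinRoot.root t.quo)).eval₂ _ _ = 0
      rw [← eval_map, map_divDiff, Polynomial.map_map, AdjoinRoot.lift_comp_of,
        AdjoinRoot.lift_root, divDiff_eval_comm, ← Polynomial.map_map, ← map_divDiff, eval_map]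
      exact AdjoinRoot.eval₂_root t.G)

theorem swapE'_of (r : R) :
    t.swapE' (AdjoinRoot.of t.G (AdjoinRoot.of t.quo r)) =
      AdjoinRoot.of t.G (AdjoinRoot.of t.quo r) := by
  simp [swapE']

theorem brₘ_swap (y : Pairs Ψ) : t.brₘ (Pairs.swap Ψ y) = t.swapE' (t.brₘ y) := by
  have : t.brₘ.comp (Pairs.swap Ψ) = t.swapE'.comp t.brₘ := by
    refine Pairs.ringHom_ext (RingHom.ext fun a => ?_) ?_ ?_ <;>
      simp [brₘ, swapE']
  exact RingHom.congr_fun this y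

theorem br₀_swap_eq (y : Pairs Ψ) : t.br₀ (Pairs.swap Ψ y) = t.br₁ y := by
  have : t.br₀.comp (Pairs.swap Ψ) = t.br₁ := by
    refine Pairs.ringHom_ext (RingHom.ext fun a => ?_) ?_ ?_ <;> simp [br₀, br₁]
  exact RingHom.congr_fun this y

theorem br₁_swap_eq (y : Pairs Ψ) : t.br₁ (Pairs.swap Ψ y) = t.br₀ y := by
  rw [← br₀_swap_eq, Pairs.swap_swap]

theorem proj₀_map {S : Type*} [CommRing S] (f : R →+* S) (a : AdjoinRoot Ψ) :
    (t.map f).proj₀ (AdjoinRoot.map f Ψ (Ψ.map f) dvd_rfl a) = f (t.proj₀ a) := by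
  have : (t.map f).proj₀.comp (AdjoinRoot.map f Ψ (Ψ.map f) dvd_rfl) = f.comp t.proj₀ := by
    refine AdjoinRoot.ringHom_ext (RingHom.ext fun r => ?_) ?_ <;> simp [proj₀]
  exact RingHom.congr_fun this a

theorem proj₁_map {S : Type*} [CommRing S] (f : R →+* S) (a : AdjoinRoot Ψ) :
    (t.map f).proj₁ (AdjoinRoot.map f Ψ (Ψ.map f) dvd_rfl a) = t.mapE f (t.proj₁ a) := by
  have : (t.map f).proj₁.comp (AdjoinRoot.map f Ψ (Ψ.map f) dvd_rfl) =
      (t.mapE f).comp t.proj₁ := by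
    refine AdjoinRoot.ringHom_ext (RingHom.ext fun r => ?_) ?_ <;> simp [proj₁, mapE]
  exact RingHom.congr_fun this a

theorem mapE_of {S : Type*} [CommRing S] (f : R →+* S) (r : R) :
    t.mapE f (AdjoinRoot.of t.quo r) = AdjoinRoot.of (t.map f).quo (f r) :=
  RingHom.congr_fun (t.mapE_comp_of f) r

end Swap

section Twist

variable {M : Type*} [Field M] {Ψ : M[X]} (t : RootSplit Ψ) [Fact (Irreducible t.quo)]

/-- The effect of constant twists of the three branches on the four norms. -/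
theorem norm_twist {q : ℕ} (hΦ : Ψ.Monic) (hdeg : Ψ.natDegree = q + 1) (hq : 2 ≤ q)
    (h0 : t.quo.eval t.x₀ ≠ 0) {Z₁ Z₂ : Pairs Ψ} {z₀ z₁ zₘ : M}
    (e₀ : t.br₀ Z₁ = AdjoinRoot.of t.quo z₀ * t.br₀ Z₂)
    (e₁ : t.br₁ Z₁ = AdjoinRoot.of t.quo z₁ * t.br₁ Z₂)
    (eₘ : t.brₘ Z₁ = AdjoinRoot.of t.G (AdjoinRoot.of t.quo zₘ) * t.brₘ Z₂) :
    t.proj₀ (Pairs.normFst Ψ Z₁) = z₀ ^ q * t.proj₀ (Pairs.normFst Ψ Z₂) ∧
    t.proj₁ (Pairs.normFst Ψ Z₁) =
      AdjoinRoot.of t.quo (z₁ * zₘ ^ (q - 1)) * t.proj₁ (Pairs.normFst Ψ Z₂) ∧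
    t.proj₀ (Pairs.normSnd Ψ Z₁) = z₁ ^ q * t.proj₀ (Pairs.normSnd Ψ Z₂) ∧
    t.proj₁ (Pairs.normSnd Ψ Z₁) =
      AdjoinRoot.of t.quo (z₀ * zₘ ^ (q - 1)) * t.proj₁ (Pairs.normSnd Ψ Z₂) := by
  have hd : 1 < Ψ.natDegree := by omega
  have hqm := t.monic_quo hΦ (by omega)
  have hGm := t.monic_G hΦ hd
  have := hqm.free_adjoinRoot
  have := hGm.free_adjoinRoot
  have hfE : Module.finrank M t.E = q := by
    rw [(AdjoinRoot.powerBasis' hqm).finrank, AdjoinRoot.powerBasis'_dim,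
      t.natDegree_quo hΦ (by omega)]
    omega
  have hfE' : Module.finrank t.E t.E' = q - 1 := by
    rw [(AdjoinRoot.powerBasis' hGm).finrank, AdjoinRoot.powerBasis'_dim,
      t.natDegree_G hΦ hd]
    omega
  have hN0 : ∀ z : M, Algebra.norm M (AdjoinRoot.of t.quo z : t.E) = z ^ q := fun z => by
    rw [← AdjoinRoot.algebraMap_eq, Algebra.norm_algebraMap, hfE]
  have hN1 : ∀ z : M, Algebra.norm t.E (AdjoinRoot.of t.G (AdjoinRoot.of t.quo z) : t.E') =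
      AdjoinRoot.of t.quo z ^ (q - 1) := fun z => by
    rw [← AdjoinRoot.algebraMap_eq t.G, Algebra.norm_algebraMap, hfE']
  refine ⟨?_, ?_, ?_, ?_⟩
  · rw [t.proj₀_normFst hΦ (by omega), t.proj₀_normFst hΦ (by omega), e₀, map_mul, hN0]
  · rw [t.proj₁_normFst hΦ hd h0, t.proj₁_normFst hΦ hd h0, e₁, eₘ, map_mul (Algebra.norm t.E),
      hN1, map_mul (AdjoinRoot.of t.quo), map_pow]
    ring
  · show t.proj₀ (Pairs.normFst Ψ (Pairs.swap Ψ Z₁)) =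
      z₁ ^ q * t.proj₀ (Pairs.normFst Ψ (Pairs.swap Ψ Z₂))
    rw [t.proj₀_normFst hΦ (by omega), t.proj₀_normFst hΦ (by omega), br₀_swap_eq, br₀_swap_eq,
      e₁, map_mul, hN0]
  · show t.proj₁ (Pairs.normFst Ψ (Pairs.swap Ψ Z₁)) = AdjoinRoot.of t.quo (z₀ * zₘ ^ (q - 1)) *
      t.proj₁ (Pairs.normFst Ψ (Pairs.swap Ψ Z₂))
    rw [t.proj₁_normFst hΦ hd h0, t.proj₁_normFst hΦ hd h0, br₁_swap_eq, br₁_swap_eq,
      brₘ_swap, brₘ_swap, e₀, eₘ, map_mul t.swapE', swapE'_of, map_mul (Algebra.norm t.E),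
      hN1, map_mul (AdjoinRoot.of t.quo), map_pow]
    ring

end Twist

end RootSplit

theorem pow_sq_sub_one_of_relations {M : Type*} [Field M] {q : ℕ} (hq : 1 ≤ q)
    {z₀ z₁ zm C D : M} (hm : zm ≠ 0) (hz₀ : z₀ ≠ 0)
    (h₀ : z₀ ^ q = C * (z₁ * zm ^ (q - 1))) (h₁ : z₁ ^ q = D * (z₀ * zm ^ (q - 1))) :
    z₀ ^ (q ^ 2 - 1) = C ^ q * D * zm ^ (q ^ 2 - 1) := by
  obtain ⟨k, rfl⟩ := Nat.exists_eq_add_of_le hq
  rw [Nat.add_sub_cancel_left] at h₀ h₁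
  apply mul_left_cancel₀ hz₀
  have hk : (1 + k) ^ 2 - 1 = k * (1 + k) + k := by
    refine Nat.sub_eq_of_eq_add ?_
    ring
  rw [hk]
  calc z₀ * z₀ ^ (k * (1 + k) + k)
      = (z₀ ^ (1 + k)) ^ (1 + k) := by rw [← pow_mul, ← pow_succ']; congr 1; ring
    _ = C ^ (1 + k) * (z₁ ^ (1 + k) * zm ^ (k * (1 + k))) := by rw [h₀]; ring
    _ = z₀ * (C ^ (1 + k) * D * zm ^ (k * (1 + k) + k)) := by rw [h₁]; ring

theorem exists_branch_target {Fg : Type u} {L : Type v} [Field Fg] [Field L] {q n : ℕ}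
    (hq : q.Prime) (hn : 0 < n) {ζ : Fg} (hζ : IsPrimitiveRoot ζ n) {Φ : Fg[X]}
    (hΦ : Φ.Monic) (hd : Φ.natDegree = q + 1) (ι : Fg →+* L) (s : RootSplit (Φ.map ι))
    [Fact (Irreducible s.quo)] [Fact (Irreducible s.G)] (h0 : s.quo.eval s.x₀ ≠ 0)
    (y : Pairs Φ) (hy : IsUnit y) (g₁ g₂ : AdjoinRoot Φ)
    (h₁ : g₁ ^ n = Pairs.normFst Φ y) (h₂ : g₂ ^ n = Pairs.normSnd Φ y)
    (Y : Pairs (Φ.map ι)) (hY : Y ^ n = Pairs.map ι rfl y) :
    ∃ Y' : Pairs (Φ.map ι), Y' ^ n = Pairs.map ι rfl y ^ (q ^ 2 - 1) ∧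
      ∀ (K : Type w) (M : Type w') [Field K] [Field M] (κ : Fg →+* K) (κ' : K →+* M)
        (j : L →+* M) (hcomm : κ'.comp κ = j.comp ι),
        IsDomain (AdjoinRoot (Φ.map κ)) → Irreducible (s.map j).quo →
        (∀ _ : Fact (Irreducible (s.map j).quo), Irreducible (s.map j).G) →
        ∀ G : Pairs (Φ.map κ), G ^ n = Pairs.map κ rfl y →
          ∃ G' : Pairs (Φ.map κ), G' ^ n = Pairs.map κ rfl y ^ (q ^ 2 - 1) ∧
            Pairs.map κ' (Ψ := (Φ.map ι).map j)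
                (by rw [Polynomial.map_map, Polynomial.map_map, hcomm]) G' =
              Pairs.map j rfl Y' := by
  classical
  have : NeZero n := ⟨hn.ne'⟩
  have hq2 := hq.two_le
  have hdι : (Φ.map ι).natDegree = q + 1 := by rw [hΦ.natDegree_map, hd]
  have hΦι : (Φ.map ι).Monic := hΦ.map ι
  have hd1 : 1 < (Φ.map ι).natDegree := by omega
  -- norms over `L`
  have hYu : IsUnit Y := isUnit_of_pow_eq_isUnit hn.ne' hY (hy.map _)
  set gv₁ := AdjoinRoot.map ι Φ (Φ.map ι) dvd_rfl g₁ with hgv₁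
  set gv₂ := AdjoinRoot.map ι Φ (Φ.map ι) dvd_rfl g₂ with hgv₂
  have hf₁ : Pairs.normFst _ Y ^ n = gv₁ ^ n := by
    rw [← map_pow, hY, Pairs.normFst_map hΦ (by omega), hgv₁, ← map_pow, h₁]
  have hf₂ : Pairs.normSnd _ Y ^ n = gv₂ ^ n := by
    rw [← map_pow, hY, Pairs.normSnd_map hΦ (by omega), hgv₂, ← map_pow, h₂]
  have hg₁u : IsUnit gv₁ := by
    refine isUnit_of_pow_eq_isUnit hn.ne' hf₁.symm ((hYu.map _).pow n)
  have hg₂u : IsUnit gv₂ := by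
    refine isUnit_of_pow_eq_isUnit hn.ne' hf₂.symm ((hYu.map _).pow n)
  obtain ⟨e₁, he₁⟩ := exists_zeta_ratio ι hζ (b := s.proj₀ gv₁) (hg₁u.map s.proj₀).ne_zero
    (a := s.proj₀ (Pairs.normFst _ Y)) (by rw [← map_pow, hf₁, map_pow])
  obtain ⟨e₂, he₂⟩ := exists_zeta_ratio ((AdjoinRoot.of s.quo).comp ι) hζ (b := s.proj₁ gv₁)
    (hg₁u.map s.proj₁).ne_zero (a := s.proj₁ (Pairs.normFst _ Y))
    (by rw [← map_pow, hf₁, map_pow])
  obtain ⟨e₃, he₃⟩ := exists_zeta_ratio ι hζ (b := s.proj₀ gv₂) (hg₂u.map s.proj₀).ne_zero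
    (a := s.proj₀ (Pairs.normSnd _ Y)) (by rw [← map_pow, hf₂, map_pow])
  obtain ⟨e₄, he₄⟩ := exists_zeta_ratio ((AdjoinRoot.of s.quo).comp ι) hζ (b := s.proj₁ gv₂)
    (hg₂u.map s.proj₁).ne_zero (a := s.proj₁ (Pairs.normSnd _ Y))
    (by rw [← map_pow, hf₂, map_pow])
  -- the constants
  have hζ0 : ζ ≠ 0 := hζ.ne_zero hn.ne'
  set C : Fg := ζ ^ e₂ / ζ ^ e₁ with hC
  set D : Fg := ζ ^ e₄ / ζ ^ e₃ with hD
  have hroot : ∀ i : ℕ, (ζ ^ i) ^ n = 1 := fun i => by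
    rw [← pow_mul, mul_comm, pow_mul, hζ.pow_eq_one, one_pow]
  have hCn : C ^ n = 1 := by rw [hC, div_pow, hroot, hroot, div_one]
  have hDn : D ^ n = 1 := by rw [hD, div_pow, hroot, hroot, div_one]
  set m := q ^ 2 - 1 with hm
  obtain ⟨Y', hY₀, hY₁, hYm⟩ := s.br_surjective hΦι hd1 h0
    (AdjoinRoot.of s.quo (ι (C ^ q * D)) * s.br₀ Y ^ m)
    (AdjoinRoot.of s.quo (ι (D ^ q * C)) * s.br₁ Y ^ m) (s.brₘ Y ^ m)
  refine ⟨Y', sub_eq_zero.1 (s.br_injective hΦι hd1 h0 ?_ ?_ ?_), ?_⟩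
  · rw [map_sub, map_pow, map_pow, hY₀, mul_pow, ← map_pow, ← map_pow, mul_pow, ← pow_mul,
      mul_comm q, pow_mul, hCn, hDn, one_pow, one_mul, map_one, map_one, one_mul, ← pow_mul,
      mul_comm m, pow_mul, ← map_pow, hY, sub_self]
  · rw [map_sub, map_pow, map_pow, hY₁, mul_pow, ← map_pow, ← map_pow, mul_pow, ← pow_mul,
      mul_comm q, pow_mul, hCn, hDn, one_pow, one_mul, map_one, map_one, one_mul, ← pow_mul,
      mul_comm m, pow_mul, ← map_pow, hY, sub_self]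
  · rw [map_sub, map_pow, map_pow, hYm, ← pow_mul, mul_comm m, pow_mul, ← map_pow, hY, sub_self]
  intro K M _ _ κ κ' j hcomm hdom hirr hirrG G hG
  have := Fact.mk hirr
  have := Fact.mk (hirrG ⟨hirr⟩)
  set t := s.map j with ht
  have hΨ : ((Φ.map ι).map j).Monic := hΦι.map j
  have hΨd : ((Φ.map ι).map j).natDegree = q + 1 := by rw [hΦι.natDegree_map, hdι]
  have hΨd1 : 1 < ((Φ.map ι).map j).natDegree := by omega
  have ht0 : t.quo.eval t.x₀ ≠ 0 := by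
    rw [ht, RootSplit.quo_map, RootSplit.map_x₀, eval_map, eval₂_at_apply]
    exact (map_ne_zero_iff _ j.injective).2 h0
  have hκ' : (Φ.map κ).map κ' = (Φ.map ι).map j := by
    rw [Polynomial.map_map, Polynomial.map_map, hcomm]
  set Gv := Pairs.map κ' hκ' G with hGv
  set Yv := Pairs.map j rfl Y with hYv
  have hyv : Pairs.map κ' hκ' (Pairs.map κ rfl y) = Pairs.map j rfl (Pairs.map ι rfl y) := by
    rw [← RingHom.comp_apply, ← RingHom.comp_apply]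
    refine congrArg (fun f : Pairs Φ →+* Pairs ((Φ.map ι).map j) => f y) ?_
    refine Pairs.ringHom_ext (RingHom.ext fun a => ?_) (by simp) (by simp)
    have := RingHom.congr_fun hcomm a
    simp only [RingHom.comp_apply] at this
    simp [this]
  have hpow : Gv ^ n = Yv ^ n := by rw [hGv, hYv, ← map_pow, ← map_pow, hG, hY, hyv]
  have hYvu : IsUnit Yv := hYu.map _
  set φ : Fg →+* M := j.comp ι with hφ
  obtain ⟨a₀, ha₀⟩ := exists_zeta_ratio ((AdjoinRoot.of t.quo).comp φ) hζ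
    (b := t.br₀ Yv) (hYvu.map _).ne_zero (a := t.br₀ Gv) (by rw [← map_pow, hpow, map_pow])
  obtain ⟨a₁, ha₁⟩ := exists_zeta_ratio ((AdjoinRoot.of t.quo).comp φ) hζ
    (b := t.br₁ Yv) (hYvu.map _).ne_zero (a := t.br₁ Gv) (by rw [← map_pow, hpow, map_pow])
  obtain ⟨aₘ, haₘ⟩ := exists_zeta_ratio
    ((AdjoinRoot.of t.G).comp ((AdjoinRoot.of t.quo).comp φ)) hζ
    (b := t.brₘ Yv) (hYvu.map _).ne_zero (a := t.brₘ Gv) (by rw [← map_pow, hpow, map_pow])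
  set z₀ := φ (ζ ^ a₀) with hz₀
  set z₁ := φ (ζ ^ a₁) with hz₁
  set zm := φ (ζ ^ aₘ) with hzm
  obtain ⟨hA₀, hA₁, hB₀, hB₁⟩ := t.norm_twist hΨ hΨd hq2 ht0 (Z₁ := Gv) (Z₂ := Yv)
    (z₀ := z₀) (z₁ := z₁) (zₘ := zm) ha₀ ha₁ haₘ
  -- norms over `K`
  have hdκ : 0 < (Φ.map κ).natDegree := by rw [hΦ.natDegree_map]; omega
  set gK₁ := AdjoinRoot.map κ Φ (Φ.map κ) dvd_rfl g₁ with hgK₁
  set gK₂ := AdjoinRoot.map κ Φ (Φ.map κ) dvd_rfl g₂ with hgK₂
  have hGu : IsUnit G := isUnit_of_pow_eq_isUnit hn.ne' hG (hy.map _)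
  have hk₁ : Pairs.normFst _ G ^ n = gK₁ ^ n := by
    rw [← map_pow, hG, Pairs.normFst_map hΦ (by omega), hgK₁, ← map_pow, h₁]
  have hk₂ : Pairs.normSnd _ G ^ n = gK₂ ^ n := by
    rw [← map_pow, hG, Pairs.normSnd_map hΦ (by omega), hgK₂, ← map_pow, h₂]
  have hgK₁u : IsUnit gK₁ := isUnit_of_pow_eq_isUnit hn.ne' hk₁.symm ((hGu.map _).pow n)
  have hgK₂u : IsUnit gK₂ := isUnit_of_pow_eq_isUnit hn.ne' hk₂.symm ((hGu.map _).pow n)
  obtain ⟨c, hc⟩ := exists_zeta_ratio ((AdjoinRoot.of (Φ.map κ)).comp κ) hζ (b := gK₁)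
    hgK₁u.ne_zero (a := Pairs.normFst _ G) hk₁
  obtain ⟨d, hd'⟩ := exists_zeta_ratio ((AdjoinRoot.of (Φ.map κ)).comp κ) hζ (b := gK₂)
    hgK₂u.ne_zero (a := Pairs.normSnd _ G) hk₂
  have hgM : ∀ g : AdjoinRoot Φ,
      AdjoinRoot.map κ' (Φ.map κ) _ hκ'.symm.dvd (AdjoinRoot.map κ Φ (Φ.map κ) dvd_rfl g) =
        AdjoinRoot.map j (Φ.map ι) _ dvd_rfl (AdjoinRoot.map ι Φ (Φ.map ι) dvd_rfl g) := by
    intro g
    rw [← RingHom.comp_apply, ← RingHom.comp_apply]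
    refine congrArg (fun f : AdjoinRoot Φ →+* AdjoinRoot ((Φ.map ι).map j) => f g) ?_
    refine AdjoinRoot.ringHom_ext (RingHom.ext fun a => ?_) (by simp)
    have := RingHom.congr_fun hcomm a
    simp only [RingHom.comp_apply] at this
    simp [this, hφ]
  have hconst : ∀ x : Fg, AdjoinRoot.map κ' (Φ.map κ) ((Φ.map ι).map j) hκ'.symm.dvd
      (AdjoinRoot.of (Φ.map κ) (κ x)) = AdjoinRoot.of _ (φ x) := fun x => by
    rw [AdjoinRoot.map_of]
    exact congrArg _ (RingHom.congr_fun hcomm x)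
  have hcv : Pairs.normFst _ Gv =
      AdjoinRoot.of _ (φ (ζ ^ c)) * AdjoinRoot.map j (Φ.map ι) _ dvd_rfl gv₁ := by
    rw [hGv, Pairs.normFst_map (hΦ.map κ) hdκ, hc, map_mul, RingHom.comp_apply, hconst, hgK₁,
      hgM]
  have hdv : Pairs.normSnd _ Gv =
      AdjoinRoot.of _ (φ (ζ ^ d)) * AdjoinRoot.map j (Φ.map ι) _ dvd_rfl gv₂ := by
    rw [hGv, Pairs.normSnd_map (hΦ.map κ) hdκ, hd', map_mul, RingHom.comp_apply, hconst, hgK₂,
      hgM]
  have hp₀ : ∀ r : M, t.proj₀ (AdjoinRoot.of _ r) = r := fun r => by simp [RootSplit.proj₀]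
  have hp₁ : ∀ r : M, t.proj₁ (AdjoinRoot.of _ r) = AdjoinRoot.of t.quo r := fun r => by
    simp [RootSplit.proj₁]
  have hφj : ∀ x : Fg, j (ι x) = φ x := fun x => rfl
  -- the four relations
  rw [hcv, map_mul, hp₀, RootSplit.proj₀_map, hYv, Pairs.normFst_map hΦι (by omega),
    RootSplit.proj₀_map, he₁, map_mul, hφj] at hA₀
  rw [hdv, map_mul, hp₀, RootSplit.proj₀_map, hYv, Pairs.normSnd_map hΦι (by omega),
    RootSplit.proj₀_map, he₃, map_mul, hφj] at hB₀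
  rw [hcv, map_mul, hp₁, RootSplit.proj₁_map, hYv, Pairs.normFst_map hΦι (by omega),
    RootSplit.proj₁_map, he₂] at hA₁
  simp only [map_mul (s.mapE j), RingHom.comp_apply, RootSplit.mapE_of, hφj] at hA₁
  rw [← mul_assoc, ← map_mul] at hA₁
  rw [hdv, map_mul, hp₁, RootSplit.proj₁_map, hYv, Pairs.normSnd_map hΦι (by omega),
    RootSplit.proj₁_map, he₄] at hB₁
  simp only [map_mul (s.mapE j), RingHom.comp_apply, RootSplit.mapE_of, hφj] at hB₁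
  rw [← mul_assoc, ← map_mul] at hB₁
  have R₀ : φ (ζ ^ c) = z₀ ^ q * φ (ζ ^ e₁) := by
    refine mul_right_cancel₀ ((hg₁u.map s.proj₀).map j).ne_zero ?_
    rw [hA₀, mul_assoc]
  have S₀ : φ (ζ ^ d) = z₁ ^ q * φ (ζ ^ e₃) := by
    refine mul_right_cancel₀ ((hg₂u.map s.proj₀).map j).ne_zero ?_
    rw [hB₀, mul_assoc]
  have R₁ : φ (ζ ^ c) = z₁ * zm ^ (q - 1) * φ (ζ ^ e₂) :=
    (AdjoinRoot.of t.quo).injective
      (mul_right_cancel₀ ((hg₁u.map s.proj₁).map (s.mapE j)).ne_zero hA₁)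
  have S₁ : φ (ζ ^ d) = z₀ * zm ^ (q - 1) * φ (ζ ^ e₄) :=
    (AdjoinRoot.of t.quo).injective
      (mul_right_cancel₀ ((hg₂u.map s.proj₁).map (s.mapE j)).ne_zero hB₁)
  have hφ0 : ∀ i : ℕ, φ (ζ ^ i) ≠ 0 := fun i =>
    (map_ne_zero_iff _ φ.injective).2 (pow_ne_zero _ hζ0)
  have hrel₀ : z₀ ^ q = φ C * (z₁ * zm ^ (q - 1)) := by
    rw [hC, map_div₀, div_mul_eq_mul_div, eq_div_iff (hφ0 e₁), ← R₀, R₁, mul_comm]
  have hrel₁ : z₁ ^ q = φ D * (z₀ * zm ^ (q - 1)) := by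
    rw [hD, map_div₀, div_mul_eq_mul_div, eq_div_iff (hφ0 e₃), ← S₀, S₁, mul_comm]
  have w₀ := pow_sq_sub_one_of_relations (by omega) (hφ0 aₘ) (hφ0 a₀) hrel₀ hrel₁
  have w₁ := pow_sq_sub_one_of_relations (by omega) (hφ0 aₘ) (hφ0 a₁) hrel₁ hrel₀
  rw [← hm] at w₀ w₁
  set k : Fg := ((ζ ^ aₘ) ^ m)⁻¹ with hk
  have hkn : k ^ n = 1 := by
    rw [hk, inv_pow, ← pow_mul, mul_comm m, pow_mul, hroot, one_pow, inv_one]
  have hkz : φ k * zm ^ m = 1 := by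
    rw [hzm, ← map_pow, ← map_mul, hk, inv_mul_cancel₀ (pow_ne_zero _ (pow_ne_zero _ hζ0)),
      map_one]
  refine ⟨Pairs.ofBase _ (κ k) * G ^ m, ?_, ?_⟩
  · rw [mul_pow, ← map_pow, ← map_pow, hkn, map_one, map_one, one_mul, ← pow_mul, mul_comm m,
      pow_mul, hG]
  have hmapG : Pairs.map κ' hκ' (Pairs.ofBase _ (κ k) * G ^ m) =
      Pairs.ofBase _ (φ k) * Gv ^ m := by
    rw [map_mul, Pairs.map_ofBase, map_pow]
    have := RingHom.congr_fun hcomm k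
    simp only [RingHom.comp_apply] at this
    rw [this]
  show Pairs.map κ' hκ' (Pairs.ofBase _ (κ k) * G ^ m) = Pairs.map j rfl Y'
  rw [hmapG]
  refine sub_eq_zero.1 (t.br_injective hΨ hΨd1 ht0 ?_ ?_ ?_)
  · rw [map_sub, map_mul, map_pow t.br₀, ha₀, ← RootSplit.mapE_br₀ s j Y', hY₀,
      map_mul (s.mapE j), map_pow (s.mapE j),
      RootSplit.mapE_of, RootSplit.mapE_br₀, ← hYv, mul_pow,
      show t.br₀ (Pairs.ofBase _ (φ k)) = AdjoinRoot.of t.quo (φ k) by simp [RootSplit.br₀],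
      RingHom.comp_apply (AdjoinRoot.of t.quo) φ,
      ← map_pow (AdjoinRoot.of t.quo), ← mul_assoc, ← map_mul, w₀, hφj, map_mul φ (C ^ q) D, map_pow φ C q,
      show φ k * (φ C ^ q * φ D * zm ^ m) = φ C ^ q * φ D by
        linear_combination (φ C ^ q * φ D) * hkz]
    exact sub_self _
  · rw [map_sub, map_mul, map_pow t.br₁, ha₁, ← RootSplit.mapE_br₁ s j Y', hY₁,
      map_mul (s.mapE j), map_pow (s.mapE j),
      RootSplit.mapE_of, RootSplit.mapE_br₁, ← hYv, mul_pow,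
      show t.br₁ (Pairs.ofBase _ (φ k)) = AdjoinRoot.of t.quo (φ k) by simp [RootSplit.br₁],
      RingHom.comp_apply (AdjoinRoot.of t.quo) φ,
      ← map_pow (AdjoinRoot.of t.quo), ← mul_assoc, ← map_mul, w₁, hφj, map_mul φ (D ^ q) C, map_pow φ D q,
      show φ k * (φ D ^ q * φ C * zm ^ m) = φ D ^ q * φ C by
        linear_combination (φ D ^ q * φ C) * hkz]
    exact sub_self _
  · rw [map_sub, map_mul, map_pow t.brₘ, haₘ, ← RootSplit.mapE'_brₘ s j Y', hYm, map_pow (s.mapE' j),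
      RootSplit.mapE'_brₘ, ← hYv, mul_pow,
      show t.brₘ (Pairs.ofBase _ (φ k)) = AdjoinRoot.of t.G (AdjoinRoot.of t.quo (φ k)) by
        simp [RootSplit.brₘ],
      RingHom.comp_apply (AdjoinRoot.of t.G), RingHom.comp_apply (AdjoinRoot.of t.quo) φ,
      ← map_pow (AdjoinRoot.of t.G), ← map_pow (AdjoinRoot.of t.quo), ← mul_assoc, ← map_mul,
      ← map_mul, hkz, map_one, map_one, one_mul]
    exact sub_self _

end FLTA.Carayol
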