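import Mathlib.RingTheory.AdicCompletion.LocalRing
import Mathlib.RingTheory.AdicCompletion.Noetherian
import Mathlib.RingTheory.AdicCompletion.RingHom
import Mathlib.RingTheory.DiscreteValuationRing.Basic
import Mathlib.RingTheory.Localization.AtPrime.Basic

/-!
# Completions at principal primes

`FLTA.Carayol.HatAt π` is the completion of the localisation of a Noetherian domain at the
prime `(π)`: a complete discrete valuation ring, functorial in the pair `(R, π)`.
-/

set_option autoImplicit false

open IsLocalRing Ideal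

namespace FLTA.Carayol

variable {R : Type*} [CommRing R] (π : R) [hπ : Fact (Prime π)]

instance isPrime_span_of_fact : (span ({π} : Set R)).IsPrime :=
  (span_singleton_prime hπ.out.ne_zero).2 hπ.out

/-- The localisation at `(π)`. -/
abbrev LocAt : Type _ := Localization.AtPrime (span ({π} : Set R))

/-- The completion at `(π)`. -/
abbrev HatAt : Type _ := AdicCompletion (maximalIdeal (LocAt π)) (LocAt π)

/-- The structure map to the completion. -/
noncomputable def toHat : R →+* HatAt π :=
  (algebraMap (LocAt π) (HatAt π)).comp (algebraMap R (LocAt π))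

theorem maximalIdeal_locAt :
    maximalIdeal (LocAt π) = span {algebraMap R (LocAt π) π} := by
  rw [← Localization.AtPrime.map_eq_maximalIdeal, Ideal.map_span, Set.image_singleton]

theorem isUnit_toHat {r : R} (hr : ¬ π ∣ r) : IsUnit (toHat π r) := by
  refine (IsLocalization.map_units (LocAt π)
    (⟨r, ?_⟩ : (span ({π} : Set R)).primeCompl)).map (algebraMap (LocAt π) (HatAt π))
  exact fun h => hr (mem_span_singleton.1 h)

variable [IsNoetherianRing R]

theorem maximalIdeal_hatAt : maximalIdeal (HatAt π) = span {toHat π π} := by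
  refine AdicCompletion.maximalIdeal_eq_map.trans ?_
  refine (congrArg (Ideal.map (algebraMap (LocAt π) (HatAt π))) (maximalIdeal_locAt π)).trans ?_
  rw [Ideal.map_span, Set.image_singleton]
  rfl

theorem toHat_self_mem : toHat π π ∈ maximalIdeal (HatAt π) := by
  rw [maximalIdeal_hatAt]
  exact mem_span_singleton_self _

variable [IsDomain R]

theorem toHat_injective : Function.Injective (toHat π) := by
  have : IsHausdorff (maximalIdeal (LocAt π)) (LocAt π) :=
    IsHausdorff.of_isLocalRing (I := maximalIdeal (LocAt π)) (M := LocAt π)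
      (maximalIdeal.isMaximal _).ne_top
  refine Function.Injective.comp (g := algebraMap (LocAt π) (HatAt π)) ?_
    (IsLocalization.injective (LocAt π)
      (Ideal.primeCompl_le_nonZeroDivisors (span ({π} : Set R))))
  intro a b hab
  rw [AdicCompletion.algebraMap_apply, AdicCompletion.algebraMap_apply] at hab
  exact AdicCompletion.of_injective _ _ hab

omit [IsDomain R] in
theorem exists_eq_unit_mul_pow_hat {y : HatAt π} (hy : y ≠ 0) :
    ∃ (k : ℕ) (u : (HatAt π)ˣ), y = u * toHat π π ^ k := by
  classical
  have hex : ∃ k, y ∉ maximalIdeal (HatAt π) ^ k := by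
    by_contra! hall
    exact hy (IsHausdorff.haus' (I := maximalIdeal (HatAt π)) y fun n => by
      rw [SModEq.zero, smul_eq_mul, Ideal.mul_top]
      exact hall n)
  obtain ⟨n, hn, hmin⟩ : ∃ n, y ∉ maximalIdeal (HatAt π) ^ n ∧
      ∀ k < n, y ∈ maximalIdeal (HatAt π) ^ k :=
    ⟨Nat.find hex, Nat.find_spec hex, fun k hk => not_not.1 (Nat.find_min hex hk)⟩
  match n with
  | 0 => exact absurd (by simp) hn
  | k + 1 =>
    have hk := hmin k (Nat.lt_succ_self k)
    rw [maximalIdeal_hatAt, span_singleton_pow, mem_span_singleton'] at hk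
    obtain ⟨u, rfl⟩ := hk
    have hu : IsUnit u := by
      rw [← notMem_maximalIdeal]
      intro hu
      refine hn ?_
      rw [pow_succ']
      exact Ideal.mul_mem_mul hu (Ideal.pow_mem_pow (toHat_self_mem π) k)
    exact ⟨k, hu.unit, rfl⟩

theorem toHat_self_ne_zero : toHat π π ≠ 0 :=
  (map_ne_zero_iff _ (toHat_injective π)).2 hπ.out.ne_zero

instance isDomain_hatAt : IsDomain (HatAt π) := by
  have : NoZeroDivisors (HatAt π) := ⟨fun {a b} hab => by
    by_contra hcon
    rw [not_or] at hcon
    obtain ⟨i, u, rfl⟩ := exists_eq_unit_mul_pow_hat π hcon.1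
    obtain ⟨j, v, rfl⟩ := exists_eq_unit_mul_pow_hat π hcon.2
    have h0 : (↑(u * v) : HatAt π) * toHat π π ^ (i + j) = 0 := by
      rw [Units.val_mul, ← hab]; ring
    rw [Units.mul_right_eq_zero, ← map_pow, map_eq_zero_iff _ (toHat_injective π)] at h0
    exact hπ.out.ne_zero (eq_zero_of_pow_eq_zero h0)⟩
  exact NoZeroDivisors.to_isDomain _

theorem irreducible_toHat_self : Irreducible (toHat π π) := by
  refine ⟨(mem_maximalIdeal _).1 (toHat_self_mem π), ?_⟩
  intro a b hab
  by_contra hcon
  rw [not_or] at hcon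
  have ha : a ∈ maximalIdeal (HatAt π) := (mem_maximalIdeal _).2 hcon.1
  have hb : b ∈ maximalIdeal (HatAt π) := (mem_maximalIdeal _).2 hcon.2
  rw [maximalIdeal_hatAt, mem_span_singleton'] at ha hb
  obtain ⟨a, rfl⟩ := ha
  obtain ⟨b, rfl⟩ := hb
  have h1 : a * b * toHat π π = 1 := by
    apply mul_right_cancel₀ (toHat_self_ne_zero π)
    rw [one_mul]
    nth_rewrite 3 [hab]
    ring
  exact (mem_maximalIdeal _).1 (toHat_self_mem π) (IsUnit.of_mul_eq_one_right _ h1)

instance isDiscreteValuationRing_hatAt : IsDiscreteValuationRing (HatAt π) :=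
  IsDiscreteValuationRing.ofHasUnitMulPowIrreducibleFactorization
    ⟨toHat π π, irreducible_toHat_self π, fun {y} hy => by
      obtain ⟨k, u, rfl⟩ := exists_eq_unit_mul_pow_hat π hy
      exact ⟨k, ⟨u, mul_comm _ _⟩⟩⟩

omit [IsNoetherianRing R] [IsDomain R] in
/-- Universal property: a map to a complete local ring sending `π` into the maximal ideal and
non-multiples of `π` to units extends to the completion. -/
theorem exists_hat_lift {T : Type*} [CommRing T] [IsLocalRing T]
    [IsAdicComplete (maximalIdeal T) T] (f : R →+* T) (hf : f π ∈ maximalIdeal T)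
    (hu : ∀ r : R, ¬ π ∣ r → IsUnit (f r)) :
    ∃ F : HatAt π →+* T, F.comp (toHat π) = f := by
  let g : LocAt π →+* T := IsLocalization.lift (M := (span ({π} : Set R)).primeCompl) (g := f)
    fun r => hu r fun h => r.2 (mem_span_singleton.2 h)
  have hg : g.comp (algebraMap R (LocAt π)) = f := IsLocalization.lift_comp _
  have hle : ∀ n, maximalIdeal (LocAt π) ^ n ≤ (maximalIdeal T ^ n).comap g := by
    intro n
    refine le_trans (Ideal.pow_right_mono ?_ n) (Ideal.le_comap_pow _ n)
    rw [maximalIdeal_locAt, span_singleton_le_iff_mem, mem_comap, ← RingHom.comp_apply, hg]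
    exact hf
  let lev : ∀ n, HatAt π →+* T ⧸ maximalIdeal T ^ n := fun n =>
    (Ideal.quotientMap _ g (hle n)).comp (AdicCompletion.evalₐ (maximalIdeal (LocAt π)) n)
  have hlev : ∀ {m n : ℕ} (hmn : m ≤ n),
      (Ideal.Quotient.factorPow (maximalIdeal T) hmn).comp (lev n) = lev m := by
    intro m n hmn
    ext x
    obtain ⟨c, rfl⟩ := AdicCompletion.mk_surjective (maximalIdeal (LocAt π)) (LocAt π) x
    have hc : Ideal.Quotient.mk (maximalIdeal (LocAt π) ^ m) (c.val n) =
        Ideal.Quotient.mk (maximalIdeal (LocAt π) ^ m) (c.val m) := by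
      rw [Ideal.Quotient.mk_eq_mk_iff_sub_mem]
      have := (c.property hmn).symm
      rwa [SModEq.sub_mem, smul_eq_mul, Ideal.mul_top] at this
    have e : ∀ k, lev k (AdicCompletion.mk (maximalIdeal (LocAt π)) (LocAt π) c) =
        Ideal.quotientMap _ g (hle k) (Ideal.Quotient.mk _ (c.val k)) := fun k => by
      simp [lev]
    rw [RingHom.comp_apply, e, e, ← hc, Ideal.quotientMap_mk, Ideal.quotientMap_mk,
      Ideal.Quotient.factor_mk]
  refine ⟨IsAdicComplete.liftRingHom (maximalIdeal T) lev hlev, ?_⟩
  refine RingHom.ext fun r => ?_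
  refine (IsHausdorff.eq_iff_smodEq (I := maximalIdeal T)).2 fun n => ?_
  rw [SModEq.sub_mem, smul_eq_mul, Ideal.mul_top, ← Ideal.Quotient.mk_eq_mk_iff_sub_mem,
    RingHom.comp_apply, IsAdicComplete.mk_liftRingHom]
  simp only [lev, toHat, RingHom.comp_apply, RingHom.coe_coe, AdicCompletion.algebraMap_apply,
    Algebra.algebraMap_self, RingHom.id_apply]
  rw [AdicCompletion.evalₐ_of, Ideal.quotientMap_mk]
  exact congrArg _ (RingHom.congr_fun hg r)

end FLTA.Carayol
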