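import Fermat.Agent.Carayol.PairsBase
import Fermat.Prelude.Thm_IsLocalRing_isAdicComplete_of_module_finite
import Mathlib.RingTheory.Polynomial.Eisenstein.Criterion
import Mathlib.RingTheory.DiscreteValuationRing.Basic
import Mathlib.RingTheory.Polynomial.GaussLemma
import Mathlib.RingTheory.Henselian
import Mathlib.LinearAlgebra.Eigenspace.Zero

/-!
# Inert and totally ramified extensions of complete discrete valuation rings
-/

set_option autoImplicit false

open IsLocalRing Ideal Polynomial

namespace FLTA.Carayol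

variable {A : Type*} [CommRing A]

/-- A noetherian local domain whose maximal ideal is generated by a nonzero element. -/
theorem isDiscreteValuationRing_of_maximal_eq_span [IsLocalRing A] [IsNoetherianRing A]
    [IsDomain A] {π : A} (hπ : π ≠ 0) (hm : maximalIdeal A = span {π}) :
    IsDiscreteValuationRing A := by
  have hprime : Prime π := (span_singleton_prime hπ).1 (hm ▸ (maximalIdeal.isMaximal A).isPrime)
  refine IsDiscreteValuationRing.ofHasUnitMulPowIrreducibleFactorization
    ⟨π, hprime.irreducible, fun {x} hx => ?_⟩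
  obtain ⟨k, c, hc, rfl⟩ := WfDvdMonoid.max_power_factor hx hprime.irreducible
  have hu : IsUnit c := by
    rw [← notMem_maximalIdeal, hm, mem_span_singleton]
    exact hc
  exact ⟨k, hu.unit, rfl⟩

/-- An irreducible monic polynomial over a DVR defines a domain. -/
theorem isDomain_adjoinRoot_of_irreducible [IsDomain A] [UniqueFactorizationMonoid A] {φ : A[X]}
    (h : Irreducible φ) : IsDomain (AdjoinRoot φ) :=
  AdjoinRoot.isDomain_of_prime (UniqueFactorizationMonoid.irreducible_iff_prime.1 h)

/-- Hensel: a unit with residue an `n`-th power is an `n`-th power. -/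
theorem exists_pow_eq_of_residue [IsLocalRing A] [HenselianLocalRing A] {n : ℕ}
    (hn : IsUnit (n : A)) {u : A} (hu : IsUnit u) {c : ResidueField A}
    (hc : c ^ n = residue A u) : ∃ w : A, w ^ n = u := by
  have hn0 : n ≠ 0 := by
    rintro rfl
    rw [Nat.cast_zero] at hn
    exact not_isUnit_zero hn
  obtain ⟨b, rfl⟩ := residue_surjective c
  have hbu : IsUnit b := by
    rw [← notMem_maximalIdeal, ← residue_eq_zero_iff]
    intro h0
    rw [h0, zero_pow hn0] at hc
    exact (hu.map (residue A)).ne_zero hc.symm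
  obtain ⟨w, hw, -⟩ := HenselianLocalRing.is_henselian (Polynomial.X ^ n - Polynomial.C u)
    (Polynomial.monic_X_pow_sub_C u hn0) b
    (by
      rw [Polynomial.eval_sub, Polynomial.eval_pow, Polynomial.eval_X, Polynomial.eval_C,
        ← residue_eq_zero_iff, map_sub, map_pow, hc, sub_self])
    (by
      rw [Polynomial.derivative_sub, Polynomial.derivative_X_pow, Polynomial.derivative_C,
        sub_zero, Polynomial.eval_mul, Polynomial.eval_C, Polynomial.eval_pow,
        Polynomial.eval_X]
      exact hn.mul (hbu.pow _))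
  exact ⟨w, by simpa [Polynomial.IsRoot, sub_eq_zero] using hw⟩

/-- In a free algebra of rank `d`, a scalar plus a nilpotent has norm the `d`-th power. -/
theorem norm_eq_pow_of_isNilpotent_sub {k B : Type*} [Field k] [CommRing B] [Algebra k B]
    [Module.Free k B] [Module.Finite k B] {y : B} {c : k}
    (h : IsNilpotent (y - algebraMap k B c)) :
    Algebra.norm k y = c ^ Module.finrank k B := by
  have hN : IsNilpotent (Algebra.lmul k B (y - algebraMap k B c)) := h.map _
  have hchar := hN.charpoly_eq_X_pow_finrank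
  rw [Algebra.norm_apply]
  have hy : Algebra.lmul k B y = Algebra.lmul k B (y - algebraMap k B c) + c • 1 := by
    refine LinearMap.ext fun z => ?_
    simp [sub_mul, Algebra.smul_def]
  rw [hy]
  set N := Algebra.lmul k B (y - algebraMap k B c) with hNdef
  let b := Module.Free.chooseBasis k B
  classical
  have h1 := congrArg (Polynomial.eval (-c)) (LinearMap.charpoly_toMatrix N b)
  rw [hchar, Matrix.eval_charpoly, eval_pow, eval_X] at h1
  rw [← LinearMap.det_toMatrix b, map_add, map_smul, LinearMap.toMatrix_one]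
  have e : Matrix.scalar _ (-c) - LinearMap.toMatrix b b N =
      -(LinearMap.toMatrix b b N + c • 1) := by
    rw [← Algebra.algebraMap_eq_smul_one, Matrix.algebraMap_eq_diagonal]
    simp [Matrix.scalar_apply, sub_eq_neg_add]
    exact add_comm _ _
  rw [e, Matrix.det_neg, ← Module.finrank_eq_card_chooseBasisIndex, neg_pow c] at h1
  exact mul_left_cancel₀ (pow_ne_zero _ (neg_ne_zero.2 one_ne_zero)) h1

section Common

variable [IsLocalRing A]

theorem finite_adjoinRoot_complete [IsNoetherianRing A] [IsAdicComplete (maximalIdeal A) A]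
    [IsDomain A] {φ : A[X]} (hφ : φ.Monic) (hd : 0 < φ.natDegree)
    [IsLocalRing (AdjoinRoot φ)] :
    IsAdicComplete (maximalIdeal (AdjoinRoot φ)) (AdjoinRoot φ) := by
  have := hφ.finite_adjoinRoot
  have := hφ.free_adjoinRoot
  have : Nontrivial (AdjoinRoot φ) := inferInstance
  have : IsLocalHom (algebraMap A (AdjoinRoot φ)) := RingHom.IsIntegral.isLocalHom
    (algebraMap_isIntegral_iff.2 (Algebra.IsIntegral.of_finite A (AdjoinRoot φ)))
    (FaithfulSMul.algebraMap_injective A (AdjoinRoot φ))
  exact IsLocalRing.isAdicComplete_of_module_finite (𝒪 := A) (T := AdjoinRoot φ)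

theorem maximal_le_comap_of_adjoinRoot {φ : A[X]} (hφ : φ.Monic)
    (M : Ideal (AdjoinRoot φ)) [M.IsMaximal] :
    maximalIdeal A = M.comap (AdjoinRoot.of φ) := by
  have := hφ.finite_adjoinRoot
  have hint : (algebraMap A (AdjoinRoot φ)).IsIntegral :=
    algebraMap_isIntegral_iff.2 (Algebra.IsIntegral.of_finite A (AdjoinRoot φ))
  exact (eq_maximalIdeal
    (Ideal.isMaximal_comap_of_isIntegral_of_isMaximal' _ hint M)).symm

end Common

section Inert

variable [IsLocalRing A] {π : A} {φ : A[X]}

theorem ker_residue_adjoinRoot (hπ : maximalIdeal A = span {π}) (hφ : φ.Monic) :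
    RingHom.ker (AdjoinRoot.map (residue A) φ (φ.map (residue A)) dvd_rfl) =
      span {AdjoinRoot.of φ π} := by
  refine le_antisymm (fun x hx => ?_) ?_
  · obtain ⟨p, rfl⟩ := AdjoinRoot.mk_surjective x
    have hm : AdjoinRoot.map (residue A) φ (φ.map (residue A)) dvd_rfl (AdjoinRoot.mk φ p) =
        AdjoinRoot.mk (φ.map (residue A)) (p.map (residue A)) := by
      rw [AdjoinRoot.map, AdjoinRoot.lift_mk, ← eval₂_map, ← AdjoinRoot.aeval_eq, aeval_def,
        AdjoinRoot.algebraMap_eq]
    rw [RingHom.mem_ker, hm, AdjoinRoot.mk_eq_zero,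
      ← modByMonic_eq_zero_iff_dvd (hφ.map _), ← map_modByMonic _ hφ] at hx
    have hpr : AdjoinRoot.mk φ p = AdjoinRoot.mk φ (p %ₘ φ) := by
      rw [AdjoinRoot.mk_eq_mk, modByMonic_eq_sub_mul_div, sub_sub_cancel]
      exact dvd_mul_right _ _
    rw [hpr, (p %ₘ φ).as_sum_range_C_mul_X_pow, map_sum]
    refine sum_mem fun i _ => ?_
    have hi : (p %ₘ φ).coeff i ∈ maximalIdeal A := by
      rw [← residue_eq_zero_iff, ← coeff_map, hx, coeff_zero]
    rw [hπ, mem_span_singleton] at hi
    obtain ⟨c, hc⟩ := hi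
    rw [hc, map_mul, AdjoinRoot.mk_C, map_mul, mul_assoc]
    exact Ideal.mul_mem_right _ _ (mem_span_singleton_self _)
  · rw [span_singleton_le_iff_mem, RingHom.mem_ker, AdjoinRoot.map_of,
      (residue_eq_zero_iff π).2 (hπ ▸ mem_span_singleton_self π), map_zero]

theorem isMaximal_span_inert (hπ : maximalIdeal A = span {π}) (hφ : φ.Monic)
    (hirr : Irreducible (φ.map (residue A))) :
    (span {AdjoinRoot.of φ π} : Ideal (AdjoinRoot φ)).IsMaximal := by
  have := Fact.mk hirr
  rw [← ker_residue_adjoinRoot hπ hφ]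
  refine RingHom.ker_isMaximal_of_surjective _ fun y => ?_
  obtain ⟨g, rfl⟩ := AdjoinRoot.mk_surjective y
  obtain ⟨p, rfl⟩ := Polynomial.map_surjective _ residue_surjective g
  refine ⟨AdjoinRoot.mk φ p, ?_⟩
  rw [AdjoinRoot.map, AdjoinRoot.lift_mk, ← eval₂_map, ← AdjoinRoot.aeval_eq, aeval_def,
    AdjoinRoot.algebraMap_eq]

theorem isLocalRing_inert (hπ : maximalIdeal A = span {π}) (hφ : φ.Monic)
    (hirr : Irreducible (φ.map (residue A))) : IsLocalRing (AdjoinRoot φ) := by
  refine IsLocalRing.of_unique_max_ideal ⟨_, isMaximal_span_inert hπ hφ hirr, fun M hM => ?_⟩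
  refine ((isMaximal_span_inert hπ hφ hirr).eq_of_le hM.ne_top ?_).symm
  rw [span_singleton_le_iff_mem, ← mem_comap, ← maximal_le_comap_of_adjoinRoot hφ M, hπ]
  exact mem_span_singleton_self _

theorem maximalIdeal_inert (hπ : maximalIdeal A = span {π}) (hφ : φ.Monic)
    (hirr : Irreducible (φ.map (residue A))) [IsLocalRing (AdjoinRoot φ)] :
    maximalIdeal (AdjoinRoot φ) = span {AdjoinRoot.of φ π} :=
  (eq_maximalIdeal (isMaximal_span_inert hπ hφ hirr)).symm

theorem isDiscreteValuationRing_inert [IsDomain A] [IsDiscreteValuationRing A]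
    (hπ : maximalIdeal A = span {π}) (hφ : φ.Monic)
    (hirr : Irreducible (φ.map (residue A))) [IsDomain (AdjoinRoot φ)]
    [IsLocalRing (AdjoinRoot φ)] : IsDiscreteValuationRing (AdjoinRoot φ) := by
  have := hφ.finite_adjoinRoot
  have := hφ.free_adjoinRoot
  have : IsNoetherianRing (AdjoinRoot φ) := IsNoetherianRing.of_finite A _
  refine isDiscreteValuationRing_of_maximal_eq_span ?_ (maximalIdeal_inert hπ hφ hirr)
  rw [← AdjoinRoot.algebraMap_eq,
    map_ne_zero_iff _ (FaithfulSMul.algebraMap_injective A (AdjoinRoot φ))]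
  rintro rfl
  rw [Ideal.span_singleton_zero] at hπ
  exact IsDiscreteValuationRing.not_a_field A hπ

end Inert

/-- Eisenstein conditions after translating the root to `a`. -/
structure IsShiftEis [IsLocalRing A] (π : A) (φ : A[X]) (a : A) : Prop where
  max_eq : maximalIdeal A = span {π}
  monic : φ.Monic
  natDegree_pos : 0 < φ.natDegree
  coeff_mem : ∀ i < φ.natDegree, (φ.comp (X + C a)).coeff i ∈ maximalIdeal A
  eval_eq : ∃ u, IsUnit u ∧ φ.eval a = π * u

namespace IsShiftEis

variable [IsLocalRing A] {π a : A} {φ : A[X]}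

theorem irreducible [IsDomain A] (h : IsShiftEis π φ a) (hπ : π ≠ 0) : Irreducible φ := by
  have key : Irreducible (φ.comp (X + C a)) := by
    have hdeg : (φ.comp (X + C a)).natDegree = φ.natDegree := by
      rw [← taylor_apply, natDegree_taylor]
    have hm := h.monic.comp_X_add_C a
    refine irreducible_of_eisenstein_criterion (maximalIdeal.isMaximal A).isPrime ?_ ?_ ?_ ?_
      hm.isPrimitive
    · rw [hm.leadingCoeff]
      exact fun h1 => (maximalIdeal.isMaximal A).ne_top ((Ideal.eq_top_iff_one _).2 h1)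
    · intro i hi
      refine h.coeff_mem i ?_
      rw [degree_eq_natDegree hm.ne_zero, hdeg] at hi
      exact_mod_cast hi
    · rw [degree_eq_natDegree hm.ne_zero, hdeg]
      exact_mod_cast h.natDegree_pos
    · obtain ⟨u, hu, hue⟩ := h.eval_eq
      intro h0
      rw [← taylor_apply, taylor_coeff_zero, hue, h.max_eq, span_singleton_pow,
        mem_span_singleton, pow_two, mul_dvd_mul_iff_left hπ] at h0
      have hunit : IsUnit π := isUnit_of_dvd_unit h0 hu
      exact (maximalIdeal.isMaximal A).ne_top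
        (h.max_eq.trans (span_singleton_eq_top.2 hunit))
  have e : φ.comp (X + C a) = taylorEquiv a φ := rfl
  rwa [e, MulEquiv.irreducible_iff] at key

theorem pow_mem (h : IsShiftEis π φ a) :
    (AdjoinRoot.root φ - AdjoinRoot.of φ a) ^ φ.natDegree ∈ span {AdjoinRoot.of φ π} := by
  have hdeg : (φ.comp (X + C a)).natDegree = φ.natDegree := by
    rw [← taylor_apply, natDegree_taylor]
  have e : ((φ.comp (X + C a)).eval₂ (AdjoinRoot.of φ)
      (AdjoinRoot.root φ - AdjoinRoot.of φ a)) = 0 := by
    rw [eval₂_comp, eval₂_add, eval₂_X, eval₂_C, sub_add_cancel, AdjoinRoot.eval₂_root]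
  rw [eval₂_eq_sum_range, hdeg, Finset.sum_range_succ] at e
  have hlead : (φ.comp (X + C a)).coeff φ.natDegree = 1 := by
    rw [← hdeg]; exact (h.monic.comp_X_add_C a).coeff_natDegree
  rw [hlead, map_one, one_mul] at e
  rw [eq_neg_of_add_eq_zero_right e]
  refine neg_mem (sum_mem fun i hi => ?_)
  have := h.coeff_mem i (Finset.mem_range.1 hi)
  rw [h.max_eq, mem_span_singleton] at this
  obtain ⟨c, hc⟩ := this
  rw [hc, map_mul, mul_assoc]
  exact Ideal.mul_mem_right _ _ (mem_span_singleton_self _)

theorem of_mem_span (h : IsShiftEis π φ a) :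
    AdjoinRoot.of φ π ∈ span {AdjoinRoot.root φ - AdjoinRoot.of φ a} := by
  obtain ⟨u, hu, hue⟩ := h.eval_eq
  rw [mem_span_singleton, ← (hu.map (AdjoinRoot.of φ)).dvd_mul_right, ← map_mul, ← hue]
  have h1 : (X - C (AdjoinRoot.of φ a)) ∣
      φ.map (AdjoinRoot.of φ) - C (AdjoinRoot.of φ (φ.eval a)) := by
    rw [dvd_iff_isRoot, IsRoot, eval_sub, eval_C, eval_map, eval₂_at_apply, sub_self]
  have h2 := Polynomial.eval_dvd (x := AdjoinRoot.root φ) h1
  rwa [eval_sub, eval_sub, eval_X, eval_C, eval_C, eval_map, AdjoinRoot.eval₂_root, zero_sub,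
    dvd_neg] at h2

theorem isMaximal_span (h : IsShiftEis π φ a) :
    (span {AdjoinRoot.root φ - AdjoinRoot.of φ a} : Ideal (AdjoinRoot φ)).IsMaximal := by
  have h0 : φ.eval₂ (residue A) (residue A a) = 0 := by
    obtain ⟨u, -, hue⟩ := h.eval_eq
    rw [eval₂_at_apply, hue, map_mul,
      (residue_eq_zero_iff π).2 (h.max_eq ▸ mem_span_singleton_self π), zero_mul]
  set f := AdjoinRoot.lift (residue A) (residue A a) h0 with hf
  have hsurj : Function.Surjective f := fun c => by
    obtain ⟨r, rfl⟩ := residue_surjective c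
    exact ⟨AdjoinRoot.of φ r, by rw [hf, AdjoinRoot.lift_of]⟩
  have hker : RingHom.ker f = span {AdjoinRoot.root φ - AdjoinRoot.of φ a} := by
    refine le_antisymm (fun x hx => ?_) ?_
    · obtain ⟨p, rfl⟩ := AdjoinRoot.mk_surjective x
      rw [RingHom.mem_ker, hf, AdjoinRoot.lift_mk, eval₂_at_apply, residue_eq_zero_iff,
        h.max_eq, mem_span_singleton] at hx
      obtain ⟨c, hc⟩ := hx
      have e : AdjoinRoot.mk φ p =
          AdjoinRoot.mk φ (p - C (p.eval a)) + AdjoinRoot.of φ π * AdjoinRoot.of φ c := by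
        rw [map_sub, AdjoinRoot.mk_C, hc, map_mul, sub_add_cancel]
      rw [e]
      refine add_mem ?_ (Ideal.mul_mem_right _ _ h.of_mem_span)
      obtain ⟨w, hw⟩ : X - C a ∣ p - C (p.eval a) := by
        rw [dvd_iff_isRoot, IsRoot, eval_sub, eval_C, sub_self]
      rw [hw, map_mul, map_sub, AdjoinRoot.mk_X, AdjoinRoot.mk_C]
      exact Ideal.mul_mem_right _ _ (mem_span_singleton_self _)
    · rw [span_singleton_le_iff_mem, RingHom.mem_ker, map_sub, hf, AdjoinRoot.lift_root,
        AdjoinRoot.lift_of, sub_self]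
  rw [← hker]
  exact RingHom.ker_isMaximal_of_surjective f hsurj

theorem isLocalRing (h : IsShiftEis π φ a) : IsLocalRing (AdjoinRoot φ) := by
  refine IsLocalRing.of_unique_max_ideal ⟨_, h.isMaximal_span, fun M hM => ?_⟩
  refine (h.isMaximal_span.eq_of_le hM.ne_top ?_).symm
  rw [span_singleton_le_iff_mem]
  refine hM.isPrime.mem_of_pow_mem φ.natDegree ?_
  refine (span_singleton_le_iff_mem _).2 ?_ h.pow_mem
  rw [← mem_comap, ← maximal_le_comap_of_adjoinRoot h.monic M, h.max_eq]
  exact mem_span_singleton_self _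

theorem maximalIdeal_eq (h : IsShiftEis π φ a) [IsLocalRing (AdjoinRoot φ)] :
    maximalIdeal (AdjoinRoot φ) = span {AdjoinRoot.root φ - AdjoinRoot.of φ a} :=
  (eq_maximalIdeal h.isMaximal_span).symm

theorem isDiscreteValuationRing [IsDomain A] [IsDiscreteValuationRing A] (h : IsShiftEis π φ a)
    [IsDomain (AdjoinRoot φ)] [IsLocalRing (AdjoinRoot φ)] :
    IsDiscreteValuationRing (AdjoinRoot φ) := by
  have := h.monic.finite_adjoinRoot
  have := h.monic.free_adjoinRoot
  have : IsNoetherianRing (AdjoinRoot φ) := IsNoetherianRing.of_finite A _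
  refine isDiscreteValuationRing_of_maximal_eq_span ?_ h.maximalIdeal_eq
  intro h0
  obtain ⟨u, hu, hue⟩ := h.eval_eq
  have hpi : π = 0 := by
    have h1 := h.of_mem_span
    rw [h0, Ideal.span_singleton_zero, Ideal.mem_bot, ← AdjoinRoot.algebraMap_eq,
      map_eq_zero_iff _ (FaithfulSMul.algebraMap_injective A (AdjoinRoot φ))] at h1
    exact h1
  exact IsDiscreteValuationRing.not_a_field A
    (by rw [h.max_eq, hpi, Ideal.span_singleton_zero])

end IsShiftEis

end FLTA.Carayol
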