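import Fermat.Agent.Carayol.InertiaValue
import Fermat.Agent.Carayol.Completion
import Fermat.Agent.Carayol.DVRExt
import Fermat.Agent.Smooth.LocalizedBase
import Mathlib.FieldTheory.Galois.Basic

/-!
# The constants: the completion of the inertia field
-/

set_option autoImplicit false
set_option maxHeartbeats 600000

noncomputable section

open IsLocalRing Polynomial

namespace FLTA.Carayol.Bridge

local notation "Qbar" => AlgebraicClosure ℚ

/-- The fixed field of the inertia group of `A`. -/
def inertiaField (A : ValuationSubring Qbar) : IntermediateField ℚ Qbar :=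
  IntermediateField.fixedField (A.inertiaSubgroupIn ℚ)

theorem mem_inertiaField {A : ValuationSubring Qbar} {x : Qbar} :
    x ∈ inertiaField A ↔ ∀ σ ∈ A.inertiaSubgroupIn ℚ, σ x = x :=
  IntermediateField.mem_fixedField_iff _ x

open FLTA.Galois

/-- Residues lift to roots of unity, which are fixed by inertia. -/
theorem exists_fixed_residue {q : ℕ} (hq : q.Prime) {A : ValuationSubring Qbar}
    (hA : A.LiesOverPrime q) (a : A) :
    ∃ z : A, (z : Qbar) ∈ inertiaField A ∧ residue A z = residue A a := by
  obtain ⟨k, hk, hx⟩ := exists_pow_card_eq_self hq hA (residue A a)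
  rcases eq_or_ne (residue A a) 0 with h0 | h0
  · exact ⟨0, zero_mem _, by rw [map_zero, h0]⟩
  have := charP_residueField hq hA
  set n := q ^ k - 1 with hn
  have hnk : n + 1 = q ^ k := Nat.sub_add_cancel (Nat.one_le_pow _ _ hq.pos)
  have hnq : ¬ q ∣ n := fun h => hq.one_lt.ne' (Nat.dvd_one.mp
    ((Nat.dvd_add_right h).mp (hnk ▸ dvd_pow_self q hk.ne')))
  have hn0 : 0 < n := Nat.pos_of_ne_zero fun h => hnq (h ▸ dvd_zero q)
  have hxn : residue A a ^ n = 1 := by
    rw [← hnk, pow_succ] at hx
    exact mul_right_cancel₀ h0 (hx.trans (one_mul _).symm)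
  have : NeZero n := ⟨hn0.ne'⟩
  obtain ⟨ζ, hζ⟩ := HasEnoughRootsOfUnity.exists_primitiveRoot Qbar n
  have hζA : ζ ∈ A := mem_of_isIntegral (hζ.isIntegral hn0)
  have hnres : (n : ResidueField A) ≠ 0 := fun h => hnq ((CharP.cast_eq_zero_iff _ q n).mp h)
  have key : ∀ w : A, w ^ n = 1 → residue A w = 1 → w = 1 := by
    intro w hw hw1
    by_contra hne
    have h : (∑ i ∈ Finset.range n, w ^ i) * (w - 1) = 0 := by rw [geom_sum_mul, hw, sub_self]
    have h1 := congrArg (residue A) ((mul_eq_zero.mp h).resolve_right (sub_ne_zero.mpr hne))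
    simp [map_sum, hw1] at h1
    exact hnres h1
  have hζp : IsPrimitiveRoot (⟨ζ, hζA⟩ : A) n :=
    IsPrimitiveRoot.of_map_of_injective (f := A.subtype) hζ Subtype.val_injective
  have hζr : IsPrimitiveRoot (residue A ⟨ζ, hζA⟩) n := by
    refine ⟨by rw [← map_pow, hζp.pow_eq_one, map_one], fun l hl => ?_⟩
    refine hζp.dvd_of_pow_eq_one l (key _ ?_ (by rw [map_pow, hl]))
    rw [← pow_mul, mul_comm, pow_mul, hζp.pow_eq_one, one_pow]
  obtain ⟨i, -, hi⟩ := hζr.eq_pow_of_pow_eq_one hxn
  refine ⟨⟨ζ, hζA⟩ ^ i, mem_inertiaField.mpr fun σ hσ => ?_, by rw [map_pow, hi]⟩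
  obtain ⟨hdec, hin⟩ := mem_inertiaSubgroupIn_iff.mp hσ
  let w : A := ⟨ζ, hζA⟩ ^ i
  have hwn : w ^ n = 1 := by rw [← pow_mul, mul_comm, pow_mul, hζp.pow_eq_one, one_pow]
  let σw : A := ⟨σ w, apply_mem_of_mem_decompositionSubgroup hdec w.2⟩
  have hwu : IsUnit w := IsUnit.of_pow_eq_one hwn hn0.ne'
  obtain ⟨u, hu⟩ := hwu.exists_right_inv
  have hσn : σw ^ n = 1 := Subtype.ext (by
    show σ (w : Qbar) ^ n = 1
    rw [← map_pow, show ((w : Qbar)) ^ n = ((w ^ n : A) : Qbar) from rfl, hwn]
    exact map_one σ)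
  have hσr : residue A σw = residue A w := by
    rw [← sub_eq_zero, ← map_sub, residue_eq_zero_iff_mem_nonunits]
    exact hin _ w.2
  have hun : u ^ n = 1 := by rw [← one_mul (u ^ n), ← hwn, ← mul_pow, hu, one_pow, hwn]
  have h1 : σw * u = 1 := key _ (by rw [mul_pow, hσn, hun, one_mul])
    (by rw [map_mul, hσr, ← map_mul, hu, map_one])
  have h2 : σw = w := by
    calc σw = σw * (w * u) := by rw [hu, mul_one]
      _ = w * (σw * u) := by ring
      _ = w := by rw [h1, mul_one]
  exact congrArg Subtype.val h2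

/-- A complete discrete valuation ring with uniformiser `q` and the residue field of `A`, whose
fractions contain the inertia field, compatibly with the integers and the residues. -/
theorem exists_constants_residue {q : ℕ} [Fact q.Prime] {A : ValuationSubring Qbar}
    (hA : A.LiesOverPrime q) :
    ∃ (W : Type) (_ : CommRing W) (_ : IsDomain W) (_ : IsDiscreteValuationRing W) (_ : CharZero W)
      (_ : IsAdicComplete (maximalIdeal W) W) (_ : IsAlgClosed (ResidueField W))
      (_ : Fact (Prime (C (q : W) : W[X]))) (_π : Smooth.Zloc q →+* W)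
      (ι : inertiaField A →+* FractionRing W)
      (j : A.comap (inertiaField A).val.toRingHom →+* W) (r : W →+* ResidueField A),
      maximalIdeal W = Ideal.span {(q : W)} ∧ Function.Injective j ∧
      (∀ x : A.comap (inertiaField A).val.toRingHom,
        ι (x : inertiaField A) = algebraMap W (FractionRing W) (j x)) ∧
      RingHom.ker r = maximalIdeal W ∧
      ∀ x : A.comap (inertiaField A).val.toRingHom,
        r (j x) = residue A ⟨((x : inertiaField A) : Qbar), x.2⟩ := by
  have hq : q.Prime := Fact.out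
  let K0 := inertiaField A
  let g : K0 →+* Qbar := K0.val.toRingHom
  let R0 : ValuationSubring K0 := A.comap g
  let j : R0 →+* A := (g.comp R0.subtype).codRestrict A.toSubring fun x => x.2
  have hcharK : CharZero K0 := charZero_of_injective_ringHom (f := algebraMap ℚ K0)
    (RingHom.injective _)
  have hvq : A.valuation (q : Qbar) < 1 := (show A.valuation (q : Qbar) < 1 from hA)
  have hq0 : (q : Qbar) ≠ 0 := Nat.cast_ne_zero.mpr hq.ne_zero
  have hvq0 : A.valuation (q : Qbar) ≠ 0 := A.valuation.ne_zero_iff.mpr hq0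
  -- `R0` is a discrete valuation ring
  have hunit : ∀ x : R0, A.valuation (g x) = 1 → IsUnit x := by
    intro x hx
    have hx0 : (x : K0) ≠ 0 := fun h => by simp [h] at hx
    refine IsUnit.of_mul_eq_one ⟨(x : K0)⁻¹, ?_⟩ (Subtype.ext (mul_inv_cancel₀ hx0))
    show g ((x : K0)⁻¹) ∈ A
    rw [← A.valuation_le_one_iff, map_inv₀, map_inv₀, hx, inv_one]
  have hqR : (q : R0) ≠ 0 := fun h => Nat.cast_ne_zero.mpr hq.ne_zero
    (show (q : K0) = 0 by rw [← map_natCast R0.subtype, h, map_zero])
  have hgq : g ((q : R0) : K0) = (q : Qbar) := map_natCast (g.comp R0.subtype) q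
  have hfac : ∀ {x : R0}, x ≠ 0 → ∃ n : ℕ, Associated ((q : R0) ^ n) x := by
    intro x hx
    have hx0 : g x ≠ 0 := (_root_.map_ne_zero g).mpr fun h => hx (Subtype.ext h)
    obtain ⟨i, hi⟩ := exists_zpow_of_inertia_fixed hq hA hx0
      (fun σ hσ => mem_inertiaField.mp (x : K0).2 σ hσ)
    have hi0 : 0 ≤ i := by
      by_contra hc
      have h1 : A.valuation (g x) ≤ 1 := (A.valuation_le_one_iff _).mpr x.2
      rw [hi] at h1
      exact not_lt.mpr h1 (one_lt_zpow_of_neg₀ (zero_lt_iff.mpr hvq0) hvq (by omega))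
    obtain ⟨n, rfl⟩ := Int.eq_ofNat_of_zero_le hi0
    have hqn : ((q : R0) : K0) ^ n ≠ 0 := pow_ne_zero _ fun h => hqR (Subtype.ext h)
    have hv : A.valuation (g ((x : K0) / ((q : R0) : K0) ^ n)) = 1 := by
      rw [map_div₀, map_div₀, map_pow, map_pow, hgq, hi, zpow_natCast,
        div_self (pow_ne_zero _ hvq0)]
    let u : R0 := ⟨_, show g ((x : K0) / ((q : R0) : K0) ^ n) ∈ A from
      (A.valuation_le_one_iff _).mp hv.le⟩
    refine ⟨n, (hunit u hv).unit, Subtype.ext ?_⟩
    show ((q : R0) : K0) ^ n * ((x : K0) / ((q : R0) : K0) ^ n) = x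
    exact mul_div_cancel₀ _ hqn
  have hqirr : Irreducible (q : R0) := by
    refine ⟨fun h => ?_, fun a b hab => ?_⟩
    · have h1 := (h.map j)
      rw [map_natCast, ← notMem_maximalIdeal] at h1
      exact h1 ((residue_eq_zero_iff _).mp ((residue_eq_zero_iff_mem_nonunits _).mpr (by
        simpa [ValuationSubring.LiesOverPrime] using hA)))
    · have ha : a ≠ 0 := fun h => hqR (by rw [hab, h, zero_mul])
      have hb : b ≠ 0 := fun h => hqR (by rw [hab, h, mul_zero])
      obtain ⟨i, u, hu⟩ := hfac ha
      obtain ⟨k, v, hv⟩ := hfac hb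
      rcases Nat.eq_zero_or_pos i with rfl | hi
      · exact Or.inl ⟨u, by rw [← hu, pow_zero, one_mul]⟩
      rcases Nat.eq_zero_or_pos k with rfl | hk
      · exact Or.inr ⟨v, by rw [← hv, pow_zero, one_mul]⟩
      exfalso
      have h1 := congrArg (fun y : R0 => A.valuation (g y)) hab
      simp only [← hu, ← hv, SubmonoidClass.coe_pow, MulMemClass.coe_mul,
        map_mul, map_pow, hgq] at h1
      rw [show A.valuation (g ((u : R0) : K0)) = 1 from le_antisymm
          ((A.valuation_le_one_iff _).mpr (u : R0).2) (by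
            have h2 := congrArg (fun y : R0 => A.valuation (g y)) u.mul_inv
            simp only [MulMemClass.coe_mul, map_mul, OneMemClass.coe_one, map_one] at h2
            rw [← h2]
            exact mul_le_of_le_one_right' ((A.valuation_le_one_iff _).mpr (↑u⁻¹ : R0).2)),
        show A.valuation (g ((v : R0) : K0)) = 1 from le_antisymm
          ((A.valuation_le_one_iff _).mpr (v : R0).2) (by
            have h2 := congrArg (fun y : R0 => A.valuation (g y)) v.mul_inv
            simp only [MulMemClass.coe_mul, map_mul, OneMemClass.coe_one, map_one] at h2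
            rw [← h2]
            exact mul_le_of_le_one_right' ((A.valuation_le_one_iff _).mpr (↑v⁻¹ : R0).2)),
        mul_one, mul_one, ← pow_add] at h1
      have h3 : A.valuation (q : Qbar) ^ (i + k) ≤ A.valuation (q : Qbar) ^ 2 :=
        pow_le_pow_right_of_le_one' hvq.le (by omega)
      rw [← h1, sq] at h3
      exact not_le.mpr hvq (le_of_mul_le_mul_left (by rwa [mul_one]) (zero_lt_iff.mpr hvq0))
  have : IsDiscreteValuationRing R0 :=
    IsDiscreteValuationRing.ofHasUnitMulPowIrreducibleFactorization ⟨(q : R0), hqirr, hfac⟩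
  have := Fact.mk hqirr.prime
  -- residues
  have hk : IsAlgClosed (ResidueField A) := isAlgClosed_residueField A
  let r : R0 →+* ResidueField A := (residue A).comp j
  have hr : Function.Surjective r := by
    intro x
    obtain ⟨a, rfl⟩ := residue_surjective x
    obtain ⟨z, hz, hza⟩ := exists_fixed_residue hq hA a
    exact ⟨⟨⟨z, hz⟩, z.2⟩, hza⟩
  have : IsAdicComplete (maximalIdeal (ResidueField A)) (ResidueField A) := by
    rw [maximalIdeal_eq_bot]
    infer_instance
  have hr0 : r (q : R0) = 0 := by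
    rw [map_natCast, ← map_natCast (residue A), residue_eq_zero_iff_mem_nonunits]
    simpa [ValuationSubring.LiesOverPrime] using hA
  have hru : ∀ x : R0, ¬ (q : R0) ∣ x → IsUnit (r x) := by
    intro x hx
    have hx0 : x ≠ 0 := fun h => hx (h ▸ dvd_zero _)
    obtain ⟨n, u, rfl⟩ := hfac hx0
    rcases Nat.eq_zero_or_pos n with rfl | hn
    · rw [pow_zero, one_mul]
      exact u.isUnit.map r
    · exact absurd ((dvd_pow_self _ hn.ne').mul_right _) hx
  obtain ⟨F, hF⟩ := exists_hat_lift (q : R0) r (by rw [hr0]; exact zero_mem _) hru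
  have hcast : toHat (q : R0) (q : R0) = (q : HatAt (q : R0)) := map_natCast _ q
  have hmax : maximalIdeal (HatAt (q : R0)) = Ideal.span {(q : HatAt (q : R0))} :=
    (maximalIdeal_hatAt _).trans (congrArg (fun a => Ideal.span {a}) hcast)
  have : IsLocalHom F := ⟨fun a ha => by
    by_contra hna
    have ha' : a ∈ maximalIdeal _ := hna
    rw [hmax, Ideal.mem_span_singleton] at ha'
    obtain ⟨c, rfl⟩ := ha'
    rw [map_mul, map_natCast, ← map_natCast r, hr0, zero_mul] at ha
    exact not_isUnit_zero ha⟩
  have hFr : Function.Surjective (ResidueField.lift F) := by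
    intro x
    obtain ⟨y, rfl⟩ := hr x
    exact ⟨residue _ (toHat (q : R0) y), by
      rw [ResidueField.lift_residue_apply, ← RingHom.comp_apply, hF]⟩
  have hac : IsAlgClosed (ResidueField (HatAt (q : R0))) :=
    IsAlgClosed.of_ringEquiv _ _
      (RingEquiv.ofBijective _ ⟨RingHom.injective _, hFr⟩).symm
  have hchar : CharZero (HatAt (q : R0)) := by
    refine ⟨fun a b h => ?_⟩
    refine Nat.cast_injective (R := R0) (toHat_injective (q : R0) ?_)
    exact (map_natCast _ a).trans (h.trans (map_natCast _ b).symm)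
  have hprime : Fact (Prime (C (q : HatAt (q : R0)))) :=
    ⟨prime_C_iff.mpr (hcast ▸ (irreducible_toHat_self (q : R0)).prime)⟩
  let π₀ : Smooth.Zloc q →+* R0 :=
    ((algebraMap ℚ K0).comp (GaloisRep.ratLocalizedAt q).subtype).codRestrict R0.toSubring
      fun x => by
        show g (algebraMap ℚ K0 (x : ℚ)) ∈ A
        rw [eq_ratCast, map_ratCast, Rat.cast_def, div_eq_mul_inv]
        refine mul_mem (intCast_mem A.toSubring _) ((A.valuation_le_one_iff _).mp ?_)
        rw [map_inv₀, show A.valuation (((x : ℚ).den : Qbar)) = 1 from ?_, inv_one]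
        refine le_antisymm ((A.valuation_le_one_iff _).mpr (natCast_mem A.toSubring _))
          (not_lt.mp fun h => hq.one_lt.ne' ?_)
        exact Nat.eq_one_of_dvd_coprimes x.2
          ((natCast_mem_nonunits_iff hq hA _).mp (show _ ∈ A.nonunits from h)) dvd_rfl
  have hinj : Function.Injective
      ((algebraMap (HatAt (q : R0)) (FractionRing (HatAt (q : R0)))).comp (toHat (q : R0))) :=
    (IsFractionRing.injective (HatAt (q : R0)) _).comp (toHat_injective (q : R0))
  refine ⟨HatAt (q : R0), inferInstance, inferInstance, inferInstance, hchar, inferInstance, hac,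
    hprime, (toHat (q : R0)).comp π₀, IsFractionRing.lift (K := K0) hinj, toHat (q : R0), F, hmax,
    toHat_injective (q : R0), fun x => IsFractionRing.lift_algebraMap (K := K0) hinj x, ?_,
    fun x => (RingHom.congr_fun hF x).trans rfl⟩
  ext x
  rw [RingHom.mem_ker]
  refine ⟨fun hx => ?_, fun hx => ?_⟩
  · by_contra hnx
    exact ((IsLocalRing.notMem_maximalIdeal.mp hnx).map F).ne_zero hx
  · rw [hmax, Ideal.mem_span_singleton] at hx
    obtain ⟨c, rfl⟩ := hx
    rw [map_mul, map_natCast, ← map_natCast r, hr0, zero_mul]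

/-- A complete discrete valuation ring with uniformiser `q` and algebraically closed residue
field, whose fractions contain the inertia field. -/
theorem exists_constants {q : ℕ} [Fact q.Prime] {A : ValuationSubring Qbar}
    (hA : A.LiesOverPrime q) :
    ∃ (W : Type) (_ : CommRing W) (_ : IsDomain W) (_ : IsDiscreteValuationRing W) (_ : CharZero W)
      (_ : IsAdicComplete (maximalIdeal W) W) (_ : IsAlgClosed (ResidueField W))
      (_ : Fact (Prime (C (q : W) : W[X]))) (_π : Smooth.Zloc q →+* W)
      (_ι : inertiaField A →+* FractionRing W), maximalIdeal W = Ideal.span {(q : W)} := by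
  obtain ⟨W, i₁, i₂, i₃, i₄, i₅, i₆, i₇, π, ι, -, -, hW, -⟩ := exists_constants_residue hA
  exact ⟨W, i₁, i₂, i₃, i₄, i₅, i₆, i₇, π, ι, hW⟩

end FLTA.Carayol.Bridge
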