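import Fermat.Agent.Curves.RRBaseChange
import Fermat.Agent.Curves.RRPoleDegree
import Mathlib.FieldTheory.PrimitiveElement
import Mathlib.FieldTheory.Minpoly.Field
import Mathlib.Algebra.Polynomial.Lifts

/-!
# Extensions of the constants are unramified

A place extends, with the same orders, to the field generated by separable algebraic constants.
-/

set_option autoImplicit false

noncomputable section

open AlgebraicCurve IntermediateField IsLocalRing Polynomial

namespace FLTA.Carayol.Bridge

section Primitive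

variable {K 𝕜 : Type*} [Field K] [Field 𝕜] [Algebra K 𝕜] [Algebra.IsSeparable K 𝕜]

theorem exists_common_primitive (a b : 𝕜) :
    ∃ c : 𝕜, (∃ p : K[X], aeval c p = a) ∧ ∃ p : K[X], aeval c p = b := by
  have : FiniteDimensional K (IntermediateField.adjoin K ({a, b} : Set 𝕜)) :=
    IntermediateField.finiteDimensional_adjoin fun x _ => Algebra.IsIntegral.isIntegral x
  obtain ⟨c, hc⟩ := Field.exists_primitive_element K (IntermediateField.adjoin K ({a, b} : Set 𝕜))
  have key : ∀ x ∈ IntermediateField.adjoin K ({a, b} : Set 𝕜),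
      ∃ p : K[X], aeval (c : 𝕜) p = x := by
    intro x hx
    have h1 : (⟨x, hx⟩ : IntermediateField.adjoin K ({a, b} : Set 𝕜)) ∈ (K⟮c⟯).toSubalgebra := by
      rw [hc]; exact IntermediateField.mem_top
    rw [IntermediateField.adjoin_simple_toSubalgebra_of_isAlgebraic
      (Algebra.IsAlgebraic.isAlgebraic c), Algebra.adjoin_singleton_eq_range_aeval,
      AlgHom.mem_range] at h1
    obtain ⟨p, hp⟩ := h1
    refine ⟨p, ?_⟩
    have h2 := congrArg (IntermediateField.adjoin K ({a, b} : Set 𝕜)).val hp
    rwa [← aeval_algHom_apply, IntermediateField.coe_val] at h2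
  exact ⟨(c : 𝕜), key a (IntermediateField.subset_adjoin K _ (by simp)),
    key b (IntermediateField.subset_adjoin K _ (by simp))⟩

variable {F L : Type*} [Field F] [Field L] [Algebra K F] [Algebra 𝕜 L] [Algebra F L]
  (hcomm : ∀ k : K, algebraMap F L (algebraMap K F k) = algebraMap 𝕜 L (algebraMap K 𝕜 k))
include hcomm

theorem isIntegral_algebraMap_const (c : 𝕜) : IsIntegral F (algebraMap 𝕜 L c) := by
  refine ⟨(minpoly K c).map (algebraMap K F), (minpoly.monic (Algebra.IsIntegral.isIntegral c)).map _,
    ?_⟩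
  rw [eval₂_map, show (algebraMap F L).comp (algebraMap K F) =
    (algebraMap 𝕜 L).comp (algebraMap K 𝕜) from RingHom.ext hcomm, ← hom_eval₂,
    ← aeval_def, minpoly.aeval, map_zero]

theorem exists_poly_of_mem_closure {x : L}
    (hx : x ∈ Subfield.closure (Set.range (algebraMap F L) ∪ Set.range (algebraMap 𝕜 L))) :
    ∃ (θ : 𝕜) (p : F[X]), aeval (algebraMap 𝕜 L θ) p = x := by
  have hmono : ∀ {a c : 𝕜}, (∃ p : K[X], aeval c p = a) →
      F⟮algebraMap 𝕜 L a⟯ ≤ F⟮algebraMap 𝕜 L c⟯ := by
    rintro a c ⟨p, rfl⟩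
    rw [IntermediateField.adjoin_simple_le_iff, aeval_def, hom_eval₂,
      show (algebraMap 𝕜 L).comp (algebraMap K 𝕜) = (algebraMap F L).comp (algebraMap K F) from
        (RingHom.ext hcomm).symm, ← eval₂_map, ← aeval_def]
    exact algebra_adjoin_le_adjoin F _ (aeval_mem_adjoin_singleton F _)
  obtain ⟨θ, hθ⟩ : ∃ θ : 𝕜, x ∈ F⟮algebraMap 𝕜 L θ⟯ := by
    induction hx using Subfield.closure_induction with
    | mem y hy =>
      rcases hy with ⟨a, rfl⟩ | ⟨c, rfl⟩
      · exact ⟨0, IntermediateField.algebraMap_mem _ a⟩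
      · exact ⟨c, mem_adjoin_simple_self F _⟩
    | one => exact ⟨0, one_mem _⟩
    | add y z _ _ hy hz =>
      obtain ⟨⟨a, ha⟩, b, hb⟩ := hy, hz
      obtain ⟨c, hca, hcb⟩ := exists_common_primitive (K := K) a b
      exact ⟨c, add_mem (hmono hca ha) (hmono hcb hb)⟩
    | neg y _ hy => obtain ⟨a, ha⟩ := hy; exact ⟨a, neg_mem ha⟩
    | inv y _ hy => obtain ⟨a, ha⟩ := hy; exact ⟨a, inv_mem ha⟩
    | mul y z _ _ hy hz =>
      obtain ⟨⟨a, ha⟩, b, hb⟩ := hy, hz
      obtain ⟨c, hca, hcb⟩ := exists_common_primitive (K := K) a b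
      exact ⟨c, mul_mem (hmono hca ha) (hmono hcb hb)⟩
  refine ⟨θ, ?_⟩
  rwa [← IntermediateField.mem_toSubalgebra,
    IntermediateField.adjoin_simple_toSubalgebra_of_isAlgebraic
      (isIntegral_algebraMap_const hcomm θ).isAlgebraic,
    Algebra.adjoin_singleton_eq_range_aeval, AlgHom.mem_range] at hθ

end Primitive

variable {K F 𝕜 L : Type*} [Field K] [Field F] [Algebra K F] [Field 𝕜] [Algebra K 𝕜]
  [Algebra.IsSeparable K 𝕜] [Field L] [Algebra 𝕜 L]

/-- A place extends with the same orders after a separable algebraic extension of the constants. -/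
theorem exists_place_ord_eq (ι : F →+* L)
    (hι : ∀ k : K, ι (algebraMap K F k) = algebraMap 𝕜 L (algebraMap K 𝕜 k))
    (hgen : ∀ x : L, x ∈ Subfield.closure (Set.range ι ∪ Set.range (algebraMap 𝕜 L)))
    (hind : ∀ (n : ℕ) (f : Fin n → F), LinearIndependent K f →
      LinearIndependent 𝕜 (fun i => ι (f i)))
    (v : Place K F) : ∃ w : Place 𝕜 L, ∀ f : F, w.ord (ι f) = v.ord f := by
  classical
  letI : Algebra K L := ((algebraMap 𝕜 L).comp (algebraMap K 𝕜)).toAlgebra
  have : IsScalarTower K 𝕜 L := IsScalarTower.of_algebraMap_eq fun _ => rfl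
  letI : Algebra F L := ι.toAlgebra
  obtain ⟨V, hVC, hVO, hVm⟩ :=
    FLTA.Curves.exists_valuationSubring_extending ({ ι with commutes' := hι } : F →ₐ[K] L) hind v
  simp only [AlgHom.coe_mk] at hVO hVm
  set val := V.valuation
  have hle : ∀ {x : L}, x ∈ V → val x ≤ 1 := fun hx => (V.valuation_le_one_iff _).2 hx
  obtain ⟨π, hπ⟩ := IsDiscreteValuationRing.exists_irreducible v.toValuationSubring
  have hπ0 : (π : F) ≠ 0 := by simpa using hπ.ne_zero
  set ν := val (ι π)
  have hν0 : ν ≠ 0 := by simpa [ν] using hπ0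
  have hν1 : ν < 1 := (ValuationSubring.mem_nonunits_iff V).1 (hVm _ (by
    rw [v.adicValuation_coe_irreducible hπ, ← WithZero.exp_zero, WithZero.exp_lt_exp]; omega))
  have hO : ∀ a : v.toValuationSubring, ι a ∈ V := fun a =>
    hVO _ (v.adicValuation_le_one_of_mem a.2)
  have hunit : ∀ u : v.toValuationSubringˣ, val (ι (u : v.toValuationSubring)) = 1 := by
    intro u
    refine le_antisymm (hle (hO _)) ?_
    have h1 := congrArg (fun z : v.toValuationSubring => val (ι z)) u.mul_inv
    simp only [MulMemClass.coe_mul, OneMemClass.coe_one, map_mul, map_one] at h1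
    exact h1.symm.le.trans (mul_le_of_le_one_right' (hle (hO _)))
  let φ₀ : v.toValuationSubring →+* V :=
    (ι.comp v.toValuationSubring.subtype).codRestrict V.toSubring hO
  have : IsLocalHom φ₀ := ⟨fun a ha => by
    by_contra h
    have h1 : v.adicValuation (a : F) < 1 :=
      lt_of_le_of_ne (v.adicValuation_le_one_of_mem a.2)
        fun e => h ((v.adicValuation_coe_eq_one_iff a).1 e)
    exact absurd ((V.valuation_eq_one_iff _).1 ha) ((ValuationSubring.mem_nonunits_iff V).1 (hVm _ h1)).ne⟩
  letI : Algebra (ResidueField v.toValuationSubring) (ResidueField V) :=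
    (ResidueField.map φ₀).toAlgebra
  -- elements integral at the place
  have key : ∀ (θ : 𝕜) (M : ℕ) (a : (v.toValuationSubring)[X]),
      ν ^ M ≤ val (aeval (algebraMap 𝕜 L θ) (a.map v.toValuationSubring.subtype)) →
      ∃ k : ℕ, val (aeval (algebraMap 𝕜 L θ) (a.map v.toValuationSubring.subtype)) = ν ^ k := by
    intro θ
    let θV : V := ⟨algebraMap 𝕜 L θ, hVC θ⟩
    let ev : (v.toValuationSubring)[X] →+* V := eval₂RingHom φ₀ θV
    have hev : ∀ a, (ev a : L) = aeval (algebraMap 𝕜 L θ) (a.map v.toValuationSubring.subtype) :=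
      fun a => by
        show V.subtype (eval₂ φ₀ θV a) = _
        rw [hom_eval₂, aeval_def, eval₂_map]
        rfl
    simp only [← hev]
    let θk := residue V θV
    have hres : ∀ a, residue V (ev a) = aeval θk (a.map (residue v.toValuationSubring)) :=
      fun a => by
        show residue V (eval₂ φ₀ θV a) = _
        rw [hom_eval₂, aeval_def, eval₂_map]
        rfl
    set hP := (minpoly K θ).map (algebraMap K v.toValuationSubring)
    have hev0 : ev hP = 0 := by
      refine Subtype.ext ((hev hP).trans ?_)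
      rw [Polynomial.map_map, show v.toValuationSubring.subtype.comp (algebraMap K v.toValuationSubring)
        = algebraMap K F from rfl, aeval_def, eval₂_map,
        show (algebraMap F L).comp (algebraMap K F) = (algebraMap 𝕜 L).comp (algebraMap K 𝕜) from
          RingHom.ext hι, ← hom_eval₂, ← aeval_def, minpoly.aeval, map_zero]
      rfl
    have hmon : (hP.map (residue v.toValuationSubring)).Monic :=
      ((minpoly.monic (Algebra.IsIntegral.isIntegral θ)).map _).map _
    have hroot : aeval θk (hP.map (residue v.toValuationSubring)) = 0 := by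
      rw [← hres, hev0, map_zero]
    have hint : IsIntegral (ResidueField v.toValuationSubring) θk := ⟨_, hmon, hroot⟩
    obtain ⟨eb, heb⟩ := minpoly.dvd _ θk hroot
    have hsep : (hP.map (residue v.toValuationSubring)).Separable :=
      Polynomial.Separable.map (Polynomial.Separable.map (Algebra.IsSeparable.isSeparable K θ))
    have heb0 : aeval θk eb ≠ 0 := by
      intro h0
      obtain ⟨c, hc⟩ := minpoly.dvd _ θk h0
      rw [hc, ← mul_assoc] at heb
      exact minpoly.not_isUnit _ θk (hsep.squarefree _ ⟨c, heb⟩)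
    obtain ⟨d, hd⟩ := Polynomial.map_surjective (residue v.toValuationSubring) residue_surjective
      (minpoly (ResidueField v.toValuationSubring) θk)
    obtain ⟨e, he⟩ := Polynomial.map_surjective (residue v.toValuationSubring) residue_surjective eb
    have hdiv : ∀ p : (v.toValuationSubring)[X], p.map (residue v.toValuationSubring) = 0 →
        C π ∣ p := by
      intro p hp
      rw [C_dvd_iff_dvd_coeff]
      intro i
      have h1 := congrArg (fun z => z.coeff i) hp
      simp only [coeff_map, coeff_zero, residue_eq_zero_iff] at h1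
      rwa [hπ.maximalIdeal_eq, Ideal.mem_span_singleton] at h1
    obtain ⟨r, hr⟩ := hdiv (hP - d * e) (by
      rw [Polynomial.map_sub, Polynomial.map_mul, hd, he, heb, sub_self])
    have heu : val (ev e : L) = 1 := by
      refine (V.valuation_eq_one_iff _).1 ?_
      rw [← residue_ne_zero_iff_isUnit, hres, he]
      exact heb0
    have hevC : (ev (C π) : L) = ι π := by simp [hev]; rfl
    intro M
    induction M with
    | zero => exact fun a ha => ⟨0, by rw [pow_zero] at ha ⊢; exact le_antisymm (hle (ev a).2) ha⟩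
    | succ M ih =>
      intro a ha
      by_cases h1 : val (ev a : L) = 1
      · exact ⟨0, by rw [h1, pow_zero]⟩
      have h2 : aeval θk (a.map (residue v.toValuationSubring)) = 0 := by
        rw [← hres, residue_eq_zero_iff, mem_maximalIdeal]
        exact fun h => h1 ((V.valuation_eq_one_iff _).1 h)
      obtain ⟨sb, hsb⟩ := minpoly.dvd _ θk h2
      obtain ⟨s, hs⟩ := Polynomial.map_surjective (residue v.toValuationSubring) residue_surjective sb
      obtain ⟨t, ht⟩ := hdiv (a - d * s) (by
        rw [Polynomial.map_sub, Polynomial.map_mul, hd, hs, hsb, sub_self])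
      have hmul : val (ev a : L) = ν * val (ev (t * e - r * s) : L) := by
        have e1 : a * e = hP * s + C π * (t * e - r * s) := by
          linear_combination e * ht - s * hr
        have e2 := congrArg (fun p => val (ev p : L)) e1
        simp only [map_add, map_mul, hev0, zero_mul, zero_add, MulMemClass.coe_mul, heu, mul_one,
          hevC] at e2
        exact e2
      obtain ⟨k, hk⟩ := ih (t * e - r * s) (by
        rw [hmul, pow_succ'] at ha
        exact le_of_mul_le_mul_left ha (zero_lt_iff.2 hν0))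
      exact ⟨k + 1, by rw [hmul, hk, pow_succ']⟩
  -- all values
  have hscale : ∀ x : L, ∀ θ : 𝕜, ∀ p : F[X], aeval (algebraMap 𝕜 L θ) p = x →
      ∃ (N : ℕ) (a : (v.toValuationSubring)[X]),
        aeval (algebraMap 𝕜 L θ) (a.map v.toValuationSubring.subtype) = ι π ^ N * x := by
    intro x θ p hp
    set N := p.support.sup fun i => (v.ord (p.coeff i)).natAbs
    have hmem : C ((π : F) ^ N) * p ∈ lifts v.toValuationSubring.subtype := by
      rw [lifts_iff_coeff_lifts]
      intro i
      refine ⟨⟨(C ((π : F) ^ N) * p).coeff i, (FLTA.Curves.RR.mem_iff_le_one v _).2 ?_⟩, rfl⟩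
      rw [coeff_C_mul]
      by_cases hi : p.coeff i = 0
      · simp [hi]
      rw [map_mul, map_pow, v.adicValuation_coe_irreducible hπ,
        v.adicValuation_eq_exp_neg_ord hi, ← WithZero.exp_nsmul, ← WithZero.exp_add,
        ← WithZero.exp_zero, WithZero.exp_le_exp]
      have : (v.ord (p.coeff i)).natAbs ≤ N :=
        Finset.le_sup (f := fun i => (v.ord (p.coeff i)).natAbs) (mem_support_iff.2 hi)
      simp only [nsmul_eq_mul, mul_neg, mul_one]
      omega
    obtain ⟨a, ha⟩ := mem_lifts _ |>.1 hmem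
    refine ⟨N, a, ?_⟩
    rw [ha, map_mul, hp, aeval_C, map_pow]
    rfl
  have hval : ∀ x : L, x ≠ 0 → ∃ k : ℤ, val x = ν ^ k := by
    intro x hx
    obtain ⟨θ, p, hp⟩ := exists_poly_of_mem_closure (K := K) hι (hgen x)
    obtain ⟨N, a, ha⟩ := hscale x θ p hp
    obtain ⟨θ', p', hp'⟩ := exists_poly_of_mem_closure (K := K) hι (hgen x⁻¹)
    obtain ⟨N', a', ha'⟩ := hscale x⁻¹ θ' p' hp'
    have h1 : ν ^ N' ≤ val x := by
      have h2 : aeval (algebraMap 𝕜 L θ') (a'.map v.toValuationSubring.subtype) ∈ V := by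
        have : ((eval₂ φ₀ (⟨_, hVC θ'⟩ : V) a' : V) : L) =
            aeval (algebraMap 𝕜 L θ') (a'.map v.toValuationSubring.subtype) := by
          show V.subtype (eval₂ φ₀ _ a') = _
          rw [hom_eval₂, aeval_def, eval₂_map]
          rfl
        rw [← this]
        exact SetLike.coe_mem _
      have h3 := hle h2
      rw [ha', map_mul, map_pow, map_inv₀] at h3
      rwa [mul_inv_le_iff₀ (zero_lt_iff.2 (by simpa [val] using hx)), one_mul] at h3
    obtain ⟨k, hk⟩ := key θ (N + N') a (by
      rw [ha, map_mul, map_pow, pow_add]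
      gcongr)
    refine ⟨(k : ℤ) - N, ?_⟩
    rw [ha, map_mul, map_pow] at hk
    rw [zpow_sub₀ hν0, zpow_natCast, zpow_natCast, eq_div_iff (pow_ne_zero _ hν0), ← hk, mul_comm]
  let πV : V := φ₀ π
  have hπVval : val (πV : L) = ν := rfl
  have hirr : Irreducible πV := by
    refine ⟨fun h => hν1.ne ((V.valuation_eq_one_iff _).1 h), fun a b hab => ?_⟩
    by_contra hcon
    simp only [not_or] at hcon
    have hlt : ∀ c : V, ¬ IsUnit c → c ≠ 0 → val (c : L) ≤ ν := by
      intro c hc hc0
      obtain ⟨k, hk⟩ := hval c (by simpa using hc0)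
      have h1 : val (c : L) < 1 := lt_of_le_of_ne (hle c.2) fun h => hc ((V.valuation_eq_one_iff _).2 h)
      rw [hk] at h1 ⊢
      have hk1 : 1 ≤ k := by
        by_contra hk0
        exact absurd h1 (not_lt.2 (one_le_zpow_of_nonpos₀ (zero_lt_iff.2 hν0) hν1.le (by omega)))
      calc ν ^ k ≤ ν ^ (1 : ℤ) := zpow_le_zpow_right_of_le_one₀ (zero_lt_iff.2 hν0) hν1.le hk1
        _ = ν := zpow_one _
    have hab0 : a * b ≠ 0 := hab ▸ fun h => hν0 (by rw [← hπVval, h]; simp)
    have h2 := congrArg (fun c : V => val (c : L)) hab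
    simp only [MulMemClass.coe_mul, map_mul, hπVval] at h2
    have h3 : ν ≤ ν * ν := h2.le.trans (mul_le_mul' (hlt a hcon.1 (left_ne_zero_of_mul hab0))
      (hlt b hcon.2 (right_ne_zero_of_mul hab0)))
    exact (not_le.2 hν1) (le_of_mul_le_mul_left (by rwa [mul_one]) (zero_lt_iff.2 hν0))
  have : IsDiscreteValuationRing V := by
    refine IsDiscreteValuationRing.ofHasUnitMulPowIrreducibleFactorization ⟨πV, hirr, fun {c} hc => ?_⟩
    obtain ⟨k, hk⟩ := hval c (by simpa using hc)
    have hk0 : 0 ≤ k := by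
      by_contra h
      have h1 := hle c.2
      rw [hk] at h1
      exact absurd h1 (not_le.2 (one_lt_zpow_of_neg₀ (zero_lt_iff.2 hν0) hν1 (by omega)))
    lift k to ℕ using hk0
    refine ⟨k, ?_⟩
    have hmem : (c : L) / (πV : L) ^ k ∈ V := by
      rw [← V.valuation_le_one_iff, map_div₀, map_pow, hk, hπVval, zpow_natCast,
        div_self (pow_ne_zero _ hν0)]
    have hu : IsUnit (⟨_, hmem⟩ : V) := by
      refine (V.valuation_eq_one_iff _).2 ?_
      show val ((c : L) / (πV : L) ^ k) = 1
      rw [map_div₀, map_pow, hk, hπVval, zpow_natCast, div_self (pow_ne_zero _ hν0)]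
    refine ⟨hu.unit, Subtype.ext ?_⟩
    show (πV : L) ^ k * ((c : L) / (πV : L) ^ k) = c
    rw [mul_div_cancel₀]
    exact pow_ne_zero _ ((map_ne_zero ι).2 hπ0)
  let w : Place 𝕜 L :=
    { toValuationSubring := V
      algebraMap_mem' := hVC
      ne_top' := fun h => by
        have h1 : (ι π)⁻¹ ∈ V := h ▸ ValuationSubring.mem_top _
        have h2 := hle h1
        rw [map_inv₀, inv_le_one₀ (zero_lt_iff.2 hν0)] at h2
        exact absurd h2 (not_le.2 hν1)
      isPrincipalIdealRing' := inferInstance }
  refine ⟨w, fun f => ?_⟩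
  rcases eq_or_ne f 0 with rfl | hf
  · simp
  obtain ⟨u, hu⟩ := v.exists_unit_mul_zpow hf hπ
  conv_lhs => rw [hu, map_mul, map_zpow₀]
  obtain ⟨u', hu'⟩ := (V.valuation_eq_one_iff ⟨_, hO (u : v.toValuationSubring)⟩).2 (hunit u)
  have hirr' : Irreducible (πV : w.toValuationSubring) := hirr
  have h := w.ord_unit_smul_zpow u' hirr' (v.ord f)
  have e : ((u' : V) : L) = ι (u : v.toValuationSubring) := congrArg Subtype.val hu'
  rw [← e]
  exact h

end FLTA.Carayol.Bridge
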