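import Fermat.Agent.Carayol.Completion
import Mathlib.Algebra.Polynomial.Taylor
import Mathlib.Algebra.Polynomial.Reverse
import Mathlib.RingTheory.PowerSeries.Trunc
import Mathlib.RingTheory.Polynomial.Basic
import Mathlib.RingTheory.PowerSeries.NoZeroDivisors
import Mathlib.FieldTheory.IsAlgClosed.Basic
import Mathlib.Algebra.Polynomial.Expand

/-!
# Gluing on the line

`W` is a complete discrete valuation ring with algebraically closed residue field and uniformiser
`ϖ`. An element of the completion of `W[X]` at `(ϖ)` which is integral in the completion at every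
point `t₀` of the special fibre of the line, and has a pole of order at most `d` at infinity, is a
polynomial of degree at most `d`.
-/

set_option autoImplicit false

open IsLocalRing Polynomial

namespace FLTA.Carayol

section Residue

variable {R : Type*} [CommRing R] (π : R) [hπ : Fact (Prime π)] [IsNoetherianRing R] [IsDomain R]

theorem dvd_of_toHat_self_dvd {r : R} (h : toHat π π ∣ toHat π r) : π ∣ r := by
  by_contra hr
  exact (irreducible_toHat_self π).not_isUnit (isUnit_of_dvd_unit h (isUnit_toHat π hr))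

/-- Residue classes of the completion are fractions. -/
theorem exists_residue_frac (a : HatAt π) :
    ∃ r s : R, ¬ π ∣ s ∧ toHat π π ∣ toHat π s * a - toHat π r := by
  obtain ⟨y, hy⟩ := (AdicCompletion.residueField_map_bijective (R := LocAt π)).2
    (residue (HatAt π) a)
  obtain ⟨z, rfl⟩ := residue_surjective y
  obtain ⟨r, s, rfl⟩ := IsLocalization.exists_mk'_eq (Ideal.span ({π} : Set R)).primeCompl z
  refine ⟨r, s, fun h => s.2 (Ideal.mem_span_singleton.2 h), ?_⟩
  have hy' : algebraMap (LocAt π) (HatAt π) (IsLocalization.mk' (LocAt π) r s) - a ∈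
      maximalIdeal (HatAt π) := by
    rw [← residue_eq_zero_iff, map_sub, sub_eq_zero]
    exact hy
  rw [maximalIdeal_hatAt, Ideal.mem_span_singleton] at hy'
  have hspec : toHat π (s : R) * algebraMap (LocAt π) (HatAt π) (IsLocalization.mk' (LocAt π) r s)
      = toHat π r := by
    simp only [toHat, RingHom.comp_apply, ← map_mul, IsLocalization.mk'_spec']
  have e : toHat π (s : R) * a - toHat π r = -(toHat π (s : R) *
      (algebraMap (LocAt π) (HatAt π) (IsLocalization.mk' (LocAt π) r s) - a)) := by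
    rw [← hspec]; ring
  rw [e]
  exact dvd_neg.2 (hy'.mul_left _)

end Residue

section PowerSeries

variable {W : Type*} [CommRing W] [IsDomain W] [IsDiscreteValuationRing W] {ϖ : W}

theorem C_dvd_powerSeries_iff (hϖ : Irreducible ϖ) {f : PowerSeries W} :
    PowerSeries.C ϖ ∣ f ↔ PowerSeries.map (residue W) f = 0 := by
  have hm := hϖ.maximalIdeal_eq
  constructor
  · rintro ⟨g, rfl⟩
    rw [map_mul, PowerSeries.map_C, (residue_eq_zero_iff ϖ).2
      (hm ▸ Ideal.mem_span_singleton_self ϖ), map_zero, zero_mul]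
  · intro h
    have hc : ∀ i, ϖ ∣ PowerSeries.coeff i f := fun i => by
      have hi := congrArg (PowerSeries.coeff i) h
      rw [PowerSeries.coeff_map, map_zero, residue_eq_zero_iff, hm,
        Ideal.mem_span_singleton] at hi
      exact hi
    choose g hg using hc
    exact ⟨PowerSeries.mk g, PowerSeries.ext fun i => by
      rw [PowerSeries.coeff_C_mul, PowerSeries.coeff_mk, ← hg i]⟩

theorem C_dvd_polynomial_iff (hϖ : Irreducible ϖ) {p : W[X]} :
    C ϖ ∣ p ↔ p.map (residue W) = 0 := by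
  simp only [C_dvd_iff_dvd_coeff, Polynomial.ext_iff, coeff_map, coeff_zero, residue_eq_zero_iff,
    hϖ.maximalIdeal_eq, Ideal.mem_span_singleton]

theorem prime_C_powerSeries (hϖ : Irreducible ϖ) : Prime (PowerSeries.C ϖ) := by
  refine ⟨fun h => hϖ.ne_zero (PowerSeries.C_injective (h.trans (map_zero _).symm)), fun h => ?_,
    fun a b hab => ?_⟩
  · exact hϖ.not_isUnit (by simpa using h.map PowerSeries.constantCoeff)
  · rw [C_dvd_powerSeries_iff hϖ, map_mul, mul_eq_zero] at hab
    rw [C_dvd_powerSeries_iff hϖ, C_dvd_powerSeries_iff hϖ]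
    exact hab

end PowerSeries

section Maps

variable {W : Type*} [CommRing W]

/-- Expansion at the point `t₀` of the line, after extracting an `e`-th root of the parameter:
`X ↦ t₀ + r ^ e`. -/
noncomputable def evPt (t₀ : W) (e : ℕ) : W[X] →+* PowerSeries W :=
  eval₂RingHom PowerSeries.C (PowerSeries.C t₀ + PowerSeries.X ^ e)

theorem evPt_C (t₀ : W) (e : ℕ) (a : W) : evPt t₀ e (C a) = PowerSeries.C a := by simp [evPt]

theorem evPt_X (t₀ : W) (e : ℕ) : evPt t₀ e X = PowerSeries.C t₀ + PowerSeries.X ^ e := by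
  simp [evPt]

theorem map_evPt {k : Type*} [CommRing k] (f : W →+* k) (t₀ : W) (e : ℕ) (p : W[X]) :
    PowerSeries.map f (evPt t₀ e p) = evPt (f t₀) e (p.map f) := by
  suffices (PowerSeries.map f).comp (evPt t₀ e) = (evPt (f t₀) e).comp (mapRingHom f) from
    RingHom.congr_fun this p
  refine Polynomial.ringHom_ext (fun a => ?_) ?_ <;> simp [evPt]

theorem constantCoeff_evPt (t₀ : W) {e : ℕ} (he : 0 < e) (p : W[X]) :
    PowerSeries.constantCoeff (evPt t₀ e p) = p.eval t₀ := by
  suffices PowerSeries.constantCoeff.comp (evPt t₀ e) = evalRingHom t₀ from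
    RingHom.congr_fun this p
  refine Polynomial.ringHom_ext (fun a => ?_) ?_ <;> simp [evPt, zero_pow he.ne']

theorem evPt_injective [IsDomain W] (t₀ : W) {e : ℕ} (he : 0 < e) :
    Function.Injective (evPt t₀ e) := by
  rw [injective_iff_map_eq_zero]
  intro p hp
  by_contra hp0
  obtain ⟨g, hg, hgt⟩ := exists_eq_pow_rootMultiplicity_mul_and_not_dvd p hp0 t₀
  rw [hg, map_mul, map_pow, map_sub, evPt_X, evPt_C, add_sub_cancel_left, mul_eq_zero] at hp
  rcases hp with hp | hp
  · exact PowerSeries.X_ne_zero (eq_zero_of_pow_eq_zero (eq_zero_of_pow_eq_zero hp))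
  · have h := congrArg PowerSeries.constantCoeff hp
    rw [constantCoeff_evPt t₀ he, map_zero] at h
    exact hgt (dvd_iff_isRoot.2 h)

end Maps

section Line

variable {W : Type*} [CommRing W] [IsDomain W] [IsDiscreteValuationRing W] {ϖ : W}
  [hP : Fact (Prime (C ϖ : W[X]))] [hQ : Fact (Prime (PowerSeries.C ϖ : PowerSeries W))]

/-- The image of `u` in the completion is a unit. -/
theorem isUnit_toHat_X (hϖ : Irreducible ϖ) :
    IsUnit (toHat (PowerSeries.C ϖ) (PowerSeries.X : PowerSeries W)) :=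
  isUnit_toHat _ fun h => by
    rw [C_dvd_powerSeries_iff hϖ, PowerSeries.map_X] at h
    exact PowerSeries.X_ne_zero h

theorem not_dvd_evPt (hϖ : Irreducible ϖ) (t₀ : W) {e : ℕ} (he : 0 < e) {p : W[X]}
    (hp : ¬ C ϖ ∣ p) : ¬ PowerSeries.C ϖ ∣ evPt t₀ e p := by
  rw [C_dvd_powerSeries_iff hϖ, map_evPt]
  rw [C_dvd_polynomial_iff hϖ] at hp
  exact fun h => hp (evPt_injective _ he (h.trans (map_zero _).symm))

/-- The map of completions at the point `t₀` exists. -/
theorem exists_locAt (hϖ : Irreducible ϖ) (t₀ : W) {e : ℕ} (he : 0 < e) :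
    ∃ F : HatAt (C ϖ : W[X]) →+* HatAt (PowerSeries.C ϖ : PowerSeries W),
      F.comp (toHat _) = (toHat _).comp (evPt t₀ e) := by
  refine exists_hat_lift (C ϖ : W[X]) ((toHat (PowerSeries.C ϖ)).comp (evPt t₀ e)) ?_
    fun p hp => isUnit_toHat (PowerSeries.C ϖ) (not_dvd_evPt hϖ t₀ he hp)
  rw [RingHom.comp_apply, evPt_C]
  exact toHat_self_mem _

/-- The map `X ↦ r ^ (-e)`. -/
noncomputable def evInf (hϖ : Irreducible ϖ) (e : ℕ) :
    W[X] →+* HatAt (PowerSeries.C ϖ : PowerSeries W) :=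
  eval₂RingHom ((toHat _).comp PowerSeries.C) (↑(isUnit_toHat_X hϖ).unit⁻¹ ^ e)

theorem evInf_C (hϖ : Irreducible ϖ) (e : ℕ) (a : W) :
    evInf hϖ e (C a) = toHat (PowerSeries.C ϖ) (PowerSeries.C a) := by
  simp [evInf]

theorem pow_mul_evInf (hϖ : Irreducible ϖ) (e N : ℕ) (p : W[X]) (hp : p.natDegree ≤ N) :
    toHat (PowerSeries.C ϖ) (PowerSeries.X : PowerSeries W) ^ (e * N) * evInf hϖ e p =
      toHat _ ((expand W e (reflect N p) : W[X]) : PowerSeries W) := by
  refine induction_with_natDegree_le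
    (fun p => toHat (PowerSeries.C ϖ) (PowerSeries.X : PowerSeries W) ^ (e * N) * evInf hϖ e p =
      toHat _ ((expand W e (reflect N p) : W[X]) : PowerSeries W)) N ?_ ?_ ?_ p hp
  · simp
  · intro n a _ hn
    rw [map_mul, map_pow, evInf_C, reflect_C_mul_X_pow, revAt_le hn, map_mul, map_pow, expand_C,
      expand_X, ← pow_mul, Polynomial.coe_mul, Polynomial.coe_pow, Polynomial.coe_C,
      Polynomial.coe_X, map_mul, map_pow]
    have hX : evInf hϖ e X = ↑(isUnit_toHat_X hϖ).unit⁻¹ ^ e := by simp [evInf]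
    have h1 : toHat (PowerSeries.C ϖ) (PowerSeries.X : PowerSeries W) ^ (e * n) *
        evInf hϖ e X ^ n = 1 := by
      rw [hX, ← pow_mul, ← mul_pow, IsUnit.mul_val_inv, one_pow]
    obtain ⟨m, rfl⟩ := Nat.exists_eq_add_of_le hn
    rw [Nat.add_sub_cancel_left, mul_add e, pow_add]
    linear_combination (toHat (PowerSeries.C ϖ) (PowerSeries.C a) *
      toHat (PowerSeries.C ϖ) (PowerSeries.X : PowerSeries W) ^ (e * m)) * h1
  · intro f g _ _ hf hg
    rw [map_add, mul_add, hf, hg, reflect_add, map_add, Polynomial.coe_add, map_add]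

theorem not_dvd_reflect (hϖ : Irreducible ϖ) {e N : ℕ} (he : 0 < e) {p : W[X]}
    (hN : p.natDegree ≤ N) (hp : ¬ C ϖ ∣ p) :
    ¬ PowerSeries.C ϖ ∣ ((expand W e (reflect N p) : W[X]) : PowerSeries W) := by
  rw [C_dvd_powerSeries_iff hϖ]
  rw [C_dvd_polynomial_iff hϖ] at hp
  intro h
  refine hp (Polynomial.ext fun i => ?_)
  rw [coeff_map, coeff_zero]
  by_cases hi : i ≤ N
  · have := congrArg (PowerSeries.coeff ((N - i) * e)) h
    rwa [PowerSeries.coeff_map, Polynomial.coeff_coe, coeff_expand_mul he, coeff_reflect,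
      revAt_le (Nat.sub_le N i), Nat.sub_sub_self hi, map_zero] at this
  · rw [coeff_eq_zero_of_natDegree_lt (by omega), map_zero]

/-- The map of completions at infinity exists. -/
theorem exists_locInf (hϖ : Irreducible ϖ) {e : ℕ} (he : 0 < e) :
    ∃ F : HatAt (C ϖ : W[X]) →+* HatAt (PowerSeries.C ϖ : PowerSeries W),
      F.comp (toHat _) = evInf hϖ e := by
  refine exists_hat_lift _ _ (by rw [evInf_C]; exact toHat_self_mem _) fun p hp => ?_
  have h := pow_mul_evInf (ϖ := ϖ) hϖ e p.natDegree p le_rfl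
  exact isUnit_of_mul_isUnit_right
    (h ▸ isUnit_toHat _ (not_dvd_reflect hϖ he le_rfl hp))

variable [IsAlgClosed (ResidueField W)]

/-- A ratio of polynomials with no pole on the line is a polynomial. -/
theorem dvd_of_forall_evAt {k : Type*} [Field k] [IsAlgClosed k] {r s : k[X]} (hs : s ≠ 0)
    (h : ∀ t₀ : k, ∃ (e : ℕ) (c : PowerSeries k), 0 < e ∧ evPt t₀ e s * c = evPt t₀ e r) :
    s ∣ r := by
  induction hd : s.natDegree using Nat.strong_induction_on generalizing r s with
  | _ n ih =>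
    rcases eq_or_ne n 0 with rfl | hn
    · rw [eq_C_of_natDegree_eq_zero hd] at hs ⊢
      exact (isUnit_C.2 (Ne.isUnit fun h => hs (by rw [h, map_zero]))).dvd
    obtain ⟨t₀, ht⟩ := IsAlgClosed.exists_root s
      (fun hdeg => hn (hd ▸ natDegree_eq_zero_iff_degree_le_zero.2 hdeg.le))
    obtain ⟨e, c, he, hc⟩ := h t₀
    have hr : r.IsRoot t₀ := by
      have := congrArg PowerSeries.constantCoeff hc
      rw [map_mul, constantCoeff_evPt _ he, constantCoeff_evPt _ he, ht, zero_mul] at this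
      exact this.symm
    obtain ⟨s', rfl⟩ := dvd_iff_isRoot.2 ht
    obtain ⟨r', rfl⟩ := dvd_iff_isRoot.2 hr
    refine mul_dvd_mul_left _ (ih s'.natDegree ?_ (right_ne_zero_of_mul hs) (fun t => ?_) rfl)
    · rw [← hd, (monic_X_sub_C t₀).natDegree_mul' (right_ne_zero_of_mul hs), natDegree_X_sub_C]
      omega
    · obtain ⟨e', c', he', hc'⟩ := h t
      refine ⟨e', c', he', mul_left_cancel₀ (a := evPt t e' (X - C t₀)) ?_ ?_⟩
      · exact fun h => (X_sub_C_ne_zero t₀) (evPt_injective t he' (h.trans (map_zero _).symm))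
      · rw [← mul_assoc, ← map_mul, hc', map_mul]

/-- The hypotheses of the gluing lemma for one element: integrality at one point over every
residue class, and a bounded pole at infinity. -/
def LineIntegral (hϖ : Irreducible ϖ) (d : ℕ) (a : HatAt (C ϖ : W[X])) : Prop :=
  (∀ c : ResidueField W, ∃ (t₀ : W) (e : ℕ), residue W t₀ = c ∧ 0 < e ∧
    ∃ F : HatAt (C ϖ : W[X]) →+* HatAt (PowerSeries.C ϖ : PowerSeries W),
      F.comp (toHat _) = (toHat _).comp (evPt t₀ e) ∧ ∃ s, F a = toHat _ s) ∧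
  ∃ (e : ℕ) (F : HatAt (C ϖ : W[X]) →+* HatAt (PowerSeries.C ϖ : PowerSeries W)), 0 < e ∧
      F.comp (toHat _) = evInf hϖ e ∧
        ∃ s, toHat (PowerSeries.C ϖ) (PowerSeries.X : PowerSeries W) ^ (e * d) * F a = toHat _ s

/-- One step: modulo `ϖ` a polynomial of degree at most `d`. -/
theorem exists_step (hϖ : Irreducible ϖ) {d : ℕ} {a : HatAt (C ϖ : W[X])}
    (ha : LineIntegral hϖ d a) :
    ∃ (p : W[X]) (a' : HatAt (C ϖ : W[X])), p.natDegree ≤ d ∧
      a = toHat _ p + toHat _ (C ϖ) * a' ∧ LineIntegral hϖ d a' := by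
  obtain ⟨r, s, hs, b, hb⟩ := exists_residue_frac _ a
  have hs' : s.map (residue W) ≠ 0 := fun h => hs ((C_dvd_polynomial_iff hϖ).2 h)
  have hdvd : s.map (residue W) ∣ r.map (residue W) := by
    refine dvd_of_forall_evAt hs' fun t₁ => ?_
    obtain ⟨t₀, e, rfl, he, F, hF, c, hc⟩ := ha.1 t₁
    have hFp : ∀ p, F (toHat _ p) = toHat _ (evPt t₀ e p) := RingHom.congr_fun hF
    refine ⟨e, PowerSeries.map (residue W) c, he, ?_⟩
    have h1 : PowerSeries.C ϖ ∣ evPt t₀ e s * c - evPt t₀ e r := by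
      refine dvd_of_toHat_self_dvd _ ⟨F b, ?_⟩
      have := congrArg F hb
      rw [map_sub, map_mul, map_mul, hFp, hFp, hFp, hc, evPt_C] at this
      rw [map_sub, map_mul, this]
    rwa [C_dvd_powerSeries_iff hϖ, map_sub, map_mul, map_evPt, map_evPt, sub_eq_zero] at h1
  obtain ⟨p₀, hp₀⟩ := hdvd
  obtain ⟨p, hpmap, hpdeg⟩ : ∃ p : W[X], p.map (residue W) = p₀ ∧ p.natDegree = p₀.natDegree :=
    exists_natDegree_eq_of_mem_lifts
      ((lifts_iff_coeff_lifts p₀).2 fun i => residue_surjective _)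
  have hmod : C ϖ ∣ r - s * p := by
    rw [C_dvd_polynomial_iff hϖ, Polynomial.map_sub, Polynomial.map_mul, hpmap, hp₀, sub_self]
  obtain ⟨a', ha'⟩ : toHat (C ϖ : W[X]) (C ϖ) ∣ a - toHat _ p := by
    rw [← (isUnit_toHat _ hs).dvd_mul_left]
    have e : toHat (C ϖ : W[X]) s * (a - toHat _ p) =
        (toHat _ s * a - toHat _ r) + toHat _ (r - s * p) := by
      rw [map_sub, map_mul]; ring
    rw [e]
    exact dvd_add ⟨b, hb⟩ (map_dvd _ hmod)
  have haeq : a = toHat _ p + toHat _ (C ϖ) * a' := by rw [← ha']; ring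
  have hpd : p.natDegree ≤ d := by
    by_contra hcon
    obtain ⟨e, F, he, hF, c, hc⟩ := ha.2
    have hFp : ∀ q, F (toHat _ q) = evInf hϖ e q := RingHom.congr_fun hF
    obtain ⟨k, hk⟩ := Nat.exists_eq_add_of_le (le_of_not_ge hcon)
    have h1 : PowerSeries.C ϖ ∣ PowerSeries.X ^ (e * k) * c -
        ((expand W e (reflect p.natDegree p) : W[X]) : PowerSeries W) := by
      refine dvd_of_toHat_self_dvd _
        ⟨toHat _ (PowerSeries.X : PowerSeries W) ^ (e * p.natDegree) * F a', ?_⟩
      rw [map_sub, map_mul, map_pow, ← hc, ← pow_mul_evInf hϖ e _ p le_rfl, ← hFp]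
      conv_lhs => rw [haeq]
      rw [map_add, map_mul, hFp (C ϖ), evInf_C, hk, mul_add e, pow_add]
      ring
    rw [C_dvd_powerSeries_iff hϖ] at h1
    have h2 := congrArg (PowerSeries.coeff 0) h1
    have h0 : (expand W e (reflect p.natDegree p)).coeff 0 = p.leadingCoeff := by
      rw [← zero_mul e, coeff_expand_mul he, coeff_reflect, revAt_le (Nat.zero_le _), Nat.sub_zero]
      rfl
    rw [map_sub, map_mul, map_pow, PowerSeries.map_X, map_sub, map_zero,
      PowerSeries.coeff_map, Polynomial.coeff_coe, h0, PowerSeries.coeff_zero_eq_constantCoeff,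
      map_mul, map_pow, PowerSeries.constantCoeff_X,
      zero_pow (Nat.mul_ne_zero he.ne' (fun h => by omega)), zero_mul, zero_sub,
      neg_eq_zero, leadingCoeff, ← coeff_map, hpmap, hpdeg, ← leadingCoeff,
      leadingCoeff_eq_zero] at h2
    rw [h2, natDegree_zero] at hpdeg
    omega
  refine ⟨p, a', hpd, haeq, fun t₁ => ?_, ?_⟩
  · obtain ⟨t₀, e, ht, he, F, hF, c, hc⟩ := ha.1 t₁
    refine ⟨t₀, e, ht, he, F, hF, ?_⟩
    have hFp : ∀ p, F (toHat _ p) = toHat _ (evPt t₀ e p) := RingHom.congr_fun hF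
    have h1 : toHat (PowerSeries.C ϖ) (PowerSeries.C ϖ) * F a' = toHat _ (c - evPt t₀ e p) := by
      rw [map_sub, ← hc, haeq, map_add, map_mul, hFp, hFp, evPt_C]; ring
    obtain ⟨c', hc'⟩ := dvd_of_toHat_self_dvd _ ⟨F a', h1.symm⟩
    refine ⟨c', mul_left_cancel₀ (toHat_self_ne_zero (PowerSeries.C ϖ)) ?_⟩
    rw [h1, hc', map_mul]
  · obtain ⟨e, F, he, hF, c, hc⟩ := ha.2
    refine ⟨e, F, he, hF, ?_⟩
    have hFp : ∀ q, F (toHat _ q) = evInf hϖ e q := RingHom.congr_fun hF
    have h1 : toHat (PowerSeries.C ϖ) (PowerSeries.C ϖ) *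
        (toHat _ (PowerSeries.X : PowerSeries W) ^ (e * d) * F a') =
        toHat _ (c - ((expand W e (reflect d p) : W[X]) : PowerSeries W)) := by
      rw [map_sub, ← hc, ← pow_mul_evInf hϖ e d p hpd, haeq, map_add, map_mul, hFp, hFp, evInf_C]
      ring
    obtain ⟨c', hc'⟩ := dvd_of_toHat_self_dvd _ ⟨_, h1.symm⟩
    refine ⟨c', mul_left_cancel₀ (toHat_self_ne_zero (PowerSeries.C ϖ)) ?_⟩
    rw [h1, hc', map_mul]

/-- **Gluing on the line.** -/
theorem exists_polynomial_of_lineIntegral [IsAdicComplete (maximalIdeal W) W]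
    (hϖ : Irreducible ϖ) {d : ℕ} {a : HatAt (C ϖ : W[X])} (ha : LineIntegral hϖ d a) :
    ∃ p : W[X], p.natDegree ≤ d ∧ a = toHat _ p := by
  choose p next hdeg heq hnext using fun b : {b // LineIntegral hϖ d b} => exists_step hϖ b.2
  let seq : ℕ → {b // LineIntegral hϖ d b} :=
    fun n => Nat.rec ⟨a, ha⟩ (fun _ b => ⟨next b, hnext b⟩) n
  let P : ℕ → W[X] := fun n => ∑ m ∈ Finset.range n, C ϖ ^ m * p (seq m)
  have hP : ∀ n, a = toHat _ (P n) + toHat _ (C ϖ) ^ n * (seq n).1 := by
    intro n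
    induction n with
    | zero => simp [P, seq]
    | succ n ih =>
      rw [ih, heq (seq n)]
      simp only [P, Finset.sum_range_succ, map_add, map_mul, map_pow]
      show _ = _ + toHat _ (C ϖ) ^ (n + 1) * next (seq n)
      ring
  have hPd : ∀ n, (P n).natDegree ≤ d := fun n =>
    natDegree_sum_le_of_forall_le _ _ fun m _ => by
      rw [← C_pow]
      exact (natDegree_C_mul_le _ _).trans (hdeg _)
  have hcauchy : ∀ i, ∀ {m n : ℕ}, m ≤ n →
      (P m).coeff i ≡ (P n).coeff i [SMOD (maximalIdeal W ^ m • ⊤ : Submodule W W)] := by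
    intro i m n hmn
    rw [SModEq.sub_mem, smul_eq_mul, Ideal.mul_top, hϖ.maximalIdeal_eq, Ideal.span_singleton_pow,
      Ideal.mem_span_singleton, ← neg_sub, dvd_neg]
    simp only [P, finsetSum_coeff]
    rw [← Finset.sum_Ico_eq_sub _ hmn]
    refine Finset.dvd_sum fun j hj => ?_
    rw [← C_pow, coeff_C_mul]
    exact (pow_dvd_pow ϖ (Finset.mem_Ico.1 hj).1).mul_right _
  choose L hL using fun i => IsPrecomplete.prec (I := maximalIdeal W) inferInstance (hcauchy i)
  refine ⟨∑ i ∈ Finset.range (d + 1), monomial i (L i),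
    natDegree_sum_le_of_forall_le _ _ fun i hi => (natDegree_monomial_le _).trans
      (Nat.lt_succ_iff.1 (Finset.mem_range.1 hi)), ?_⟩
  refine (IsHausdorff.eq_iff_smodEq (I := maximalIdeal (HatAt (C ϖ : W[X])))).2 fun n => ?_
  rw [SModEq.sub_mem, smul_eq_mul, Ideal.mul_top, maximalIdeal_hatAt, Ideal.span_singleton_pow,
    Ideal.mem_span_singleton]
  conv_rhs => rw [hP n]
  rw [add_sub_right_comm, ← map_sub]
  refine dvd_add ?_ (dvd_mul_right _ _)
  rw [← map_pow]
  refine map_dvd _ ?_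
  rw [← C_pow, C_dvd_iff_dvd_coeff]
  intro i
  have hsum : (∑ j ∈ Finset.range (d + 1), monomial j (L j)).coeff i =
      if i < d + 1 then L i else 0 := by
    rw [finsetSum_coeff]
    simp only [coeff_monomial, Finset.sum_ite_eq', Finset.mem_range]
  rw [coeff_sub, hsum]
  split_ifs with hi
  · have := hL i n
    rwa [SModEq.sub_mem, smul_eq_mul, Ideal.mul_top, hϖ.maximalIdeal_eq, Ideal.span_singleton_pow,
      Ideal.mem_span_singleton] at this
  · rw [coeff_eq_zero_of_natDegree_lt (lt_of_le_of_lt (hPd n) (by omega)), sub_zero]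
    exact dvd_zero _

end Line

end FLTA.Carayol
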