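import Fermat.Agent.Carayol.LineCover
import Fermat.Agent.Carayol.Chart.Main
import Fermat.Agent.Carayol.Chart.SplitsPoly
import Fermat.Agent.Carayol.Chart.TModel
import Mathlib.RingTheory.Algebraic.Integral
import Fermat.Agent.Smooth.LocalizedBase

/-!
# A polynomial model of the level prime to `q` over the `t`-line
-/

set_option autoImplicit false

noncomputable section

open Polynomial IsLocalRing ModularCurve

namespace FLTA.Carayol.Bridge

/-- A monic polynomial which defines a domain over a field containing the coefficients is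
irreducible over the field of fractions. -/
theorem irreducible_of_isDomain_adjoinRoot {P K : Type} [CommRing P] [IsDomain P] [Field K]
    (f : P →+* K) (hf : Function.Injective f) {Q : P[X]} (hQ : Q.Monic)
    (h : IsDomain (AdjoinRoot (Q.map f))) :
    Irreducible (Q.map (algebraMap P (FractionRing P))) := by
  have hirr : Irreducible (Q.map f) :=
    ((Ideal.span_singleton_prime (hQ.map f).ne_zero).mp
      ((Ideal.Quotient.isDomain_iff_prime _).mp h)).irreducible
  refine Monic.irreducible_of_irreducible_map (IsFractionRing.lift hf) _ (hQ.map _) ?_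
  rwa [Polynomial.map_map, show (IsFractionRing.lift hf).comp
    (algebraMap P (FractionRing P)) = f from
      RingHom.ext fun x => IsFractionRing.lift_algebraMap hf x]

theorem injective_gaussHom (W : Type) [CommRing W] [IsDomain W] [IsNoetherianRing W] (q : ℕ)
    [Fact (Prime (C (q : W) : W[X]))] : Function.Injective (gaussHom W q) :=
  (IsFractionRing.injective (HatAt (C (q : W) : W[X])) _).comp (toHat_injective _)

/-- The equation stays irreducible over the completion at the Gauss point, where it generates an
unramified extension. -/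
theorem exists_gauss_iso {M L q : ℕ} [Fact q.Prime] [NeZero L] [NeZero M]
    (hL : Haupt.IsHauptLevel L) (hLM : L ∣ M) (hqM : ¬ q ∣ M)
    {t : ↥(modularFunctionFieldFull M)} (ht : Chart.IsTFull L M t) (D : Chart.TModel L M t)
    (W : Type) [CommRing W] [IsDomain W] [IsDiscreteValuationRing W] [CharZero W]
    [IsAdicComplete (maximalIdeal W) W] [IsAlgClosed (ResidueField W)]
    [Fact (Prime (C (q : W) : W[X]))] (hmax : maximalIdeal W = Ideal.span {(q : W)}) :
    ∃ (A : Type) (_ : CommRing A) (_ : IsDomain A) (_ : IsDiscreteValuationRing A)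
      (_ : IsAdicComplete (maximalIdeal A) A)
      (f : HatAt (C (q : W) : W[X]) →+* A)
      (g : AdjoinRoot ((D.Q.map (mapRingHom (Int.castRingHom W))).map (gaussHom W q)) ≃+*
        FractionRing A),
      (∀ h, g (AdjoinRoot.of _ (algebraMap _ (FractionRing (HatAt (C (q : W) : W[X]))) h)) =
        algebraMap A (FractionRing A) (f h)) ∧
      maximalIdeal A = Ideal.span {(q : A)} ∧
      ∀ c : ResidueField A, c ^ q ≠ residue A (f (toHat _ X)) := by
  classical
  obtain ⟨A, iA, iAd, iAv, iAc, iHA, φ, hAmax, ⟨bA, -⟩, hφt, hφli, hpow⟩ :=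
    Chart.exists_gauss hL hLM hqM ht hmax
  let H := HatAt (C (q : W) : W[X])
  have := ht.finiteDimensional hL
  have hn : 0 < D.Q.natDegree := by
    rw [D.natDegree_eq]
    exact Module.finrank_pos
  have : Module.Finite H A := Module.Finite.of_basis bA
  have : Module.Free H A := Module.Free.of_basis bA
  have hHA : Function.Injective (algebraMap H A) := by
    intro a b hab
    have h1 : a • bA ⟨0, D.natDegree_eq ▸ hn⟩ = b • bA ⟨0, D.natDegree_eq ▸ hn⟩ := by
      rw [Algebra.smul_def, Algebra.smul_def, hab]
    exact smul_left_injective H (bA.ne_zero _) h1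
  have : FaithfulSMul H A := (faithfulSMul_iff_algebraMap_injective _ _).mpr hHA
  have : Algebra.IsAlgebraic H A := Algebra.IsIntegral.isAlgebraic
  let KH := FractionRing H
  let KA := FractionRing A
  let : Algebra KH KA := FractionRing.liftAlgebra H KA
  set P := (D.Q.map (mapRingHom (Int.castRingHom W))).map (gaussHom W q) with hP
  have hPm : P.Monic := (D.monic.map _).map _
  have hPdeg : P.natDegree = D.Q.natDegree := by
    rw [(D.monic.map _).natDegree_map, D.monic.natDegree_map]
  have hroot : aeval (φ D.θ) P = 0 := by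
    rw [hP, aeval_def, eval₂_map, eval₂_map]
    have h := congrArg φ D.eval_eq_zero
    rw [hom_eval₂, map_zero] at h
    refine Eq.trans ?_ h
    refine congrArg (fun f => eval₂ f (φ D.θ) D.Q) (Chart.intHom_ext ?_)
    simp only [RingHom.comp_apply, Chart.evalInt_X, hφt, coe_mapRingHom, map_X, gaussHom]
    rw [← IsScalarTower.algebraMap_apply H KH KA, IsScalarTower.algebraMap_apply H A KA]
  -- the powers of the generator
  have hint : IsIntegral (IntermediateField.adjoin ℚ ({t} : Set ↥(modularFunctionFieldFull M))) D.θ :=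
    Algebra.IsIntegral.isIntegral _
  have hgen : IntermediateField.adjoin
      (IntermediateField.adjoin ℚ ({t} : Set ↥(modularFunctionFieldFull M))) ({D.θ} : Set _) = ⊤ := by
    refine eq_top_iff.mpr fun x _ => ?_
    have hx : x ∈ IntermediateField.adjoin ℚ ({t, D.θ} : Set _) := by rw [D.adjoin_eq]; trivial
    induction hx using IntermediateField.adjoin_induction with
    | mem y hy =>
      rcases hy with rfl | rfl
      · exact IntermediateField.algebraMap_mem (IntermediateField.adjoin
          (IntermediateField.adjoin ℚ ({y} : Set ↥(modularFunctionFieldFull M))) ({D.θ} : Set _))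
          ⟨y, IntermediateField.mem_adjoin_simple_self ℚ y⟩
      · exact IntermediateField.mem_adjoin_simple_self _ _
    | algebraMap c => rw [eq_ratCast]; exact SubfieldClass.ratCast_mem _ c
    | add a b _ _ ha hb => exact add_mem (ha trivial) (hb trivial)
    | inv a _ ha => exact inv_mem (ha trivial)
    | mul a b _ _ ha hb => exact mul_mem (ha trivial) (hb trivial)
  have hdmin : (minpoly (IntermediateField.adjoin ℚ ({t} : Set ↥(modularFunctionFieldFull M)))
      D.θ).natDegree = Module.finrank (IntermediateField.adjoin ℚ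
        ({t} : Set ↥(modularFunctionFieldFull M))) ↥(modularFunctionFieldFull M) := by
    rw [← IntermediateField.adjoin.finrank hint, hgen, IntermediateField.finrank_top']
  let pw := fun i : Fin (Module.finrank (IntermediateField.adjoin ℚ
      ({t} : Set ↥(modularFunctionFieldFull M))) ↥(modularFunctionFieldFull M)) => D.θ ^ (i : ℕ)
  have hpwli : LinearIndependent (IntermediateField.adjoin ℚ
      ({t} : Set ↥(modularFunctionFieldFull M))) pw := by
    have h := (linearIndependent_pow (K := IntermediateField.adjoin ℚ
      ({t} : Set ↥(modularFunctionFieldFull M))) D.θ).comp (Fin.cast hdmin.symm)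
        (Fin.cast_injective _)
    simpa [pw, Function.comp_def] using h
  have : Nonempty (Fin (Module.finrank (IntermediateField.adjoin ℚ
      ({t} : Set ↥(modularFunctionFieldFull M))) ↥(modularFunctionFieldFull M))) :=
    ⟨⟨0, D.natDegree_eq ▸ hn⟩⟩
  let bF := basisOfLinearIndependentOfCardEqFinrank hpwli (Fintype.card_fin _)
  have hli : LinearIndependent KH fun i : Fin P.natDegree => φ D.θ ^ (i : ℕ) := by
    have h := (LinearIndependent.iff_fractionRing H KH).mp (hφli bF)
    have h2 := h.comp (Fin.cast (hPdeg.trans D.natDegree_eq)) (Fin.cast_injective _)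
    simpa [bF, pw, Function.comp_def, map_pow] using h2
  let Λ : AdjoinRoot P →ₐ[KH] KA :=
    AdjoinRoot.liftAlgHom P (Algebra.ofId KH KA) (φ D.θ) (by rw [aeval_def] at hroot; exact hroot)
  let pb := AdjoinRoot.powerBasis' hPm
  have hdim : Module.finrank KH KA = P.natDegree := by
    rw [IsFractionRing.finrank_eq H KH A KA, Module.finrank_eq_card_basis bA,
      Fintype.card_fin, hPdeg, D.natDegree_eq]
  have hinj : Function.Injective Λ := by
    rw [injective_iff_map_eq_zero]
    intro y hy
    rw [← pb.basis.sum_repr y] at hy ⊢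
    simp only [map_sum, map_smul, PowerBasis.coe_basis, map_pow] at hy
    have hgenΛ : Λ pb.gen = φ D.θ := by
      rw [AdjoinRoot.powerBasis'_gen]
      exact AdjoinRoot.liftAlgHom_root P _ (φ D.θ) _
    rw [hgenΛ] at hy
    have hli' := hli.comp (Fin.cast (AdjoinRoot.powerBasis'_dim hPm)) (Fin.cast_injective _)
    have h0 := Fintype.linearIndependent_iff.mp hli' _ hy
    exact Finset.sum_eq_zero fun i _ => by rw [h0 i, zero_smul]
  have : Module.Finite KH (AdjoinRoot P) := hPm.finite_adjoinRoot
  have : Module.Finite KH KA := Module.finite_of_finrank_pos (hdim ▸ hPdeg.symm ▸ hn)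
  have hbij : Function.Bijective Λ := by
    refine ⟨hinj, ?_⟩
    refine (LinearMap.injective_iff_surjective_of_finrank_eq_finrank ?_ (f := Λ.toLinearMap)).mp hinj
    rw [pb.finrank, AdjoinRoot.powerBasis'_dim, hdim]
  refine ⟨A, iA, iAd, iAv, iAc, algebraMap H A, RingEquiv.ofBijective Λ.toRingHom hbij,
    fun h => ?_, hAmax, hpow⟩
  show Λ (algebraMap KH (AdjoinRoot P) (algebraMap H KH h)) = _
  rw [AlgHom.commutes, ← IsScalarTower.algebraMap_apply H KH KA,
    IsScalarTower.algebraMap_apply H A KA]

theorem exists_cover (q L M : ℕ) [Fact q.Prime] [NeZero L] [NeZero M]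
    (hL : Haupt.IsHauptLevel L) (hLM : L ∣ M) (hqM : ¬ q ∣ M) :
    ∃ (t θ : ↥(modularFunctionFieldFull M)) (Q₀ : (Smooth.Zloc q)[X][X]),
      Chart.IsTFull L M t ∧
      IntermediateField.adjoin ℚ ({t, θ} : Set ↥(modularFunctionFieldFull M)) = ⊤ ∧
      Q₀.eval₂ (Polynomial.eval₂RingHom
        ((algebraMap ℚ ↥(modularFunctionFieldFull M)).comp (GaloisRep.ratLocalizedAt q).subtype) t)
        θ = 0 ∧
      ∀ (W : Type) [CommRing W] [IsDomain W] [IsDiscreteValuationRing W] [CharZero W]
        [IsAdicComplete (maximalIdeal W) W] [IsAlgClosed (ResidueField W)]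
        [Fact (Prime (C (q : W) : W[X]))] (_ : maximalIdeal W = Ideal.span {(q : W)})
        (π : Smooth.Zloc q →+* W), LineCover W q L (Q₀.map (mapRingHom π)) := by
  obtain ⟨t, ht⟩ := Chart.exists_isTFull hL hLM
  obtain ⟨D⟩ := Chart.nonempty_tModel hL ht
  refine ⟨t, D.θ, D.Q.map (mapRingHom (Int.castRingHom (Smooth.Zloc q))), ht, D.adjoin_eq, ?_, ?_⟩
  · rw [eval₂_map]
    refine Eq.trans ?_ D.eval_eq_zero
    refine congrArg (fun f => eval₂ f D.θ D.Q) (Chart.intHom_ext ?_)
    simp [Chart.evalInt_X]
  intro W _ _ _ _ _ _ _ hmax π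
  have hQ : (D.Q.map (mapRingHom (Int.castRingHom (Smooth.Zloc q)))).map (mapRingHom π) =
      D.Q.map (mapRingHom (Int.castRingHom W)) := by
    rw [Polynomial.map_map, mapRingHom_comp]
    congr 2
    exact RingHom.ext_int _ _
  rw [hQ]
  have : HenselianRing W (maximalIdeal W) := IsAdicComplete.henselianRing W (maximalIdeal W)
  have : HenselianLocalRing W :=
    { is_henselian := fun f hf a₀ ha hd =>
        HenselianRing.is_henselian f hf a₀ ha (hd.map (Ideal.Quotient.mk (maximalIdeal W))) }
  have : CharP (ResidueField W) q := by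
    have h0 : (q : ResidueField W) = 0 := by
      rw [← map_natCast (residue W), residue_eq_zero_iff, hmax]
      exact Ideal.mem_span_singleton_self _
    exact ringChar.of_eq (((Fact.out : q.Prime).eq_one_or_self_of_dvd _ (ringChar.dvd h0)).resolve_left
      CharP.ringChar_ne_one)
  have : CharZero (PowerSeries W) := charZero_of_injective_ringHom PowerSeries.C_injective
  have : CharZero (FractionRing (PowerSeries W)) := charZero_of_injective_algebraMap
    (IsFractionRing.injective (PowerSeries W) (FractionRing (PowerSeries W)))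
  have hqcop : M.Coprime q := ((Fact.out : q.Prime).coprime_iff_not_dvd.mpr hqM).symm
  have hdegQ : (D.Q.map (mapRingHom (Int.castRingHom W))).natDegree = D.Q.natDegree :=
    D.monic.natDegree_map _
  have hsplit : ∀ (g : W[X] →+* FractionRing (PowerSeries W)),
      Chart.SplitsAt t (g X) →
      SplitsIn ((D.Q.map (mapRingHom (Int.castRingHom W))).map g)
        (D.Q.map (mapRingHom (Int.castRingHom W))).natDegree := by
    intro g hg
    obtain ⟨r, hr, hprod⟩ := hg.exists_prod_roots (Chart.evalInt t)
      (g.comp (mapRingHom (Int.castRingHom W)))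
      (fun φ hφ => Chart.intHom_ext (by simpa [Chart.evalInt_X] using hφ))
      D.monic D.natDegree_eq D.eval_eq_zero D.adjoin_eq
    rw [hdegQ, Polynomial.map_map]
    exact ⟨r, hr, hprod⟩
  refine
    { monic := D.monic.map _
      irreducible := ?_
      gauss := exists_gauss_iso hL hLM hqM ht D W hmax
      splits_point := fun t₀ ht₀ => hsplit _ ?_
      splits_cusp := fun t₀ ht₀ => ⟨M, NeZero.pos M, hqcop, hsplit _ ?_⟩
      splits_inf := ⟨M, NeZero.pos M, hqcop, hsplit _ ?_⟩ }
  · obtain ⟨A, _, _, _, _, f, g, -⟩ := exists_gauss_iso hL hLM hqM ht D W hmax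
    exact irreducible_of_isDomain_adjoinRoot (gaussHom W q) (injective_gaussHom W q)
      (D.monic.map _) (g.injective.isDomain g.toRingHom)
  · rw [show pointHom W t₀ 1 X = algebraMap (PowerSeries W) _ (PowerSeries.X + PowerSeries.C t₀) by
      simp [pointHom, pointMap, add_comm]]
    refine Chart.splitsAt_of_not_cusp hL hLM hqM ht t₀ ?_
    rwa [aeval_def, ← eval_map, Subsingleton.elim (algebraMap ℤ W) (Int.castRingHom W)]
  · rw [show pointHom W t₀ M X = algebraMap (PowerSeries W) _ (PowerSeries.C t₀ + PowerSeries.X ^ M)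
      by simp [pointHom, pointMap]]
    refine Chart.splitsAt_cusp_value hL hLM hqM ht t₀ ?_
    rwa [aeval_def, ← eval_map, Subsingleton.elim (algebraMap ℤ W) (Int.castRingHom W)]
  · rw [show infHom W M X = (algebraMap (PowerSeries W) _ PowerSeries.X)⁻¹ ^ M by simp [infHom]]
    exact Chart.splitsAt_infty hL hLM hqM ht

end FLTA.Carayol.Bridge
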