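import Fermat.Agent.Carayol.BridgeDescendAux

/-!
# Descent of constants

An element of the field with larger constants whose coefficients lie in the smaller constants lies
in the smaller field; an `n`-th power up to a constant descends.
-/

set_option autoImplicit false

noncomputable section

open ModularCurve HahnSeries

namespace FLTA.Carayol.Bridge

variable {K K' : Type} [Field K] [Algebra ℚ K] [Field K'] [Algebra ℚ K']

theorem exists_eq_mapF_of_coeff_mem (g : K →+* K') {N : ℕ} (x : fld K' N)
    (hx : ∀ k, (x : LaurentSeries K').coeff k ∈ g.range) : ∃ y : fld K N, mapF g N y = x := by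
  letI : Algebra K K' := g.toAlgebra
  choose c hc using hx
  let w : LaurentSeries K := ⟨c, (x : LaurentSeries K').isPWO_support.mono fun e he h => he
    (g.injective (by rw [hc, h, map_zero]))⟩
  have hw : coeffMap g w = (x : LaurentSeries K') := by ext e; exact hc e
  refine ⟨⟨w, mem_of_coeffMap_mem_adjoin (K' := K') ?_⟩, Subtype.ext hw⟩
  show coeffMap g w ∈ _
  rw [hw]
  refine IntermediateField.adjoin.mono K' _ _ ?_ x.2
  rintro _ ⟨y, hy, rfl⟩
  exact ⟨coeffEmb K y, coeffEmb_mem_laurentBaseChange K hy, coeffMap_coeffEmb g y⟩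

/-- An `n`-th power up to a constant over larger constants is one over the smaller ones. -/
theorem exists_eq_const_mul_pow_of_mapF [CharZero K] (g : K →+* K') {N n : ℕ} (hn : 0 < n)
    (x : fld K N) (hx : x ≠ 0)
    (h : ∃ (c : K') (z : fld K' N), mapF g N x = algebraMap K' (fld K' N) c * z ^ n) :
    ∃ (c : K) (z : fld K N), c ≠ 0 ∧ x = algebraMap K (fld K N) c * z ^ n := by
  obtain ⟨c, z, hz⟩ := h
  haveI : CharZero K' := charZero_of_injective_ringHom g.injective
  have hx' : (x : LaurentSeries K) ≠ 0 := fun h0 => hx (Subtype.ext h0)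
  set lx := (x : LaurentSeries K).leadingCoeff with hlx
  have hlx0 : lx ≠ 0 := HahnSeries.leadingCoeff_ne_zero.mpr hx'
  have hgx : mapF g N x ≠ 0 := (map_ne_zero _).mpr hx
  have hc0 : c ≠ 0 := fun h0 => hgx (by rw [hz, h0, map_zero, zero_mul])
  have hz0 : z ≠ 0 := fun h0 => hgx (by rw [hz, h0, zero_pow hn.ne', mul_zero])
  have hz' : (z : LaurentSeries K') ≠ 0 := fun h0 => hz0 (Subtype.ext h0)
  set a := (z : LaurentSeries K').leadingCoeff with ha
  have ha0 : a ≠ 0 := HahnSeries.leadingCoeff_ne_zero.mpr hz'
  have hlead : g lx = c * a ^ n := by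
    have h1 := congrArg (fun y : fld K' N => (y : LaurentSeries K').leadingCoeff) hz
    simp only [coe_mapF, MulMemClass.coe_mul, SubmonoidClass.coe_pow, HahnSeries.leadingCoeff_mul]
      at h1
    have hp : ∀ m : ℕ, ((z : LaurentSeries K') ^ m).leadingCoeff = a ^ m := by
      intro m
      induction m with
      | zero => rw [pow_zero, pow_zero, HahnSeries.leadingCoeff_one]
      | succ m ih => rw [pow_succ, pow_succ, HahnSeries.leadingCoeff_mul, ih, ha]
    rw [hp] at h1
    have h2 : (coeffMap g (x : LaurentSeries K)).leadingCoeff = g lx := by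
      have ho : (coeffMap g (x : LaurentSeries K)).order = (x : LaurentSeries K).order := by
        refine le_antisymm (HahnSeries.order_le_of_coeff_ne_zero ?_)
          (HahnSeries.order_le_of_coeff_ne_zero ?_)
        · rw [coeffMap_coeff, map_ne_zero]
          exact HahnSeries.coeff_order_eq_zero.not.mpr hx'
        · have h3 := HahnSeries.coeff_order_eq_zero.not.mpr ((map_ne_zero (coeffMap g)).mpr hx')
          rw [coeffMap_coeff] at h3
          exact fun h4 => h3 (by rw [h4, map_zero])
      rw [hlx, HahnSeries.leadingCoeff_eq, HahnSeries.leadingCoeff_eq, ho, coeffMap_coeff]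
    have h4 : ((algebraMap K' (fld K' N) c : fld K' N) : LaurentSeries K').leadingCoeff = c := by
      show (algebraMap K' (LaurentSeries K') c).leadingCoeff = c
      rw [algebraMap_laurentSeries_eq_single, HahnSeries.leadingCoeff_of_single]
    rw [h2, h4] at h1
    exact h1
  set z₁ : fld K' N := algebraMap K' (fld K' N) a⁻¹ * z with hz₁
  have hpow : z₁ ^ n = mapF g N (algebraMap K (fld K N) lx⁻¹ * x) := by
    rw [map_mul, mapF_algebraMap, hz, map_inv₀ g, hlead, hz₁, mul_pow, ← map_pow, ← mul_assoc,
      ← map_mul]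
    congr 2
    field_simp
    rw [← mul_pow, one_div_mul_cancel ha0, one_pow]
  have hlead1 : (z₁ : LaurentSeries K').coeff (z₁ : LaurentSeries K').order = 1 := by
    rw [← HahnSeries.leadingCoeff_eq]
    show (algebraMap K' (LaurentSeries K') a⁻¹ * (z : LaurentSeries K')).leadingCoeff = 1
    rw [HahnSeries.leadingCoeff_mul, algebraMap_laurentSeries_eq_single,
      HahnSeries.leadingCoeff_of_single, ← ha, inv_mul_cancel₀ ha0]
  obtain ⟨y, hy⟩ := exists_eq_mapF_of_coeff_mem g z₁ (coeff_mem_range_of_pow g hn hlead1 fun i => by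
    rw [← SubmonoidClass.coe_pow, hpow, coe_mapF, coeffMap_coeff]
    exact ⟨_, rfl⟩)
  refine ⟨lx, y, hlx0, (mapF g N).injective ?_⟩
  rw [map_mul (mapF g N), map_pow (mapF g N), hy, hpow, ← map_mul (mapF g N), ← mul_assoc,
    ← map_mul, mul_inv_cancel₀ hlx0, map_one, one_mul]

end FLTA.Carayol.Bridge
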