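import Fermat.Agent.Carayol.BridgeFields
import Mathlib.LinearAlgebra.Dual.Lemmas
import Mathlib.RingTheory.PowerSeries.Basic

/-!
# Coefficients in a subfield

The fields of level `N` are linearly disjoint over the constants, and a root with leading
coefficient one of a series with coefficients in a subfield has its coefficients there.
-/

set_option autoImplicit false

noncomputable section

open ModularCurve HahnSeries

namespace FLTA.Carayol.Bridge

section Project

variable {K K' : Type} [Field K] [Field K'] [Algebra K K']

/-- A linear functional applied to coefficients. -/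
def coeffProj (φ : K' →ₗ[K] K) (x : LaurentSeries K') : LaurentSeries K where
  coeff e := φ (x.coeff e)
  isPWO_support' := x.isPWO_support.mono fun e he h => he (by simp [h])

theorem coeffProj_add (φ : K' →ₗ[K] K) (x y : LaurentSeries K') :
    coeffProj φ (x + y) = coeffProj φ x + coeffProj φ y := by
  ext e; simp [coeffProj]

theorem coeffProj_map_mul (φ : K' →ₗ[K] K) (w : LaurentSeries K) (x : LaurentSeries K') :
    coeffProj φ (coeffMap (algebraMap K K') w * x) = w * coeffProj φ x := by
  ext e
  show φ ((coeffMap (algebraMap K K') w * x).coeff e) = _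
  rw [HahnSeries.coeff_mul_left' w.isPWO_support
      (fun a ha h => ha (by rw [coeffMap_coeff, h, map_zero])),
    HahnSeries.coeff_mul_right' (y := coeffProj φ x) x.isPWO_support
      (fun a ha h => ha (by simp [coeffProj, h])), map_sum]
  refine Finset.sum_congr rfl fun ij _ => ?_
  rw [coeffMap_coeff, ← Algebra.smul_def, map_smul, smul_eq_mul]
  rfl

theorem mem_of_coeffMap_mem_adjoin {F₀ : IntermediateField K (LaurentSeries K)} {w : LaurentSeries K}
    (h : coeffMap (algebraMap K K') w ∈ IntermediateField.adjoin K'
      (⇑(coeffMap (algebraMap K K')) '' (F₀ : Set (LaurentSeries K)))) : w ∈ F₀ := by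
  set G : Set (LaurentSeries K') :=
    {x | ∃ (c : K') (a : LaurentSeries K), a ∈ F₀ ∧
      x = algebraMap K' (LaurentSeries K') c * coeffMap (algebraMap K K') a}
  have hmulG : ∀ x ∈ AddSubmonoid.closure G, ∀ y ∈ AddSubmonoid.closure G,
      x * y ∈ AddSubmonoid.closure G := by
    intro x hx
    induction hx using AddSubmonoid.closure_induction with
    | mem u hu =>
      intro y hy
      induction hy using AddSubmonoid.closure_induction with
      | mem v hv =>
        obtain ⟨c, a, ha, rfl⟩ := hu
        obtain ⟨d, b, hb, rfl⟩ := hv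
        exact AddSubmonoid.subset_closure ⟨c * d, a * b, F₀.mul_mem ha hb, by
          rw [map_mul, map_mul]; ring⟩
      | zero => rw [mul_zero]; exact zero_mem _
      | add v w _ _ hv hw => rw [mul_add]; exact add_mem hv hw
    | zero => intro y _; rw [zero_mul]; exact zero_mem _
    | add u v _ _ hu hv => intro y hy; rw [add_mul]; exact add_mem (hu y hy) (hv y hy)
  have hspan : ∀ x ∈ Algebra.adjoin K' (⇑(coeffMap (algebraMap K K')) '' (F₀ : Set (LaurentSeries K))),
      x ∈ AddSubmonoid.closure G := by
    intro x hx
    induction hx using Algebra.adjoin_induction with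
    | mem x hx =>
      obtain ⟨a, ha, rfl⟩ := hx
      exact AddSubmonoid.subset_closure ⟨1, a, ha, by rw [map_one, one_mul]⟩
    | algebraMap r =>
      exact AddSubmonoid.subset_closure ⟨r, 1, F₀.one_mem, by rw [map_one, mul_one]⟩
    | add x y _ _ hx hy => exact add_mem hx hy
    | mul x y _ _ hx hy => exact hmulG x hx y hy
  have hφ : ∀ (φ : K' →ₗ[K] K) (x : LaurentSeries K'),
      x ∈ AddSubmonoid.closure G → coeffProj φ x ∈ F₀ := by
    intro φ x hx
    induction hx using AddSubmonoid.closure_induction with
    | mem x hx =>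
      obtain ⟨c, a, ha, rfl⟩ := hx
      have : coeffProj φ (algebraMap K' (LaurentSeries K') c * coeffMap (algebraMap K K') a) =
          algebraMap K (LaurentSeries K) (φ c) * a := by
        ext e
        show φ ((algebraMap K' (LaurentSeries K') c * coeffMap (algebraMap K K') a).coeff e) = _
        rw [algebraMap_laurentSeries_eq_single, algebraMap_laurentSeries_eq_single,
          HahnSeries.coeff_single_zero_mul, HahnSeries.coeff_single_zero_mul, coeffMap_coeff,
          mul_comm c, ← Algebra.smul_def, map_smul, smul_eq_mul, mul_comm]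
      rw [this]
      exact F₀.mul_mem (F₀.algebraMap_mem _) ha
    | zero =>
      have : coeffProj φ (0 : LaurentSeries K') = 0 := by ext e; simp [coeffProj]
      rw [this]; exact F₀.zero_mem
    | add x y _ _ hx hy => rw [coeffProj_add]; exact F₀.add_mem hx hy
  rw [IntermediateField.mem_adjoin_iff_div] at h
  obtain ⟨r, hr, s, hs, hrs⟩ := h
  rcases eq_or_ne s 0 with rfl | hs0
  · rw [div_zero] at hrs
    rw [(map_eq_zero (coeffMap (algebraMap K K'))).mp hrs]
    exact F₀.zero_mem
  obtain ⟨e, he⟩ : ∃ e, s.coeff e ≠ 0 := by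
    by_contra! h0
    exact hs0 (HahnSeries.ext (funext h0))
  obtain ⟨φ, hφe⟩ : ∃ φ : K' →ₗ[K] K, φ (s.coeff e) ≠ 0 := by
    by_contra! h0
    exact he ((Module.forall_dual_apply_eq_zero_iff K _).mp h0)
  have hne : coeffProj φ s ≠ 0 := fun h0 =>
    hφe (congrArg (fun z : LaurentSeries K => z.coeff e) h0)
  have hmul : coeffMap (algebraMap K K') w * s = r := by rw [hrs, div_mul_cancel₀ _ hs0]
  have hw : w = coeffProj φ r / coeffProj φ s := by
    rw [eq_div_iff hne, ← coeffProj_map_mul, hmul]
  rw [hw]
  exact F₀.div_mem (hφ φ r (hspan r hr)) (hφ φ s (hspan s hs))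

end Project

section Root

variable {k k' : Type*} [Field k] [Field k'] [CharZero k']

theorem coeff_mem_range_of_pow_powerSeries (g : k →+* k') {n : ℕ} (hn : 0 < n) {p : PowerSeries k'}
    (h1 : PowerSeries.constantCoeff p = 1)
    (h : ∀ i, PowerSeries.coeff i (p ^ n) ∈ g.range) : ∀ i, PowerSeries.coeff i p ∈ g.range := by
  classical
  intro i
  induction i using Nat.strong_induction_on with
  | _ i ih =>
    rcases Nat.eq_zero_or_pos i with rfl | hi
    · exact ⟨1, by rw [map_one, PowerSeries.coeff_zero_eq_constantCoeff_apply, h1]⟩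
    choose c hc using ih
    let t₀ : PowerSeries k := PowerSeries.mk fun l => if hl : l < i then c l hl else 0
    set t := PowerSeries.map g t₀ with ht
    have htl : ∀ l, PowerSeries.coeff l t = if l < i then PowerSeries.coeff l p else 0 := by
      intro l
      rw [ht, PowerSeries.coeff_map, PowerSeries.coeff_mk]
      split_ifs with hl
      · exact hc l hl
      · exact map_zero g
    obtain ⟨r, hr⟩ : PowerSeries.X ^ i ∣ p - t := by
      rw [PowerSeries.X_pow_dvd_iff]
      intro l hl
      rw [map_sub, htl, if_pos hl, sub_self]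
    have hr0 : PowerSeries.constantCoeff r = PowerSeries.coeff i p := by
      have h2 := congrArg (PowerSeries.coeff i) hr
      rw [map_sub, htl, if_neg (lt_irrefl i), sub_zero] at h2
      rw [h2]
      simpa using (PowerSeries.coeff_X_pow_mul r i 0).symm
    set S := ∑ l ∈ Finset.range n, p ^ l * t ^ (n - 1 - l) with hS
    have hS0 : PowerSeries.constantCoeff S = (n : k') := by
      have ht1 : PowerSeries.constantCoeff t = 1 := by
        rw [← PowerSeries.coeff_zero_eq_constantCoeff_apply, htl, if_pos hi,
          PowerSeries.coeff_zero_eq_constantCoeff_apply, h1]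
      simp [hS, map_sum, map_mul, map_pow, h1, ht1]
    have hdiff : PowerSeries.coeff i (p ^ n) - PowerSeries.coeff i (t ^ n) =
        (n : k') * PowerSeries.coeff i p := by
      rw [← map_sub, ← geom_sum₂_mul p t n, ← hS, hr, ← hS0, ← hr0, ← map_mul,
        show S * (PowerSeries.X ^ i * r) = PowerSeries.X ^ i * (S * r) by ring]
      simpa using PowerSeries.coeff_X_pow_mul (S * r) i 0
    have hn0 : (n : k') ≠ 0 := Nat.cast_ne_zero.mpr hn.ne'
    obtain ⟨a, ha⟩ := h i
    refine ⟨(a - PowerSeries.coeff i (t₀ ^ n)) / (n : k), ?_⟩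
    rw [map_div₀, map_sub, map_natCast, ha, ← PowerSeries.coeff_map, map_pow (PowerSeries.map g), ← ht, hdiff,
      mul_div_cancel_left₀ _ hn0]

theorem coeff_mem_range_of_pow (g : k →+* k') {n : ℕ} (hn : 0 < n) {z : LaurentSeries k'}
    (hlead : z.coeff z.order = 1) (h : ∀ i, (z ^ n).coeff i ∈ g.range) :
    ∀ i, z.coeff i ∈ g.range := by
  set p := LaurentSeries.powerSeriesPart z with hp
  have hz := LaurentSeries.single_order_mul_powerSeriesPart z
  have hpow : ∀ i : ℕ, PowerSeries.coeff i (p ^ n) = (z ^ n).coeff ((i : ℤ) + n • z.order) := by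
    intro i
    have e : z ^ n = HahnSeries.single (n • z.order) (1 : k') *
        HahnSeries.ofPowerSeries ℤ k' (p ^ n) := by
      conv_lhs => rw [← hz]
      rw [mul_pow, HahnSeries.single_pow, one_pow, map_pow]
    rw [e, HahnSeries.coeff_single_mul_add, one_mul, HahnSeries.ofPowerSeries_apply_coeff]
  have h1 : PowerSeries.constantCoeff p = 1 := by
    rw [← PowerSeries.coeff_zero_eq_constantCoeff_apply, hp, LaurentSeries.powerSeriesPart_coeff]
    simpa using hlead
  have hp' := coeff_mem_range_of_pow_powerSeries g hn h1 fun i => by rw [hpow]; exact h _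
  intro i
  rcases lt_or_ge i z.order with hi | hi
  · rw [HahnSeries.coeff_eq_zero_of_lt_order hi]
    exact zero_mem _
  · obtain ⟨l, rfl⟩ : ∃ l : ℕ, i = z.order + l := ⟨(i - z.order).toNat, by omega⟩
    rw [← LaurentSeries.powerSeriesPart_coeff]
    exact hp' l

end Root

end FLTA.Carayol.Bridge
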