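import Fermat.Agent.Curves.BasicModular
import Fermat.Prelude.Def_ModularCurve_HeckeOperator

/-!
# Function fields of `X₀(n)` over varying constants

`fld K n` is the field of level `n` with constants `K`, inside the Laurent series.  It is
functorial in `K` and in `n`; an element with coefficients in a smaller field lies in the smaller
field.
-/

set_option autoImplicit false

noncomputable section

open ModularCurve AlgebraicCurve HahnSeries IntermediateField

namespace FLTA.Carayol.Bridge

variable (K : Type) [Field K] [Algebra ℚ K]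

/-- The field of level `n` with constants `K`. -/
abbrev fld (n : ℕ) : IntermediateField K (LaurentSeries K) :=
  laurentBaseChange K (modularFunctionFieldFull n)

variable {K} {K' : Type} [Field K'] [Algebra ℚ K']

theorem coeffMap_coeffEmb (g : K →+* K') (x : LaurentSeries ℚ) :
    coeffMap g (coeffEmb K x) = coeffEmb K' x := by
  rw [coeffEmb, coeffEmb, coeffMap_coeffMap]
  exact coeffMap_congr (Subsingleton.elim _ _) x

theorem coeffMap_const (g : K →+* K') (c : K) :
    coeffMap g (algebraMap K (LaurentSeries K) c) = algebraMap K' (LaurentSeries K') (g c) := by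
  rw [algebraMap_laurentSeries_eq_single, algebraMap_laurentSeries_eq_single, coeffMap_single]

theorem coeffMap_mem_fld (g : K →+* K') (n : ℕ) {x : LaurentSeries K} (hx : x ∈ fld K n) :
    coeffMap g x ∈ fld K' n := by
  rw [fld, mem_laurentBaseChange_iff] at hx
  induction hx using Subfield.closure_induction with
  | mem y hy =>
    rcases hy with ⟨a, rfl⟩ | ⟨z, hz, rfl⟩
    · rw [coeffMap_const]
      exact (fld K' n).algebraMap_mem _
    · rw [coeffMap_coeffEmb]
      exact coeffEmb_mem_laurentBaseChange K' hz
  | one => rw [map_one]; exact one_mem _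
  | add x y _ _ hx hy => rw [map_add]; exact add_mem hx hy
  | neg x _ hx => rw [map_neg]; exact neg_mem hx
  | inv x _ hx => rw [map_inv₀]; exact inv_mem hx
  | mul x y _ _ hx hy => rw [map_mul]; exact mul_mem hx hy

/-- Change of constants. -/
def mapF (g : K →+* K') (n : ℕ) : fld K n →+* fld K' n where
  toFun x := ⟨coeffMap g (x : LaurentSeries K), coeffMap_mem_fld g n x.2⟩
  map_one' := Subtype.ext (map_one (coeffMap g))
  map_mul' _ _ := Subtype.ext (map_mul (coeffMap g) _ _)
  map_zero' := Subtype.ext (map_zero (coeffMap g))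
  map_add' _ _ := Subtype.ext (map_add (coeffMap g) _ _)

@[simp] theorem coe_mapF (g : K →+* K') (n : ℕ) (x : fld K n) :
    (mapF g n x : LaurentSeries K') = coeffMap g (x : LaurentSeries K) := rfl

theorem mapF_algebraMap (g : K →+* K') (n : ℕ) (c : K) :
    mapF g n (algebraMap K (fld K n) c) = algebraMap K' (fld K' n) (g c) :=
  Subtype.ext (coeffMap_const g c)

theorem mapF_injective (g : K →+* K') (n : ℕ) : Function.Injective (mapF g n) :=
  (mapF g n).injective

variable (K)

theorem fld_mono {m n : ℕ} [NeZero m] [NeZero n] (h : m ∣ n) : fld K m ≤ fld K n := by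
  rw [fld, laurentBaseChange, IntermediateField.adjoin_le_iff]
  rintro _ ⟨y, hy, rfl⟩
  exact coeffEmb_mem_laurentBaseChange K (full_degeneracy_le h hy)

/-- Raising the level. -/
def incl {m n : ℕ} [NeZero m] [NeZero n] (h : m ∣ n) : fld K m →ₐ[K] fld K n :=
  IntermediateField.inclusion (fld_mono K h)

@[simp] theorem coe_incl {m n : ℕ} [NeZero m] [NeZero n] (h : m ∣ n) (x : fld K m) :
    (incl K h x : LaurentSeries K) = (x : LaurentSeries K) :=
  IntermediateField.coe_inclusion _ x

variable {K}

theorem mapF_incl (g : K →+* K') {m n : ℕ} [NeZero m] [NeZero n] (h : m ∣ n) (x : fld K m) :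
    mapF g n (incl K h x) = incl K' h (mapF g m x) :=
  Subtype.ext (by simp)

theorem mapF_heckeAlpha (g : K →+* K') (n q : ℕ) [NeZero n] [NeZero q] (x : fld K n) :
    mapF g (n * q) (heckeAlphaBar K n q x) = heckeAlphaBar K' n q (mapF g n x) :=
  Subtype.ext (by simp)

omit [Algebra ℚ K] [Algebra ℚ K'] in
theorem coeffMap_qExpand_comm (g : K →+* K') (d : ℕ) [NeZero d] (x : LaurentSeries K) :
    coeffMap g (qExpand K d x) = qExpand K' d (coeffMap g x) := by
  ext k
  by_cases hk : (d : ℤ) ∣ k
  · obtain ⟨m, rfl⟩ := hk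
    rw [coeffMap_coeff, qExpand_coeff_mul, qExpand_coeff_mul, coeffMap_coeff]
  · rw [coeffMap_coeff, qExpand_coeff_of_not_dvd d _ hk, qExpand_coeff_of_not_dvd d _ hk,
      map_zero]

theorem mapF_heckeBeta (g : K →+* K') (n q : ℕ) [NeZero n] [NeZero q] (x : fld K n) :
    mapF g (n * q) (heckeBetaBar K n q x) = heckeBetaBar K' n q (mapF g n x) :=
  Subtype.ext (by simp [coeffMap_qExpand_comm])

/-- The norm along `τ ↦ τ`. -/
def normA (K : Type) [Field K] [Algebra ℚ K] (n q : ℕ) [NeZero n] [NeZero q] :
    fld K (n * q) →* fld K n :=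
  letI := algebraAlong (heckeAlphaBar K n q)
  Algebra.norm (fld K n)

/-- The norm along `τ ↦ q τ`. -/
def normB (K : Type) [Field K] [Algebra ℚ K] (n q : ℕ) [NeZero n] [NeZero q] :
    fld K (n * q) →* fld K n :=
  letI := algebraAlong (heckeBetaBar K n q)
  Algebra.norm (fld K n)

end FLTA.Carayol.Bridge
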