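import Fermat.Agent.Carayol.BridgeFields
import Fermat.Agent.Igusa.Degree
import Fermat.Agent.Congruence.AtkinLehner

/-!
# Generation and degrees of the degeneracy maps
-/

set_option autoImplicit false

noncomputable section

open ModularCurve AlgebraicCurve IntermediateField

namespace FLTA.Carayol.Bridge

variable (K : Type) [Field K] [Algebra ℚ K]

/-- `j(d τ)` in the field of level `n`. -/
def jOf {n : ℕ} (d : ℕ) [NeZero d] (h : d ∣ n) : fld K n :=
  ⟨coeffEmb K (qExpand ℚ d jq), coeffEmb_mem_laurentBaseChange K (jqd_mem_full n h)⟩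

theorem coe_jOf {n : ℕ} (d : ℕ) [NeZero d] (h : d ∣ n) :
    (jOf K d h : LaurentSeries K) = qExpand K d (jqModC K) :=
  FLTA.Curves.coeffEmb_qExpand_jq K d

theorem natCast_ne_zero' (n : ℕ) [NeZero n] : (n : K) ≠ 0 := by
  have := algebraRat.charZero K
  exact Nat.cast_ne_zero.mpr (NeZero.ne n)

theorem fld_eq_full (n : ℕ) : fld K n = modularFunctionFieldFullC K n :=
  FLTA.Curves.laurentBaseChange_full_eq n K

/-- Level `n` is generated by `j` and `j(n τ)`. -/
theorem fld_eq_adjoin_pair (n : ℕ) [NeZero n] :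
    fld K n = IntermediateField.adjoin K {jqModC K, qExpand K n (jqModC K)} := by
  rw [fld_eq_full, ← FLTA.Igusa.modularFunctionFieldC_eq_full K n (natCast_ne_zero' K n)]
  rfl

omit [Algebra ℚ K] in
/-- For `q` prime to `n`, an intermediate field containing level `n` and `j(q τ)` contains every
`j(d q τ)`, `d ∣ n`. -/
theorem qExpand_mul_mem (n q : ℕ) [NeZero n] [NeZero q] (hq : q.Prime) (hqn : ¬ q ∣ n)
    (hN : ((n * q : ℕ) : K) ≠ 0) (E : IntermediateField K (LaurentSeries K))
    (hE : ∀ (d : ℕ) [NeZero d], d ∣ n → qExpand K d (jqModC K) ∈ E)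
    (hEq : qExpand K q (jqModC K) ∈ E) :
    ∀ (d : ℕ) [NeZero d], d ∣ n → qExpand K (d * q) (jqModC K) ∈ E := by
  intro d
  induction d using Nat.strong_induction_on with
  | _ d ih =>
  intro _ hd
  rcases eq_or_ne d 1 with rfl | hd1
  · simpa only [one_mul] using hEq
  obtain ⟨p, hp, hpd⟩ := Nat.exists_prime_and_dvd hd1
  obtain ⟨e, rfl⟩ : ∃ e, d = e * p := ⟨d / p, (Nat.div_mul_cancel hpd).symm⟩
  have hp0 : NeZero p := ⟨hp.ne_zero⟩
  have he0 : NeZero e := ⟨left_ne_zero_of_mul (NeZero.ne (e * p))⟩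
  have hpq : p ≠ q := fun h => hqn (h ▸ (dvd_mul_left p e).trans hd)
  have heq : qExpand K (e * q) (jqModC K) ∈ E :=
    ih e ((lt_mul_iff_one_lt_right (NeZero.pos e)).mpr hp.one_lt) (dvd_of_mul_right_dvd hd)
  have hep : qExpand K (e * p) (jqModC K) ∈ E := hE _ hd
  have hj : jqModC K ∈ E := by simpa [qExpand_one_apply] using hE 1 (one_dvd n)
  set N := n * q with hNdef
  have hdN : e * p * q ∣ N := mul_dvd_mul_right hd q
  have hdN' : e * q * p ∣ N := by rwa [mul_right_comm]
  let ι := algebraMap (LaurentSeries (AlgebraicClosure K))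
    (AlgebraicClosure (LaurentSeries (AlgebraicClosure K)))
  let g : LaurentSeries K →+* AlgebraicClosure (LaurentSeries (AlgebraicClosure K)) :=
    (ι.comp (qExpand (AlgebraicClosure K) N)).comp (FLTA.Igusa.toAlgClosed K)
  let : Algebra E (AlgebraicClosure (LaurentSeries (AlgebraicClosure K))) :=
    (g.comp (algebraMap E (LaurentSeries K))).toAlgebra
  have hint : ∀ s ∈ divisorExpansionsC K N, IsIntegral E s := by
    rintro s ⟨c, hc, hcN, rfl⟩
    exact FLTA.Igusa.isIntegral_qExpand E hj c (FLTA.Igusa.natCast_ne_zero_of_dvd hN hcN)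
  have hg : ∀ (c : ℕ) [NeZero c],
      g (qExpand K c (jqModC K)) = ι (FLTA.Igusa.jExp 1 (N * c)) := by
    intro c hc
    simp [g, FLTA.Igusa.toAlgClosed_qExpand, FLTA.Igusa.jExp_one, qExpand_qExpand]
  set x := qExpand K (e * p * q) (jqModC K) with hx
  have hxmem : x ∈ IntermediateField.adjoin E (divisorExpansionsC K N) :=
    subset_adjoin E _ (mem_divisorExpansionsC K N hdN)
  have hxsep : IsSeparable E x :=
    FLTA.Igusa.isSeparable_qExpand E hj _ (FLTA.Igusa.natCast_ne_zero_of_dvd hN hdN)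
  have hroots : ∀ r : AlgebraicClosure (LaurentSeries (AlgebraicClosure K)),
      Polynomial.aeval r (minpoly E x) = 0 → r = g x := by
    intro r hr
    obtain ⟨σ, hσ⟩ := IntermediateField.exists_algHom_adjoin_of_splits_of_aeval
      (S := divisorExpansionsC K N) (F := E)
      (fun s hs => ⟨hint s hs, IsAlgClosed.splits _⟩) hxmem hr
    let τ := FLTA.Igusa.restrictFull E N σ
    have hτE : ∀ (c : ℕ) [NeZero c] (hc : c ∣ N), qExpand K c (jqModC K) ∈ E →
        τ (FLTA.Igusa.jEl N c hc) = ι (FLTA.Igusa.jExp 1 (N * c)) := fun c _ hc hcE =>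
      (σ.commutes (⟨_, hcE⟩ : E)).trans (hg c)
    have hNL := FLTA.Igusa.natCast_algebraicClosure_ne_zero hN
    have hr' : τ (FLTA.Igusa.jEl N (e * p * q) hdN) = r := hσ
    have hne : ∀ a : ℕ, a ≠ 0 → N * a ≠ 0 := fun a ha => mul_ne_zero (NeZero.ne N) ha
    have hdiv : ∀ c, c ∣ N → N / c ∣ N * c := fun c hc =>
      (Nat.div_dvd_of_dvd hc).trans (dvd_mul_right N c)
    have s1 := FLTA.Igusa.IsExpansionAt.step (L := AlgebraicClosure K) (τ := τ) (ι := ι) hNL hp hdN'
      (hτE (e * q) (dvd_of_mul_right_dvd hdN') heq) (hdiv _ (dvd_of_mul_right_dvd hdN'))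
      (hne _ (NeZero.ne _))
    have s2 := FLTA.Igusa.IsExpansionAt.step (L := AlgebraicClosure K) (τ := τ) (ι := ι) hNL hq hdN
      (hτE (e * p) (dvd_of_mul_right_dvd hdN) hep) (hdiv _ (dvd_of_mul_right_dvd hdN))
      (hne _ (NeZero.ne _))
    rw [FLTA.Igusa.jEl_congr N (mul_right_comm e q p) hdN' hdN, hr'] at s1
    rw [hr'] at s2
    rw [hx, hg]
    rcases s1 with h1 | ⟨w, f, -, hf, h1⟩
    · rw [h1, one_pow]; congr 2; ring
    exfalso
    have hf0 : f ≠ 0 := fun h0 => hne _ (NeZero.ne (e * q)) (by rw [hf, h0, zero_mul])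
    rcases s2 with h2 | ⟨w', f', -, hf', h2⟩
    · obtain ⟨hk, -⟩ := FLTA.Igusa.jExp_inj hf0
        (mul_ne_zero (hne _ (NeZero.ne (e * p))) hq.ne_zero) (ι.injective (h1.symm.trans h2))
      rw [hk] at hf
      have h3 : N * (e * q) = N * (e * q) * (p * p) := hf.trans (by ring)
      have h4 := mul_left_cancel₀ (hne _ (NeZero.ne (e * q))) ((mul_one _).trans h3)
      nlinarith [hp.two_le]
    · have hf0' : f' ≠ 0 := fun h0 => hne _ (NeZero.ne (e * p)) (by rw [hf', h0, zero_mul])
      obtain ⟨rfl, -⟩ := FLTA.Igusa.jExp_inj hf0 hf0' (ι.injective (h1.symm.trans h2))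
      have h3 : f * p * p = f * q * q := by rw [← hf, ← hf']; ring
      rw [mul_assoc, mul_assoc] at h3
      exact hpq (Nat.mul_self_inj.mp (mul_left_cancel₀ hf0 h3))
  have hdeg : (minpoly E x).natDegree = 1 := by
    have hcard := (IsAlgClosed.splits ((minpoly E x).map
        (algebraMap E (AlgebraicClosure (LaurentSeries (AlgebraicClosure K)))))).natDegree_eq_card_roots
    rw [Polynomial.natDegree_map] at hcard
    have hpos := minpoly.natDegree_pos hxsep.isIntegral
    have hnd := Polynomial.nodup_roots (Polynomial.Separable.map (f :=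
      algebraMap E (AlgebraicClosure (LaurentSeries (AlgebraicClosure K)))) hxsep)
    have hle : Multiset.card ((minpoly E x).map
        (algebraMap E (AlgebraicClosure (LaurentSeries (AlgebraicClosure K))))).roots ≤ 1 := by
      refine (Multiset.card_le_card (t := {g x}) ((Multiset.le_iff_subset hnd).mpr fun r hr => ?_))
      rw [Multiset.mem_singleton]
      exact hroots r (Polynomial.aeval_def r (minpoly E x) ▸
        (Polynomial.eval_map _ r).symm.trans (Polynomial.isRoot_of_mem_roots hr))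
    omega
  obtain ⟨y, hy⟩ := (minpoly.natDegree_eq_one_iff).mp hdeg
  rw [← hy]
  exact y.2

/-- For `q` prime to `n`, level `n q` is generated by level `n` and `j(q τ)`. -/
theorem fld_mul_eq_adjoin_jq (n q : ℕ) [NeZero n] [NeZero q] (hq : q.Prime) (hqn : ¬ q ∣ n) :
    fld K (n * q) =
      IntermediateField.adjoin K (insert (qExpand K q (jqModC K)) (fld K n : Set (LaurentSeries K))) := by
  refine le_antisymm ?_ ?_
  · rw [fld_eq_adjoin_pair K (n * q), adjoin_le_iff]
    have hE : ∀ (d : ℕ) [NeZero d], d ∣ n → qExpand K d (jqModC K) ∈ IntermediateField.adjoin K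
        (insert (qExpand K q (jqModC K)) (fld K n : Set (LaurentSeries K))) := fun d _ hd =>
      subset_adjoin K _ (Set.mem_insert_of_mem _ ((fld_eq_full K n).ge (jqModCd_mem_full K n hd)))
    rintro x (rfl | rfl)
    · simpa [qExpand_one_apply] using hE 1 (one_dvd n)
    · exact qExpand_mul_mem K n q hq hqn (natCast_ne_zero' K (n * q)) _ hE
        (subset_adjoin K _ (Set.mem_insert _ _)) n dvd_rfl
  · rw [adjoin_le_iff, Set.insert_subset_iff]
    exact ⟨(fld_eq_full K (n * q)).ge (jqModCd_mem_full K (n * q) (dvd_mul_left q n)),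
      fld_mono K (dvd_mul_right n q)⟩

/-- Level `n q` is generated by the two images of level `n`. -/
theorem fld_mul_le_adjoin_beta (n q : ℕ) [NeZero n] [NeZero q] :
    fld K (n * q) ≤ IntermediateField.adjoin K
      (insert (jqModC K) (qExpand K q '' (fld K n : Set (LaurentSeries K)))) := by
  rw [fld_eq_adjoin_pair K (n * q), adjoin_le_iff]
  rintro x (rfl | rfl)
  · exact subset_adjoin K _ (Set.mem_insert _ _)
  · refine subset_adjoin K _ (Set.mem_insert_of_mem _ ⟨qExpand K n (jqModC K), ?_, ?_⟩)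
    · exact (fld_eq_full K n).ge (jqModCd_mem_full K n dvd_rfl)
    · rw [qExpand_qExpand]
      exact qExpand_congr (mul_comm q n) _

theorem finrankAlong_alpha (n q : ℕ) [NeZero n] [NeZero q] (hq : q.Prime) :
    finrankAlong K (heckeAlphaBar K n q) = if q ∣ n then q else q + 1 := by
  have hmem : ∀ (M : ℕ) [NeZero M] (x : LaurentSeries K),
      x ∈ FLTA.Igusa.fullOver K M ↔ x ∈ fld K M := by
    intro M _ x
    rw [FLTA.Igusa.mem_fullOver_iff, fld_eq_full]
  have hle : FLTA.Igusa.fullOver K n ≤ FLTA.Igusa.fullOver K (n * q) := fun x hx => by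
    rw [hmem] at hx ⊢
    exact fld_mono K (dvd_mul_right n q) hx
  have h3 := FLTA.Congruence.finrank_mul_of_le hle
  rw [FLTA.Igusa.finrank_fullOver K n (natCast_ne_zero' K n),
    FLTA.Igusa.finrank_fullOver K (n * q) (natCast_ne_zero' K (n * q)),
    FLTA.Gamma0.dedekindPsi_mul_prime n q hq, mul_comm (if q ∣ n then q else q + 1)] at h3
  exact (FLTA.Congruence.finrankAlong_eq_of_carrier (hmem n) (hmem (n * q)) hle _
    (fun x => coe_heckeAlphaBar n q x)).trans
      (Nat.eq_of_mul_eq_mul_left (FLTA.Igusa.dedekindPsi_pos n) h3)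

omit [Algebra ℚ K] in
/-- Homomorphisms out of a generated field agreeing on the generators are equal. -/
theorem hom_ext_of_eq_adjoin {L B : Type*} [Field L] [Algebra K L] [Field B] [Algebra K B]
    {F : IntermediateField K L} {s : Set L} (hF : F = IntermediateField.adjoin K s)
    {f g : F →ₐ[K] B} (h : ∀ x : F, (x : L) ∈ s → f x = g x) : f = g := by
  subst hF
  refine AlgHom.ext fun ⟨x, hx⟩ => ?_
  induction hx using IntermediateField.adjoin_induction with
  | mem z hz => exact h _ hz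
  | algebraMap c => exact (f.commutes c).trans (g.commutes c).symm
  | add a b ha' hb' ha hb =>
    exact (map_add f ⟨a, ha'⟩ ⟨b, hb'⟩).trans
      ((congrArg₂ (· + ·) ha hb).trans (map_add g ⟨a, ha'⟩ ⟨b, hb'⟩).symm)
  | inv a ha' ha =>
    exact (map_inv₀ f ⟨a, ha'⟩).trans
      ((congrArg (·⁻¹) ha).trans (map_inv₀ g ⟨a, ha'⟩).symm)
  | mul a b ha' hb' ha hb =>
    exact (map_mul f ⟨a, ha'⟩ ⟨b, hb'⟩).trans
      ((congrArg₂ (· * ·) ha hb).trans (map_mul g ⟨a, ha'⟩ ⟨b, hb'⟩).symm)

/-- Extensionality for homomorphisms out of `fld K n`. -/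
theorem fld_hom_ext {n : ℕ} [NeZero n] {B : Type*} [Field B] [Algebra K B]
    {f g : fld K n →ₐ[K] B} (h1 : f (jOf K 1 (one_dvd n)) = g (jOf K 1 (one_dvd n)))
    (hn : f (jOf K n dvd_rfl) = g (jOf K n dvd_rfl)) : f = g := by
  refine hom_ext_of_eq_adjoin K (fld_eq_adjoin_pair K n) fun x hx => ?_
  rcases hx with hx | hx
  · have e : x = jOf K 1 (one_dvd n) := Subtype.ext (by rw [hx, coe_jOf, qExpand_one_apply])
    rw [e, h1]
  · have e : x = jOf K n dvd_rfl := Subtype.ext (by rw [Set.mem_singleton_iff.mp hx, coe_jOf])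
    rw [e, hn]

omit [Algebra ℚ K] in
theorem exists_fricke_of_eq (n : ℕ) [NeZero n] (hn : (n : K) ≠ 0)
    (F : IntermediateField K (LaurentSeries K)) (hF : F = modularFunctionFieldFullC K n) :
    ∃ V : F →ₐ[K] F, ∀ (a b : ℕ) [NeZero a] [NeZero b], a * b = n → ∀ x : F,
      (x : LaurentSeries K) = qExpand K a (jqModC K) →
        (V x : LaurentSeries K) = qExpand K b (jqModC K) := by
  subst hF
  obtain ⟨W, hW⟩ := FLTA.Igusa.exists_fricke K n hn
  refine ⟨W, fun a b _ _ h x hx => ?_⟩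
  rw [show x = ⟨_, jqModCd_mem_full K n (Dvd.intro b h)⟩ from Subtype.ext hx]
  exact hW a b h

/-- The Fricke involution `j(a τ) ↦ j(b τ)`, `a b = n`. -/
theorem exists_frickeEquiv (n : ℕ) [NeZero n] :
    ∃ W : fld K n ≃ₐ[K] fld K n, ∀ (a b : ℕ) [NeZero a] [NeZero b] (h : a * b = n),
      W (jOf K a (Dvd.intro b h)) = jOf K b (Dvd.intro_left a h) := by
  obtain ⟨V, hV'⟩ :=
    exists_fricke_of_eq K n (natCast_ne_zero' K n) (fld K n) (fld_eq_full K n)
  have hV : ∀ (a b : ℕ) [NeZero a] [NeZero b] (h : a * b = n),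
      V (jOf K a (Dvd.intro b h)) = jOf K b (Dvd.intro_left a h) := fun a b _ _ h =>
    Subtype.ext ((hV' a b h _ (coe_jOf K a _)).trans (coe_jOf K b _).symm)
  have hVV : V.comp V = AlgHom.id K _ := by
    refine fld_hom_ext K ?_ ?_
    · rw [AlgHom.comp_apply, hV 1 n (one_mul n), hV n 1 (mul_one n), AlgHom.id_apply]
    · rw [AlgHom.comp_apply, hV n 1 (mul_one n), hV 1 n (one_mul n), AlgHom.id_apply]
  exact ⟨AlgEquiv.ofAlgHom V V hVV hVV, hV⟩

theorem finrankAlong_beta (n q : ℕ) [NeZero n] [NeZero q] (hq : q.Prime) :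
    finrankAlong K (heckeBetaBar K n q) = if q ∣ n then q else q + 1 := by
  obtain ⟨V, hV⟩ := exists_frickeEquiv K n
  obtain ⟨W, hW⟩ := exists_frickeEquiv K (n * q)
  have hcomp : (heckeAlphaBar K n q).comp V.toAlgHom =
      W.toAlgHom.comp (heckeBetaBar K n q) := by
    refine fld_hom_ext K ?_ ?_
    · show heckeAlphaBar K n q (V _) = W (heckeBetaBar K n q _)
      have e1 : heckeBetaBar K n q (jOf K 1 (one_dvd n)) = jOf K q (dvd_mul_left q n) :=
        Subtype.ext (by simp [coe_jOf, qExpand_qExpand])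
      rw [e1, hW q n (mul_comm q n), hV 1 n (one_mul n)]
      exact Subtype.ext (by simp [coe_jOf])
    · show heckeAlphaBar K n q (V _) = W (heckeBetaBar K n q _)
      have e1 : heckeBetaBar K n q (jOf K n dvd_rfl) = jOf K (n * q) dvd_rfl :=
        Subtype.ext (by simp [coe_jOf, qExpand_qExpand, mul_comm n q])
      rw [e1, hW (n * q) 1 (mul_one _), hV n 1 (mul_one n)]
      exact Subtype.ext (by simp [coe_jOf])
  rw [← finrankAlong_alpha K n q hq]
  exact @Algebra.finrank_eq_of_equiv_equiv _ _ _ _ (algebraAlong (heckeBetaBar K n q)) _ _ _ _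
    (algebraAlong (heckeAlphaBar K n q)) V.toRingEquiv W.toRingEquiv
    (RingHom.ext fun x => DFunLike.congr_fun hcomp x)

end FLTA.Carayol.Bridge
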