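import Fermat.Agent.Carayol.BridgeFields
import Fermat.Agent.Carayol.BridgeConstExt
import Fermat.Agent.Curves.RRLaurentInd

/-!
# Valuations of functions over the inertia field

A valuation trivial on the constants on the field over smaller constants extends without
ramification to a place over `AlgebraicClosure ℚ`.
-/

set_option autoImplicit false

noncomputable section

open AlgebraicCurve ModularCurve WithZero

namespace FLTA.Carayol.Bridge

local notation "Qbar" => AlgebraicClosure ℚ

theorem exists_place_fld_ord_eq {N : ℕ} {K₀ : Type} [Field K₀] [Algebra ℚ K₀]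
    (g : K₀ →+* Qbar) (P : Place K₀ (fld K₀ N)) :
    ∃ w : Place Qbar (modularFunctionFieldBar N), ∀ f, w.ord (mapF g N f) = P.ord f := by
  letI : Algebra K₀ Qbar := g.toAlgebra
  haveI : IsScalarTower ℚ K₀ Qbar := IsScalarTower.of_algebraMap_eq' (Subsingleton.elim _ _)
  haveI : CharZero K₀ := algebraRat.charZero K₀
  haveI : Algebra.IsAlgebraic ℚ Qbar := AlgebraicClosure.isAlgebraic ℚ
  haveI : Algebra.IsAlgebraic K₀ Qbar := Algebra.IsAlgebraic.tower_top (K := ℚ) K₀
  refine exists_place_ord_eq (𝕜 := Qbar) (L := fld Qbar N) (mapF g N) (mapF_algebraMap g N)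
    (fun x => ?_) (fun n f hf => ?_) P
  · have hx := mem_laurentBaseChange_iff.1 x.2
    have hle : Subfield.closure (Set.range (algebraMap Qbar (LaurentSeries Qbar)) ∪
        (⇑(coeffEmb Qbar) '' (modularFunctionFieldFull N : Set (LaurentSeries ℚ)))) ≤
        (Subfield.closure (Set.range (mapF g N) ∪ Set.range (algebraMap Qbar (fld Qbar N)))).map
          (fld Qbar N).val.toRingHom := by
      rw [RingHom.map_field_closure]
      refine Subfield.closure_mono ?_
      rintro y (⟨c, rfl⟩ | ⟨z, hz, rfl⟩)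
      · exact ⟨algebraMap Qbar (fld Qbar N) c, Or.inr ⟨c, rfl⟩, rfl⟩
      · exact ⟨mapF g N ⟨coeffEmb K₀ z, coeffEmb_mem_laurentBaseChange K₀ hz⟩, Or.inl ⟨_, rfl⟩,
          coeffMap_coeffEmb g z⟩
    obtain ⟨y, hy, hyx⟩ := hle hx
    rwa [show x = y from Subtype.ext hyx.symm]
  · have h1 := FLTA.Curves.linearIndependent_coeffMap (C := Qbar) g
      (Fintype.linearIndependent_iff.2 fun c hc =>
        Fintype.linearIndependent_iff.1 hf c (Subtype.ext (by
          rw [IntermediateField.coe_sum, ZeroMemClass.coe_zero]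
          refine HahnSeries.ext (funext fun k => ?_)
          simpa [HahnSeries.coeff_sum, Algebra.smul_def, algebraMap_laurentSeries_eq_single] using congrArg (fun z => z.coeff k) hc)) :
          LinearIndependent K₀ fun i => (f i : LaurentSeries K₀))
    refine Fintype.linearIndependent_iff.2 fun c hc => Fintype.linearIndependent_iff.1 h1 c ?_
    refine HahnSeries.ext (funext fun k => ?_)
    simpa [HahnSeries.coeff_sum, Algebra.smul_def, algebraMap_laurentSeries_eq_single] using
      congrArg (fun z : fld Qbar N => (z : LaurentSeries Qbar).coeff k) hc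

theorem exists_pow_eq_valuation {N : ℕ} [NeZero N] {K₀ : Type} [Field K₀] [Algebra ℚ K₀]
    (g : K₀ →+* Qbar) {n : ℕ} (hn : 0 < n) (f : fld K₀ N)
    (hdiv : ∀ w : Place Qbar (modularFunctionFieldBar N), (n : ℤ) ∣ w.ord (mapF g N f))
    {Ω : Type} [Field Ω] (ψ : fld K₀ N →+* Ω) (v : Valuation Ω ℤᵐ⁰)
    (hv : ∀ c : K₀, c ≠ 0 → v (ψ (algebraMap K₀ (fld K₀ N) c)) = 1) :
    ∃ z, v (ψ f) = z ^ n := by
  rcases eq_or_ne f 0 with rfl | hf
  · exact ⟨0, by rw [map_zero, map_zero, zero_pow hn.ne']⟩
  set u : Valuation (fld K₀ N) ℤᵐ⁰ := v.comap ψ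
  by_cases htriv : ∀ x : fld K₀ N, x ≠ 0 → u x = 1
  · exact ⟨1, by rw [one_pow]; exact htriv f hf⟩
  push Not at htriv
  obtain ⟨x, hx0, hx1⟩ := htriv
  have hnt : u.IsNontrivial := ⟨x, u.ne_zero_iff.2 hx0, hx1⟩
  let P : Place K₀ (fld K₀ N) :=
    { toValuationSubring := u.valuationSubring
      algebraMap_mem' := fun c => by
        rw [Valuation.mem_valuationSubring_iff]
        rcases eq_or_ne c 0 with rfl | hc
        · simp
        · exact (hv c hc).le
      ne_top' := fun h => by
        have h1 : ∀ y : fld K₀ N, u y ≤ 1 := fun y => by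
          rw [← Valuation.mem_valuationSubring_iff, h]; exact ValuationSubring.mem_top y
        refine hx1 (le_antisymm (h1 x) ?_)
        have h2 := h1 x⁻¹
        rwa [map_inv₀, inv_le_one₀ (zero_lt_iff.2 (u.ne_zero_iff.2 hx0))] at h2
      isPrincipalIdealRing' := Valuation.valuationSubring_isPrincipalIdealRing u }
  obtain ⟨π, hπ⟩ := IsDiscreteValuationRing.exists_irreducible P.toValuationSubring
  obtain ⟨a, ha⟩ := P.exists_unit_mul_zpow hf hπ
  have ha1 : u ((a : P.toValuationSubring) : fld K₀ N) = 1 := by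
    refine le_antisymm (a : P.toValuationSubring).2 ?_
    have h1 := congrArg (fun z : P.toValuationSubring => u (z : fld K₀ N)) a.mul_inv
    simp only [MulMemClass.coe_mul, OneMemClass.coe_one, map_mul, map_one] at h1
    exact h1.symm.le.trans (mul_le_of_le_one_right' (↑a⁻¹ : P.toValuationSubring).2)
  obtain ⟨w, hw⟩ := exists_place_fld_ord_eq g P
  obtain ⟨k, hk⟩ := hdiv w
  rw [hw] at hk
  refine ⟨u (π : fld K₀ N) ^ k, ?_⟩
  show u f = _
  rw [ha, map_mul, ha1, one_mul, map_zpow₀, hk, mul_comm, zpow_mul, zpow_natCast]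

end FLTA.Carayol.Bridge
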