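import Fermat.Agent.Carayol.Pairs
import Fermat.Agent.Carayol.Completion
import Fermat.Agent.Carayol.Haupt.Series
import Mathlib.RingTheory.DiscreteValuationRing.Basic
import Mathlib.RingTheory.LocalRing.ResidueField.Basic
import Mathlib.RingTheory.PowerSeries.NoZeroDivisors
import Mathlib.RingTheory.Polynomial.Basic

/-!
# Covers of the line of a Hauptmodul over the coefficient ring `W`

`Q : W[T][Y]` describes the function field of level prime to `q` over the line with coordinate
`T`: it stays irreducible at the Gauss point, where it gives an unramified extension, it splits at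
the points off the cusps, and after taking a root of order prime to `q` of the parameter at the
cusps.
-/

set_option autoImplicit false

noncomputable section

open Polynomial

namespace FLTA.Carayol

variable (W : Type) [CommRing W]

/-- Expansion `T = t₀ + r ^ e`. -/
def pointMap (t₀ : W) (e : ℕ) : W[X] →+* PowerSeries W :=
  eval₂RingHom PowerSeries.C (PowerSeries.C t₀ + PowerSeries.X ^ e)

/-- A polynomial is a product of distinct linear factors. -/
def SplitsIn {A : Type*} [CommRing A] (p : A[X]) (d : ℕ) : Prop :=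
  ∃ r : Fin d → A, Function.Injective r ∧ p = ∏ i, (X - C (r i))

variable [IsDomain W]

/-- Expansion `T = t₀ + r ^ e`, with values in the fraction field. -/
def pointHom (t₀ : W) (e : ℕ) : W[X] →+* FractionRing (PowerSeries W) :=
  (algebraMap (PowerSeries W) _).comp (pointMap W t₀ e)

/-- Expansion `T = r ^ (-e)`. -/
def infHom (e : ℕ) : W[X] →+* FractionRing (PowerSeries W) :=
  eval₂RingHom ((algebraMap (PowerSeries W) _).comp PowerSeries.C)
    ((algebraMap (PowerSeries W) (FractionRing (PowerSeries W)) PowerSeries.X)⁻¹ ^ e)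

variable [IsNoetherianRing W]

/-- Polynomials in `T` in the completion at the Gauss point, with fractions. -/
def gaussHom (q : ℕ) [Fact (Prime (C (q : W) : W[X]))] :
    W[X] →+* FractionRing (HatAt (C (q : W) : W[X])) :=
  (algebraMap (HatAt (C (q : W) : W[X])) _).comp (toHat _)

/-- The properties of the polynomial `Q` describing the level prime to `q`. -/
structure LineCover (q L : ℕ) [NeZero L] [Fact (Prime (C (q : W) : W[X]))] (Q : W[X][X]) :
    Prop where
  monic : Q.Monic
  irreducible : Irreducible (Q.map (algebraMap W[X] (FractionRing W[X])))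
  gauss : ∃ (A : Type) (_ : CommRing A) (_ : IsDomain A) (_ : IsDiscreteValuationRing A)
    (_ : IsAdicComplete (IsLocalRing.maximalIdeal A) A)
    (f : HatAt (C (q : W) : W[X]) →+* A)
    (g : AdjoinRoot (Q.map (gaussHom W q)) ≃+* FractionRing A),
    (∀ h, g (AdjoinRoot.of _ (algebraMap _ (FractionRing (HatAt (C (q : W) : W[X]))) h)) =
      algebraMap A (FractionRing A) (f h)) ∧
    IsLocalRing.maximalIdeal A = Ideal.span {(q : A)} ∧
    ∀ c : IsLocalRing.ResidueField A, c ^ q ≠ IsLocalRing.residue A (f (toHat _ X))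
  splits_point : ∀ t₀ : W, IsUnit (((Haupt.cuspPoly L).map (Int.castRingHom W)).eval t₀) →
    SplitsIn (Q.map (pointHom W t₀ 1)) Q.natDegree
  splits_cusp : ∀ t₀ : W, ((Haupt.cuspPoly L).map (Int.castRingHom W)).eval t₀ = 0 →
    ∃ e : ℕ, 0 < e ∧ e.Coprime q ∧ SplitsIn (Q.map (pointHom W t₀ e)) Q.natDegree
  splits_inf : ∃ e : ℕ, 0 < e ∧ e.Coprime q ∧ SplitsIn (Q.map (infHom W e)) Q.natDegree

/-- The field of level prime to `q`: `K(T)[Y] / Q`. -/
abbrev CoverAlg (Q : W[X][X]) : Type :=
  AdjoinRoot (Q.map (algebraMap W[X] (FractionRing W[X])))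

variable {W}

/-- Polynomials in `T` in the cover algebra. -/
def coverBase (Q : W[X][X]) : W[X] →+* CoverAlg W Q :=
  (AdjoinRoot.of _).comp (algebraMap W[X] (FractionRing W[X]))

/-- The modular equation with coefficients in the cover algebra. -/
abbrev coverPhi (Φ : ℤ[X][X]) (Q : W[X][X]) : (CoverAlg W Q)[X] :=
  Φ.map ((coverBase Q).comp (mapRingHom (Int.castRingHom W)))

/-- Constants in the pair algebra over the cover. -/
def coverConst (Φ : ℤ[X][X]) (Q : W[X][X]) : W →+* Pairs (coverPhi Φ Q) :=
  (Pairs.ofBase (coverPhi Φ Q)).comp ((coverBase Q).comp Polynomial.C)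

/-- All valuations trivial on the constants are divisible by `n` at `y`. -/
def HorizDivisible (Φ : ℤ[X][X]) (Q : W[X][X]) (n : ℕ) (y : Pairs (coverPhi Φ Q)) : Prop :=
  ∀ (F : Type) [Field F] (ψ : Pairs (coverPhi Φ Q) →+* F)
    (v : Valuation F (WithZero (Multiplicative ℤ))),
    (∀ w : W, w ≠ 0 → v (ψ (coverConst Φ Q w)) = 1) → ∃ z, v (ψ y) = z ^ n

end FLTA.Carayol
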