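import Fermat.Agent.Carayol.BridgeGen
import Fermat.Agent.Carayol.LineCover
import Fermat.Agent.Carayol.Haupt.ModEq
import Fermat.Agent.Carayol.Chart.TModel
import Fermat.Agent.Smooth.LocalizedBase

/-!
# The algebra of pairs is the field of level `q² M`

With `T = t(q τ)`, the pairs of roots `(X, Z)` of `Φ(·, T)` are `(t(τ), t(q² τ))`.
-/

set_option autoImplicit false

noncomputable section

open Polynomial ModularCurve ModularCurve.IgusaScheme AlgebraicCurve IntermediateField

namespace FLTA.Carayol.Bridge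

/-- A root of a monic polynomial of the degree of the extension which generates it defines an
isomorphism. -/
theorem bijective_adjoinRoot_lift {R F : Type} [Field R] [Field F] (P : R[X]) (hP : P.Monic)
    (hd : 0 < P.natDegree) (i : R →+* F) (x : F) (hx : P.eval₂ i x = 0)
    (hfin : letI := i.toAlgebra; Module.finrank R F = P.natDegree)
    (hgen : ∀ S : Subfield F, i.fieldRange ≤ S → x ∈ S → S = ⊤) :
    Function.Bijective (AdjoinRoot.lift i x hx) := by
  letI := i.toAlgebra
  replace hfin : Module.finrank R F = P.natDegree := hfin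
  have : Module.Finite R F := Module.finite_of_finrank_pos (by omega)
  have := hP.finite_adjoinRoot
  let f : AdjoinRoot P →ₐ[R] F :=
    { AdjoinRoot.lift i x hx with commutes' := fun r => AdjoinRoot.lift_of hx }
  have hsurj : Function.Surjective f := by
    intro y
    have htop : IntermediateField.adjoin R {x} = ⊤ := by
      refine eq_top_iff.mpr fun z _ => ?_
      have hS := hgen (IntermediateField.adjoin R {x}).toSubfield (fun z hz => by
        obtain ⟨r, rfl⟩ := RingHom.mem_fieldRange.mp hz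
        exact IntermediateField.algebraMap_mem (IntermediateField.adjoin R {x}) r)
        (mem_adjoin_simple_self R x)
      exact show z ∈ (IntermediateField.adjoin R {x}).toSubfield from hS ▸ Subfield.mem_top z
    have hy : y ∈ (IntermediateField.adjoin R {x}).toSubalgebra := by
      rw [htop]; trivial
    rw [IntermediateField.adjoin_simple_toSubalgebra_of_isAlgebraic
      (Algebra.IsAlgebraic.isAlgebraic x), Algebra.adjoin_singleton_eq_range_aeval,
      AlgHom.mem_range] at hy
    obtain ⟨p, rfl⟩ := hy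
    exact ⟨AdjoinRoot.mk P p, (AdjoinRoot.lift_mk hx p).trans rfl⟩
  have hrank : Module.finrank R (AdjoinRoot P) = Module.finrank R F := by
    rw [hfin, (AdjoinRoot.powerBasis' hP).finrank, AdjoinRoot.powerBasis'_dim]
  exact ⟨(LinearMap.injective_iff_surjective_of_finrank_eq_finrank hrank
    (f := f.toLinearMap)).mpr hsurj, hsurj⟩

/-- A monic polynomial whose algebra is a domain is irreducible. -/
theorem irreducible_of_bijective {R F : Type} [Field R] [Field F] {P : R[X]} (hP : P.Monic)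
    {f : AdjoinRoot P →+* F} (hf : Function.Bijective f) : Irreducible P := by
  have : IsDomain (AdjoinRoot P) := Function.Injective.isDomain f hf.1
  exact ((Ideal.span_singleton_prime hP.ne_zero).mp
    ((Ideal.Quotient.isDomain_iff_prime _).mp this)).irreducible

theorem finrank_comp_ringEquiv {R k F : Type} [Field R] [Field k] [Field F] (γ : R ≃+* k)
    (j : k →+* F) :
    (letI := (j.comp γ.toRingHom).toAlgebra; Module.finrank R F) =
      (letI := j.toAlgebra; Module.finrank k F) :=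
  @Algebra.finrank_eq_of_equiv_equiv R F _ _ (j.comp γ.toRingHom).toAlgebra k F _ _ j.toAlgebra γ
    (RingEquiv.refl F) (RingHom.ext fun _ => rfl)

variable {K : Type} [Field K] [Algebra ℚ K]

/-- A subfield of `fld K n` containing the constants and generators is everything. -/
theorem fld_subfield_eq_top {n : ℕ} (S : Subfield (fld K n))
    (hc : ∀ c : K, algebraMap K (fld K n) c ∈ S) (s : Set (LaurentSeries K))
    (hn : fld K n ≤ IntermediateField.adjoin K s)
    (hs : ∀ z ∈ s, ∃ y ∈ S, (y : LaurentSeries K) = z) : S = ⊤ := by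
  let E : IntermediateField K (LaurentSeries K) :=
    (S.map (fld K n).val.toRingHom).toIntermediateField fun c =>
      ⟨algebraMap K (fld K n) c, hc c, rfl⟩
  have hle : IntermediateField.adjoin K s ≤ E := adjoin_le_iff.mpr fun z hz => by
    obtain ⟨y, hy, rfl⟩ := hs z hz
    exact ⟨y, hy, rfl⟩
  refine eq_top_iff.mpr fun y _ => ?_
  obtain ⟨y', hy', he⟩ := hle (hn y.2)
  rwa [Subtype.ext he] at hy'

/-- The rational forms inside the field with constants `K`. -/
def ofFull (K : Type) [Field K] [Algebra ℚ K] (n : ℕ) :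
    ↥(modularFunctionFieldFull n) →+* fld K n :=
  ((coeffEmb K).comp (algebraMap ↥(modularFunctionFieldFull n) (LaurentSeries ℚ))).codRestrict
    (fld K n) fun x => coeffEmb_mem_laurentBaseChange K x.2

@[simp] theorem coe_ofFull (n : ℕ) (x : ↥(modularFunctionFieldFull n)) :
    (ofFull K n x : LaurentSeries K) = coeffEmb K (x : LaurentSeries ℚ) := rfl

theorem coe_ofFull_tFull {L M : ℕ} [NeZero L] [NeZero M] {t : ↥(modularFunctionFieldFull M)}
    (ht : Chart.IsTFull L M t) : (ofFull K M t : LaurentSeries K) = Haupt.tOf L K := by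
  rw [coe_ofFull, show (t : LaurentSeries ℚ) = _ from ht, coeffEmb, coeffMap_coeffMap, Haupt.tOf]
  exact coeffMap_congr (RingHom.ext_int _ _) _

/-- `j` is a rational function of `t`. -/
theorem jOf_one_mem {L M : ℕ} [NeZero L] [NeZero M] (hL : Haupt.IsHauptLevel L)
    {t : ↥(modularFunctionFieldFull M)} (ht : Chart.IsTFull L M t) {F : Type} [Field F]
    (h : fld K M →+* F) (S : Subfield F) (hS : h (ofFull K M t) ∈ S) :
    h (jOf K 1 (one_dvd M)) ∈ S := by
  let g := h.comp (ofFull K M)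
  have hden : g (Chart.evalInt t (Chart.jDen L)) ≠ 0 :=
    (map_ne_zero g).mpr ht.evalInt_den_ne_zero
  have hmem : ∀ P : ℤ[X], g (Chart.evalInt t P) ∈ S := fun P => by
    rw [← RingHom.comp_apply, Chart.comp_evalInt, Chart.evalInt_apply, eval₂_eq_sum_range]
    exact sum_mem fun i _ => mul_mem (intCast_mem S _) (pow_mem hS i)
  have hj : jOf K 1 (one_dvd M) = ofFull K M (jFull M) := by
    refine Subtype.ext ((coe_jOf K 1 _).trans ?_)
    rw [qExpand_one_apply, coe_ofFull]
    have h1 := FLTA.Curves.coeffEmb_qExpand_jq K 1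
    rw [qExpand_one_apply, qExpand_one_apply] at h1
    exact h1.symm
  have e := congrArg g (ht.evalInt_mul_den hL)
  rw [map_mul] at e
  rw [hj, show h (ofFull K M (jFull M)) = g (jFull M) from rfl, eq_div_of_mul_eq hden e]
  exact div_mem (hmem _) (hmem _)

variable {W : Type} [CommRing W] [IsDomain W]

theorem ringHom_zloc_ext {q : ℕ} {F : Type} [Field F] [CharZero F]
    (f g : Smooth.Zloc q →+* F) : f = g := by
  refine RingHom.ext fun x => ?_
  have hden : (((x : ℚ).den : ℕ) : F) ≠ 0 := Nat.cast_ne_zero.mpr (x : ℚ).den_ne_zero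
  refine mul_right_cancel₀ hden ?_
  have hnum : x * (((x : ℚ).den : ℕ) : Smooth.Zloc q) = (((x : ℚ).num : ℤ) : Smooth.Zloc q) := by
    apply Subtype.ext
    push_cast
    exact Rat.mul_den_eq_num _
  rw [← map_natCast f, ← map_mul, hnum, map_intCast, map_natCast f, ← map_natCast g, ← map_mul,
    hnum, map_intCast]

/-- The cover algebra is the field of level `M` over `K`. -/
theorem exists_cover_equiv {q L M : ℕ} [NeZero L] [NeZero M] [Algebra W K] [IsFractionRing W K]
    {t θ : ↥(modularFunctionFieldFull M)} (ht : Chart.IsTFull L M t)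
    (hgen : IntermediateField.adjoin ℚ ({t, θ} : Set ↥(modularFunctionFieldFull M)) = ⊤)
    {Q₀ : (Smooth.Zloc q)[X][X]}
    (hroot : Q₀.eval₂ (Polynomial.eval₂RingHom
      ((algebraMap ℚ ↥(modularFunctionFieldFull M)).comp (GaloisRep.ratLocalizedAt q).subtype) t)
      θ = 0)
    (π : Smooth.Zloc q →+* W)
    (hirr : Irreducible ((Q₀.map (mapRingHom π)).map (algebraMap W[X] (FractionRing W[X])))) :
    ∃ γ : CoverAlg W (Q₀.map (mapRingHom π)) →+* fld K M, Function.Bijective γ ∧
      (∀ w, γ (coverBase _ (C w)) = algebraMap K _ (algebraMap W K w)) ∧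
      γ (coverBase _ X) = ofFull K M t := by
  have := algebraRat.charZero K
  set Q' := Q₀.map (mapRingHom π) with hQ'
  let c : W →+* fld K M := (algebraMap K (fld K M)).comp (algebraMap W K)
  let b0 : W[X] →+* fld K M := eval₂RingHom c (ofFull K M t)
  have hb0 : Function.Injective b0 := by
    intro p p' hpp
    have h1 := congrArg (fld K M).val.toRingHom hpp
    simp only [b0, coe_eval₂RingHom, hom_eval₂] at h1
    refine map_injective _ (IsFractionRing.injective W K) (Haupt.aeval_tOf_injective L ?_)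
    rw [aeval_def, aeval_def, eval₂_map, eval₂_map, ← coe_ofFull_tFull ht]
    exact h1
  let b : FractionRing W[X] →+* fld K M := IsFractionRing.lift hb0
  have hb : ∀ p, b (algebraMap W[X] _ p) = b0 p := fun p => IsFractionRing.lift_algebraMap hb0 p
  have : CharZero (fld K M) := charZero_of_injective_ringHom (f := algebraMap K (fld K M))
    (RingHom.injective _)
  have h0 : (Q'.map (algebraMap W[X] (FractionRing W[X]))).eval₂ b (ofFull K M θ) = 0 := by
    rw [eval₂_map, show b.comp (algebraMap W[X] _) = b0 from RingHom.ext hb, hQ', eval₂_map]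
    have h1 := congrArg (ofFull K M) hroot
    rw [hom_eval₂, map_zero] at h1
    refine Eq.trans ?_ h1
    refine congrArg (fun f => eval₂ f (ofFull K M θ) Q₀) (ringHom_ext' ?_ ?_)
    · exact ringHom_zloc_ext _ _
    · simp [b0]
  let γ : CoverAlg W Q' →+* fld K M := AdjoinRoot.lift b (ofFull K M θ) h0
  have : Fact (Irreducible (Q'.map (algebraMap W[X] (FractionRing W[X])))) := ⟨hirr⟩
  have hγc : ∀ w, γ (coverBase Q' (C w)) = algebraMap K _ (algebraMap W K w) := fun w => by
    show γ (AdjoinRoot.of _ _) = _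
    rw [AdjoinRoot.lift_of, hb]
    exact eval₂_C _ _
  have hγt : γ (coverBase Q' X) = ofFull K M t := by
    show γ (AdjoinRoot.of _ _) = _
    rw [AdjoinRoot.lift_of, hb]
    exact eval₂_X _ _
  refine ⟨γ, ⟨γ.injective, ?_⟩, hγc, hγt⟩
  have hK : ∀ k : K, algebraMap K (fld K M) k ∈ γ.fieldRange := fun k => by
    obtain ⟨u, v, -, rfl⟩ := IsFractionRing.div_surjective W k
    rw [map_div₀, ← hγc, ← hγc]
    exact div_mem (RingHom.mem_fieldRange.mpr ⟨_, rfl⟩) (RingHom.mem_fieldRange.mpr ⟨_, rfl⟩)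
  have hfull : ∀ y : ↥(modularFunctionFieldFull M), ofFull K M y ∈ γ.fieldRange := fun y => by
    have hy : y ∈ IntermediateField.adjoin ℚ ({t, θ} : Set _) := by rw [hgen]; trivial
    induction hy using IntermediateField.adjoin_induction with
    | mem z hz =>
      rcases hz with rfl | rfl
      · exact RingHom.mem_fieldRange.mpr ⟨_, hγt⟩
      · exact RingHom.mem_fieldRange.mpr ⟨_, AdjoinRoot.lift_root h0⟩
    | algebraMap c =>
      rw [eq_ratCast, map_ratCast]
      exact SubfieldClass.ratCast_mem γ.fieldRange c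
    | add a a' _ _ ha hb => rw [map_add]; exact add_mem ha hb
    | inv a _ ha => rw [map_inv₀]; exact inv_mem ha
    | mul a a' _ _ ha hb => rw [map_mul]; exact mul_mem ha hb
  have htop := fld_subfield_eq_top γ.fieldRange hK
    (coeffEmb K '' (modularFunctionFieldFull M : Set (LaurentSeries ℚ))) le_rfl
    (by rintro z ⟨y, hy, rfl⟩; exact ⟨_, hfull ⟨y, hy⟩, rfl⟩)
  exact fun y => RingHom.mem_fieldRange.mp (htop ▸ Subfield.mem_top y)

/-- The modular equation at `(t(τ), t(qτ))` in the Laurent series over `K`. -/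
theorem modEq_roots {q L : ℕ} [NeZero q] [NeZero L] {Φ : ℤ[X][X]} (hΦ : Haupt.IsModEq q L Φ) :
    Φ.eval₂ (Chart.evalInt (qExpand K q (Haupt.tOf L K))) (Haupt.tOf L K) = 0 ∧
      Φ.eval₂ (Chart.evalInt (Haupt.tOf L K)) (qExpand K q (Haupt.tOf L K)) = 0 := by
  have hc : ∀ x : LaurentSeries ℤ, coeffMap (Int.castRingHom K) (qExpand ℤ q x) =
      qExpand K q (coeffMap (Int.castRingHom K) x) := by
    intro x
    ext k
    by_cases hk : (q : ℤ) ∣ k
    · obtain ⟨m, rfl⟩ := hk
      rw [coeffMap_coeff, qExpand_coeff_mul, qExpand_coeff_mul, coeffMap_coeff]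
    · rw [coeffMap_coeff, qExpand_coeff_of_not_dvd q _ hk, qExpand_coeff_of_not_dvd q _ hk,
        map_zero]
  have e : ∀ z : LaurentSeries ℤ, (coeffMap (Int.castRingHom K)).comp
      (aeval (R := ℤ) z).toRingHom = Chart.evalInt (coeffMap (Int.castRingHom K) z) :=
    fun z => Chart.intHom_ext (by simp)
  constructor
  · have h := congrArg (coeffMap (Int.castRingHom K)) hΦ.root
    rw [hom_eval₂, map_zero, e, hc] at h
    exact h
  · have h := congrArg (coeffMap (Int.castRingHom K)) hΦ.root_swap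
    rw [hom_eval₂, map_zero, e, hc] at h
    exact h

theorem norm_transport {k B k' F' : Type} [Field k] [CommRing B] [Algebra k B] [Field k']
    [Field F'] (e : k →+* k') (he : Function.Bijective e) (ψ : B →+* F')
    (hψ : Function.Bijective ψ) (j : k' →+* F') (h : ψ.comp (algebraMap k B) = j.comp e) (y : B) :
    e (Algebra.norm k y) = (letI := j.toAlgebra; Algebra.norm k' (ψ y)) := by
  letI := j.toAlgebra
  rw [Algebra.norm_eq_of_equiv_equiv (RingEquiv.ofBijective e he) (RingEquiv.ofBijective ψ hψ)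
    (RingHom.ext fun a => (RingHom.congr_fun h a).symm) y]
  exact (RingEquiv.ofBijective e he).apply_symm_apply _

/-- Two roots give a root of `sndPoly`. -/
theorem sndPoly_eval_transport {R B C Ω : Type} [CommRing R] [Field B] [Field C] [Field Ω]
    {P : R[X]} (e : AdjoinRoot P →+* B) (j : B →+* C) (v : C →+* Ω) (d : R →+* Ω) (x z : Ω)
    (y : C) (hd : ∀ a, v (j (e (AdjoinRoot.of P a))) = d a)
    (hx : v (j (e (AdjoinRoot.root P))) = x) (hy : v y = z) (hne : x ≠ z)
    (h1 : P.eval₂ d x = 0) (h2 : P.eval₂ d z = 0) :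
    (sndPoly P).eval₂ (j.comp e) y = 0 := by
  apply v.injective
  rw [map_zero, hom_eval₂, ← eval_map, sndPoly, map_divDiff, Polynomial.map_map,
    show (v.comp (j.comp e)).comp (AdjoinRoot.of P) = d from RingHom.ext hd,
    show (v.comp (j.comp e)) (AdjoinRoot.root P) = x from hx, hy]
  exact Pairs.divDiff_eval_eq_zero d hne h1 h2

section Levels

variable {q L M : ℕ} [hq : Fact q.Prime] [NeZero q] [NeZero L] [NeZero M]
  {t : ↥(modularFunctionFieldFull M)} {Φ : ℤ[X][X]}
  {R : Type} [Field R] {γ : R →+* fld K M} {f : ℤ[X] →+* R}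

theorem eval₂_map_comp {F : Type} [Field F] (hf : γ (f X) = ofFull K M t) (i : fld K M →+* F)
    (x : F) :
    (Φ.map f).eval₂ (i.comp γ) x = Φ.eval₂ (Chart.evalInt (i (ofFull K M t))) x := by
  rw [eval₂_map]
  exact congrArg (fun g => eval₂ g x Φ) (Chart.intHom_ext (by simp [hf]))

theorem eval₂_eq_zero_of_coe {n : ℕ} (g : fld K M →+* fld K n) (x : fld K n)
    (u v : LaurentSeries K) (hu : (g (ofFull K M t) : LaurentSeries K) = u)
    (hv : (x : LaurentSeries K) = v) (h : Φ.eval₂ (Chart.evalInt u) v = 0) :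
    Φ.eval₂ (Chart.evalInt (g (ofFull K M t))) x = 0 := by
  apply (fld K n).val.toRingHom.injective
  rw [map_zero, hom_eval₂, Chart.comp_evalInt]
  exact (congrArg₂ (fun a b => Φ.eval₂ (Chart.evalInt a) b) hu hv).trans h

omit [Algebra ℚ K] in
theorem natDegree_map_modEq (hΦ : Haupt.IsModEq q L Φ) : (Φ.map f).natDegree = q + 1 := by
  rw [hΦ.monic.natDegree_map, hΦ.natDegree]

/-- Level `M q` as the algebra of one root, by `t(τ)` over `t(q τ)`. -/
theorem exists_levelFst (hqM : ¬ q ∣ M) (hL : Haupt.IsHauptLevel L) (ht : Chart.IsTFull L M t)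
    (hΦ : Haupt.IsModEq q L Φ) (hγ : Function.Bijective γ) (hf : γ (f X) = ofFull K M t) :
    ∃ e : AdjoinRoot (Φ.map f) →+* fld K (M * q), Function.Bijective e ∧
      (∀ a, e (AdjoinRoot.of _ a) = heckeBetaBar K M q (γ a)) ∧
      e (AdjoinRoot.root _) = heckeAlphaBar K M q (ofFull K M t) := by
  let α : fld K M →+* fld K (M * q) := (heckeAlphaBar K M q).toRingHom
  let β : fld K M →+* fld K (M * q) := (heckeBetaBar K M q).toRingHom
  have ht0 : (ofFull K M t : LaurentSeries K) = Haupt.tOf L K := coe_ofFull_tFull ht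
  have hex : (Φ.map f).eval₂ (β.comp γ) (α (ofFull K M t)) = 0 :=
    (eval₂_map_comp hf β _).trans (eval₂_eq_zero_of_coe β _ (qExpand K q (Haupt.tOf L K))
      (Haupt.tOf L K) (by simp [β, ht0]) (by simp [α, ht0]) (modEq_roots hΦ).1)
  refine ⟨AdjoinRoot.lift (β.comp γ) _ hex, ?_, fun a => AdjoinRoot.lift_of hex,
    AdjoinRoot.lift_root hex⟩
  refine bijective_adjoinRoot_lift _ (hΦ.monic.map f) (by rw [natDegree_map_modEq hΦ]; omega)
    _ _ hex ?_ ?_
  · rw [natDegree_map_modEq hΦ, show β.comp γ = β.comp (RingEquiv.ofBijective γ hγ).toRingHom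
      from rfl, finrank_comp_ringEquiv]
    exact (finrankAlong_beta K M q hq.out).trans (if_neg hqM)
  · intro S hS hx
    have hr : ∀ y, β y ∈ S := fun y => by
      obtain ⟨z, rfl⟩ := hγ.2 y
      exact hS (RingHom.mem_fieldRange.mpr ⟨z, rfl⟩)
    refine fld_subfield_eq_top S (fun c => ?_) _ (fld_mul_le_adjoin_beta K M q) ?_
    · rw [← (heckeBetaBar K M q).commutes c]
      exact hr _
    · rintro z (rfl | ⟨y, hy, rfl⟩)
      · exact ⟨α (jOf K 1 (one_dvd M)), jOf_one_mem hL ht α S hx,
          by simp [α, coe_jOf, qExpand_one_apply]⟩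
      · exact ⟨β ⟨y, hy⟩, hr _, by simp [β]⟩

/-- Level `M q` as the algebra of one root, by `t(q τ)` over `t(τ)`. -/
theorem exists_levelSnd (hqM : ¬ q ∣ M) (hL : Haupt.IsHauptLevel L) (ht : Chart.IsTFull L M t)
    (hΦ : Haupt.IsModEq q L Φ) (hγ : Function.Bijective γ) (hf : γ (f X) = ofFull K M t) :
    ∃ e : AdjoinRoot (Φ.map f) →+* fld K (M * q), Function.Bijective e ∧
      (∀ a, e (AdjoinRoot.of _ a) = heckeAlphaBar K M q (γ a)) ∧
      e (AdjoinRoot.root _) = heckeBetaBar K M q (ofFull K M t) := by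
  let α : fld K M →+* fld K (M * q) := (heckeAlphaBar K M q).toRingHom
  let β : fld K M →+* fld K (M * q) := (heckeBetaBar K M q).toRingHom
  have ht0 : (ofFull K M t : LaurentSeries K) = Haupt.tOf L K := coe_ofFull_tFull ht
  have hex : (Φ.map f).eval₂ (α.comp γ) (β (ofFull K M t)) = 0 :=
    (eval₂_map_comp hf α _).trans (eval₂_eq_zero_of_coe α _ (Haupt.tOf L K)
      (qExpand K q (Haupt.tOf L K)) (by simp [α, ht0]) (by simp [β, ht0]) (modEq_roots hΦ).2)
  refine ⟨AdjoinRoot.lift (α.comp γ) _ hex, ?_, fun a => AdjoinRoot.lift_of hex,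
    AdjoinRoot.lift_root hex⟩
  refine bijective_adjoinRoot_lift _ (hΦ.monic.map f) (by rw [natDegree_map_modEq hΦ]; omega)
    _ _ hex ?_ ?_
  · rw [natDegree_map_modEq hΦ, show α.comp γ = α.comp (RingEquiv.ofBijective γ hγ).toRingHom
      from rfl, finrank_comp_ringEquiv]
    exact (finrankAlong_alpha K M q hq.out).trans (if_neg hqM)
  · intro S hS hx
    have hr : ∀ y, α y ∈ S := fun y => by
      obtain ⟨z, rfl⟩ := hγ.2 y
      exact hS (RingHom.mem_fieldRange.mpr ⟨z, rfl⟩)
    refine fld_subfield_eq_top S (fun c => ?_) _ (fld_mul_eq_adjoin_jq K M q hq.out hqM).le ?_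
    · rw [← (heckeAlphaBar K M q).commutes c]
      exact hr _
    · rintro z (rfl | hy)
      · exact ⟨β (jOf K 1 (one_dvd M)), jOf_one_mem hL ht β S hx,
          by simp [β, coe_jOf, qExpand_one_apply]⟩
      · exact ⟨α ⟨z, hy⟩, hr _, by simp [α]⟩

/-- `(t(τ), t(q² τ))` is a pair of roots over `t(q τ)`. -/
theorem sndPoly_eval_eq_zero (ht : Chart.IsTFull L M t) (hΦ : Haupt.IsModEq q L Φ)
    (hf : γ (f X) = ofFull K M t)
    (e : AdjoinRoot (Φ.map f) →+* fld K (M * q))
    (hea : ∀ a, e (AdjoinRoot.of _ a) = heckeBetaBar K M q (γ a))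
    (her : e (AdjoinRoot.root _) = heckeAlphaBar K M q (ofFull K M t)) :
    (sndPoly (Φ.map f)).eval₂ ((heckeAlphaBar K (M * q) q).toRingHom.comp e)
      (heckeBetaBar K (M * q) q (heckeBetaBar K M q (ofFull K M t))) = 0 := by
  have ht0 : (ofFull K M t : LaurentSeries K) = Haupt.tOf L K := coe_ofFull_tFull ht
  have hroots := modEq_roots (K := K) hΦ
  let d : R →+* LaurentSeries K := (qExpand K q).comp ((fld K M).val.toRingHom.comp γ)
  have hdX : d.comp f = Chart.evalInt (qExpand K q (Haupt.tOf L K)) :=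
    Chart.intHom_ext (by simp [d, hf, ← ht0])
  refine sndPoly_eval_transport e _ (fld K (M * q * q)).val.toRingHom d (Haupt.tOf L K)
    (qExpand K q (qExpand K q (Haupt.tOf L K))) _ (fun a => ?_) ?_ ?_ ?_ ?_ ?_
  · rw [hea, AlgHom.toRingHom_eq_coe, AlgHom.toRingHom_eq_coe, RingHom.coe_coe, RingHom.coe_coe,
      IntermediateField.coe_val, coe_heckeAlphaBar, coe_heckeBetaBar, RingHom.comp_apply,
      RingHom.comp_apply, AlgHom.toRingHom_eq_coe, RingHom.coe_coe, IntermediateField.coe_val]
  · rw [her, AlgHom.toRingHom_eq_coe, AlgHom.toRingHom_eq_coe, RingHom.coe_coe, RingHom.coe_coe,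
      IntermediateField.coe_val, coe_heckeAlphaBar, coe_heckeAlphaBar, ht0]
  · rw [AlgHom.toRingHom_eq_coe, RingHom.coe_coe, IntermediateField.coe_val, coe_heckeBetaBar,
      coe_heckeBetaBar, ht0]
  · intro h
    have h1 := congrArg (fun z : LaurentSeries K => z.coeff (-1)) h
    simp only [qExpand_qExpand] at h1
    have h2 := Haupt.coeff_tOf_pow_self L (R := K) 1
    rw [pow_one, Nat.cast_one] at h2
    rw [h2, qExpand_coeff_of_not_dvd] at h1
    · exact one_ne_zero h1
    · intro hd
      have h3 := Int.le_of_dvd one_pos (dvd_neg.mp hd)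
      have h4 := hq.out.two_le
      push_cast at h3
      nlinarith
  · rw [eval₂_map, hdX]
    exact hroots.1
  · rw [eval₂_map, hdX]
    have h := congrArg (qExpand K q) hroots.2
    rw [hom_eval₂, Chart.comp_evalInt, map_zero] at h
    exact h

/-- Level `M q²` is generated over level `M q` by `t(q² τ)`. -/
theorem subfield_eq_top_of_mem (hqM : ¬ q ∣ M) (hL : Haupt.IsHauptLevel L)
    (ht : Chart.IsTFull L M t) (S : Subfield (fld K (M * q * q)))
    (hr : ∀ y, heckeAlphaBar K (M * q) q y ∈ S)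
    (hx : heckeBetaBar K (M * q) q (heckeBetaBar K M q (ofFull K M t)) ∈ S) : S = ⊤ := by
  set β₂ : fld K (M * q) →+* fld K (M * q * q) := (heckeBetaBar K (M * q) q).toRingHom with hβ₂
  have hc : ∀ c : K, algebraMap K (fld K (M * q * q)) c ∈ S := fun c => by
    rw [← (heckeAlphaBar K (M * q) q).commutes c]
    exact hr _
  have hS' : S.comap β₂ = ⊤ := by
    refine fld_subfield_eq_top _ (fun c => ?_) _
      (fld_mul_eq_adjoin_jq K M q hq.out hqM).le ?_
    · rw [Subfield.mem_comap, hβ₂, AlgHom.toRingHom_eq_coe, RingHom.coe_coe,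
        (heckeBetaBar K (M * q) q).commutes c]
      exact hc c
    · rintro z (rfl | hy)
      · refine ⟨heckeBetaBar K M q (jOf K 1 (one_dvd M)), ?_,
          by simp [coe_jOf, qExpand_one_apply]⟩
        have h := jOf_one_mem hL ht (β₂.comp (heckeBetaBar K M q).toRingHom) S (by
          rw [RingHom.comp_apply, hβ₂, AlgHom.toRingHom_eq_coe, RingHom.coe_coe,
            AlgHom.toRingHom_eq_coe, RingHom.coe_coe]
          exact hx)
        rw [Subfield.mem_comap]
        rw [RingHom.comp_apply, AlgHom.toRingHom_eq_coe (heckeBetaBar K M q), RingHom.coe_coe] at h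
        exact h
      · refine ⟨heckeAlphaBar K M q ⟨z, hy⟩, ?_, by simp⟩
        rw [Subfield.mem_comap, hβ₂, AlgHom.toRingHom_eq_coe, RingHom.coe_coe, show heckeBetaBar K (M * q) q (heckeAlphaBar K M q ⟨z, hy⟩) =
          heckeAlphaBar K (M * q) q (heckeBetaBar K M q ⟨z, hy⟩) from Subtype.ext (by simp)]
        exact hr _
  refine fld_subfield_eq_top S hc _ (fld_mul_le_adjoin_beta K (M * q) q) ?_
  rintro z (rfl | ⟨y, hy, rfl⟩)
  · exact ⟨heckeAlphaBar K (M * q) q (heckeAlphaBar K M q (jOf K 1 (one_dvd M))), hr _,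
      by simp [coe_jOf, qExpand_one_apply]⟩
  · refine ⟨β₂ ⟨y, hy⟩, ?_, by simp [β₂]⟩
    have h : (⟨y, hy⟩ : fld K (M * q)) ∈ S.comap β₂ := hS' ▸ Subfield.mem_top _
    exact Subfield.mem_comap.mp h

omit hq [NeZero M] in
theorem bijective_lift_pairs {F k : Type} [Field F] [Field k] {P : R[X]} (hP : P.Monic)
    (hd : 1 < P.natDegree) (e : AdjoinRoot P →+* k) (he : Function.Bijective e) (j : k →+* F)
    (x : F) (hx : (sndPoly P).eval₂ (j.comp e) x = 0)
    (hfin : letI := j.toAlgebra; Module.finrank k F = P.natDegree - 1)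
    (hgen : ∀ S : Subfield F, (∀ y, j y ∈ S) → x ∈ S → S = ⊤) :
    Function.Bijective (AdjoinRoot.lift (j.comp e) x hx) := by
  have : Fact (Irreducible P) := ⟨irreducible_of_bijective hP he⟩
  have hdeg := Pairs.natDegree_sndPoly hP (by omega)
  refine bijective_adjoinRoot_lift _ (Pairs.monic_sndPoly hP (by omega)) (by omega) _ _ hx ?_ ?_
  · rw [hdeg, show j.comp e = j.comp (RingEquiv.ofBijective e he).toRingHom from rfl,
      finrank_comp_ringEquiv]
    exact hfin
  · intro S hS hxS
    refine hgen S (fun y => ?_) hxS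
    obtain ⟨z, rfl⟩ := he.2 y
    exact hS (RingHom.mem_fieldRange.mpr ⟨z, rfl⟩)

/-- Level `M q²` as the algebra of two roots. -/
theorem exists_levelPairs (hqM : ¬ q ∣ M) (hL : Haupt.IsHauptLevel L) (ht : Chart.IsTFull L M t)
    (hΦ : Haupt.IsModEq q L Φ) (hf : γ (f X) = ofFull K M t)
    (e : AdjoinRoot (Φ.map f) →+* fld K (M * q)) (he : Function.Bijective e)
    (hea : ∀ a, e (AdjoinRoot.of _ a) = heckeBetaBar K M q (γ a))
    (her : e (AdjoinRoot.root _) = heckeAlphaBar K M q (ofFull K M t)) :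
    ∃ ψ : Pairs (Φ.map f) →+* fld K (M * q * q), Function.Bijective ψ ∧
      (∀ a, ψ (AdjoinRoot.of _ a) = heckeAlphaBar K (M * q) q (e a)) ∧
      ψ (Pairs.snd _) = heckeBetaBar K (M * q) q (heckeBetaBar K M q (ofFull K M t)) := by
  have hx := sndPoly_eval_eq_zero ht hΦ hf e hea her
  refine ⟨AdjoinRoot.lift _ _ hx, ?_, fun a => AdjoinRoot.lift_of hx, AdjoinRoot.lift_root hx⟩
  refine bijective_lift_pairs (hΦ.monic.map f)
    (by rw [natDegree_map_modEq hΦ]; have := hq.out.two_le; omega) e he _ _ hx ?_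
    (fun S hr hxS => subfield_eq_top_of_mem hqM hL ht S hr hxS)
  rw [natDegree_map_modEq hΦ, Nat.add_sub_cancel]
  exact (finrankAlong_alpha K (M * q) q hq.out).trans (if_pos (dvd_mul_left q M))

/-- Everything together. -/
theorem exists_levels (hqM : ¬ q ∣ M) (hL : Haupt.IsHauptLevel L) (ht : Chart.IsTFull L M t)
    (hΦ : Haupt.IsModEq q L Φ) (hγ : Function.Bijective γ) (hf : γ (f X) = ofFull K M t) :
    ∃ (ψ : Pairs (Φ.map f) →+* fld K (M * q * q))
      (e e' : AdjoinRoot (Φ.map f) →+* fld K (M * q)),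
      Function.Bijective ψ ∧ Function.Bijective e ∧ Function.Bijective e' ∧
      (∀ (a : R) (c : K), γ a = algebraMap K _ c →
        ψ (Pairs.ofBase _ a) = algebraMap K _ c ∧ e (AdjoinRoot.of _ a) = algebraMap K _ c ∧
          e' (AdjoinRoot.of _ a) = algebraMap K _ c) ∧
      (∀ y, e (Pairs.normFst _ y) = normA K (M * q) q (ψ y)) ∧
      (∀ y, e' (Pairs.normSnd _ y) = normB K (M * q) q (ψ y)) := by
  obtain ⟨e, he, hea, her⟩ := exists_levelFst hqM hL ht hΦ hγ hf
  obtain ⟨e', he', he'a, he'r⟩ := exists_levelSnd hqM hL ht hΦ hγ hf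
  obtain ⟨ψ, hψ, hψa, hψs⟩ := exists_levelPairs hqM hL ht hΦ hf e he hea her
  have : Fact (Irreducible (Φ.map f)) := ⟨irreducible_of_bijective (hΦ.monic.map f) he⟩
  have hψb : ∀ a, ψ (Pairs.ofBase _ a) =
      heckeBetaBar K (M * q) q (heckeAlphaBar K M q (γ a)) := fun a => by
    show ψ (AdjoinRoot.of _ (AdjoinRoot.of _ a)) = _
    rw [hψa, hea]
    exact Subtype.ext (by simp)
  have hswap : (ψ.comp (Pairs.swap _)).comp (AdjoinRoot.of (sndPoly (Φ.map f))) =
      (heckeBetaBar K (M * q) q).toRingHom.comp e' := by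
    refine AdjoinRoot.ringHom_ext (RingHom.ext fun a => ?_) ?_
    · show ψ (Pairs.swap _ (Pairs.ofBase _ a)) = heckeBetaBar K (M * q) q (e' (AdjoinRoot.of _ a))
      rw [Pairs.swap_ofBase, hψb, he'a]
    · show ψ (Pairs.swap _ (Pairs.fst _)) = heckeBetaBar K (M * q) q (e' (AdjoinRoot.root _))
      rw [Pairs.swap_fst, hψs, he'r]
  refine ⟨ψ, e, e', hψ, he, he', fun a c h => ⟨?_, ?_, ?_⟩, fun y => ?_, fun y => ?_⟩
  · rw [hψb, h, AlgHom.commutes, AlgHom.commutes]
  · rw [hea, h, AlgHom.commutes]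
  · rw [he'a, h, AlgHom.commutes]
  · exact norm_transport e he ψ hψ (heckeAlphaBar K (M * q) q).toRingHom
      (RingHom.ext hψa) y
  · refine (norm_transport e' he' (ψ.comp (Pairs.swap _))
      (hψ.comp (Function.Involutive.bijective Pairs.swap_swap))
      (heckeBetaBar K (M * q) q).toRingHom hswap (Pairs.swap _ y)).trans ?_
    rw [RingHom.comp_apply, Pairs.swap_swap]
    rfl

end Levels

variable [IsNoetherianRing W]

variable {q L M : ℕ} [Fact q.Prime] [NeZero q] [NeZero L] [NeZero M]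
variable [CharZero W] [Fact (Prime (C (q : W) : W[X]))]

theorem exists_model (hqM : ¬ q ∣ M) (hL : Haupt.IsHauptLevel L) (hLM : L ∣ M)
    {Φ : ℤ[X][X]} (hΦ : Haupt.IsModEq q L Φ)
    {t θ : ↥(modularFunctionFieldFull M)} (ht : Chart.IsTFull L M t)
    (hgen : IntermediateField.adjoin ℚ ({t, θ} : Set ↥(modularFunctionFieldFull M)) = ⊤)
    {Q₀ : (Smooth.Zloc q)[X][X]}
    (hroot : Q₀.eval₂ (Polynomial.eval₂RingHom
      ((algebraMap ℚ ↥(modularFunctionFieldFull M)).comp (GaloisRep.ratLocalizedAt q).subtype) t)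
      θ = 0)
    (π : Smooth.Zloc q →+* W) (hQ : LineCover W q L (Q₀.map (mapRingHom π)))
    {K : Type} [Field K] [Algebra ℚ K] [Algebra W K] [IsFractionRing W K] :
    ∃ (ψ : Pairs (coverPhi Φ (Q₀.map (mapRingHom π))) →+* fld K (M * q * q))
      (e e' : AdjoinRoot (coverPhi Φ (Q₀.map (mapRingHom π))) →+* fld K (M * q)),
      Function.Bijective ψ ∧ Function.Bijective e ∧ Function.Bijective e' ∧
      (∀ w, ψ (coverConst Φ _ w) = algebraMap K _ (algebraMap W K w)) ∧
      (∀ w, e (AdjoinRoot.of _ (coverBase _ (C w))) = algebraMap K _ (algebraMap W K w)) ∧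
      (∀ w, e' (AdjoinRoot.of _ (coverBase _ (C w))) = algebraMap K _ (algebraMap W K w)) ∧
      (∀ y, e (Pairs.normFst _ y) = normA K (M * q) q (ψ y)) ∧
      (∀ y, e' (Pairs.normSnd _ y) = normB K (M * q) q (ψ y)) := by
  obtain ⟨γ, hγ, hγc, hγt⟩ := exists_cover_equiv (K := K) ht hgen hroot π hQ.irreducible
  have : Fact (Irreducible ((Q₀.map (mapRingHom π)).map
    (algebraMap W[X] (FractionRing W[X])))) := ⟨hQ.irreducible⟩
  obtain ⟨ψ, e, e', hψ, he, he', hc, hn, hn'⟩ := exists_levels (γ := γ)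
    (f := (coverBase (Q₀.map (mapRingHom π))).comp (mapRingHom (Int.castRingHom W)))
    hqM hL ht hΦ hγ (by simp [hγt])
  exact ⟨ψ, e, e', hψ, he, he', fun w => (hc _ _ (hγc w)).1, fun w => (hc _ _ (hγc w)).2.1,
    fun w => (hc _ _ (hγc w)).2.2, hn, hn'⟩

end FLTA.Carayol.Bridge
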