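import Fermat.Agent.Carayol.BridgeGen
import Mathlib.RingTheory.Norm.Defs
import Mathlib.FieldTheory.IntermediateField.Adjoin.Algebra

/-!
# The norms commute with change of constants and of level

In a commutative square of field extensions of equal finite degree whose top field is generated by
the two images, a basis maps to a basis, so the norms commute.
-/

set_option autoImplicit false

noncomputable section

open ModularCurve AlgebraicCurve

namespace FLTA.Carayol.Bridge

section Square

variable {F E F' E' : Type*} [Field F] [Field E] [Field F'] [Field E'] [Algebra F E] [Algebra F' E']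

/-- The norm commutes with a square of equal degrees whose top is generated by the images. -/
theorem norm_map_of_square (a : F →+* F') (b : E →+* E')
    (hcomm : ∀ c, b (algebraMap F E c) = algebraMap F' E' (a c))
    (hfin : 0 < Module.finrank F E) (hdim : Module.finrank F E = Module.finrank F' E')
    (hgen : ∀ S : IntermediateField F' E', (∀ y, b y ∈ S) → ⊤ ≤ S) (x : E) :
    Algebra.norm F' (b x) = a (Algebra.norm F x) := by
  classical
  have : FiniteDimensional F E := FiniteDimensional.of_finrank_pos hfin
  have : FiniteDimensional F' E' := FiniteDimensional.of_finrank_pos (hdim ▸ hfin)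
  let e := Module.finBasis F E
  let v : Fin (Module.finrank F E) → E' := fun i => b (e i)
  have hb : ∀ y, b y = ∑ i, a (e.repr y i) • v i := fun y => by
    conv_lhs => rw [← e.sum_repr y]
    simp only [map_sum, Algebra.smul_def, map_mul, hcomm, v]
  have hmem : ∀ y, b y ∈ Submodule.span F' (Set.range v) := fun y => by
    rw [hb]
    exact Submodule.sum_mem _ fun i _ => Submodule.smul_mem _ _ (Submodule.subset_span ⟨i, rfl⟩)
  have hspan : ⊤ ≤ Submodule.span F' (Set.range v) := by
    have h1 : (⊤ : IntermediateField F' E') ≤ IntermediateField.adjoin F' (Set.range b) :=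
      hgen _ fun y => IntermediateField.subset_adjoin _ _ ⟨y, rfl⟩
    intro z _
    have hz : z ∈ Algebra.adjoin F' (Set.range b) := by
      rw [← IntermediateField.adjoin_toSubalgebra_of_isAlgebraic
        (fun y _ => Algebra.IsAlgebraic.isAlgebraic y), IntermediateField.mem_toSubalgebra]
      exact h1 IntermediateField.mem_top
    rw [← Subalgebra.mem_toSubmodule, Algebra.adjoin_eq_span] at hz
    refine Submodule.span_le.mpr ?_ hz
    intro w hw
    have : (Submonoid.closure (Set.range b) : Submonoid E') ≤ MonoidHom.mrange (b : E →* E') :=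
      Submonoid.closure_le.mpr (by rintro _ ⟨y, rfl⟩; exact ⟨y, rfl⟩)
    obtain ⟨y, rfl⟩ := this hw
    exact hmem y
  let e' : Module.Basis (Fin (Module.finrank F E)) F' E' :=
    basisOfTopLeSpanOfCardEqFinrank v hspan (by rw [Fintype.card_fin, hdim])
  have he' : ∀ i, e' i = v i := fun i => by
    rw [show ⇑e' = v from coe_basisOfTopLeSpanOfCardEqFinrank v hspan _]
  have hrepr : ∀ y i, e'.repr (b y) i = a (e.repr y i) := fun y i => by
    rw [hb y]
    simp only [map_sum, map_smul, ← he', Module.Basis.repr_self]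
    simp [Finsupp.single_apply]
  rw [Algebra.norm_eq_matrix_det e', Algebra.norm_eq_matrix_det e, RingHom.map_det]
  congr 1
  ext i j
  rw [RingHom.mapMatrix_apply, Matrix.map_apply, Algebra.leftMulMatrix_eq_repr_mul,
    Algebra.leftMulMatrix_eq_repr_mul, he', ← map_mul, hrepr]

end Square

variable {K K' : Type} [Field K] [Algebra ℚ K] [Field K'] [Algebra ℚ K']

/-- Generators of level `m` lie in a subfield containing a field over it and the constants. -/
theorem fld_le_of_mapF (g : K →+* K') (m : ℕ) (S : Subfield (LaurentSeries K'))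
    (hconst : ∀ c, algebraMap K' (LaurentSeries K') c ∈ S)
    (himg : ∀ y : fld K m, (mapF g m y : LaurentSeries K') ∈ S) {z : LaurentSeries K'}
    (hz : z ∈ fld K' m) : z ∈ S := by
  rw [fld, mem_laurentBaseChange_iff] at hz
  induction hz using Subfield.closure_induction with
  | mem y hy =>
    rcases hy with ⟨c, rfl⟩ | ⟨w, hw, rfl⟩
    · exact hconst c
    · have := himg ⟨coeffEmb K w, coeffEmb_mem_laurentBaseChange K hw⟩
      rwa [coe_mapF, coeffMap_coeffEmb] at this
  | one => exact one_mem _
  | add _ _ _ _ h₁ h₂ => exact add_mem h₁ h₂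
  | neg _ _ h => exact neg_mem h
  | inv _ _ h => exact inv_mem h
  | mul _ _ _ _ h₁ h₂ => exact mul_mem h₁ h₂

theorem degree_pos (n q : ℕ) (hq : q.Prime) : 0 < if q ∣ n then q else q + 1 := by
  split_ifs
  · exact hq.pos
  · exact q.succ_pos

theorem normA_mapF (g : K →+* K') (n q : ℕ) [NeZero n] [NeZero q] (hq : q.Prime)
    (x : fld K (n * q)) : normA K' n q (mapF g (n * q) x) = mapF g n (normA K n q x) := by
  let := algebraAlong (heckeAlphaBar K n q)
  let := algebraAlong (heckeAlphaBar K' n q)
  have h1 : Module.finrank (fld K n) (fld K (n * q)) = _ := finrankAlong_alpha K n q hq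
  have h2 : Module.finrank (fld K' n) (fld K' (n * q)) = _ := finrankAlong_alpha K' n q hq
  refine norm_map_of_square (mapF g n) (mapF g (n * q)) (fun c => mapF_heckeAlpha g n q c)
    (h1 ▸ degree_pos n q hq) (h1.trans h2.symm) (fun S hS z _ => ?_) x
  obtain ⟨w, hw, hwz⟩ : (z : LaurentSeries K') ∈ S.toSubfield.map (fld K' (n * q)).val.toRingHom :=
    fld_le_of_mapF g (n * q) (S.toSubfield.map (fld K' (n * q)).val.toRingHom)
      (fun c => ⟨_, S.algebraMap_mem (algebraMap K' (fld K' n) c), by simp [RingHom.algebraMap_toAlgebra]⟩)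
      (fun y => ⟨_, hS y, rfl⟩) z.2
  rwa [← Subtype.ext hwz]

theorem normB_mapF (g : K →+* K') (n q : ℕ) [NeZero n] [NeZero q] (hq : q.Prime)
    (x : fld K (n * q)) : normB K' n q (mapF g (n * q) x) = mapF g n (normB K n q x) := by
  let := algebraAlong (heckeBetaBar K n q)
  let := algebraAlong (heckeBetaBar K' n q)
  have h1 : Module.finrank (fld K n) (fld K (n * q)) = _ := finrankAlong_beta K n q hq
  have h2 : Module.finrank (fld K' n) (fld K' (n * q)) = _ := finrankAlong_beta K' n q hq
  refine norm_map_of_square (mapF g n) (mapF g (n * q)) (fun c => mapF_heckeBeta g n q c)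
    (h1 ▸ degree_pos n q hq) (h1.trans h2.symm) (fun S hS z _ => ?_) x
  obtain ⟨w, hw, hwz⟩ : (z : LaurentSeries K') ∈ S.toSubfield.map (fld K' (n * q)).val.toRingHom :=
    fld_le_of_mapF g (n * q) (S.toSubfield.map (fld K' (n * q)).val.toRingHom)
      (fun c => ⟨_, S.algebraMap_mem (algebraMap K' (fld K' n) c), by
        simp [RingHom.algebraMap_toAlgebra]⟩)
      (fun y => ⟨_, hS y, rfl⟩) z.2
  rwa [← Subtype.ext hwz]

section Level

variable (K)

omit [Algebra ℚ K] in

/-- A subfield containing the constants and the generators of a field contains it. -/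
theorem mem_of_mem_adjoin {s : Set (LaurentSeries K)} (T : Subfield (LaurentSeries K))
    (hconst : ∀ c, algebraMap K (LaurentSeries K) c ∈ T) (hs : s ⊆ T) {z : LaurentSeries K}
    (hz : z ∈ IntermediateField.adjoin K s) : z ∈ T :=
  (IntermediateField.adjoin_le_iff (T := T.toIntermediateField hconst)).mpr hs hz

theorem normA_incl (K : Type) [Field K] [Algebra ℚ K] {M M' : ℕ} (q : ℕ) [NeZero M] [NeZero M']
    [NeZero q] (hq : q.Prime) (hqM' : ¬ q ∣ M') (h : M ∣ M') (x : fld K (M * q * q)) :
    normA K (M' * q) q (incl K (mul_dvd_mul_right (mul_dvd_mul_right h q) q) x) =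
      incl K (mul_dvd_mul_right h q) (normA K (M * q) q x) := by
  let := algebraAlong (heckeAlphaBar K (M * q) q)
  let := algebraAlong (heckeAlphaBar K (M' * q) q)
  have h1 : Module.finrank (fld K (M * q)) (fld K (M * q * q)) = _ :=
    finrankAlong_alpha K (M * q) q hq
  have h2 : Module.finrank (fld K (M' * q)) (fld K (M' * q * q)) = _ :=
    finrankAlong_alpha K (M' * q) q hq
  refine norm_map_of_square (incl K _).toRingHom (incl K _).toRingHom
    (fun c => Subtype.ext (by simp [RingHom.algebraMap_toAlgebra]))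
    (h1 ▸ degree_pos _ q hq)
    (h1.trans (by rw [h2, if_pos (dvd_mul_left q M), if_pos (dvd_mul_left q M')]))
    (fun S hS z _ => ?_) x
  set T := S.toSubfield.map (fld K (M' * q * q)).val.toRingHom
  have hbase : ∀ w ∈ fld K (M' * q), w ∈ T := fun w hw =>
    ⟨_, S.algebraMap_mem ⟨w, hw⟩, by simp [RingHom.algebraMap_toAlgebra]⟩
  have hconst : ∀ c, algebraMap K (LaurentSeries K) c ∈ T := fun c =>
    hbase _ ((fld K (M' * q)).algebraMap_mem c)
  have htop : ∀ w ∈ fld K (M * q * q), w ∈ T := fun w hw =>
    ⟨_, hS ⟨w, hw⟩, by simp⟩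
  have : NeZero (q * q) := ⟨mul_ne_zero (NeZero.ne q) (NeZero.ne q)⟩
  have hj2 : qExpand K q (qExpand K q (jqModC K)) ∈ T := by
    rw [qExpand_qExpand, ← coe_jOf K (q * q) (n := M * q * q) ⟨M, by ring⟩]
    exact htop _ (jOf K _ _).2
  obtain ⟨w, hw, hwz⟩ : (z : LaurentSeries K) ∈ T := by
    refine mem_of_mem_adjoin K T hconst ?_ (fld_mul_le_adjoin_beta K (M' * q) q z.2)
    rintro _ (rfl | ⟨y, hy, rfl⟩)
    · refine hbase _ ?_
      have := (jOf K 1 (n := M' * q) (one_dvd _)).2
      rwa [coe_jOf, qExpand_one_apply] at this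
    · -- `β` of level `M' q` is generated by `β` of level `M'` and `j (q² τ)`
      rw [SetLike.mem_coe, fld_mul_eq_adjoin_jq K M' q hq hqM'] at hy
      refine mem_of_mem_adjoin K (T.comap (qExpand K q)) (fun c => ?_) ?_ hy
      · rw [Subfield.mem_comap, algebraMap_laurentSeries_eq_single, qExpand_single, mul_zero,
          ← algebraMap_laurentSeries_eq_single]
        exact hconst c
      · rintro w (rfl | hw)
        · exact hj2
        · exact hbase _ (heckeBetaBar K M' q ⟨w, hw⟩).2
  rwa [← Subtype.ext hwz]

theorem normB_incl (K : Type) [Field K] [Algebra ℚ K] {M M' : ℕ} (q : ℕ) [NeZero M] [NeZero M']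
    [NeZero q] (hq : q.Prime) (hqM' : ¬ q ∣ M') (h : M ∣ M') (x : fld K (M * q * q)) :
    normB K (M' * q) q (incl K (mul_dvd_mul_right (mul_dvd_mul_right h q) q) x) =
      incl K (mul_dvd_mul_right h q) (normB K (M * q) q x) := by
  let := algebraAlong (heckeBetaBar K (M * q) q)
  let := algebraAlong (heckeBetaBar K (M' * q) q)
  have h1 : Module.finrank (fld K (M * q)) (fld K (M * q * q)) = _ :=
    finrankAlong_beta K (M * q) q hq
  have h2 : Module.finrank (fld K (M' * q)) (fld K (M' * q * q)) = _ :=
    finrankAlong_beta K (M' * q) q hq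
  refine norm_map_of_square (incl K _).toRingHom (incl K _).toRingHom
    (fun c => Subtype.ext (by simp [RingHom.algebraMap_toAlgebra]))
    (h1 ▸ degree_pos _ q hq)
    (h1.trans (by rw [h2, if_pos (dvd_mul_left q M), if_pos (dvd_mul_left q M')]))
    (fun S hS z _ => ?_) x
  set T := S.toSubfield.map (fld K (M' * q * q)).val.toRingHom
  have hbase : ∀ w ∈ fld K (M' * q), qExpand K q w ∈ T := fun w hw =>
    ⟨_, S.algebraMap_mem ⟨w, hw⟩, by simp [RingHom.algebraMap_toAlgebra]⟩
  have hconst : ∀ c, algebraMap K (LaurentSeries K) c ∈ T := fun c => by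
    have := hbase _ ((fld K (M' * q)).algebraMap_mem c)
    rwa [algebraMap_laurentSeries_eq_single, qExpand_single, mul_zero,
      ← algebraMap_laurentSeries_eq_single] at this
  have hj : jqModC K ∈ T := by
    have hw := coe_jOf K (n := M * q * q) 1 (one_dvd _)
    rw [qExpand_one_apply] at hw
    exact ⟨_, hS (jOf K 1 (one_dvd _)), by simp [hw]⟩
  obtain ⟨w, hw, hwz⟩ : (z : LaurentSeries K) ∈ T := by
    refine mem_of_mem_adjoin K T hconst ?_ (fld_mul_le_adjoin_beta K (M' * q) q z.2)
    rintro _ (rfl | ⟨y, hy, rfl⟩)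
    · exact hj
    · exact hbase y hy
  rwa [← Subtype.ext hwz]

end Level

end FLTA.Carayol.Bridge
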