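import Fermat.Agent.Grass.ModularBasis
import Fermat.Agent.PlaceRed.Interface
import Fermat.Agent.Curves.RRSpace

/-!
# A fixed divisor in a fixed class of `X₀(N)`

For `m` least with a section of `D + m (∞)` that section is unique up to a scalar, so its divisor
is fixed by every automorphism of the constants fixing the class.
-/

set_option autoImplicit false

noncomputable section

open AlgebraicCurve ModularCurve WithZero FLTA.Grass FLTA.Curves

namespace FLTA.Carayol.Bridge

local notation "Qbar" => AlgebraicClosure ℚ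

variable (N : ℕ) [NeZero N]

theorem ord_infPlace (f : modularFunctionFieldBar N) :
    (infPlace N).ord f = -log (qVal N f) :=
  Curves.ord_ofValuation _ _ _ f

theorem le_ord_infPlace_iff {f : modularFunctionFieldBar N} (hf : f ≠ 0) (E : ℤ) :
    E ≤ (infPlace N).ord f ↔ ∀ k < E, (f : LaurentSeries Qbar).coeff k = 0 := by
  rw [← qVal_le_exp_iff, ord_infPlace, ← log_le_iff_le_exp ((qVal N).ne_zero_iff.mpr hf)]
  omega

theorem riemannRochSpace_eq_bot_of_degree_neg [HasPrincipalDivisors Qbar (modularFunctionFieldBar N)]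
    {D : Divisor Qbar (modularFunctionFieldBar N)} (h : Divisor.degree D < 0) :
    riemannRochSpace D = ⊥ := by
  rw [Submodule.eq_bot_iff]
  intro f hf
  by_contra hf0
  have h1 : 0 ≤ Divisor.degree (divFn f + D) := by
    have h2 := (mem_riemannRochSpace_iff_add_nonneg hf0).mp hf
    rw [Divisor.degree, Finsupp.liftAddHom_apply]
    exact Finset.sum_nonneg fun v _ => mul_nonneg (h2 v) (Int.natCast_nonneg _)
  rw [map_add, degree_divFn] at h1
  omega

theorem coeff_smul' (c : Qbar) (f : modularFunctionFieldBar N) (k : ℤ) :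
    ((c • f : modularFunctionFieldBar N) : LaurentSeries Qbar).coeff k =
      c * (f : LaurentSeries Qbar).coeff k := by
  rw [Algebra.smul_def, MulMemClass.coe_mul]
  show (algebraMap Qbar (LaurentSeries Qbar) c * (f : LaurentSeries Qbar)).coeff k = _
  rw [algebraMap_laurentSeries_eq_single, ← HahnSeries.C_apply, HahnSeries.C_mul_eq_smul,
    HahnSeries.coeff_smul, smul_eq_mul]

/-- With no sections below, a section is unique up to scalars. -/
theorem exists_eq_smul_of_bot {D : Divisor Qbar (modularFunctionFieldBar N)}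
    (hbot : riemannRochSpace (D - Finsupp.single (infPlace N) 1) = ⊥)
    {φ ψ : modularFunctionFieldBar N} (hφ : φ ∈ riemannRochSpace D) (hφ0 : φ ≠ 0)
    (hψ : ψ ∈ riemannRochSpace D) : ∃ c : Qbar, ψ = c • φ := by
  classical
  set m := -D (infPlace N) with hm
  have key : ∀ z ∈ riemannRochSpace D, (z : LaurentSeries Qbar).coeff m = 0 → z = 0 := by
    intro z hz hc
    refine (Submodule.eq_bot_iff _).mp hbot z (mem_riemannRochSpace_iff.mpr fun v => ?_)
    rcases eq_or_ne z 0 with h0 | h0
    · exact Or.inl h0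
    right
    have h := (mem_riemannRochSpace_iff.mp hz v).resolve_left h0
    rw [Finsupp.sub_apply, Finsupp.single_apply]
    split_ifs with hv
    · subst hv
      have h1 : m + 1 ≤ (infPlace N).ord z := (le_ord_infPlace_iff N h0 _).mpr fun k hk => by
        rcases (Int.lt_add_one_iff.mp hk).lt_or_eq with hlt | rfl
        · exact (le_ord_infPlace_iff N h0 m).mp (by omega) k hlt
        · exact hc
      omega
    · omega
  have ha : (φ : LaurentSeries Qbar).coeff m ≠ 0 := fun h => hφ0 (key φ hφ h)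
  refine ⟨(ψ : LaurentSeries Qbar).coeff m / (φ : LaurentSeries Qbar).coeff m,
    sub_eq_zero.mp (key _ (Submodule.sub_mem _ hψ (Submodule.smul_mem _ _ hφ)) ?_)⟩
  show ((ψ : LaurentSeries Qbar) - _).coeff m = 0
  rw [HahnSeries.coeff_sub, coeff_smul', div_mul_cancel₀ _ ha, sub_self]

/-- A fixed class contains a fixed divisor. -/
theorem exists_fixed_divisor_rep {H : Subgroup (Qbar ≃ₐ[ℚ] Qbar)} (P : JZero N)
    (hH : ∀ σ ∈ H, σ • P = P) :
    ∃ D : Divisor.degZero (K := Qbar) (F := modularFunctionFieldBar N), Pic0.mk D = P ∧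
      ∀ σ ∈ H, arithmeticGalois (modularFunctionFieldFull N) σ •
        (D : Divisor Qbar (modularFunctionFieldBar N)) = D := by
  classical
  have rr := PlaceRed.rrCurve_bar N
  haveI := rr.principal
  obtain ⟨D₀, rfl⟩ := Pic0.mk_surjective P
  set Q := infPlace N
  set d₀ : Divisor Qbar (modularFunctionFieldBar N) := ↑D₀
  have hdeg : ∀ m : ℤ, Divisor.degree (d₀ + Finsupp.single Q m) = m := fun m => by
    rw [map_add, Divisor.mem_degZero.mp D₀.2, Divisor.degree_single, rr.deg_eq_one, Nat.cast_one,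
      mul_one, zero_add]
  have hex : ∃ m : ℕ, riemannRochSpace (d₀ + Finsupp.single Q (m : ℤ)) ≠ ⊥ := by
    refine ⟨2 * PlaceRed.genusX0 N, fun hbot => ?_⟩
    have h := rr.finrank_eq (d₀ + Finsupp.single Q ((2 * PlaceRed.genusX0 N : ℕ) : ℤ))
      (by rw [hdeg]; omega)
    rw [hbot, finrank_bot, hdeg] at h
    omega
  set DN := d₀ + Finsupp.single Q ((Nat.find hex : ℕ) : ℤ) with hDN
  have hbot : riemannRochSpace (DN - Finsupp.single Q 1) = ⊥ := by
    rcases Nat.eq_zero_or_pos (Nat.find hex) with h0 | h0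
    · refine riemannRochSpace_eq_bot_of_degree_neg N ?_
      rw [map_sub, hdeg, Divisor.degree_single, rr.deg_eq_one, h0]
      norm_num
    · have h := Nat.find_min hex (Nat.sub_lt h0 one_pos)
      rw [not_not] at h
      rw [hDN, add_sub_assoc, ← Finsupp.single_sub,
        show ((Nat.find hex : ℕ) : ℤ) - 1 = ((Nat.find hex - 1 : ℕ) : ℤ) by omega]
      exact h
  obtain ⟨φ, hφ, hφ0⟩ := Submodule.exists_mem_ne_zero_of_ne_bot (Nat.find_spec hex)
  let D : Divisor.degZero (K := Qbar) (F := modularFunctionFieldBar N) :=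
    D₀ + ⟨divFn φ, Divisor.mem_degZero.mpr (degree_divFn φ)⟩
  refine ⟨D, ?_, fun σ hσ => Finsupp.ext fun v => ?_⟩
  · rw [eq_comm, ← sub_eq_zero]
    refine (QuotientAddGroup.eq_zero_iff _).mpr ⟨φ⁻¹, inv_ne_zero hφ0, fun w => ?_⟩
    rw [w.ord_inv, ← divFn_apply (K := Qbar) φ w]
    show (d₀ - (d₀ + divFn (K := Qbar) φ) : Divisor Qbar (modularFunctionFieldBar N)) w = _
    rw [sub_add_cancel_left, Finsupp.neg_apply]
  set G := arithmeticGalois (modularFunctionFieldFull N) σ
  have h := hH σ hσ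
  rw [galois_smul_pic0_def, SemilinearAut.pic0_smul_mk, ← sub_eq_zero] at h
  obtain ⟨ψ, hψ0, hψ⟩ := (QuotientAddGroup.eq_zero_iff _).mp h
  have hψ' : ∀ w, (G • d₀) w - d₀ w = w.ord ψ := fun w => by simpa [d₀] using hψ w
  have hGQ : G • Q = Q := smul_infPlace N σ
  have hGφ : G • φ ≠ 0 := (smul_ne_zero_iff_ne _).mpr hφ0
  have hsum : ∀ w, (G • (d₀ + divFn (K := Qbar) φ)) w = w.ord (G • φ * ψ) + d₀ w := fun w => by
    obtain ⟨u, rfl⟩ : ∃ u, w = G • u := ⟨G⁻¹ • w, by rw [smul_inv_smul]⟩
    have h1 := hψ' (G • u)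
    rw [SemilinearAut.divisor_smul_apply_smul] at h1
    rw [SemilinearAut.divisor_smul_apply_smul, Finsupp.add_apply, divFn_apply,
      (G • u).ord_mul hGφ hψ0, SemilinearAut.ord_smul]
    omega
  have hmem : G • φ * ψ ∈ riemannRochSpace DN := by
    rw [mem_riemannRochSpace_iff]
    intro w
    right
    obtain ⟨u, rfl⟩ : ∃ u, w = G • u := ⟨G⁻¹ • w, by rw [smul_inv_smul]⟩
    have h1 := hsum (G • u)
    rw [SemilinearAut.divisor_smul_apply_smul, Finsupp.add_apply, divFn_apply] at h1
    have h2 := ((mem_riemannRochSpace_iff.mp hφ) u).resolve_left hφ0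
    rw [Finsupp.add_apply] at h2
    rw [hDN, Finsupp.add_apply]
    have h3 : (Finsupp.single Q ((Nat.find hex : ℕ) : ℤ)) (G • u) =
        (Finsupp.single Q ((Nat.find hex : ℕ) : ℤ)) u := by
      rw [Finsupp.single_apply, Finsupp.single_apply]
      exact if_congr ⟨fun h => smul_left_cancel G (hGQ.trans h), fun h => by rw [← h, hGQ]⟩ rfl rfl
    omega
  obtain ⟨c, hc⟩ := exists_eq_smul_of_bot N hbot hφ hφ0 hmem
  have hc0 : c ≠ 0 := fun h0 => by
    rw [h0, zero_smul] at hc
    exact mul_ne_zero hGφ hψ0 hc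
  show (G • (d₀ + divFn (K := Qbar) φ)) v = (d₀ + divFn (K := Qbar) φ) v
  rw [hsum v, hc, Algebra.smul_def, v.ord_mul ((map_ne_zero _).mpr hc0) hφ0,
    ord_algebraMap_eq_zero, zero_add, Finsupp.add_apply, divFn_apply, add_comm]

end FLTA.Carayol.Bridge
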