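import Fermat.Agent.Carayol.Pushforward
import Fermat.Agent.Carayol.BridgeRepFixed
import Fermat.Agent.Curves.BasicCurve

/-!
# Representatives of fixed torsion classes
-/

set_option autoImplicit false

noncomputable section

open AlgebraicCurve ModularCurve

namespace FLTA.Carayol.Bridge

local notation "Qbar" => AlgebraicClosure ℚ

/-- A fixed class killed by `n` has a representative `D` with `n D` the divisor of a function
whose coefficients are fixed. -/
theorem exists_fixed_rep {N : ℕ} [NeZero N] (H : Subgroup (Qbar ≃ₐ[ℚ] Qbar)) {n : ℕ}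
    (P : JZero N) (hP : n • P = 0) (hH : ∀ σ ∈ H, σ • P = P) :
    ∃ (D : Divisor.degZero (K := Qbar) (F := modularFunctionFieldBar N))
      (f : modularFunctionFieldBar N), f ≠ 0 ∧ Pic0.mk D = P ∧
        (∀ w, (n : ℤ) * (D : Divisor Qbar (modularFunctionFieldBar N)) w = w.ord f) ∧
        ∀ σ ∈ H, ∀ k, σ ((f : LaurentSeries Qbar).coeff k) = (f : LaurentSeries Qbar).coeff k := by
  classical
  obtain ⟨D, hDP, hfix⟩ := exists_fixed_divisor_rep N P hH
  rw [← hDP] at hP
  obtain ⟨f₀, hf₀, hf₀D⟩ := (QuotientAddGroup.eq_zero_iff (n • D)).mp hP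
  set m := (Grass.infPlace N).ord f₀ with hm
  set a := (f₀ : LaurentSeries Qbar).coeff m with ha_def
  have ha : a ≠ 0 := by
    intro h
    have h1 : m + 1 ≤ (Grass.infPlace N).ord f₀ := (le_ord_infPlace_iff N hf₀ _).mpr fun k hk => by
      rcases (Int.lt_add_one_iff.mp hk).lt_or_eq with hlt | rfl
      · exact (le_ord_infPlace_iff N hf₀ m).mp le_rfl k hlt
      · exact h
    omega
  set f := a⁻¹ • f₀ with hfdef
  have hf0 : f ≠ 0 := smul_ne_zero (inv_ne_zero ha) hf₀
  have hdiv : ∀ w, (n : ℤ) * (D : Divisor Qbar (modularFunctionFieldBar N)) w = w.ord f := fun w => by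
    rw [hfdef, Algebra.smul_def, w.ord_mul ((map_ne_zero _).mpr (inv_ne_zero ha)) hf₀,
      Curves.ord_algebraMap_eq_zero, zero_add]
    have h := hf₀D w
    rw [AddSubgroup.coe_subtype, AddSubgroupClass.coe_nsmul, Finsupp.smul_apply, nsmul_eq_mul] at h
    exact h
  refine ⟨D, f, hf0, hDP, hdiv, fun σ hσ k => ?_⟩
  set G := arithmeticGalois (modularFunctionFieldFull N) σ
  have hGf : G • f ≠ 0 := (smul_ne_zero_iff_ne _).mpr hf0
  have hord : ∀ v : Place Qbar (modularFunctionFieldBar N), v.ord (G • f * f⁻¹) = 0 := fun v => by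
    rw [v.ord_mul hGf (inv_ne_zero hf0), v.ord_inv]
    obtain ⟨u, rfl⟩ : ∃ u, v = G • u := ⟨G⁻¹ • v, by rw [smul_inv_smul]⟩
    rw [SemilinearAut.ord_smul, ← hdiv, ← hdiv,
      ← SemilinearAut.divisor_smul_apply_smul G (D : Divisor Qbar (modularFunctionFieldBar N)) u,
      hfix σ hσ, add_neg_cancel]
  obtain ⟨c, hc⟩ := Curves.mem_range_algebraMap_of_forall_ord_nonneg
    (fun v => (hord v).ge)
  have hGfc : G • f = c • f := by
    rw [← inv_mul_cancel_right₀ hf0 (G • f), ← hc, Algebra.smul_def]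
  have hcoe : ∀ i, σ ((f : LaurentSeries Qbar).coeff i) = c * (f : LaurentSeries Qbar).coeff i := by
    intro i
    rw [← coeff_smul' N c f i, ← hGfc, coe_arithmeticGalois_smul, coeffMap_coeff]
    rfl
  have hc1 : c = 1 := by
    have h := hcoe m
    rw [hfdef, coeff_smul', inv_mul_cancel₀ ha, map_one, mul_one] at h
    exact h.symm
  rw [hcoe k, hc1, one_mul]

section Generic

variable {K F F' : Type*} [Field K] [CharZero K] [IsAlgClosed K] [Field F] [Field F']
  [Algebra K F] [Algebra K F'] [Curves.IsSepFunctionField K F] [Curves.IsSepFunctionField K F']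

/-- If the pushforward of the class of `D` vanishes, the norm of `f` is a power up to a
constant. -/
theorem exists_norm_eq_const_mul_pow (φ : F →ₐ[K] F') {n : ℕ}
    (D : Divisor.degZero (K := K) (F := F')) {f : F'} (hf : f ≠ 0)
    (hD : ∀ w, (n : ℤ) * (D : Divisor K F') w = w.ord f) (h : pushPic φ (Pic0.mk D) = 0) :
    ∃ (c : K) (z : F), (letI := algebraAlong φ; Algebra.norm F f) = algebraMap K F c * z ^ n := by
  rw [pushPic_mk_eq_zero_iff] at h
  obtain ⟨z, hz, hzD⟩ := h
  have hfin := Curves.finiteAlong φ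
  have hN := Curves.normFormulaAlong φ hfin (Curves.separableAlong_of_charZero φ)
  letI := algebraAlong φ
  haveI := isScalarTower_along φ
  haveI : Module.Finite F F' := hfin
  have hnorm : ∀ v : Place K F, v.ord (Algebra.norm F f) = (n : ℤ) * v.ord z := fun v => by
    rw [← hN f hf ((n : ℤ) • (D : Divisor K F'))
      (fun w => by rw [Finsupp.smul_apply, smul_eq_mul, hD]) v, ← hzD v, map_zsmul,
      Finsupp.smul_apply, smul_eq_mul]
    rfl
  have hNf : Algebra.norm F f ≠ 0 := Algebra.norm_ne_zero_iff.mpr hf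
  obtain ⟨c, hc⟩ := Curves.mem_range_algebraMap_of_forall_ord_nonneg
    (f := Algebra.norm F f / z ^ n) fun v : Place K F => by
      rw [div_eq_mul_inv, v.ord_mul hNf (inv_ne_zero (pow_ne_zero n hz)), v.ord_inv, ← zpow_natCast,
        v.ord_zpow, hnorm v, add_neg_cancel]
  exact ⟨c, z, by rw [hc, div_mul_cancel₀ _ (pow_ne_zero n hz)]⟩

/-- Taking the norm down. -/
theorem nsmul_eq_zero_of_pow_eq (φ : F →ₐ[K] F') {n : ℕ} (hn : 0 < n)
    (D : Divisor.degZero (K := K) (F := F)) {f : F} (hf : f ≠ 0)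
    (hD : ∀ w, (n : ℤ) * (D : Divisor K F) w = w.ord f) {E : ℕ} {c : K} {Y : F'}
    (h : φ f ^ E = algebraMap K F' c * Y ^ n) : (E * finrankAlong K φ) • Pic0.mk D = 0 := by
  have hfin := Curves.finiteAlong φ
  letI := algebraAlong φ
  haveI := isScalarTower_along φ
  haveI : Module.Finite F F' := hfin
  show QuotientAddGroup.mk' _ ((E * finrankAlong K φ) • D) = 0
  refine (QuotientAddGroup.eq_zero_iff _).mpr ?_
  have hφf : φ f ^ E ≠ 0 := pow_ne_zero _ ((map_ne_zero φ).mpr hf)
  have hc : c ≠ 0 := fun h0 => hφf (by rw [h, h0, map_zero, zero_mul])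
  have hY : Y ≠ 0 := fun h0 => hφf (by rw [h, h0, zero_pow hn.ne', mul_zero])
  have hNY : Algebra.norm F Y ≠ 0 := Algebra.norm_ne_zero_iff.mpr hY
  refine ⟨Algebra.norm F Y, hNY, fun v => ?_⟩
  have hnorm := congrArg (Algebra.norm F (S := F')) h
  rw [map_pow, map_mul, map_pow, show φ f = algebraMap F F' f from rfl,
    IsScalarTower.algebraMap_apply K F F', Algebra.norm_algebraMap, Algebra.norm_algebraMap] at hnorm
  have h1 := congrArg v.ord hnorm
  rw [v.ord_mul (pow_ne_zero _ ((map_ne_zero _).mpr hc)) (pow_ne_zero _ hNY)] at h1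
  simp only [← zpow_natCast, v.ord_zpow, Curves.ord_algebraMap_eq_zero, mul_zero, zero_add] at h1
  rw [← hD v] at h1
  rw [AddSubgroup.coe_subtype, AddSubgroupClass.coe_nsmul, Finsupp.smul_apply, nsmul_eq_mul]
  refine mul_left_cancel₀ (Int.natCast_ne_zero.mpr hn.ne') ?_
  rw [← h1]
  simp only [finrankAlong, Nat.cast_mul]
  ring

end Generic

end FLTA.Carayol.Bridge
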