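import Fermat.Agent.Carayol.CoreAssembly
import Mathlib.RingTheory.AdicCompletion.Basic

/-!
# The algebraic form of the main result

`y` is a function on the level `q²` cover whose horizontal multiplicities are divisible by `n`
and whose two norms are `n`-th powers up to constants. Then a fixed power of `y` is an `n`-th
power up to a constant.
-/

set_option autoImplicit false

noncomputable section

open Polynomial IsLocalRing

namespace FLTA.Carayol

variable {W : Type} [CommRing W] [IsDomain W] [IsDiscreteValuationRing W]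

omit [IsDiscreteValuationRing W] in
theorem gaussHom_injective [IsNoetherianRing W] {q : ℕ} [Fact (Prime (C (q : W) : W[X]))] :
    Function.Injective (gaussHom W q) :=
  (IsFractionRing.injective (HatAt (C (q : W) : W[X])) _).comp (toHat_injective _)

/-- The map of the algebras of a cover induced by a map out of the fractions. -/
theorem exists_coverMap {P K F : Type} [CommRing P] [IsDomain P] [Field K] [Algebra P K]
    [IsFractionRing P K] [Field F] {γ : P →+* F} (hγ : Function.Injective γ) (Q : P[X]) :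
    ∃ g : AdjoinRoot (Q.map (algebraMap P K)) →+* AdjoinRoot (Q.map γ),
      g.comp ((AdjoinRoot.of _).comp (algebraMap P K)) = (AdjoinRoot.of _).comp γ ∧
        g (AdjoinRoot.root _) = AdjoinRoot.root _ := by
  have hl : (IsFractionRing.lift (K := K) hγ).comp (algebraMap P K) = γ :=
    RingHom.ext fun x => IsFractionRing.lift_algebraMap hγ x
  refine ⟨AdjoinRoot.map (IsFractionRing.lift hγ) _ _
    (dvd_of_eq (by rw [Polynomial.map_map, hl])), RingHom.ext fun x => ?_, ?_⟩
  · rw [RingHom.comp_apply, RingHom.comp_apply, AdjoinRoot.map_of, RingHom.comp_apply,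
      IsFractionRing.lift_algebraMap]
  · rw [AdjoinRoot.map_root]

variable [CharZero W] [IsAdicComplete (maximalIdeal W) W] [IsAlgClosed (ResidueField W)]

theorem exists_pow_coreExp_eq {q L : ℕ} [Fact q.Prime] [NeZero L]
    [Fact (Prime (C (q : W) : W[X]))]
    (hW : maximalIdeal W = Ideal.span {(q : W)}) (hL : Haupt.IsHauptLevel L) (hqL : ¬ q ∣ L)
    {Φ : ℤ[X][X]} (hΦ : Haupt.IsModEq q L Φ) {Q : W[X][X]} (hQ : LineCover W q L Q)
    {n : ℕ} (hn : 0 < n) (hnq : n.Coprime q) (y : Pairs (coverPhi Φ Q)) (hy : IsUnit y)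
    (hhor : HorizDivisible Φ Q n y)
    (hfst : ∃ w : W, w ≠ 0 ∧
      ∃ g, g ^ n = AdjoinRoot.of (coverPhi Φ Q) (coverBase Q (C w)) * Pairs.normFst _ y)
    (hsnd : ∃ w : W, w ≠ 0 ∧
      ∃ g, g ^ n = AdjoinRoot.of (coverPhi Φ Q) (coverBase Q (C w)) * Pairs.normSnd _ y) :
    ∃ w : W, w ≠ 0 ∧ ∃ Y, Y ^ n = coverConst Φ Q w * y ^ coreExp q := by
  have hϖ : Irreducible (q : W) := (IsDiscreteValuationRing.irreducible_iff_uniformizer _).2 hW
  have : Fact (Prime (PowerSeries.C (q : W) : PowerSeries W)) := ⟨prime_C_powerSeries hϖ⟩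
  have : Fact (Irreducible (Q.map (algebraMap W[X] (FractionRing W[X])))) := ⟨hQ.irreducible⟩
  obtain ⟨A, _, _, _, _, f, e, hfe, hmax, hpow⟩ := hQ.gauss
  obtain ⟨g, hg, hgr⟩ : ∃ g : CoverAlg W Q →+* AdjoinRoot (Q.map (gaussHom W q)),
      g.comp (coverBase Q) = (AdjoinRoot.of _).comp (gaussHom W q) ∧
        g (AdjoinRoot.root _) = AdjoinRoot.root _ := exists_coverMap (K := FractionRing W[X]) (gaussHom_injective (W := W) (q := q)) Q
  have hbase : Function.Injective ((coverBase Q).comp C) :=
    ((RingHom.injective (AdjoinRoot.of (Q.map (algebraMap W[X] (FractionRing W[X]))) :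
        FractionRing W[X] →+* CoverAlg W Q)).comp
      (IsFractionRing.injective W[X] (FractionRing W[X]))).comp C_injective
  have hg' : (e.toRingHom.comp g).comp (coverBase Q) =
      (algebraMap A (FractionRing A)).comp (gaussCoeff f) := by
    rw [RingHom.comp_assoc, hg]
    exact RingHom.ext fun p => hfe (toHat _ p)
  obtain ⟨y₂, w, Y', hw, hy₂, hY', hagree⟩ := exists_gauss_target hW hL hqL hΦ hn hnq f hmax hpow
    (coverBase Q) hbase (e.toRingHom.comp g) hg' y hy hhor hfst hsnd
  have he : e.symm.toRingHom.comp (e.toRingHom.comp g) = g :=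
    RingHom.ext fun x => e.symm_apply_apply (g x)
  have heΨ : ((coverPhi Φ Q).map (e.toRingHom.comp g)).map e.symm.toRingHom =
      (coverPhi Φ Q).map g := by rw [Polynomial.map_map, he]
  have hY : Pairs.map e.symm.toRingHom heΨ Y' ^ n = Pairs.map g rfl y₂ := by
    rw [← map_pow, hY', Pairs.map_map_apply]
    exact Pairs.map_congr he _ _ _
  have hQd : 0 < Q.natDegree :=
    hQ.monic.natDegree_map (algebraMap W[X] (FractionRing W[X])) ▸ hQ.irreducible.natDegree_pos
  have : CharZero (FractionRing W[X]) := charZero_of_injective_ringHom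
    (f := (algebraMap W[X] (FractionRing W[X])).comp C)
    ((IsFractionRing.injective W[X] _).comp C_injective)
  refine Exists.elim (exists_root_of_local_coverPhi hW hΦ.monic hQ.monic hQd
    (by rw [hΦ.natDegree]; exact Nat.succ_pos q) hQ.irreducible.separable
    (separable_phi_fractionRing hL hqL hΦ) hn.ne' g hg hgr y₂ _ hY ?_ ?_)
    fun Z hZ => ⟨w, hw, Z, hZ.trans hy₂⟩
  · intro c
    obtain ⟨t₀, hc, ht⟩ := exists_lift_cuspPoly hW hL hqL c
    rcases ht with ht | ht
    · refine ⟨t₀, 1, hc, Nat.one_pos, hQ.splits_point t₀ ht, LocalAgree.of_ringHom _ he ?_ heΨ⟩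
      exact hagree _ _ _ (toHatFrac q) (pointHom W t₀ 1)
        (toHat (PowerSeries.C (q : W) : PowerSeries W) (pointMap W t₀ 1 X)) maximalIdeal_hatSeries
        (toHatFrac_algebraMap _).symm (not_pow_point hW t₀ (Nat.coprime_one_left q))
        (pointRoot_point hW hL hqL hΦ t₀ ht hn hnq)
    · obtain ⟨d, hd, hdq, hsplit⟩ := hQ.splits_cusp t₀ ht
      refine ⟨t₀, d, hc, hd, hsplit, LocalAgree.of_ringHom _ he ?_ heΨ⟩
      exact hagree _ _ _ (toHatFrac q) (pointHom W t₀ d)
        (toHat (PowerSeries.C (q : W) : PowerSeries W) (pointMap W t₀ d X)) maximalIdeal_hatSeries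
        (toHatFrac_algebraMap _).symm (not_pow_point hW t₀ hdq)
        (pointRoot_cusp hW hL hqL hΦ t₀ ht hd hdq hn hnq)
  · obtain ⟨d, hd, hdq, hsplit⟩ := hQ.splits_inf
    obtain ⟨TB, hTB, hTBpow⟩ := exists_infParam hW hdq
    refine ⟨d, hd, hsplit, LocalAgree.of_ringHom _ he ?_ heΨ⟩
    exact hagree (FractionRing (PowerSeries W))
      (FractionRing (HatAt (PowerSeries.C (q : W) : PowerSeries W)))
      (HatAt (PowerSeries.C (q : W) : PowerSeries W)) (toHatFrac q) (infHom W d) TB
      maximalIdeal_hatSeries hTB hTBpow (pointRoot_inf hW hL hqL hΦ hd hdq hn hnq)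

end FLTA.Carayol
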