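import Fermat.Agent.Carayol.BridgeConst
import Fermat.Agent.Carayol.BridgeCover
import Fermat.Agent.Carayol.BridgeDescend
import Fermat.Agent.Carayol.BridgeHoriz
import Fermat.Agent.Carayol.BridgeModel
import Fermat.Agent.Carayol.BridgeNorm
import Fermat.Agent.Carayol.BridgeRep
import Fermat.Agent.Carayol.Core

/-!
# From the algebraic statement to the Jacobian
-/

set_option autoImplicit false

noncomputable section

open Polynomial IsLocalRing AlgebraicCurve ModularCurve WithZero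

namespace FLTA.Carayol.Bridge

local notation "Qbar" => AlgebraicClosure ℚ

/-- An `n`-th power up to a quotient of constants becomes one after multiplying by a constant. -/
theorem exists_pow_of_map {W K R F : Type} [CommRing W] [IsDomain W] [Field K] [Algebra W K]
    [IsFractionRing W K] [CommRing R] [Field F] [Algebra K F] {n : ℕ} (hn : 0 < n) (e : R →+* F)
    (he : Function.Bijective e) (κ : W →+* R)
    (hκ : ∀ w, e (κ w) = algebraMap K F (algebraMap W K w)) {x : R} {c : K} (hc : c ≠ 0) {z : F}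
    (hx : e x = algebraMap K F c * z ^ n) :
    ∃ w : W, w ≠ 0 ∧ ∃ g, g ^ n = κ w * x := by
  obtain ⟨a, b, hb, rfl⟩ := IsFractionRing.div_surjective W c
  have hb0 : algebraMap W K b ≠ 0 :=
    (map_ne_zero_iff _ (IsFractionRing.injective W K)).2 (nonZeroDivisors.ne_zero hb)
  have ha : a ≠ 0 := fun h => hc (by rw [h, map_zero, zero_div])
  obtain ⟨g, hg⟩ := he.2 (algebraMap K F (algebraMap W K a) * z)
  refine ⟨a ^ (n - 1) * b, mul_ne_zero (pow_ne_zero _ ha) (nonZeroDivisors.ne_zero hb), g, he.1 ?_⟩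
  obtain ⟨k, rfl⟩ : ∃ k, n = k + 1 := ⟨n - 1, by omega⟩
  rw [map_pow, hg, map_mul e, hκ, hx, mul_pow, Nat.add_sub_cancel, map_mul, map_pow, ← mul_assoc,
    ← map_mul, ← map_pow]
  congr 2
  field_simp
  ring

/-- The classes are killed by `coreExp q` times the degree of the change of level. -/
theorem nsmul_coreExp_smul_eq_zero (q M M' L : ℕ) [Fact q.Prime] [NeZero q] [NeZero M] [NeZero M']
    [NeZero L] (hMM' : M ∣ M') (hLM' : L ∣ M') (hqM' : ¬ q ∣ M') (hL : Haupt.IsHauptLevel L)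
    (hlvl : M * q * q ∣ M' * q * q) (n : ℕ) (hnq : n.Coprime q) (A : ValuationSubring Qbar)
    (hA : A.LiesOverPrime q) (P : JZero (M * q * q)) (hP : n • P = 0)
    (hfix : ∀ σ ∈ A.inertiaSubgroupIn ℚ, σ • P = P) (hα : pushAlpha (M * q) q P = 0)
    (hβ : pushBeta (M * q) q P = 0) :
    (coreExp q * finrankAlong Qbar (incl Qbar hlvl)) • P = 0 := by
  have hq : q.Prime := Fact.out
  have hqM : ¬ q ∣ M := fun h => hqM' (h.trans hMM')
  have hqL : ¬ q ∣ L := fun h => hqM' (h.trans hLM')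
  let up := incl Qbar hlvl
  have hn : 0 < n := Nat.pos_of_ne_zero fun h => hq.one_lt.ne' (by simpa [h] using hnq)
  obtain ⟨D, f, hf, hDP, hdiv, hcoeff⟩ :=
    exists_fixed_rep (A.inertiaSubgroupIn ℚ) P hP hfix
  let g₀ : inertiaField A →+* Qbar := (inertiaField A).val.toRingHom
  obtain ⟨f₀, hf₀⟩ := exists_eq_mapF_of_coeff_mem g₀ f fun k =>
    ⟨⟨_, mem_inertiaField.2 fun σ hσ => hcoeff σ hσ k⟩, rfl⟩
  have hf₀0 : f₀ ≠ 0 := fun h => hf (by rw [← hf₀, h, map_zero])
  haveI : CharZero (inertiaField A) := algebraRat.charZero _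
  -- the two norms over the inertia field
  have hA1 : ∃ (c : inertiaField A) (z : fld (inertiaField A) (M * q)),
      c ≠ 0 ∧ normA _ (M * q) q f₀ = algebraMap _ _ c * z ^ n := by
    refine exists_eq_const_mul_pow_of_mapF g₀ hn _ ?_ ?_
    · intro h0
      apply hf
      rw [← hf₀]
      have h1 := normA_mapF g₀ (M * q) q hq f₀
      rw [h0, map_zero] at h1
      letI := algebraAlong (heckeAlphaBar Qbar (M * q) q)
      haveI : Module.Finite (fld Qbar (M * q)) (fld Qbar (M * q * q)) :=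
        Curves.finiteAlong (heckeAlphaBar Qbar (M * q) q)
      exact Algebra.norm_eq_zero_iff.1 h1
    · rw [← normA_mapF g₀ (M * q) q hq, hf₀]
      exact exists_norm_eq_const_mul_pow _ D hf hdiv (by rw [hDP]; exact hα)
  have hB1 : ∃ (c : inertiaField A) (z : fld (inertiaField A) (M * q)),
      c ≠ 0 ∧ normB _ (M * q) q f₀ = algebraMap _ _ c * z ^ n := by
    refine exists_eq_const_mul_pow_of_mapF g₀ hn _ ?_ ?_
    · intro h0
      apply hf
      rw [← hf₀]
      have h1 := normB_mapF g₀ (M * q) q hq f₀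
      rw [h0, map_zero] at h1
      letI := algebraAlong (heckeBetaBar Qbar (M * q) q)
      haveI : Module.Finite (fld Qbar (M * q)) (fld Qbar (M * q * q)) :=
        Curves.finiteAlong (heckeBetaBar Qbar (M * q) q)
      exact Algebra.norm_eq_zero_iff.1 h1
    · rw [← normB_mapF g₀ (M * q) q hq, hf₀]
      exact exists_norm_eq_const_mul_pow _ D hf hdiv (by rw [hDP]; exact hβ)
  obtain ⟨cA, zA, hcA, hzA⟩ := hA1
  obtain ⟨cB, zB, hcB, hzB⟩ := hB1
  -- the complete constants and the model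
  obtain ⟨W, _, _, _, _, _, _, _, π, ι, hW⟩ := exists_constants hA
  obtain ⟨Φ, hΦ⟩ := Haupt.exists_isModEq q L hL hqL
  obtain ⟨t, θ, Q₀, ht, hgen, hroot, hQall⟩ := exists_cover q L M' hL hLM' hqM'
  have hQ := hQall W hW π
  haveI : CharZero (FractionRing W) :=
    charZero_of_injective_algebraMap (IsFractionRing.injective W (FractionRing W))
  obtain ⟨ψ, e, e', hψ, he, he', hψc, hec, he'c, hnA, hnB⟩ :=
    exists_model (W := W) (K := FractionRing W) hqM' hL hLM' hΦ ht hgen hroot π hQ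
  set f₂ : fld (FractionRing W) (M' * q * q) := mapF ι _ (incl _ hlvl f₀) with hf₂
  obtain ⟨y, hy⟩ := hψ.2 f₂
  have hf₂0 : f₂ ≠ 0 := by simp [hf₂, hf₀0]
  have hunit : IsUnit y := by
    obtain ⟨z, hz⟩ := hψ.2 f₂⁻¹
    exact IsUnit.of_mul_eq_one z (hψ.1 (by rw [map_mul, hy, hz, mul_inv_cancel₀ hf₂0, map_one]))
  have hfst : ∃ w : W, w ≠ 0 ∧ ∃ g, g ^ n =
      AdjoinRoot.of (coverPhi Φ _) (coverBase _ (C w)) * Pairs.normFst _ y := by
    refine exists_pow_of_map (c := ι cA) hn e he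
      ((AdjoinRoot.of _).comp ((coverBase _).comp Polynomial.C)) hec (by simpa using hcA)
      (z := mapF ι _ (incl _ (mul_dvd_mul_right hMM' q) zA)) ?_
    rw [hnA, hy, hf₂, normA_mapF ι (M' * q) q hq, normA_incl _ q hq hqM' hMM', hzA, map_mul,
      map_mul, map_pow, map_pow, AlgHom.commutes, mapF_algebraMap]
  have hsnd : ∃ w : W, w ≠ 0 ∧ ∃ g, g ^ n =
      AdjoinRoot.of (coverPhi Φ _) (coverBase _ (C w)) * Pairs.normSnd _ y := by
    refine exists_pow_of_map (c := ι cB) hn e' he'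
      ((AdjoinRoot.of _).comp ((coverBase _).comp Polynomial.C)) he'c (by simpa using hcB)
      (z := mapF ι _ (incl _ (mul_dvd_mul_right hMM' q) zB)) ?_
    rw [hnB, hy, hf₂, normB_mapF ι (M' * q) q hq, normB_incl _ q hq hqM' hMM', hzB, map_mul,
      map_mul, map_pow, map_pow, AlgHom.commutes, mapF_algebraMap]
  have hhor : HorizDivisible Φ (Q₀.map (mapRingHom π)) n y := by
    intro Ω _ φ v hv
    let j₀ : fld (inertiaField A) (M * q * q) →+*
        Pairs (coverPhi Φ (Q₀.map (mapRingHom π))) :=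
      (RingEquiv.ofBijective ψ hψ).symm.toRingHom.comp
        ((mapF ι _).comp (incl _ hlvl).toRingHom)
    have hj₀ : ∀ x, ψ (j₀ x) = mapF ι _ (incl _ hlvl x) := fun x =>
      (RingEquiv.ofBijective ψ hψ).apply_symm_apply _
    have hy₀ : j₀ f₀ = y := hψ.1 (by rw [hj₀, hy])
    rw [← hy₀]
    refine exists_pow_eq_valuation g₀ hn f₀ (fun w => ?_) (φ.comp j₀) v fun c hc => ?_
    · rw [hf₀]
      exact ⟨_, (hdiv w).symm⟩
    · obtain ⟨a, b, hb, hab⟩ := IsFractionRing.div_surjective W (ι c)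
      have hb0 : b ≠ 0 := nonZeroDivisors.ne_zero hb
      have ha0 : a ≠ 0 := by
        intro h
        rw [h, map_zero, zero_div, eq_comm, map_eq_zero] at hab
        exact hc hab
      have h1 : j₀ (algebraMap _ _ c) * coverConst Φ _ b = coverConst Φ _ a := hψ.1 (by
        rw [map_mul, hj₀, hψc, hψc, AlgHom.commutes, mapF_algebraMap, ← map_mul, ← hab,
          div_mul_cancel₀ _ ((map_ne_zero_iff _ (IsFractionRing.injective W _)).2 hb0)])
      have h2 := congrArg (fun x => v (φ x)) h1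
      simp only [map_mul, hv b hb0, hv a ha0, mul_one] at h2
      exact h2
  obtain ⟨w, hw, Y, hY⟩ := exists_pow_coreExp_eq hW hL hqL hΦ hQ hn hnq y hunit hhor hfst hsnd
  -- descend to the inertia field
  have hY' : f₂ ^ coreExp q =
      algebraMap (FractionRing W) _ (algebraMap W (FractionRing W) w)⁻¹ * ψ Y ^ n := by
    rw [← map_pow ψ, hY, map_mul, hψc, map_pow, hy, ← mul_assoc, ← map_mul, inv_mul_cancel₀,
      map_one, one_mul]
    exact (map_ne_zero_iff _ (IsFractionRing.injective W _)).2 hw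
  obtain ⟨c, Z, hc, hZ⟩ := exists_eq_const_mul_pow_of_mapF ι hn
    (incl (inertiaField A) hlvl f₀ ^ coreExp q) (pow_ne_zero _ (by simpa using hf₀0))
    ⟨_, _, by rw [map_pow]; exact hY'⟩
  have h := congrArg (mapF g₀ (M' * q * q)) hZ
  rw [map_pow, mapF_incl, hf₀, map_mul, map_pow, mapF_algebraMap] at h
  rw [← hDP]
  exact nsmul_eq_zero_of_pow_eq up hn D hf hdiv h

theorem exists_smul_eq_zero_aux (q M L : ℕ) [Fact q.Prime] [NeZero q] [NeZero M] [NeZero L]
    (hqM : ¬ q ∣ M) (hL : Haupt.IsHauptLevel L) (hqL : ¬ q ∣ L) :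
    ∃ C : ℕ, C ≠ 0 ∧ ∀ n : ℕ, n.Coprime q → ∀ A : ValuationSubring Qbar, A.LiesOverPrime q →
      ∀ P : JZero (M * q * q), n • P = 0 → (∀ σ ∈ A.inertiaSubgroupIn ℚ, σ • P = P) →
        pushAlpha (M * q) q P = 0 → pushBeta (M * q) q P = 0 → C • P = 0 := by
  have hq : q.Prime := Fact.out
  set M' := Nat.lcm M L with hM'
  have hMM' : M ∣ M' := Nat.dvd_lcm_left M L
  have hLM' : L ∣ M' := Nat.dvd_lcm_right M L
  haveI : NeZero M' := ⟨Nat.lcm_ne_zero (NeZero.ne M) (NeZero.ne L)⟩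
  have hqM' : ¬ q ∣ M' := fun h => (hq.dvd_mul.1 (h.trans (Nat.lcm_dvd_mul M L))).elim hqM hqL
  have hlvl : M * q * q ∣ M' * q * q := mul_dvd_mul_right (mul_dvd_mul_right hMM' q) q
  let up := incl Qbar hlvl
  have hd : finrankAlong Qbar up ≠ 0 := by
    letI := algebraAlong up
    haveI : Module.Finite (fld Qbar (M * q * q)) (fld Qbar (M' * q * q)) := Curves.finiteAlong up
    exact Module.finrank_pos.ne'
  refine ⟨coreExp q * finrankAlong Qbar up, mul_ne_zero (coreExp_ne_zero hq.two_le) hd, ?_⟩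
  intro n hnq A hA P hP hfix hα hβ
  exact nsmul_coreExp_smul_eq_zero q M M' L hMM' hLM' hqM' hL hlvl n hnq A hA P hP hfix hα hβ

end FLTA.Carayol.Bridge
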