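import Fermat.Agent.Carayol.BranchTargets
import Fermat.Agent.Carayol.BranchCombine
import Mathlib.Algebra.Polynomial.Eval.Irreducible

/-!
# Adjusting a local root to the global target

At a point the one-root algebra is a domain, where the branch target applies, or it has a rational
root, where the three branches are adjusted separately.
-/

set_option autoImplicit false

noncomputable section

open Polynomial

namespace FLTA.Carayol

theorem RootSplit.irreducible_quo_congr {R : Type*} [CommRing R] {Ψ Ψ' : R[X]} (e : Ψ = Ψ')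
    (t : RootSplit Ψ) (t' : RootSplit Ψ') (hx : t.x₀ = t'.x₀) (h : Irreducible t'.quo) :
    Irreducible t.quo := by
  subst e
  cases t; cases t'
  cases hx
  exact h

theorem RootSplit.irreducible_G_congr {R : Type*} [CommRing R] {Ψ Ψ' : R[X]} (e : Ψ = Ψ')
    (t : RootSplit Ψ) (t' : RootSplit Ψ') (hx : t.x₀ = t'.x₀) (h : Irreducible t'.G) :
    Irreducible t.G := by
  subst e
  cases t; cases t'
  cases hx
  exact h

/-- A root with an irreducible complementary factor is the only root. -/
theorem RootSplit.root_unique {M : Type*} [Field M] {Ψ : M[X]} (t : RootSplit Ψ)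
    (hirr : Irreducible t.quo) (hd : 1 < t.quo.natDegree) {z : M} (hz : Ψ.eval z = 0) :
    z = t.x₀ := by
  rw [← t.sub_mul_quo, eval_mul, eval_sub, eval_X, eval_C, mul_eq_zero, sub_eq_zero] at hz
  refine hz.resolve_right fun h => ?_
  have hdeg : t.quo.degree = 1 :=
    (hirr.dvd_iff.1 (dvd_iff_isRoot.2 h)).elim
      (fun hu => absurd hu (irreducible_X_sub_C z).not_isUnit)
      fun ha => by rw [degree_eq_degree_of_associated ha, degree_X_sub_C]
  have h1 : t.quo.natDegree = 1 := natDegree_eq_of_degree_eq_some hdeg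
  omega

/-- Pair algebras over equal polynomials are compared by `Pairs.map` along the identity. -/
theorem Pairs.map_id {R : Type*} [CommRing R] {Ψ : R[X]} (h : Ψ.map (RingHom.id R) = Ψ)
    (z : Pairs Ψ) : Pairs.map (RingHom.id R) h z = z := by
  have : Pairs.map (RingHom.id R) h = RingHom.id _ := by
    refine Pairs.ringHom_ext (RingHom.ext fun a => ?_) ?_ ?_ <;> simp
  rw [this]; rfl

variable {Fg L K M : Type} [Field Fg] [Field L] [Field K] [Field M]

/-- The root `G` at the point is modified to one restricting to the target `Y'`. -/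
theorem exists_adjusted {q n : ℕ} (hq : q.Prime) (hn : 0 < n) {ζ : Fg}
    (hζ : IsPrimitiveRoot ζ n) {Φ : Fg[X]} (hΦ : Φ.Monic) (hd : Φ.natDegree = q + 1) (ι : Fg →+* L)
    (s : RootSplit (Φ.map ι)) (h0 : s.quo.eval s.x₀ ≠ 0) (y : Pairs Φ)
    (Y' : Pairs (Φ.map ι)) (hY' : Y' ^ n = Pairs.map ι rfl y ^ (q ^ 2 - 1))
    (κ : Fg →+* K) (κ' : K →+* M) (j : L →+* M) (hcomm : κ'.comp κ = j.comp ι)
    (htarget : IsDomain (AdjoinRoot (Φ.map κ)) → Irreducible (s.map j).quo →
        (∀ _ : Fact (Irreducible (s.map j).quo), Irreducible (s.map j).G) →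
        ∀ G : Pairs (Φ.map κ), G ^ n = Pairs.map κ rfl y →
          ∃ G' : Pairs (Φ.map κ), G' ^ n = Pairs.map κ rfl y ^ (q ^ 2 - 1) ∧
            Pairs.map κ' (Ψ := (Φ.map ι).map j)
                (by rw [Polynomial.map_map, Polynomial.map_map, hcomm]) G' =
              Pairs.map j rfl Y')
    (hquo : Irreducible (s.map j).quo) (hG : Irreducible (s.map j).G)
    (hloc : IsDomain (AdjoinRoot (Φ.map κ)) ∨ ∃ x : K, (Φ.map κ).eval x = 0)
    (G : Pairs (Φ.map κ)) (hGn : G ^ n = Pairs.map κ rfl y) :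
    ∃ G' : Pairs (Φ.map κ), G' ^ n = Pairs.map κ rfl y ^ (q ^ 2 - 1) ∧
      Pairs.map κ' (Ψ := (Φ.map ι).map j)
          (by rw [Polynomial.map_map, Polynomial.map_map, hcomm]) G' =
        Pairs.map j rfl Y' := by
  rcases hloc with hdom | ⟨x, hx⟩
  · exact htarget hdom hquo (fun _ => hG) G hGn
  have : NeZero n := ⟨hn.ne'⟩
  have e : (Φ.map κ).map κ' = (Φ.map ι).map j := by
    rw [Polynomial.map_map, Polynomial.map_map, hcomm]
  have hdj : 1 < (s.map j).quo.natDegree := by
    rw [(s.map j).natDegree_quo ((hΦ.map ι).map j) (by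
      rw [(hΦ.map ι).natDegree_map, hΦ.natDegree_map, hd]; omega), (hΦ.map ι).natDegree_map,
      hΦ.natDegree_map, hd, Nat.add_sub_cancel]
    exact hq.one_lt
  let t : RootSplit (Φ.map κ) := ⟨x, hx⟩
  have hx' : κ' x = j s.x₀ := by
    refine (s.map j).root_unique hquo hdj ?_
    rw [← e, eval_map, eval₂_at_apply, hx, map_zero]
  have hquo' : Irreducible (t.map κ').quo := RootSplit.irreducible_quo_congr e (t.map κ') (s.map j) hx' hquo
  have hG' : Irreducible (t.map κ').G := RootSplit.irreducible_G_congr e (t.map κ') (s.map j) hx' hG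
  have hd1 : 1 < (Φ.map κ).natDegree := by
    rw [hΦ.natDegree_map, hd]
    have := hq.two_le
    omega
  have hqm : (t.quo).Monic := t.monic_quo (hΦ.map κ) (by omega)
  have htq : t.quo.map κ' = (s.map j).quo := by
    rw [RootSplit.quo, map_divDiff, RootSplit.quo, RootSplit.map_x₀, ← hx', e]
  have : Fact (Irreducible t.quo) := ⟨Polynomial.Monic.irreducible_of_irreducible_map κ' _ hqm (htq ▸ hquo)⟩
  have : Fact (Irreducible (t.map κ').quo) := ⟨hquo'⟩
  have h0' : t.quo.eval t.x₀ ≠ 0 := by
    intro h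
    have h1 : (t.quo.map κ').eval (κ' x) = 0 := by
      rw [eval_map, eval₂_at_apply, h, map_zero]
    rw [htq, hx', RootSplit.quo_map, eval_map, eval₂_at_apply, map_eq_zero] at h1
    exact h0 h1
  set m := q ^ 2 - 1
  set y' := Pairs.map κ rfl y ^ m with hy'
  have hYe : Pairs.map (RingHom.id M) (Φ := (Φ.map ι).map j) (Ψ := (Φ.map κ).map κ')
      (by rw [Polynomial.map_id, e]) (Pairs.map j rfl Y') ^ n = Pairs.map κ' rfl y' := by
    rw [← map_pow, ← map_pow, hY', hy', map_pow, map_pow, map_pow]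
    congr 1
    rw [← RingHom.comp_apply, ← RingHom.comp_apply, ← RingHom.comp_apply, Pairs.map_map,
      Pairs.map_map, Pairs.map_map]
    congr 1
    refine Pairs.ringHom_ext (RingHom.ext fun a => ?_) ?_ ?_
    · simp only [RingHom.comp_apply, Pairs.map_ofBase, RingHom.id_apply]
      exact congrArg _ (RingHom.congr_fun hcomm a).symm
    · simp
    · simp
  obtain ⟨G', hG'n, hG'm⟩ := t.exists_root_of_branches (hΦ.map κ) hd1 h0' κ' hG'
    (hζ.map_of_injective κ.injective) y'
    ⟨t.br₀ G ^ m, by rw [← map_pow, ← map_pow, ← pow_mul, mul_comm, pow_mul, hGn]⟩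
    ⟨t.br₁ G ^ m, by rw [← map_pow, ← map_pow, ← pow_mul, mul_comm, pow_mul, hGn]⟩
    ⟨t.brₘ G ^ m, by rw [← map_pow, ← map_pow, ← pow_mul, mul_comm, pow_mul, hGn]⟩
    _ hYe
  refine ⟨G', hG'n, ?_⟩
  have hback := congrArg (Pairs.map (RingHom.id M) (Φ := (Φ.map κ).map κ') (Ψ := (Φ.map ι).map j)
    (by rw [Polynomial.map_id, e])) hG'm
  rw [← RingHom.comp_apply, ← RingHom.comp_apply, Pairs.map_map, Pairs.map_map] at hback
  convert hback using 2 with
  · rfl
  · rw [← RingHom.comp_apply]
    exact (Pairs.map_id (by rw [Polynomial.map_id]) _).symm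

end FLTA.Carayol
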