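import Mathlib.Tactic.NormNum.Prime
import Mathlib.Tactic.Linarith

/-!
# The exponent lost in the algebraic main result
-/

set_option autoImplicit false

namespace FLTA.Carayol

/-- The exponent lost in the argument. -/
def coreExp (q : ℕ) : ℕ := (q + 1) * (q - 1) * (q ^ 2 - 1)

theorem coreExp_ne_zero {q : ℕ} (hq : 2 ≤ q) : coreExp q ≠ 0 := by
  have h : 0 < q ^ 2 - 1 := Nat.sub_pos_of_lt (by nlinarith)
  exact mul_ne_zero (mul_ne_zero (by omega) (by omega)) h.ne'

end FLTA.Carayol
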