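import Mathlib.LinearAlgebra.Matrix.CharP
import Mathlib.Algebra.CharP.Lemmas
import Mathlib.LinearAlgebra.Matrix.Charpoly.Coeff
import Mathlib.RingTheory.Norm.Defs
import Mathlib.RingTheory.AdjoinRoot
import Mathlib.LinearAlgebra.Charpoly.Basic
import Mathlib.LinearAlgebra.Charpoly.ToMatrix

/-!
# Purely inseparable algebras of degree `q`

In characteristic `q`, if multiplication by `y` on a free algebra of rank `q` has `y ^ q = c`
scalar, then its characteristic polynomial is `X ^ q - c` and its norm is `c`.
-/

set_option autoImplicit false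

open Polynomial

namespace FLTA.Carayol

variable {F : Type*} [Field F] (q : ℕ) [CharP F q] [hq : Fact q.Prime]

/-- A `q × q` matrix with scalar `q`-th power in characteristic `q`. -/
theorem charpoly_eq_of_pow_eq_scalar {ι : Type*} [Fintype ι] [DecidableEq ι]
    (hι : Fintype.card ι = q) (M : Matrix ι ι F) (c : F) (h : M ^ q = Matrix.scalar ι c) :
    M.charpoly = X ^ q - C c := by
  have : Nonempty ι := Fintype.card_pos_iff.1 (hι ▸ hq.out.pos)
  refine frobenius_inj (F[X]) q ?_
  simp only [frobenius_def]
  have e : M.charmatrix ^ q = Matrix.scalar ι (X ^ q - C c) := by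
    rw [Matrix.charmatrix, sub_pow_char_of_commute]
    · rw [← map_pow, ← map_pow, h, map_sub]
      congr 1
      ext i j
      rw [RingHom.mapMatrix_apply, Matrix.map_apply]
      by_cases hij : i = j
      · subst hij; simp
      · simp [hij]
    · exact Matrix.scalar_commute _ (fun r => Commute.all _ r) _
  rw [Matrix.charpoly, ← Matrix.det_pow, e, Matrix.scalar_apply, Matrix.det_diagonal,
    Finset.prod_const, Finset.card_univ, hι]

variable {S : Type*} [CommRing S] [Algebra F S] [Module.Free F S] [Module.Finite F S]

theorem charpoly_mulLeft_eq_of_pow_eq (hS : Module.finrank F S = q) {y : S} {c : F}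
    (h : y ^ q = algebraMap F S c) :
    LinearMap.charpoly (LinearMap.mulLeft F y) = X ^ q - C c := by
  classical
  let b := Module.Free.chooseBasis F S
  have hcard : Fintype.card (Module.Free.ChooseBasisIndex F S) = q :=
    (Module.finrank_eq_card_chooseBasisIndex F S).symm.trans hS
  rw [← LinearMap.charpoly_toMatrix _ b]
  refine charpoly_eq_of_pow_eq_scalar q hcard _ c ?_
  have hM : LinearMap.toMatrix b b (LinearMap.mulLeft F y) = Algebra.leftMulMatrix b y := by
    rw [Algebra.leftMulMatrix_apply]
    rfl
  rw [hM, ← map_pow, h, AlgHom.commutes, Matrix.algebraMap_eq_diagonal]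
  simp [Matrix.scalar_apply]

theorem norm_eq_of_pow_eq (hS : Module.finrank F S = q) {y : S} {c : F}
    (h : y ^ q = algebraMap F S c) : Algebra.norm F y = c := by
  classical
  let b := Module.Free.chooseBasis F S
  have hcard : Fintype.card (Module.Free.ChooseBasisIndex F S) = q :=
    (Module.finrank_eq_card_chooseBasisIndex F S).symm.trans hS
  have hM : (Algebra.leftMulMatrix b y) ^ q = Matrix.scalar _ c := by
    rw [← map_pow, h, AlgHom.commutes, Matrix.algebraMap_eq_diagonal]
    simp [Matrix.scalar_apply]
  rw [Algebra.norm_eq_matrix_det b, Matrix.det_eq_sign_charpoly_coeff,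
    charpoly_eq_of_pow_eq_scalar q hcard _ c hM, hcard, coeff_sub, coeff_X_pow,
    if_neg hq.out.pos.ne, coeff_C_zero]
  rcases hq.out.eq_two_or_odd' with rfl | hodd
  · have : (2 : F) = 0 := by exact_mod_cast CharP.cast_eq_zero F 2
    linear_combination -c * this
  · rw [hodd.neg_one_pow]; ring

end FLTA.Carayol
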