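import Mathlib.RingTheory.UniqueFactorizationDomain.Multiplicity
import Mathlib.RingTheory.UniqueFactorizationDomain.Basic
import Mathlib.RingTheory.Henselian
import Mathlib.RingTheory.Localization.FractionRing
import Mathlib.RingTheory.LocalRing.ResidueField.Basic
import Mathlib.Algebra.BigOperators.Group.Finset.Basic
import Mathlib.Tactic.LinearCombination
import Mathlib.Tactic.Ring
import Mathlib.Tactic.FieldSimp

/-!
# Roots of fractions in henselian factorial local rings

If `O` is a henselian factorial local ring with `n` invertible, every nonzero residue is an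
`n`-th power and all multiplicities of a fraction are divisible by `n`, then the fraction is an
`n`-th power.
-/

set_option autoImplicit false

open IsLocalRing UniqueFactorizationMonoid

namespace FLTA.Carayol

variable {O : Type*} [CommRing O] [IsDomain O]

omit [IsDomain O] in
/-- `x` is a unit times an `n`-th power if `n` divides all its multiplicities. -/
theorem exists_unit_mul_pow_of_dvd_multiplicity [UniqueFactorizationMonoid O] {n : ℕ} {x : O}
    (hx : x ≠ 0) (h : ∀ p : O, Prime p → n ∣ multiplicity p x) :
    ∃ (c : O) (u : Oˣ), x = u * c ^ n := by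
  classical
  let := UniqueFactorizationMonoid.strongNormalizationMonoid (α := O)
  have hdvd : ∀ a ∈ normalizedFactors x, n ∣ (normalizedFactors x).count a := by
    intro a ha
    have h1 := h a (prime_of_normalized_factor a ha)
    rwa [multiplicity_eq_count_normalizedFactors (irreducible_of_normalized_factor a ha) hx,
      normalize_normalized_factor a ha] at h1
  obtain ⟨v, hv⟩ := Multiset.exists_smul_of_dvd_count _ hdvd
  obtain ⟨u, hu⟩ := prod_normalizedFactors hx
  refine ⟨v.prod, u, ?_⟩
  rw [← hu, hv, Multiset.prod_nsmul, mul_comm]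

omit [IsDomain O] in
/-- Hensel: units are `n`-th powers. -/
theorem exists_pow_eq_of_isUnit [HenselianLocalRing O] {n : ℕ} (hn : IsUnit (n : O))
    (hk : ∀ a : ResidueField O, a ≠ 0 → ∃ b, b ^ n = a) {u : O} (hu : IsUnit u) :
    ∃ w : O, w ^ n = u := by
  have hn0 : n ≠ 0 := by
    rintro rfl
    rw [Nat.cast_zero] at hn
    exact not_isUnit_zero hn
  obtain ⟨b, hb⟩ := hk (residue O u) (hu.map (residue O)).ne_zero
  obtain ⟨b, rfl⟩ := residue_surjective b
  have hbu : IsUnit b := by
    rw [← notMem_maximalIdeal, ← residue_eq_zero_iff]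
    intro h0
    rw [h0, zero_pow hn0] at hb
    exact (hu.map (residue O)).ne_zero hb.symm
  obtain ⟨w, hw, -⟩ := HenselianLocalRing.is_henselian (Polynomial.X ^ n - Polynomial.C u)
    (Polynomial.monic_X_pow_sub_C u hn0) b
    (by
      rw [Polynomial.eval_sub, Polynomial.eval_pow, Polynomial.eval_X, Polynomial.eval_C,
        ← residue_eq_zero_iff, map_sub, map_pow, hb, sub_self])
    (by
      rw [Polynomial.derivative_sub, Polynomial.derivative_X_pow, Polynomial.derivative_C,
        sub_zero, Polynomial.eval_mul, Polynomial.eval_C, Polynomial.eval_pow,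
        Polynomial.eval_X]
      exact hn.mul (hbu.pow _))
  refine ⟨w, ?_⟩
  simpa [Polynomial.IsRoot, sub_eq_zero] using hw

/-- The `n`-th root of a fraction with all multiplicities divisible by `n`. -/
theorem exists_pow_eq_div [UniqueFactorizationMonoid O] [HenselianLocalRing O] {K : Type*}
    [Field K] [Algebra O K] [IsFractionRing O K] {n : ℕ} (hn : IsUnit (n : O))
    (hk : ∀ a : ResidueField O, a ≠ 0 → ∃ b, b ^ n = a) {a b : O} (ha : a ≠ 0) (hb : b ≠ 0)
    (h : ∀ p : O, Prime p → (n : ℤ) ∣ (multiplicity p a : ℤ) - multiplicity p b) :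
    ∃ g : K, g ^ n = algebraMap O K a / algebraMap O K b := by
  have hn0 : n ≠ 0 := by
    rintro rfl
    rw [Nat.cast_zero] at hn
    exact not_isUnit_zero hn
  obtain ⟨m, rfl⟩ := Nat.exists_eq_succ_of_ne_zero hn0
  have hx : a * b ^ m ≠ 0 := mul_ne_zero ha (pow_ne_zero _ hb)
  obtain ⟨c, u, hc⟩ := exists_unit_mul_pow_of_dvd_multiplicity (n := m + 1) hx fun p hp => by
    have hfa := FiniteMultiplicity.of_prime_left hp ha
    have hfb := FiniteMultiplicity.of_prime_left hp hb
    rw [multiplicity_mul hp (FiniteMultiplicity.of_prime_left hp hx),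
      FiniteMultiplicity.multiplicity_pow hp hfb]
    obtain ⟨t, ht⟩ := h p hp
    have ht' : (multiplicity p a : ℤ) - multiplicity p b = ((m + 1 : ℕ) : ℤ) * t := by
      simpa using ht
    refine Int.natCast_dvd_natCast.1 ⟨t + multiplicity p b, ?_⟩
    push_cast at ht' ⊢
    linear_combination ht'
  obtain ⟨w, hw⟩ := exists_pow_eq_of_isUnit hn hk u.isUnit
  have hbK : algebraMap O K b ≠ 0 := by simpa using hb
  refine ⟨algebraMap O K (w * c) / algebraMap O K b, ?_⟩
  rw [div_pow, ← map_pow, ← map_pow, mul_pow, hw, ← hc, div_eq_div_iff (by simpa using hb) hbK,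
    map_mul, map_pow, map_pow, Nat.succ_eq_add_one, pow_succ]
  ring

end FLTA.Carayol
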