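import Fermat.Agent.Carayol.GaussBranch
import Fermat.Agent.Carayol.Inseparable
import Fermat.Agent.Carayol.RootLemma
import Mathlib.RingTheory.AdjoinRoot
import Mathlib.LinearAlgebra.Matrix.Charpoly.Minpoly

/-!
# Roots on the three branches

If both norms of `y` are `n`-th powers then `y ^ (q - 1)` is an `n`-th power over the
completion at the Gauss point.
-/

set_option autoImplicit false
set_option linter.style.haveILetI false

open IsLocalRing Ideal Polynomial

namespace FLTA.Carayol

theorem henselianLocalRing_of_isAdicComplete {B : Type*} [CommRing B] [IsLocalRing B]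
    [IsAdicComplete (maximalIdeal B) B] : HenselianLocalRing B :=
  ⟨fun f hf a₀ h₁ h₂ => HenselianRing.is_henselian (I := maximalIdeal B) f hf a₀ h₁ (h₂.map _)⟩

/-- `y ^ q` an `n`-th power and `q` prime to `n`. -/
theorem exists_pow_eq_of_coprime {G : Type*} [Field G] {n q : ℕ} (hco : Nat.Coprime n q)
    {y d : G} (hy : y ≠ 0) (h : y ^ q = d ^ n) : ∃ e, e ^ n = y := by
  obtain ⟨α, β, hab⟩ := hco.isCoprime
  refine ⟨y ^ α * d ^ β, ?_⟩
  rw [mul_pow, ← zpow_natCast, ← zpow_natCast (d ^ β) n, ← zpow_mul, ← zpow_mul, mul_comm β,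
    zpow_mul d, zpow_natCast d n, ← h, ← zpow_natCast, ← zpow_mul, ← zpow_add₀ hy,
    show α * n + q * β = 1 by linear_combination hab, zpow_one]

/-- Comparison of unit times power. -/
theorem unit_mul_zpow_inj {B M : Type*} [CommRing B] [IsDomain B] [Field M] [Algebra B M]
    [IsFractionRing B M] {π : B} (hπ : Irreducible π) {a b : B} (ha : IsUnit a) (hb : IsUnit b)
    {i j : ℤ} (h : algebraMap B M a * algebraMap B M π ^ i =
      algebraMap B M b * algebraMap B M π ^ j) : i = j ∧ a = b := by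
  have hinj := IsFractionRing.injective B M
  have hπ0 : algebraMap B M π ≠ 0 := (map_ne_zero_iff _ hinj).2 hπ.ne_zero
  have key : ∀ (a b : B), IsUnit b → ∀ (i j : ℤ), j < i →
      algebraMap B M a * algebraMap B M π ^ i ≠ algebraMap B M b * algebraMap B M π ^ j := by
    intro a b hb i j hji h
    obtain ⟨m, hm⟩ : ∃ m : ℕ, i = j + (m + 1 : ℕ) := ⟨(i - j - 1).toNat, by omega⟩
    rw [hm, zpow_add₀ hπ0, mul_comm (_ ^ j), ← mul_assoc, zpow_natCast, ← map_pow, ← map_mul] at h
    have h1 := hinj (mul_right_cancel₀ (zpow_ne_zero _ hπ0) h)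
    exact hπ.not_isUnit (isUnit_of_dvd_unit ⟨a * π ^ m, by rw [← h1]; ring⟩ hb)
  rcases lt_trichotomy i j with hij | rfl | hij
  · exact absurd h.symm (key b a ha j i hij)
  · exact ⟨rfl, hinj (mul_right_cancel₀ (zpow_ne_zero _ hπ0) h)⟩
  · exact absurd h (key a b hb i j hij)

/-- Write an element of the fraction field as unit times power. -/
theorem exists_eq_unit_mul_zpow {B M : Type*} [CommRing B] [IsDomain B]
    [IsDiscreteValuationRing B] [Field M] [Algebra B M] [IsFractionRing B M] {π : B}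
    (hπ : Irreducible π) {z : M} (hz : z ≠ 0) :
    ∃ (u : B) (k : ℤ), IsUnit u ∧ z = algebraMap B M u * algebraMap B M π ^ k := by
  obtain ⟨k, u, hu⟩ :=
    IsDiscreteValuationRing.exists_units_eq_smul_zpow_of_irreducible (K := M) hπ hz
  exact ⟨u, k, u.isUnit, by rw [hu, Units.smul_def, Algebra.smul_def]⟩

/-- In a monogenic purely inseparable algebra `q`-th powers are scalars. -/
theorem exists_pow_eq_algebraMap {k : Type*} [Field k] (q : ℕ) [CharP k q] [Fact q.Prime]
    {f : k[X]} (hf : f.natDegree ≠ 0) (t : k)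
    (ht : AdjoinRoot.root f ^ q = algebraMap k (AdjoinRoot f) t) (y : AdjoinRoot f) :
    ∃ c, y ^ q = algebraMap k (AdjoinRoot f) c := by
  have : Nontrivial (AdjoinRoot f) := AdjoinRoot.nontrivial f
    (fun h => hf (natDegree_eq_zero_iff_degree_le_zero.2 h.le))
  have : CharP (AdjoinRoot f) q :=
    charP_of_injective_algebraMap (algebraMap k (AdjoinRoot f)).injective q
  induction y using AdjoinRoot.induction_on with
  | ih p =>
    induction p using Polynomial.induction_on with
    | C c => exact ⟨c ^ q, by rw [map_pow, AdjoinRoot.mk_C, AdjoinRoot.algebraMap_eq]⟩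
    | add p p' hp hp' =>
      obtain ⟨a, ha⟩ := hp
      obtain ⟨b, hb⟩ := hp'
      exact ⟨a + b, by rw [map_add, add_pow_char, ha, hb, map_add]⟩
    | monomial i c hi =>
      obtain ⟨a, ha⟩ := hi
      exact ⟨a * t, by
        rw [pow_succ X i, ← mul_assoc, map_mul, mul_pow, ha, AdjoinRoot.mk_X, ht, map_mul]⟩

theorem norm_zpow₀ {k B : Type*} [Field k] [Field B] [Algebra k B] [FiniteDimensional k B]
    (x : B) (i : ℤ) : Algebra.norm k (x ^ i) = Algebra.norm k x ^ i := by
  refine map_zpow' (Algebra.norm k) (fun a => ?_) x i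
  rcases eq_or_ne a 0 with rfl | ha
  · simp [Algebra.norm_zero]
  · refine eq_inv_of_mul_eq_one_left ?_
    rw [← map_mul, inv_mul_cancel₀ ha, map_one]

variable {A : Type*} [CommRing A] [IsLocalRing A] [IsDomain A] [IsDiscreteValuationRing A]
  [IsAdicComplete (maximalIdeal A) A] {L : Type*} [Field L] [Algebra A L] [IsFractionRing A L]

namespace IsGauss

variable {q n : ℕ} {Φ : A[X]} {s : RootSplit Φ} {T : A}

theorem exists_root_outer (h : IsGauss q Φ s T) (hn : IsUnit (n : A)) (hnq : Nat.Coprime n q)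
    [Fact (Irreducible (s.map (algebraMap A L)).quo)]
    (z : (s.map (algebraMap A L)).E) (hz : z ≠ 0) (g : L)
    (hg : g ^ n = Algebra.norm L z) : ∃ w, w ^ n = z := by
  have hn0 : n ≠ 0 := by rintro rfl; simp at hn
  have := h.isDomain_E
  have := h.isLocalRing_E
  have := h.isDiscreteValuationRing_E
  have := Fact.mk h.prime_q
  have hqA : (q : A) ≠ 0 := h.q_ne_zero
  letI := (s.mapE (algebraMap A L)).toAlgebra
  have := h.isFractionRing_E (L := L)
  have hirrA : Irreducible (q : A) :=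
    (IsDiscreteValuationRing.irreducible_iff_uniformizer _).2 h.max_eq
  have hirr : Irreducible (q : s.E) :=
    (IsDiscreteValuationRing.irreducible_iff_uniformizer _).2 h.maximalIdeal_E
  obtain ⟨u, k, hu, rfl⟩ := exists_eq_unit_mul_zpow hirr hz
  -- the norm
  have hnu : Algebra.norm L (algebraMap s.E (s.map (algebraMap A L)).E u) =
      algebraMap A L (Algebra.norm A u) :=
    norm_adjoinRoot_map h.monic_quo (algebraMap A L) (s.quo_map (algebraMap A L)).symm u
  have hqL : algebraMap s.E (s.map (algebraMap A L)).E (q : s.E) =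
      algebraMap L (s.map (algebraMap A L)).E (q : L) := by
    rw [map_natCast, map_natCast]
  have hm : (s.map (algebraMap A L)).quo.Monic := by
    rw [RootSplit.quo_map]; exact h.monic_quo.map _
  have := hm.finite_adjoinRoot
  have hfin : Module.finrank L (s.map (algebraMap A L)).E = q := by
    rw [(AdjoinRoot.powerBasis' hm).finrank, AdjoinRoot.powerBasis'_dim, RootSplit.quo_map,
      h.monic_quo.natDegree_map, h.natDegree_quo]
  have hgz : g ≠ 0 := by
    rintro rfl
    rw [zero_pow hn0, eq_comm, Algebra.norm_eq_zero_iff] at hg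
    exact hz hg
  obtain ⟨v, j, hv, rfl⟩ := exists_eq_unit_mul_zpow (B := A) hirrA hgz
  rw [map_mul, norm_zpow₀, hnu, hqL, Algebra.norm_algebraMap, hfin, mul_pow, ← map_pow,
    ← zpow_natCast ((algebraMap A L (q : A)) ^ j), ← zpow_mul, ← zpow_natCast (q : L) q,
    ← zpow_mul, ← map_natCast (algebraMap A L) q] at hg
  obtain ⟨hkj, hvu⟩ := unit_mul_zpow_inj hirrA (hv.pow n) (hu.map (Algebra.norm A)) hg
  obtain ⟨m, rfl⟩ : (n : ℤ) ∣ k :=
    (Int.isCoprime_iff_gcd_eq_one.2 (by simpa [Int.gcd_natCast_natCast] using hnq)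
      : IsCoprime (n : ℤ) q).dvd_of_dvd_mul_left ⟨j, by linear_combination -hkj⟩
  -- the residue
  let ρ := AdjoinRoot.map (residue A) s.quo (s.quo.map (residue A)) dvd_rfl
  have := Fact.mk h.irreducible_quo_residue
  have hck : CharP (ResidueField A) q := by
    refine (CharP.charP_iff_prime_eq_zero h.prime_q).2 ?_
    rw [← map_natCast (residue A), residue_eq_zero_iff, h.max_eq]
    exact mem_span_singleton_self _
  have hfin' : Module.finrank (ResidueField A) (AdjoinRoot (s.quo.map (residue A))) = q := by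
    rw [(AdjoinRoot.powerBasis' (h.monic_quo.map (residue A))).finrank, AdjoinRoot.powerBasis'_dim,
      h.monic_quo.natDegree_map, h.natDegree_quo]
  have := (h.monic_quo.map (residue A)).free_adjoinRoot
  have := (h.monic_quo.map (residue A)).finite_adjoinRoot
  obtain ⟨c, hc⟩ := exists_pow_eq_algebraMap q (f := s.quo.map (residue A))
    (by rw [h.monic_quo.natDegree_map, h.natDegree_quo]; exact h.prime_q.ne_zero)
    (residue A T) (by
      have h1 := AdjoinRoot.eval₂_root (s.quo.map (residue A))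
      rw [show eval₂ (AdjoinRoot.of (s.quo.map (residue A)))
        (AdjoinRoot.root (s.quo.map (residue A))) (s.quo.map (residue A)) =
          eval₂ (AdjoinRoot.of (s.quo.map (residue A))) (AdjoinRoot.root (s.quo.map (residue A)))
            (X ^ q - C (residue A T)) by rw [← h.quo_mod], eval₂_sub, eval₂_X_pow, eval₂_C,
        sub_eq_zero] at h1
      rwa [AdjoinRoot.algebraMap_eq]) (ρ u)
  have hρ : ρ u ^ q = algebraMap _ _ (residue A v) ^ n := by
    rw [hc, ← norm_eq_of_pow_eq q hfin' hc]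
    have := norm_adjoinRoot_map h.monic_quo (residue A) rfl u
    rw [this, ← hvu, map_pow, map_pow]
  obtain ⟨e, he⟩ := exists_pow_eq_of_coprime hnq ((hu.map ρ).ne_zero) hρ
  obtain ⟨w, rfl⟩ : ∃ w, ρ w = e := by
    obtain ⟨g, rfl⟩ := AdjoinRoot.mk_surjective e
    obtain ⟨p, rfl⟩ := Polynomial.map_surjective _ residue_surjective g
    refine ⟨AdjoinRoot.mk s.quo p, ?_⟩
    rw [show ρ = AdjoinRoot.map (residue A) s.quo (s.quo.map (residue A)) dvd_rfl from rfl,
      AdjoinRoot.map, AdjoinRoot.lift_mk, ← eval₂_map, ← AdjoinRoot.aeval_eq, aeval_def,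
      AdjoinRoot.algebraMap_eq]
  have hres : residue s.E w ^ n = residue s.E u := by
    rw [← map_pow, ← sub_eq_zero, ← map_sub, residue_eq_zero_iff,
      maximalIdeal_inert h.max_eq h.monic_quo h.irreducible_quo_residue,
      ← ker_residue_adjoinRoot h.max_eq h.monic_quo, RingHom.mem_ker, map_sub, map_pow, he,
      sub_self]
  have := h.monic_quo.finite_adjoinRoot
  have := finite_adjoinRoot_complete h.monic_quo
    (by rw [h.natDegree_quo]; exact h.prime_q.pos)
  have := henselianLocalRing_of_isAdicComplete (B := s.E)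
  obtain ⟨x, hx⟩ := exists_pow_eq_of_residue
    (by simpa using hn.map (AdjoinRoot.of s.quo)) hu hres
  refine ⟨algebraMap s.E _ x * algebraMap s.E _ (q : s.E) ^ m, ?_⟩
  rw [mul_pow, ← map_pow, hx, ← zpow_natCast (_ ^ m), ← zpow_mul, mul_comm m]

theorem exists_root_middle (h : IsGauss q Φ s T) (hn : IsUnit (n : A))
    [Fact (Irreducible (s.map (algebraMap A L)).quo)]
    [Fact (Irreducible (s.map (algebraMap A L)).G)]
    (z : (s.map (algebraMap A L)).E') (hz : z ≠ 0) (g : (s.map (algebraMap A L)).E)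
    (hg : g ^ n = Algebra.norm (s.map (algebraMap A L)).E z) : ∃ w, w ^ n = z ^ (q - 1) := by
  have hn0 : n ≠ 0 := by rintro rfl; simp at hn
  have := h.isDomain_E
  have := h.isLocalRing_E
  have := h.isDiscreteValuationRing_E
  have hd : 1 < Φ.natDegree := by rw [h.natDegree_eq]; have := h.prime_q.two_le; omega
  letI := (s.mapE (algebraMap A L)).toAlgebra
  have := h.isFractionRing_E (L := L)
  have hG := h.isShiftEis_G
  have hqA : (q : A) ≠ 0 := h.q_ne_zero
  have hq0 : (q : s.E) ≠ 0 := by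
    intro h0
    have := h.monic_quo.free_adjoinRoot
    exact hqA (FaithfulSMul.algebraMap_injective A s.E (by rw [map_natCast, map_zero, h0]))
  have := h.monic_quo.finite_adjoinRoot
  have : IsNoetherianRing s.E := IsNoetherianRing.of_finite A _
  have : IsDomain s.E' := isDomain_adjoinRoot_of_irreducible (hG.irreducible hq0)
  have := hG.isLocalRing
  have := hG.isDiscreteValuationRing
  have hirr : Irreducible (q : s.E) :=
    (IsDiscreteValuationRing.irreducible_iff_uniformizer _).2 h.maximalIdeal_E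
  set π' : s.E' := AdjoinRoot.of s.G (AdjoinRoot.root s.quo) - AdjoinRoot.root s.G with hπ'
  have hirr' : Irreducible π' := by
    refine (IsDiscreteValuationRing.irreducible_iff_uniformizer _).2 ?_
    rw [hG.maximalIdeal_eq, hπ', ← Ideal.span_singleton_neg, neg_sub]
  letI : Algebra s.E' (s.map (algebraMap A L)).E' := (s.mapE' (algebraMap A L)).toAlgebra
  have hGm : s.G.Monic := s.monic_G h.monic hd
  have hGmap : s.G.map (algebraMap s.E (s.map (algebraMap A L)).E) =
      (s.map (algebraMap A L)).G := s.G_map (algebraMap A L)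
  have : IsFractionRing s.E' (s.map (algebraMap A L)).E' := by
    have hinj : Function.Injective (s.mapE' (algebraMap A L)) :=
      adjoinRoot_map_injective (IsFractionRing.injective s.E (s.map (algebraMap A L)).E) hGm hGmap
    have : FaithfulSMul s.E' (s.map (algebraMap A L)).E' :=
      (faithfulSMul_iff_algebraMap_injective _ _).2 hinj
    refine IsFractionRing.of_field _ _ fun y => ?_
    obtain ⟨r, w, hr, hw⟩ := exists_mul_eq_adjoinRootMap hGmap y
    refine ⟨w, AdjoinRoot.of s.G r, ?_⟩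
    show y = s.mapE' (algebraMap A L) w / s.mapE' (algebraMap A L) (AdjoinRoot.of s.G r)
    have hw' : AdjoinRoot.of _ (s.mapE (algebraMap A L) r) * y = s.mapE' (algebraMap A L) w := hw
    rw [show s.mapE' (algebraMap A L) (AdjoinRoot.of s.G r) =
      AdjoinRoot.of _ (s.mapE (algebraMap A L) r) by simp [RootSplit.mapE'], ← hw',
      mul_div_cancel_left₀]
    exact (_root_.map_ne_zero _).2
      ((map_ne_zero_iff _ (IsFractionRing.injective s.E (s.map (algebraMap A L)).E)).2 hr)
  obtain ⟨u, k, hu, rfl⟩ := exists_eq_unit_mul_zpow hirr' hz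
  have hGL : (s.map (algebraMap A L)).G.Monic := hGmap ▸ hGm.map _
  have := hGL.finite_adjoinRoot
  -- the norm of the uniformiser
  obtain ⟨u₀, hu₀, hue⟩ := hG.eval_eq
  set ι := algebraMap s.E (s.map (algebraMap A L)).E with hι
  have hnπ : Algebra.norm (s.map (algebraMap A L)).E
      (algebraMap s.E' (s.map (algebraMap A L)).E' π') = ι ((q : s.E) * u₀) := by
    have e1 : algebraMap s.E' (s.map (algebraMap A L)).E' π' =
        algebraMap (s.map (algebraMap A L)).E _ (ι (AdjoinRoot.root s.quo)) -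
          AdjoinRoot.root (s.map (algebraMap A L)).G := by
      show s.mapE' (algebraMap A L) π' = _
      simp [hπ', RootSplit.mapE', hι, RingHom.algebraMap_toAlgebra, AdjoinRoot.algebraMap_eq]
    let pb := AdjoinRoot.powerBasis hGL.ne_zero
    have hgen : pb.gen = AdjoinRoot.root (s.map (algebraMap A L)).G := rfl
    rw [e1, ← hgen, Algebra.norm_eq_matrix_det pb.basis, map_sub, AlgHom.commutes,
      Matrix.algebraMap_eq_diagonal]
    have h1 := Matrix.eval_charpoly (Algebra.leftMulMatrix pb.basis pb.gen)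
      (ι (AdjoinRoot.root s.quo))
    rw [charpoly_leftMulMatrix, AdjoinRoot.minpoly_powerBasis_gen_of_monic hGL] at h1
    rw [← hue, ← eval₂_at_apply, ← eval_map, hι, hGmap, h1]
    simp [Matrix.scalar_apply]
    rfl
  have hnu : Algebra.norm (s.map (algebraMap A L)).E
      (algebraMap s.E' (s.map (algebraMap A L)).E' u) = ι (Algebra.norm s.E u) :=
    norm_adjoinRoot_map hGm (s.mapE (algebraMap A L)) (s.G_map (algebraMap A L)) u
  have hgz : g ≠ 0 := by
    rintro rfl
    rw [zero_pow hn0, eq_comm, Algebra.norm_eq_zero_iff] at hg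
    exact hz hg
  obtain ⟨v, j, hv, rfl⟩ := exists_eq_unit_mul_zpow (B := s.E) hirr hgz
  obtain ⟨uu, rfl⟩ := hu₀
  obtain ⟨vv, rfl⟩ := hv
  obtain ⟨nu, hnu'⟩ := hu.map (Algebra.norm s.E)
  rw [map_mul, norm_zpow₀, hnu, hnπ, ← hnu', mul_pow, ← map_pow, ← zpow_natCast (ι (q : s.E) ^ j),
    ← zpow_mul, map_mul, mul_zpow] at hg
  have huk : ι (uu : s.E) ^ k = ι ((uu ^ k : s.Eˣ) : s.E) := by
    have h2 := congrArg Units.val
      (map_zpow (Units.map (ι : s.E →* (s.map (algebraMap A L)).E)) uu k)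
    rw [Units.val_zpow_eq_zpow_val, Units.coe_map, Units.coe_map] at h2
    exact h2.symm
  rw [huk, mul_comm (ι (q : s.E) ^ k), ← mul_assoc, ← map_mul, ← Units.val_pow_eq_pow_val,
    ← Units.val_mul] at hg
  obtain ⟨rfl, hvu⟩ := unit_mul_zpow_inj hirr (Units.isUnit _) (Units.isUnit _) hg
  have hnorm : Algebra.norm s.E u = ((vv * (uu ^ j)⁻¹ : s.Eˣ) : s.E) ^ n := by
    rw [← hnu', ← Units.val_pow_eq_pow_val]
    congr 1
    have := Units.ext hvu
    rw [mul_pow, inv_pow, this, mul_assoc, ← zpow_natCast (uu ^ j), ← zpow_mul, mul_inv_cancel,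
      mul_one]
  -- residues
  obtain ⟨b, w, hbw⟩ : ∃ b w, u = AdjoinRoot.of s.G b +
      (AdjoinRoot.root s.G - AdjoinRoot.of s.G (AdjoinRoot.root s.quo)) * w := by
    obtain ⟨p, rfl⟩ := AdjoinRoot.mk_surjective u
    obtain ⟨w, hw⟩ : X - C (AdjoinRoot.root s.quo) ∣ p - C (p.eval (AdjoinRoot.root s.quo)) := by
      rw [dvd_iff_isRoot, IsRoot, eval_sub, eval_C, sub_self]
    refine ⟨p.eval (AdjoinRoot.root s.quo), AdjoinRoot.mk s.G w, ?_⟩
    have := congrArg (AdjoinRoot.mk s.G) hw
    rw [map_mul, map_sub, map_sub, AdjoinRoot.mk_X, AdjoinRoot.mk_C, AdjoinRoot.mk_C] at this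
    rw [← this]; ring
  let ρ := AdjoinRoot.map (residue s.E) s.G (s.G.map (residue s.E)) dvd_rfl
  have := (hGm.map (residue s.E)).free_adjoinRoot
  have := (hGm.map (residue s.E)).finite_adjoinRoot
  have hnil : IsNilpotent (ρ u - algebraMap _ _ (residue s.E b)) := by
    refine ⟨s.G.natDegree, ?_⟩
    rw [AdjoinRoot.algebraMap_eq, ← AdjoinRoot.map_of (residue s.E) s.G _ dvd_rfl b, ← map_sub,
      hbw, add_sub_cancel_left, ← map_pow, mul_pow, map_mul]
    have hker : ρ ((AdjoinRoot.root s.G - AdjoinRoot.of s.G (AdjoinRoot.root s.quo)) ^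
        s.G.natDegree) = 0 := by
      rw [← RingHom.mem_ker, ker_residue_adjoinRoot hG.max_eq hGm]
      exact hG.pow_mem
    rw [hker, zero_mul]
  have hdeg : s.G.natDegree = q - 1 := by
    rw [s.natDegree_G h.monic hd, h.natDegree_eq]; omega
  have hb : residue s.E b ^ (q - 1) =
      residue s.E ((vv * (uu ^ j)⁻¹ : s.Eˣ) : s.E) ^ n := by
    rw [← map_pow (residue s.E) _ n, ← hnorm,
      ← norm_adjoinRoot_map hGm (residue s.E) rfl u, norm_eq_pow_of_isNilpotent_sub hnil,
      (AdjoinRoot.powerBasis' (hGm.map (residue s.E))).finrank, AdjoinRoot.powerBasis'_dim,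
      hGm.natDegree_map, hdeg]
  have := hGm.finite_adjoinRoot
  have := finite_adjoinRoot_complete h.monic_quo
    (by rw [h.natDegree_quo]; exact h.prime_q.pos)
  have := finite_adjoinRoot_complete hGm hG.natDegree_pos
  have := henselianLocalRing_of_isAdicComplete (B := s.E')
  have hres : residue s.E' (AdjoinRoot.of s.G ((vv * (uu ^ j)⁻¹ : s.Eˣ) : s.E)) ^ n =
      residue s.E' (u ^ (q - 1)) := by
    have hof : ∀ x ∈ maximalIdeal s.E, residue s.E' (AdjoinRoot.of s.G x) = 0 := by
      intro x hx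
      rw [hG.max_eq, mem_span_singleton] at hx
      obtain ⟨c, rfl⟩ := hx
      rw [residue_eq_zero_iff, hG.maximalIdeal_eq, map_mul]
      exact Ideal.mul_mem_right _ _ hG.of_mem_span
    have h1 : residue s.E' u = residue s.E' (AdjoinRoot.of s.G b) := by
      rw [← sub_eq_zero, ← map_sub, residue_eq_zero_iff, hG.maximalIdeal_eq, hbw,
        add_sub_cancel_left]
      exact Ideal.mul_mem_right _ _ (mem_span_singleton_self _)
    rw [map_pow (residue s.E') u, h1, ← map_pow, ← map_pow, ← map_pow, ← map_pow, ← sub_eq_zero,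
      ← map_sub, ← map_sub]
    refine hof _ ?_
    rw [← residue_eq_zero_iff, map_sub, map_pow, map_pow, hb, sub_self]
  obtain ⟨x, hx⟩ := exists_pow_eq_of_residue
    (by simpa using (hn.map (AdjoinRoot.of s.quo)).map (AdjoinRoot.of s.G))
    (hu.pow (q - 1)) hres
  refine ⟨algebraMap s.E' _ x * algebraMap s.E' _ π' ^ (j * (q - 1 : ℕ)), ?_⟩
  rw [mul_pow, ← map_pow, hx, map_pow, mul_pow, ← zpow_natCast (_ ^ (j * _)), ← zpow_mul,
    ← zpow_natCast (_ ^ (j * (n : ℤ))), ← zpow_mul, mul_right_comm j]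

/-- The branches of the swapped element. -/
theorem br₀_swap {R : Type*} [CommRing R] {Ψ : R[X]} (t : RootSplit Ψ) (y : Pairs Ψ) :
    t.br₀ (Pairs.swap Ψ y) = t.br₁ y := by
  have : t.br₀.comp (Pairs.swap Ψ) = t.br₁ := by
    refine Pairs.ringHom_ext (RingHom.ext fun a => ?_) ?_ ?_ <;>
      simp [RootSplit.br₀, RootSplit.br₁]
  exact RingHom.congr_fun this y

theorem exists_root (h : IsGauss q Φ s T) (hn : IsUnit (n : A)) (hnq : Nat.Coprime n q)
    (y : Pairs (Φ.map (algebraMap A L))) (hy : IsUnit y)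
    (hfst : ∃ g, g ^ n = Pairs.normFst _ y) (hsnd : ∃ g, g ^ n = Pairs.normSnd _ y) :
    ∃ Y, Y ^ n = y ^ (q - 1) := by
  set t := s.map (algebraMap A L) with ht
  have := Fact.mk (h.irreducible_quo (L := L))
  have := Fact.mk (h.irreducible_G (L := L))
  have hΦ : (Φ.map (algebraMap A L)).Monic := h.monic.map _
  have hd : 1 < (Φ.map (algebraMap A L)).natDegree := by
    rw [h.monic.natDegree_map, h.natDegree_eq]; have := h.prime_q.two_le; omega
  have h0 := h.quo_eval_x₀_ne_zero (L := L)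
  obtain ⟨g₁, hg₁⟩ := hfst
  obtain ⟨g₂, hg₂⟩ := hsnd
  obtain ⟨F₀, hF₀⟩ := h.exists_root_outer hn hnq (t.br₀ y) (hy.map _).ne_zero (t.proj₀ g₁)
    (by rw [← map_pow, hg₁, t.proj₀_normFst hΦ (by omega)])
  obtain ⟨F₁, hF₁⟩ := h.exists_root_outer hn hnq (t.br₁ y) (hy.map _).ne_zero (t.proj₀ g₂)
    (by
      rw [← map_pow, hg₂, ← br₀_swap]
      exact t.proj₀_normFst hΦ (by omega) (Pairs.swap _ y))
  obtain ⟨Fm, hFm⟩ := h.exists_root_middle hn (t.brₘ y) (hy.map _).ne_zero
    (t.proj₁ g₁ / F₁) (by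
      rw [div_pow, ← map_pow, hg₁, t.proj₁_normFst hΦ hd h0, hF₁,
        mul_div_cancel_left₀ _ (hy.map t.br₁).ne_zero])
  obtain ⟨Y, h1, h2, h3⟩ := t.br_surjective hΦ hd h0 (F₀ ^ (q - 1)) (F₁ ^ (q - 1)) Fm
  refine ⟨Y, sub_eq_zero.1 (t.br_injective hΦ hd h0 ?_ ?_ ?_)⟩
  · rw [map_sub, map_pow, map_pow, h1, ← hF₀, ← pow_mul, ← pow_mul, mul_comm, sub_self]
  · rw [map_sub, map_pow, map_pow, h2, ← hF₁, ← pow_mul, ← pow_mul, mul_comm, sub_self]
  · rw [map_sub, map_pow, map_pow, h3, hFm, sub_self]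

end IsGauss

end FLTA.Carayol
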