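import Fermat.Agent.Carayol.LineCover
import Fermat.Agent.Carayol.Haupt.ModEq

/-!
# Local points of the line: common definitions

`K = Frac W[[r]]` with a parametrisation `β : W[T] → K`, and `L` is the fraction field of the
completion of `W[[r]]` at `q`. A local root is an `n`-th root in the pair algebra over `K`.
-/

set_option autoImplicit false

noncomputable section

open Polynomial

namespace FLTA.Carayol

variable {W : Type} [CommRing W] [IsDomain W] [IsNoetherianRing W]

/-- The modular equation with coefficients in a `W[T]`-algebra. -/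
abbrev phiAt {K : Type*} [CommRing K] (Φ : ℤ[X][X]) (β : W[X] →+* K) : K[X] :=
  Φ.map (β.comp (mapRingHom (Int.castRingHom W)))

/-- All valuations trivial on the constants are divisible by `n` at `y`. -/
def HorizAt {K : Type} [Field K] (ι : W →+* K) {Ψ : K[X]} (n : ℕ) (y : Pairs Ψ) : Prop :=
  ∀ (F : Type) [Field F] (ψ : Pairs Ψ →+* F)
    (v : Valuation F (WithZero (Multiplicative ℤ))),
    (∀ w : W, w ≠ 0 → v (ψ (Pairs.ofBase Ψ (ι w))) = 1) → ∃ z, v (ψ y) = z ^ n

/-- The completion of `W[[r]]` at `q`, with fractions. -/
def toHatFrac (q : ℕ) [Fact (Prime (PowerSeries.C (q : W) : PowerSeries W))] :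
    FractionRing (PowerSeries W) →+*
      FractionRing (HatAt (PowerSeries.C (q : W) : PowerSeries W)) :=
  IsLocalization.map (T := nonZeroDivisors (HatAt (PowerSeries.C (q : W) : PowerSeries W))) _
    (toHat (PowerSeries.C (q : W) : PowerSeries W))
    (nonZeroDivisors_le_comap_nonZeroDivisors_of_injective _ (toHat_injective _))

/-- What is proved at each point: the one-root algebra is a domain or has a rational root, and
`y` has an `n`-th root. -/
def LocalRoot {K : Type} [Field K] (Ψ : K[X]) (n : ℕ) (y : Pairs Ψ) : Prop :=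
  (IsDomain (AdjoinRoot Ψ) ∨ ∃ x : K, Ψ.eval x = 0) ∧ ∃ G, G ^ n = y

end FLTA.Carayol
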