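import Mathlib.RingTheory.Ideal.UFD
import Mathlib.RingTheory.DiscreteValuationRing.Basic
import Mathlib.RingTheory.AdjoinRoot
import Mathlib.RingTheory.Filtration
import Mathlib.RingTheory.Finiteness.Basic
import Mathlib.LinearAlgebra.FreeModule.Basic

/-!
# Two-dimensional regular local rings, by hand

`FLTA.Carayol.IsReg2 R`: a Noetherian local domain whose maximal ideal is generated by
two elements and is not of height `≤ 1`.  Such a ring is a UFD, and the property is
inherited by Eisenstein-type monogenic extensions `R[X]/(φ)`.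
-/

set_option autoImplicit false

open IsLocalRing Ideal

namespace FLTA.Carayol

/-- A two-dimensional regular local domain. -/
structure IsReg2 (R : Type*) [CommRing R] [IsLocalRing R] : Prop where
  isDomain : IsDomain R
  isNoetherian : IsNoetherianRing R
  gen : ∃ a b : R, maximalIdeal R = span {a, b}
  chain : ∃ p : Ideal R, p.IsPrime ∧ p ≠ ⊥ ∧ p ≠ maximalIdeal R

namespace IsReg2

variable {R : Type*} [CommRing R] [IsLocalRing R]

theorem maximalIdeal_not_mem_minimalPrimes (h : IsReg2 R) (c : R) :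
    maximalIdeal R ∉ (span {c}).minimalPrimes := by
  have := h.isDomain
  have := h.isNoetherian
  intro hmin
  obtain ⟨p, hp, hp0, hpm⟩ := h.chain
  have h1 := Ideal.height_le_one_of_isPrincipal_of_mem_minimalPrimes (span {c}) _ hmin
  have hlt : p < maximalIdeal R := lt_of_le_of_ne (le_maximalIdeal hp.ne_top) hpm
  have := hp
  have h2 : p.height < (maximalIdeal R).height :=
    Ideal.height_strict_mono_of_isPrime_of_isPrime hlt
  exact hp0 (Ideal.height_eq_zero_iff_eq_bot.1 (Order.lt_one_iff.1 (lt_of_lt_of_le h2 h1)))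

theorem pow_not_mem_span (h : IsReg2 R) {c d : R} (hcd : maximalIdeal R = span {c, d}) (n : ℕ) :
    d ^ n ∉ span ({c} : Set R) := by
  have := h.isDomain
  intro hn
  have hc : c ∈ maximalIdeal R := hcd ▸ subset_span (by simp)
  refine h.maximalIdeal_not_mem_minimalPrimes c ⟨⟨inferInstance, ?_⟩, ?_⟩
  · rwa [span_singleton_le_iff_mem]
  · rintro q ⟨hq, hle⟩ -
    rw [hcd, span_le, Set.insert_subset_iff, Set.singleton_subset_iff]
    exact ⟨hle (mem_span_singleton_self c), hq.mem_of_pow_mem n (hle hn)⟩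

/-- An element outside `m²` is part of a two-element generating set. -/
theorem exists_gen_of_not_mem_sq (h : IsReg2 R) {c : R} (hc : c ∈ maximalIdeal R)
    (hc2 : c ∉ maximalIdeal R ^ 2) : ∃ d : R, maximalIdeal R = span {c, d} := by
  obtain ⟨a, b, hab⟩ := h.gen
  have hc' := hc
  rw [hab, mem_span_pair] at hc'
  obtain ⟨u, v, huv⟩ := hc'
  by_cases hu : IsUnit u
  · refine ⟨b, le_antisymm ?_ ?_⟩
    · rw [hab, span_le, Set.insert_subset_iff, Set.singleton_subset_iff]
      refine ⟨?_, subset_span (by simp)⟩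
      obtain ⟨u, rfl⟩ := hu
      rw [SetLike.mem_coe, mem_span_pair]
      refine ⟨(↑u⁻¹ : R), -(↑u⁻¹ : R) * v, ?_⟩
      rw [← huv]
      calc _ = (↑u⁻¹ * ↑u : R) * a := by ring
        _ = a := by rw [Units.inv_mul, one_mul]
    · rw [span_le, Set.insert_subset_iff, Set.singleton_subset_iff]
      exact ⟨hc, hab ▸ subset_span (by simp)⟩
  · have hv : IsUnit v := by
      by_contra hv
      refine hc2 ?_
      rw [← huv, pow_two]
      refine add_mem (Ideal.mul_mem_mul ?_ ?_) (Ideal.mul_mem_mul ?_ ?_)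
      · exact (mem_maximalIdeal _).2 hu
      · exact hab ▸ subset_span (by simp)
      · exact (mem_maximalIdeal _).2 hv
      · exact hab ▸ subset_span (by simp)
    refine ⟨a, le_antisymm ?_ ?_⟩
    · rw [hab, span_le, Set.insert_subset_iff, Set.singleton_subset_iff]
      refine ⟨subset_span (by simp), ?_⟩
      obtain ⟨v, rfl⟩ := hv
      rw [SetLike.mem_coe, mem_span_pair]
      refine ⟨(↑v⁻¹ : R), -(↑v⁻¹ : R) * u, ?_⟩
      rw [← huv]
      calc _ = (↑v⁻¹ * ↑v : R) * b := by ring
        _ = b := by rw [Units.inv_mul, one_mul]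
    · rw [span_le, Set.insert_subset_iff, Set.singleton_subset_iff]
      exact ⟨hc, hab ▸ subset_span (by simp)⟩

/-- `R/(c)` is a discrete valuation ring, expressed elementwise. -/
theorem exists_eq_unit_mul_pow (h : IsReg2 R) {c d : R} (hcd : maximalIdeal R = span {c, d})
    {x : R} (hx : x ∉ span ({c} : Set R)) :
    ∃ (n : ℕ) (u : R), IsUnit u ∧ x - u * d ^ n ∈ span ({c} : Set R) := by
  have := h.isDomain
  have := h.isNoetherian
  have hne : span ({c} : Set R) ≠ ⊤ :=
    ne_top_of_le_ne_top (maximalIdeal.isMaximal R).ne_top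
      ((span_singleton_le_iff_mem _).2 (hcd ▸ subset_span (by simp)))
  -- some power of `d` does not divide `x` modulo `c`
  have hex : ∃ n, x ∉ span {c, d ^ n} := by
    by_contra! hall
    refine hx ?_
    have : Nontrivial (R ⧸ span ({c} : Set R)) := Ideal.Quotient.nontrivial_iff.mpr hne
    have : IsLocalRing (R ⧸ span ({c} : Set R)) :=
      .of_surjective' (Ideal.Quotient.mk _) Ideal.Quotient.mk_surjective
    have key : ∀ n, Ideal.Quotient.mk (span ({c} : Set R)) x ∈
        (span {Ideal.Quotient.mk (span ({c} : Set R)) d}) ^ n := by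
      intro n
      obtain ⟨u, v, huv⟩ := mem_span_pair.1 (hall n)
      have hc0 : Ideal.Quotient.mk (span ({c} : Set R)) c = 0 :=
        Ideal.Quotient.eq_zero_iff_mem.2 (mem_span_singleton_self c)
      rw [span_singleton_pow, mem_span_singleton, ← huv, map_add, map_mul, map_mul, map_pow, hc0,
        mul_zero, zero_add]
      exact dvd_mul_left _ _
    have hdne : span {Ideal.Quotient.mk (span ({c} : Set R)) d} ≠ ⊤ := by
      rw [Ne, span_singleton_eq_top]
      intro hu
      obtain ⟨e, he⟩ := hu.exists_left_inv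
      obtain ⟨e, rfl⟩ := Ideal.Quotient.mk_surjective e
      rw [← map_mul, ← map_one (Ideal.Quotient.mk (span ({c} : Set R))),
        Ideal.Quotient.mk_eq_mk_iff_sub_mem] at he
      have hd : d ∈ maximalIdeal R := hcd ▸ subset_span (by simp)
      have hc : span ({c} : Set R) ≤ maximalIdeal R :=
        (span_singleton_le_iff_mem _).2 (hcd ▸ subset_span (by simp))
      have h1 : (1 : R) ∈ maximalIdeal R := by
        have := sub_mem (Ideal.mul_mem_left _ e hd) (hc he)
        rwa [sub_sub_cancel] at this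
      exact (maximalIdeal.isMaximal R).ne_top ((Ideal.eq_top_iff_one _).2 h1)
    have := Ideal.iInf_pow_eq_bot_of_isLocalRing _ hdne
    exact Ideal.Quotient.eq_zero_iff_mem.1
      ((Submodule.mem_bot _).1 (this ▸ Submodule.mem_iInf _ |>.2 key))
  classical
  obtain ⟨n, hn, hmin⟩ : ∃ n, x ∉ span {c, d ^ n} ∧ ∀ k < n, x ∈ span {c, d ^ k} :=
    ⟨Nat.find hex, Nat.find_spec hex, fun k hk => not_not.1 (Nat.find_min hex hk)⟩
  match n with
  | 0 => exact absurd (mem_span_pair.2 ⟨0, x, by simp⟩) hn
  | k + 1 =>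
    obtain ⟨u, v, huv⟩ := mem_span_pair.1 (hmin k (Nat.lt_succ_self k))
    refine ⟨k, v, ?_, mem_span_singleton'.2 ⟨u, by rw [← huv]; ring⟩⟩
    by_contra hv
    have hv' : v ∈ maximalIdeal R := (mem_maximalIdeal _).2 hv
    rw [hcd] at hv'
    obtain ⟨s, t, hst⟩ := mem_span_pair.1 hv'
    refine hn (mem_span_pair.2 ⟨u + s * d ^ k, t, ?_⟩)
    rw [← huv, ← hst]; ring

/-- Members of a two-element generating set of the maximal ideal generate prime ideals. -/
theorem isPrime_span_of_gen (h : IsReg2 R) {c d : R} (hcd : maximalIdeal R = span {c, d}) :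
    (span ({c} : Set R)).IsPrime := by
  constructor
  · exact ne_top_of_le_ne_top (maximalIdeal.isMaximal R).ne_top
      ((span_singleton_le_iff_mem _).2 (hcd ▸ subset_span (by simp)))
  intro x y hxy
  by_contra hcon
  rw [not_or] at hcon
  obtain ⟨n, u, hu, hxu⟩ := h.exists_eq_unit_mul_pow hcd hcon.1
  obtain ⟨m, v, hv, hyv⟩ := h.exists_eq_unit_mul_pow hcd hcon.2
  have : (u * v) * d ^ (n + m) ∈ span ({c} : Set R) := by
    have e : (u * v) * d ^ (n + m) =
        x * y - (x - u * d ^ n) * y - u * d ^ n * (y - v * d ^ m) := by ring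
    rw [e]
    exact sub_mem (sub_mem hxy (Ideal.mul_mem_right _ _ hxu)) (Ideal.mul_mem_left _ _ hyv)
  exact h.pow_not_mem_span hcd _ ((Ideal.unit_mul_mem_iff_mem _ (hu.mul hv)).1 this)

/-- A height-one prime of a two-dimensional regular local ring is principal. -/
theorem isPrincipal_of_height_eq_one (h : IsReg2 R) (P : Ideal R) [P.IsPrime]
    (hP : P.height = 1) : P.IsPrincipal := by
  have := h.isDomain
  have := h.isNoetherian
  obtain ⟨a, b, hab⟩ := h.gen
  have hPm : P ≠ maximalIdeal R := by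
    intro hPm
    obtain ⟨p, hp, hp0, hpm⟩ := h.chain
    have := hp
    have hlt : p < maximalIdeal R := lt_of_le_of_ne (le_maximalIdeal hp.ne_top) hpm
    have h2 : p.height < P.height :=
      hPm ▸ Ideal.height_strict_mono_of_isPrime_of_isPrime hlt
    rw [hP, Order.lt_one_iff, Ideal.height_eq_zero_iff_eq_bot] at h2
    exact hp0 h2
  -- a member `x` of a generating pair outside `P`
  obtain ⟨x, y, hxy, hxP⟩ : ∃ x y : R, maximalIdeal R = span {x, y} ∧ x ∉ P := by
    by_cases ha : a ∈ P
    · refine ⟨b, a, by rw [hab, Set.pair_comm], fun hb => hPm ?_⟩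
      refine le_antisymm (le_maximalIdeal (Ideal.IsPrime.ne_top inferInstance)) ?_
      rw [hab, span_le, Set.insert_subset_iff, Set.singleton_subset_iff]
      exact ⟨ha, hb⟩
    · exact ⟨a, b, hab, ha⟩
  have hnle : ¬ P ≤ span {x} := by
    intro hle
    -- then `P = xP`, hence `P = ⊥`
    have hPx : P ≤ span {x} * P := by
      intro z hz
      obtain ⟨w, rfl⟩ := mem_span_singleton.1 (hle hz)
      exact Ideal.mul_mem_mul (mem_span_singleton_self x)
        ((Ideal.IsPrime.mem_or_mem inferInstance hz).resolve_left hxP)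
    have hbot : P = ⊥ := Submodule.eq_bot_of_le_smul_of_le_jacobson_bot (span {x}) P
      (IsNoetherian.noetherian P) hPx
      (((span_singleton_le_iff_mem _).2 (hxy ▸ subset_span (by simp) : x ∈ maximalIdeal R)).trans
        (maximalIdeal_le_jacobson _))
    have h0 : P.height = 0 := Ideal.height_eq_zero_iff_eq_bot.2 hbot
    exact absurd (hP ▸ h0) one_ne_zero
  classical
  have hex : ∃ n, ∃ z ∈ P, ∃ u, IsUnit u ∧ z - u * y ^ n ∈ span ({x} : Set R) := by
    obtain ⟨z, hz, hzx⟩ := SetLike.not_le_iff_exists.1 hnle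
    obtain ⟨n, u, hu, hzu⟩ := h.exists_eq_unit_mul_pow hxy hzx
    exact ⟨n, z, hz, u, hu, hzu⟩
  obtain ⟨z, hz, u, hu, hzu⟩ := Nat.find_spec hex
  refine ⟨z, le_antisymm ?_ ((span_singleton_le_iff_mem _).2 hz)⟩
  refine Submodule.le_of_le_smul_of_le_jacobson_bot (I := span {x}) (IsNoetherian.noetherian P)
      (((span_singleton_le_iff_mem _).2 (hxy ▸ subset_span (by simp) : x ∈ maximalIdeal R)).trans
        (maximalIdeal_le_jacobson _)) ?_
  intro w hw
  rw [Submodule.mem_sup]
  obtain ⟨t, ht⟩ : ∃ t, w - t * z ∈ span ({x} : Set R) := by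
    by_cases hwx : w ∈ span ({x} : Set R)
    · exact ⟨0, by simpa using hwx⟩
    obtain ⟨m, v, hv, hwv⟩ := h.exists_eq_unit_mul_pow hxy hwx
    have hle : Nat.find hex ≤ m := Nat.find_min' hex ⟨w, hw, v, hv, hwv⟩
    obtain ⟨k, rfl⟩ := Nat.exists_eq_add_of_le hle
    obtain ⟨u, rfl⟩ := hu
    refine ⟨v * y ^ k * ↑u⁻¹, ?_⟩
    have e : w - v * y ^ k * ↑u⁻¹ * z = (w - v * y ^ (Nat.find hex + k))
        - v * y ^ k * ↑u⁻¹ * (z - ↑u * y ^ Nat.find hex) := by
      have hu1 : (↑u⁻¹ : R) * ↑u = 1 := Units.inv_mul u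
      linear_combination (-(v * y ^ k * y ^ Nat.find hex)) * hu1
    rw [e]
    exact sub_mem hwv (Ideal.mul_mem_left _ _ hzu)
  obtain ⟨s, hs⟩ := mem_span_singleton'.1 ht
  refine ⟨t * z, mem_span_singleton'.2 ⟨t, rfl⟩, w - t * z, ?_, by ring⟩
  rw [← hs, mul_comm]
  refine Submodule.smul_mem_smul (mem_span_singleton_self x) ?_
  have : s * x ∈ P := hs ▸ sub_mem hw (Ideal.mul_mem_left _ _ hz)
  exact (Ideal.IsPrime.mem_or_mem inferInstance this).resolve_right hxP

theorem uniqueFactorizationMonoid [IsDomain R] (h : IsReg2 R) : UniqueFactorizationMonoid R :=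
  have := h.isNoetherian
  UniqueFactorizationMonoid.of_forall_isPrincipal_of_height_eq_one
    fun P _ hP => h.isPrincipal_of_height_eq_one P hP

end IsReg2

end FLTA.Carayol
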