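import Fermat.Agent.RT.Local.Series
import Fermat.Agent.Carayol.Regular
import Fermat.Agent.Carayol.PointsDefs
import Mathlib.RingTheory.RootsOfUnity.PrimitiveRoots
import Mathlib.RingTheory.Henselian
import Mathlib.FieldTheory.IsAlgClosed.Basic
import Mathlib.RingTheory.PowerSeries.NoZeroDivisors
import Mathlib.RingTheory.PowerSeries.Ideal
import Mathlib.RingTheory.PowerSeries.Inverse

/-!
# The local ring `W[[r]]`

`W` is a complete discrete valuation ring with algebraically closed residue field and
uniformiser `q`.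
-/

set_option autoImplicit false

noncomputable section

open Polynomial IsLocalRing

namespace FLTA.Carayol

variable {W : Type} [CommRing W] [IsDomain W] [IsDiscreteValuationRing W]

/-- Completeness of `W[[r]]`. -/
theorem isAdicComplete_powerSeries_of_dvr [IsAdicComplete (maximalIdeal W) W] :
    IsAdicComplete (maximalIdeal (PowerSeries W)) (PowerSeries W) :=
  FLTA.RT.Local.isAdicComplete_series (σ := Unit) (O := W)

variable {q : ℕ} (hW : maximalIdeal W = Ideal.span {(q : W)})

include hW

theorem natCast_ne_zero_of_maximal : (q : W) ≠ 0 := fun h => by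
  rw [h, Ideal.span_singleton_eq_bot.2 rfl] at hW
  exact IsDiscreteValuationRing.not_a_field W hW

theorem mem_maximalIdeal_powerSeries {f : PowerSeries W} :
    f ∈ maximalIdeal (PowerSeries W) ↔ (q : W) ∣ PowerSeries.constantCoeff f := by
  rw [mem_maximalIdeal, mem_nonunits_iff, PowerSeries.isUnit_iff_constantCoeff, ← mem_nonunits_iff,
    ← mem_maximalIdeal, hW, Ideal.mem_span_singleton]

theorem maximalIdeal_powerSeries_eq :
    maximalIdeal (PowerSeries W) = Ideal.span {(q : PowerSeries W), PowerSeries.X} := by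
  ext f
  rw [mem_maximalIdeal_powerSeries hW, Ideal.mem_span_pair]
  constructor
  · rintro ⟨c, hc⟩
    obtain ⟨g, hg⟩ : PowerSeries.X ∣ f - (q : PowerSeries W) * PowerSeries.C c := by
      rw [PowerSeries.X_dvd_iff]
      simp [hc]
    exact ⟨PowerSeries.C c, g, by linear_combination -hg⟩
  · rintro ⟨a, b, rfl⟩
    simp

/-- `W[[r]]` is regular of dimension two. -/
theorem isReg2_powerSeries : IsReg2 (PowerSeries W) := by
  refine ⟨inferInstance, inferInstance, ⟨_, _, maximalIdeal_powerSeries_eq hW⟩,
    Ideal.span {PowerSeries.X}, PowerSeries.span_X_isPrime, ?_, fun h => ?_⟩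
  · rw [Ne, Ideal.span_singleton_eq_bot]
    exact PowerSeries.X_ne_zero
  · have hq : (q : PowerSeries W) ∈ Ideal.span ({PowerSeries.X} : Set (PowerSeries W)) := by
      rw [h, maximalIdeal_powerSeries_eq hW]
      exact Ideal.subset_span (by simp)
    rw [Ideal.mem_span_singleton, PowerSeries.X_dvd_iff, map_natCast] at hq
    exact natCast_ne_zero_of_maximal hW hq

theorem natCast_mem_maximalIdeal_powerSeries :
    (q : PowerSeries W) ∈ maximalIdeal (PowerSeries W) := by
  rw [maximalIdeal_powerSeries_eq hW]; exact Ideal.subset_span (by simp)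

theorem prime_natCast_powerSeries : Prime (q : PowerSeries W) := by
  refine (Ideal.span_singleton_prime ?_).1
    ((isReg2_powerSeries hW).isPrime_span_of_gen (maximalIdeal_powerSeries_eq hW))
  intro h
  exact natCast_ne_zero_of_maximal hW (by simpa using congrArg PowerSeries.constantCoeff h)

theorem isUnit_natCast_of_coprime {n : ℕ} (hnq : n.Coprime q) :
    IsUnit (n : W) := by
  rw [← notMem_maximalIdeal]
  intro hn
  rw [hW, Ideal.mem_span_singleton] at hn
  have h1 : (q : W) ∣ ((n : ℤ) * Nat.gcdA n q + (q : ℤ) * Nat.gcdB n q : ℤ) := by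
    push_cast
    exact dvd_add (hn.mul_right _) (dvd_mul_right _ _)
  rw [← Nat.gcd_eq_gcd_ab, hnq.gcd_eq_one] at h1
  exact (mem_maximalIdeal _).1 (hW ▸ Ideal.mem_span_singleton_self _)
    (isUnit_of_dvd_one (by simpa using h1))

omit hW in
/-- Residue classes of `W[[r]]` are `n`-th powers. -/
theorem exists_pow_eq_residue_powerSeries [IsAlgClosed (ResidueField W)] {n : ℕ} (hn : 0 < n)
    (c : ResidueField (PowerSeries W)) : ∃ d, d ^ n = c := by
  obtain ⟨f, rfl⟩ := residue_surjective c
  obtain ⟨a, ha⟩ :=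
    IsAlgClosed.exists_pow_nat_eq (residue W (PowerSeries.constantCoeff f)) hn
  obtain ⟨a, rfl⟩ := residue_surjective a
  refine ⟨residue _ (PowerSeries.C a), ?_⟩
  rw [← map_pow, ← sub_eq_zero, ← map_sub, residue_eq_zero_iff, mem_maximalIdeal, mem_nonunits_iff,
    PowerSeries.isUnit_iff_constantCoeff, ← mem_nonunits_iff, ← mem_maximalIdeal,
    ← residue_eq_zero_iff]
  simp [ha]

omit hW in
/-- Primitive roots of unity of order prime to `q`. -/
theorem exists_isPrimitiveRoot_of_isUnit [IsAdicComplete (maximalIdeal W) W]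
    [IsAlgClosed (ResidueField W)] {n : ℕ} (hn : IsUnit (n : W)) :
    ∃ ζ : W, IsPrimitiveRoot ζ n := by
  have hn0 : n ≠ 0 := by
    rintro rfl
    exact not_isUnit_zero (Nat.cast_zero (R := W) ▸ hn)
  have hnk : (n : ResidueField W) ≠ 0 := by
    simpa using (hn.map (residue W)).ne_zero
  have : NeZero (n : ResidueField W) := ⟨hnk⟩
  obtain ⟨c, hc⟩ : ∃ c : ResidueField W, IsPrimitiveRoot c n :=
    HasEnoughRootsOfUnity.exists_primitiveRoot _ n
  obtain ⟨a, rfl⟩ := residue_surjective c
  have : HenselianLocalRing W := ⟨fun f hf a₀ h₁ h₂ =>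
    HenselianRing.is_henselian (I := maximalIdeal W) f hf a₀ h₁ (h₂.map _)⟩
  obtain ⟨z, hz, hza⟩ := HenselianLocalRing.is_henselian (X ^ n - 1 : W[X])
    (monic_X_pow_sub_C 1 hn0) a
    (by rw [← residue_eq_zero_iff]; simp [hc.pow_eq_one])
    (by
      rw [← notMem_maximalIdeal, ← residue_eq_zero_iff]
      simp [derivative_X_pow, hnk, hc.ne_zero hn0])
  have hres : residue W z = residue W a := by
    rw [← sub_eq_zero, ← map_sub, residue_eq_zero_iff]; exact hza
  refine ⟨z, ⟨by simpa [sub_eq_zero] using hz, fun l hl => hc.dvd_of_pow_eq_one l ?_⟩⟩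
  rw [← hres, ← map_pow, hl, map_one]

/-- Valuations trivial on constants, in the form used by the point lemmas. -/
theorem horiz_of_horizAt {K : Type} [Field K] {Ψ : K[X]} (α : PowerSeries W →+* K) {n : ℕ}
    {y : Pairs Ψ} (h : HorizAt (α.comp PowerSeries.C) n y) (F : Type) [Field F]
    (ψ : Pairs Ψ →+* F) (v : Valuation F (WithZero (Multiplicative ℤ)))
    (hu : ∀ f : PowerSeries W, IsUnit f → v (ψ (Pairs.ofBase Ψ (α f))) = 1)
    (hq : v (ψ (Pairs.ofBase Ψ (α (q : PowerSeries W)))) = 1) : ∃ z, v (ψ y) = z ^ n := by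
  refine h F ψ v fun w hw => ?_
  have hirr : Irreducible (q : W) :=
    (IsDiscreteValuationRing.irreducible_iff_uniformizer _).2 hW
  obtain ⟨k, u, rfl⟩ := IsDiscreteValuationRing.eq_unit_mul_pow_irreducible hw hirr
  rw [RingHom.comp_apply, map_mul, map_pow, map_natCast]
  simp only [map_mul, map_pow]
  rw [hu _ (u.isUnit.map _), hq, one_pow, one_mul]

end FLTA.Carayol
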