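import Fermat.Agent.Carayol.Regular
import Fermat.Agent.Carayol.PowerSeriesLocal
import Mathlib.RingTheory.PowerSeries.Inverse
import Mathlib.RingTheory.PowerSeries.NoZeroDivisors
import Mathlib.RingTheory.PowerSeries.Ideal
import Mathlib.RingTheory.RootsOfUnity.PrimitiveRoots
import Mathlib.FieldTheory.IsAlgClosed.Basic
import Mathlib.RingTheory.RootsOfUnity.EnoughRootsOfUnity
import Mathlib.RingTheory.Henselian

/-!
# The ring of series over a complete discrete valuation ring with parameter `q`

`W[[r]]` is a complete regular local ring of dimension two with maximal ideal `(q, r)`; its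
residue field is that of `W`.
-/

set_option autoImplicit false

noncomputable section

open IsLocalRing Ideal PowerSeries

namespace FLTA.Carayol

variable {W : Type} [CommRing W] [IsDomain W] [IsDiscreteValuationRing W] {ϖ : W}

theorem mem_maximalIdeal_series_iff (z : PowerSeries W) :
    z ∈ maximalIdeal (PowerSeries W) ↔ constantCoeff z ∈ maximalIdeal W := by
  simp [mem_maximalIdeal, mem_nonunits_iff, PowerSeries.isUnit_iff_constantCoeff]

theorem maximalIdeal_series (hW : maximalIdeal W = span {ϖ}) :
    maximalIdeal (PowerSeries W) = span {C ϖ, X} := by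
  refine le_antisymm (fun z hz => ?_) ?_
  · rw [mem_maximalIdeal_series_iff, hW, mem_span_singleton'] at hz
    obtain ⟨a, ha⟩ := hz
    rw [mem_span_pair]
    refine ⟨C a, mk fun p => coeff (p + 1) z, ?_⟩
    conv_rhs => rw [eq_shift_mul_X_add_const z]
    rw [← ha, map_mul]
    ring
  · rw [span_le, Set.insert_subset_iff, Set.singleton_subset_iff]
    constructor <;> rw [SetLike.mem_coe, mem_maximalIdeal_series_iff]
    · rw [constantCoeff_C, hW]; exact mem_span_singleton_self _
    · rw [constantCoeff_X]; exact zero_mem _

/-- An element with constant term divisible by `ϖ` and unit linear term is a second parameter. -/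
theorem maximalIdeal_series_eq_span (hW : maximalIdeal W = span {ϖ}) {z : PowerSeries W}
    (h0 : constantCoeff z ∈ maximalIdeal W) (h1 : IsUnit (coeff 1 z)) :
    maximalIdeal (PowerSeries W) = span {C ϖ, z} := by
  obtain ⟨a, ha⟩ := mem_span_singleton'.1 (hW ▸ h0)
  set s : PowerSeries W := mk fun p => coeff (p + 1) z
  have hs : IsUnit s := by
    rw [isUnit_iff_constantCoeff, ← coeff_zero_eq_constantCoeff_apply, coeff_mk]
    simpa using h1
  have hz : z = s * X + C a * C ϖ := by
    rw [← map_mul, ha]; exact eq_shift_mul_X_add_const z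
  refine le_antisymm ?_ ?_
  · rw [maximalIdeal_series hW, span_le, Set.insert_subset_iff, Set.singleton_subset_iff]
    refine ⟨subset_span (by simp), ?_⟩
    rw [SetLike.mem_coe, mem_span_pair]
    obtain ⟨t, ht⟩ := hs.exists_left_inv
    exact ⟨-(t * C a), t, by rw [hz]; linear_combination X * ht⟩
  · rw [span_le, Set.insert_subset_iff, Set.singleton_subset_iff]
    refine ⟨(mem_maximalIdeal_series_iff _).2 ?_, (mem_maximalIdeal_series_iff _).2 h0⟩
    rw [constantCoeff_C, hW]
    exact mem_span_singleton_self _

theorem isReg2_series (hW : maximalIdeal W = span {ϖ}) : IsReg2 (PowerSeries W) := by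
  refine ⟨inferInstance, inferInstance, ⟨_, _, maximalIdeal_series hW⟩, span {X}, ?_, ?_, ?_⟩
  · exact (span_singleton_prime PowerSeries.X_ne_zero).2 PowerSeries.X_prime
  · simp [PowerSeries.X_ne_zero]
  · intro h
    have hϖ : ϖ ≠ 0 := by
      rintro rfl
      exact IsDiscreteValuationRing.not_a_field W (by rw [hW, span_singleton_eq_bot])
    have hmem : C ϖ ∈ span ({X} : Set (PowerSeries W)) := by
      rw [h, maximalIdeal_series hW]; exact subset_span (by simp)
    rw [mem_span_singleton, X_dvd_iff, constantCoeff_C] at hmem
    exact hϖ hmem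

theorem isAdicComplete_series [IsAdicComplete (maximalIdeal W) W] :
    IsAdicComplete (maximalIdeal (PowerSeries W)) (PowerSeries W) :=
  isAdicComplete_powerSeries_of_dvr

theorem residue_C_surjective :
    Function.Surjective fun w : W => residue (PowerSeries W) (C w) := by
  intro c
  obtain ⟨z, rfl⟩ := residue_surjective c
  refine ⟨constantCoeff z, ?_⟩
  show residue _ _ = residue _ _
  rw [← sub_eq_zero, ← map_sub, residue_eq_zero_iff, mem_maximalIdeal_series_iff]
  simp

theorem exists_pow_eq_residue_series [IsAlgClosed (ResidueField W)] {n : ℕ} (hn : 0 < n)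
    (c : ResidueField (PowerSeries W)) : ∃ d, d ^ n = c :=
  exists_pow_eq_residue_powerSeries hn c

/-- Roots of unity of order prime to the residue characteristic. -/
theorem exists_isPrimitiveRoot [IsAdicComplete (maximalIdeal W) W]
    [IsAlgClosed (ResidueField W)] {n : ℕ} (hn : IsUnit (n : W)) :
    ∃ ζ : W, IsPrimitiveRoot ζ n :=
  exists_isPrimitiveRoot_of_isUnit hn

end FLTA.Carayol
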