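import Fermat.Agent.Carayol.LineCover
import Fermat.Agent.Carayol.SeriesRing
import Fermat.Agent.Carayol.GaussRoot
import Fermat.Agent.Carayol.Haupt.ModEq

/-!
# Points over every residue class, and the modular equation over the function field of the line
-/

set_option autoImplicit false

noncomputable section

open Polynomial IsLocalRing

namespace FLTA.Carayol

variable {W : Type} [CommRing W] [IsDomain W] [IsDiscreteValuationRing W]
  [IsAdicComplete (maximalIdeal W) W]

/-- Every residue class contains a point off the cusps or a cusp. -/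
theorem exists_lift_cuspPoly {q L : ℕ} [Fact q.Prime] (hW : maximalIdeal W = Ideal.span {(q : W)})
    (hL : Haupt.IsHauptLevel L) (hqL : ¬ q ∣ L) (c : ResidueField W) :
    ∃ t₀ : W, residue W t₀ = c ∧
      (IsUnit (((Haupt.cuspPoly L).map (Int.castRingHom W)).eval t₀) ∨
        ((Haupt.cuspPoly L).map (Int.castRingHom W)).eval t₀ = 0) := by
  have hq : q.Prime := Fact.out
  obtain ⟨t₁, rfl⟩ := residue_surjective c
  set P := (Haupt.cuspPoly L).map (Int.castRingHom W) with hP
  by_cases hu : IsUnit (P.eval t₁)
  · exact ⟨t₁, rfl, Or.inl hu⟩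
  have hm : P.eval t₁ ∈ maximalIdeal W := hu
  have : HenselianLocalRing W := henselianLocalRing_of_isAdicComplete
  have hder : IsUnit (P.derivative.eval t₁) := by
    rw [← notMem_maximalIdeal]
    intro hd
    have h0 : residue W (P.eval t₁) = 0 := (residue_eq_zero_iff _).2 hm
    have h1 : residue W (P.derivative.eval t₁) = 0 := (residue_eq_zero_iff _).2 hd
    have hne : ∀ p k : ℕ, p.Prime → ¬ q ∣ p → ((p ^ k : ℕ) : ResidueField W) ≠ 0 := by
      intro p k hp hqp h
      rw [← map_natCast (residue W), residue_eq_zero_iff] at h
      exact h (isUnit_natCast_of_coprime hW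
        (Nat.Coprime.pow_left k (hq.coprime_iff_not_dvd.2 hqp).symm))
    rcases hL with rfl | rfl
    · simp [hP, Haupt.cuspPoly, map_ofNat] at h0 h1
      refine hne 2 8 Nat.prime_two (fun h => hqL (h.trans (by norm_num))) ?_
      push_cast
      linear_combination (2 * residue W t₁ + 16) * h1 - 4 * h0
    · simp [hP, Haupt.cuspPoly, map_ofNat] at h0 h1
      refine (?_ : False).elim
      have h3 := fun k => hne 3 k Nat.prime_three (fun h => hqL (h.trans (by norm_num)))
      set t := residue W t₁
      have hf : t * (t ^ 2 + 9 * t + 27) = 0 := by linear_combination h0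
      rcases mul_eq_zero.1 hf with ht | ht
      · apply h3 3
        push_cast
        linear_combination h1 - (3 * t + 18) * ht
      · have h2 : t * (2 * t + 9) = 0 := by linear_combination h1 - ht
        rcases mul_eq_zero.1 h2 with ht' | ht'
        · apply h3 3
          push_cast
          linear_combination ht - (t + 9) * ht'
        · apply h3 3
          push_cast
          linear_combination 4 * ht - (2 * t + 9) * ht'
  obtain ⟨a, ha, hsub⟩ := HenselianLocalRing.is_henselian P
    ((Haupt.monic_cuspPoly L).map _) t₁ hm hder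
  refine ⟨a, ?_, Or.inr ha⟩
  rw [← sub_eq_zero, ← map_sub, residue_eq_zero_iff]
  exact hsub

omit [IsAdicComplete (maximalIdeal W) W] in
/-- The modular equation is separable over the field of rational functions. -/
theorem separable_phi_fractionRing [CharZero W] {q L : ℕ} [Fact q.Prime] [NeZero L]
    (hL : Haupt.IsHauptLevel L) (hqL : ¬ q ∣ L) {Φ : ℤ[X][X]} (hΦ : Haupt.IsModEq q L Φ) :
    ((Φ.map (mapRingHom (Int.castRingHom W))).map
      (algebraMap W[X] (FractionRing W[X]))).Separable := by
  have hinj : Function.Injective
      ((algebraMap W[X] (FractionRing W[X])).comp (mapRingHom (Int.castRingHom W))) :=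
    (IsFractionRing.injective W[X] _).comp (map_injective _ Int.cast_injective)
  have : CharZero (FractionRing W[X]) := charZero_of_injective_ringHom
    (f := (algebraMap W[X] (FractionRing W[X])).comp C)
    ((IsFractionRing.injective W[X] _).comp C_injective)
  have hu : IsUnit (((algebraMap W[X] (FractionRing W[X])).comp
      (mapRingHom (Int.castRingHom W))) (Haupt.cuspPoly L)) :=
    isUnit_iff_ne_zero.2 ((map_ne_zero_iff _ hinj).2 (Haupt.monic_cuspPoly L).ne_zero)
  obtain ⟨H, hH⟩ := hΦ.exists_kronecker hL hqL
  obtain ⟨χ, ρ, -, -, hK, -, -⟩ := hΦ.exists_vPoly hL hqL hH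
  have hc : (IsLocalization.Away.lift (S := Haupt.TRing L) (Haupt.cuspPoly L) hu).comp
      (Haupt.toT L) = (algebraMap W[X] (FractionRing W[X])).comp
        (mapRingHom (Int.castRingHom W)) :=
    IsLocalization.Away.lift_comp (Haupt.cuspPoly L) hu
  have h := (hK _ (IsLocalization.Away.lift (Haupt.cuspPoly L) hu) (by rw [hc]; exact hinj)).1
  rwa [hc, ← Polynomial.map_map] at h

end FLTA.Carayol
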