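import Fermat.Agent.Carayol.GlueCoverRoot

/-!
# Gluing on the cover, for the modular equation
-/

set_option autoImplicit false

noncomputable section

open Polynomial IsLocalRing

namespace FLTA.Carayol

variable {W : Type} [CommRing W] [IsDomain W] [IsDiscreteValuationRing W] [CharZero W]
  [IsAdicComplete (maximalIdeal W) W] [IsAlgClosed (ResidueField W)]

/-- **Gluing on the cover**, for the modular equation. -/
theorem exists_root_of_local_coverPhi {q : ℕ} [Fact (Prime (C (q : W) : W[X]))]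
    [Fact (Prime (PowerSeries.C (q : W) : PowerSeries W))]
    (hW : maximalIdeal W = Ideal.span {(q : W)}) {Φ : ℤ[X][X]} (hΦ : Φ.Monic) {Q : W[X][X]}
    (hQ : Q.Monic)
    (hQd : 0 < Q.natDegree) (hd : 0 < Φ.natDegree)
    (hQs : (Q.map (algebraMap W[X] (FractionRing W[X]))).Separable)
    (hΦs : ((Φ.map (mapRingHom (Int.castRingHom W))).map (algebraMap W[X] (FractionRing W[X]))).Separable)
    {n : ℕ} (hn : n ≠ 0) (g : CoverAlg W Q →+* AdjoinRoot (Q.map (gaussHom W q)))
    (hg : g.comp (coverBase Q) = (AdjoinRoot.of _).comp (gaussHom W q))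
    (hgr : g (AdjoinRoot.root _) = AdjoinRoot.root _)
    (y : Pairs (coverPhi Φ Q)) (Y : Pairs ((coverPhi Φ Q).map g)) (hY : Y ^ n = Pairs.map g rfl y)
    (hpt : ∀ c : ResidueField W, ∃ (t₀ : W) (e : ℕ), residue W t₀ = c ∧ 0 < e ∧
      (∃ ρ : Fin Q.natDegree → FractionRing (PowerSeries W), Function.Injective ρ ∧
        Q.map (pointHom W t₀ e) = ∏ J, (X - C (ρ J))) ∧
      LocalAgree (coverBase Q) g (toHatFrac q) (pointHom W t₀ e) n y Y)
    (hinf : ∃ e : ℕ, 0 < e ∧
      (∃ ρ : Fin Q.natDegree → FractionRing (PowerSeries W), Function.Injective ρ ∧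
        Q.map (infHom W e) = ∏ J, (X - C (ρ J))) ∧
      LocalAgree (coverBase Q) g (toHatFrac q) (infHom W e) n y Y) :
    ∃ Z, Z ^ n = y :=
  exists_root_of_local_cover (KT := FractionRing W[X])
    (LH := FractionRing (HatAt (C (q : W) : W[X])))
    (LQ := FractionRing (HatAt (PowerSeries.C (q : W) : PowerSeries W)))
    (Lu := FractionRing (PowerSeries W))
    ((IsDiscreteValuationRing.irreducible_iff_uniformizer _).2 hW) hQ hQd (hΦ.map _)
    (by rwa [hΦ.natDegree_map]) hQs hΦs (toHatFrac q) (fun f => IsLocalization.map_eq _ f)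
    (by rw [coverPoly, Polynomial.map_map]; rfl) hn g hg hgr y Y hY hpt hinf

end FLTA.Carayol
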