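import Fermat.Agent.Carayol.Pairs
import Mathlib.RingTheory.Norm.Transitivity

/-!
# Making both norms exact powers

If the two norms of `y` are `n`-th powers up to constants, then for a suitable constant `c` both
norms of `c * y ^ (q + 1)` are `n`-th powers: the norms to the base field agree.
-/

set_option autoImplicit false

noncomputable section

open Polynomial

namespace FLTA.Carayol

namespace Pairs

variable {A : Type*} [CommRing A] {Φ : A[X]}

/-- The total norm does not see the swap. -/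
theorem norm_normSnd (hΦ : Φ.Monic) (hd : 0 < Φ.natDegree) (y : Pairs Φ) :
    Algebra.norm A (normSnd Φ y) = Algebra.norm A (normFst Φ y) := by
  have := hΦ.finite_adjoinRoot
  have := hΦ.free_adjoinRoot
  have := (monic_sndPoly hΦ hd).finite_adjoinRoot
  have := (monic_sndPoly hΦ hd).free_adjoinRoot
  show Algebra.norm A (Algebra.norm (AdjoinRoot Φ) (swap Φ y)) =
    Algebra.norm A (Algebra.norm (AdjoinRoot Φ) y)
  rw [Algebra.norm_norm, Algebra.norm_norm]
  have hc : ∀ a : A, swap Φ (algebraMap A (Pairs Φ) a) = algebraMap A (Pairs Φ) a := fun a => by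
    rw [IsScalarTower.algebraMap_apply A (AdjoinRoot Φ) (Pairs Φ), AdjoinRoot.algebraMap_eq,
      AdjoinRoot.algebraMap_eq]
    exact swap_ofBase a
  let e : Pairs Φ ≃ₐ[A] Pairs Φ :=
    AlgEquiv.ofRingEquiv (f := RingEquiv.ofRingHom (swap Φ) (swap Φ)
      (RingHom.ext swap_swap) (RingHom.ext swap_swap)) hc
  exact Algebra.norm_eq_of_algEquiv e y

theorem normFst_ofBase (hΦ : Φ.Monic) (hd : 0 < Φ.natDegree) [Nontrivial (AdjoinRoot Φ)] (a : A) :
    normFst Φ (ofBase Φ a) = AdjoinRoot.of Φ a ^ (Φ.natDegree - 1) := by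
  have hm := monic_sndPoly hΦ hd
  show Algebra.norm (AdjoinRoot Φ) (algebraMap (AdjoinRoot Φ) (Pairs Φ) (AdjoinRoot.of Φ a)) = _
  rw [Algebra.norm_algebraMap_of_basis (AdjoinRoot.powerBasis' hm).basis, Fintype.card_fin,
    AdjoinRoot.powerBasis'_dim, natDegree_sndPoly hΦ hd]

theorem normSnd_ofBase (hΦ : Φ.Monic) (hd : 0 < Φ.natDegree) [Nontrivial (AdjoinRoot Φ)] (a : A) :
    normSnd Φ (ofBase Φ a) = AdjoinRoot.of Φ a ^ (Φ.natDegree - 1) := by
  show normFst Φ (swap Φ (ofBase Φ a)) = _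
  rw [swap_ofBase, normFst_ofBase hΦ hd]

end Pairs

/-- With `a`, `b` the constants of the two norms, `a ^ ((q + 1) * s)` repairs `y ^ (q + 1)`. -/
theorem exists_exact_norms {G : Type*} [Field G] {Φ : G[X]} {q : ℕ} (hΦ : Φ.Monic)
    (hd : Φ.natDegree = q + 1) (hq : 0 < q) {n : ℕ} (hn : 0 < n) (hnq : n.Coprime q) {a b : G} (ha : a ≠ 0)
    (hb : b ≠ 0) (y : Pairs Φ) (hy : IsUnit y) {g₁ g₂ : AdjoinRoot Φ}
    (h₁ : g₁ ^ n = AdjoinRoot.of Φ a * Pairs.normFst Φ y)
    (h₂ : g₂ ^ n = AdjoinRoot.of Φ b * Pairs.normSnd Φ y) :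
    ∃ s : ℕ, (∃ g, g ^ n = Pairs.normFst Φ (Pairs.ofBase Φ (a ^ ((q + 1) * s)) * y ^ (q + 1))) ∧
      ∃ g, g ^ n = Pairs.normSnd Φ (Pairs.ofBase Φ (a ^ ((q + 1) * s)) * y ^ (q + 1)) := by
  have hd0 : 0 < Φ.natDegree := by omega
  have hdeg : Φ.degree ≠ 0 := by
    rw [degree_eq_natDegree hΦ.ne_zero, hd]
    exact_mod_cast Nat.succ_ne_zero q
  have : Nontrivial (AdjoinRoot Φ) := AdjoinRoot.nontrivial Φ hdeg
  have := hΦ.finite_adjoinRoot
  obtain ⟨s, k, hsk⟩ : ∃ s k : ℕ, q * s = 1 + k * n := by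
    rcases Nat.lt_or_ge 1 n with h1 | h1
    · obtain ⟨s, -, hs⟩ := Nat.exists_mul_mod_eq_one_of_coprime hnq.symm h1
      exact ⟨s, q * s / n, by rw [mul_comm _ n]; conv_lhs => rw [← Nat.mod_add_div (q * s) n, hs]⟩
    · obtain rfl : n = 1 := by omega
      exact ⟨1, q - 1, by omega⟩
  refine ⟨s, ?_, ?_⟩
  · refine ⟨g₁ ^ (q + 1) * AdjoinRoot.of Φ a ^ ((q + 1) * k), ?_⟩
    rw [map_mul, Pairs.normFst_ofBase hΦ hd0, map_pow, map_pow, hd, Nat.add_sub_cancel, ← pow_mul,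
      mul_pow, ← pow_mul g₁, mul_comm (q + 1) n, pow_mul g₁, h₁, mul_pow, mul_assoc,
      mul_left_comm, ← pow_mul, ← pow_add, mul_comm]
    congr 2
    rw [show (q + 1) * s * q = (q + 1) * (q * s) by ring, hsk]
    ring
  · -- the ratio of the constants is an `n`-th power after `q + 1`
    have hN := congrArg (Algebra.norm G) h₂
    have hM := congrArg (Algebra.norm G) h₁
    have hof : ∀ c : G, Algebra.norm G (AdjoinRoot.of Φ c) = c ^ (q + 1) := fun c => by
      show Algebra.norm G (algebraMap G (AdjoinRoot Φ) c) = _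
      rw [Algebra.norm_algebraMap_of_basis (AdjoinRoot.powerBasis' hΦ).basis, Fintype.card_fin,
        AdjoinRoot.powerBasis'_dim, hd]
    rw [map_pow, map_mul, hof] at hN hM
    rw [Pairs.norm_normSnd hΦ hd0] at hN
    have hu : Algebra.norm G (Pairs.normFst Φ y) ≠ 0 :=
      ((hy.map (Pairs.normFst Φ)).map (Algebra.norm G)).ne_zero
    have hbq : b ^ (q + 1) * Algebra.norm G (Pairs.normFst Φ y) ≠ 0 :=
      mul_ne_zero (pow_ne_zero _ hb) hu
    set c := Algebra.norm G g₁ / Algebra.norm G g₂ with hc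
    have hcn : c ^ n * b ^ (q + 1) = a ^ (q + 1) := by
      rw [hc, div_pow, hM, hN, mul_div_mul_right _ _ hu, div_mul_cancel₀ _ (pow_ne_zero _ hb)]
    refine ⟨AdjoinRoot.of Φ c * g₂ ^ (q + 1) * AdjoinRoot.of Φ a ^ ((q + 1) * k), ?_⟩
    rw [map_mul, Pairs.normSnd_ofBase hΦ hd0, hd, Nat.add_sub_cancel, map_pow, map_pow, mul_pow,
      mul_pow, ← map_pow _ c, ← pow_mul g₂, mul_comm (q + 1) n, pow_mul g₂, h₂, mul_pow,
      ← mul_assoc (AdjoinRoot.of Φ (c ^ n)), ← map_pow _ b, ← map_mul, hcn, map_pow, ← pow_mul,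
      ← pow_mul, mul_right_comm, ← pow_add]
    congr 2
    rw [show (q + 1) * s * q = (q + 1) * (q * s) by ring, hsk]
    ring

end FLTA.Carayol
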