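import Fermat.Agent.Carayol.CuspModel
import Fermat.Agent.Carayol.DivisorRoot
import Fermat.Agent.Carayol.PointsDefs
import Fermat.Agent.Carayol.Branch

/-!
# The root at a totally ramified point

After a change of parameter the modular equation has a root over `K = Frac W[[r]]` and a root in
`Frac W[[x]]`, `r = x ^ q`, with `q` different conjugates.  Then the three branches have the models
`W[[x]]`, `W[[x]]` and `W[ζ][[x]]`, and `n`-th roots are found on each of them.
-/

set_option autoImplicit false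
set_option linter.style.haveILetI false

noncomputable section

open Polynomial IsLocalRing

namespace FLTA.Carayol

/-- A map of a field finite over `K` to a fraction field with few generators is surjective. -/
theorem surjective_of_generators {R O K M E : Type*} [CommRing R] [CommRing O] [IsDomain O]
    [Field K] [Field M] [Field E] [Algebra O M] [IsFractionRing O M] [Algebra K E]
    (J : K →+* M) (ε : E →+* M) (hε : ε.comp (algebraMap K E) = J) (j : R →+* O) (jK : R →+* K)
    (hj : ∀ r, algebraMap O M (j r) = J (jK r)) {N : ℕ} (b : Fin N → O)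
    (hb : ∀ o : O, ∃ c : Fin N → R, o = ∑ i, j (c i) * b i) (hN : N ≤ Module.finrank K E) :
    Function.Surjective ε := by
  algebraize [J]
  obtain ⟨hfin, hle⟩ := finrank_le_of_generators (K := K) (M := M) j jK hj b hb
  let f : E →ₐ[K] M := { ε with commutes' := fun k => RingHom.congr_fun hε k }
  have hinj : Function.Injective f.toLinearMap := ε.injective
  have : Module.Finite K E := Module.Finite.of_injective f.toLinearMap hinj
  have h := le_antisymm (LinearMap.finrank_le_finrank_of_injective hinj) (hle.trans hN)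
  exact (LinearMap.injective_iff_surjective_of_finrank_eq_finrank h).1 hinj

theorem expand_injective {A : Type*} [CommRing A] (q : ℕ) (hq : q ≠ 0) :
    Function.Injective (PowerSeries.expand q hq : PowerSeries A →ₐ[A] PowerSeries A) := by
  intro f g h
  ext m
  rw [← PowerSeries.coeff_expand_mul q hq f m, h, PowerSeries.coeff_expand_mul]

theorem rescale_injective {A : Type*} [CommRing A] [IsDomain A] {a : A} (ha : a ≠ 0) :
    Function.Injective (PowerSeries.rescale a) := by
  intro f g h
  ext m
  have := congrArg (PowerSeries.coeff m) h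
  rw [PowerSeries.coeff_rescale, PowerSeries.coeff_rescale] at this
  exact mul_left_cancel₀ (pow_ne_zero m ha) this

theorem map_powerSeries_injective {A B : Type*} [CommRing A] [CommRing B] {f : A →+* B}
    (hf : Function.Injective f) : Function.Injective (PowerSeries.map f) := by
  intro x y h
  ext m
  exact hf (by rw [← PowerSeries.coeff_map, h, PowerSeries.coeff_map])

variable {W : Type} [CommRing W] {q : ℕ} [hqp : Fact q.Prime]

/-- `r ↦ x ^ q` after the change of parameter `θ`. -/
def branchMap (q : ℕ) [hqp : Fact q.Prime] (θ : PowerSeries W ≃+* PowerSeries W) :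
    PowerSeries W →+* PowerSeries W :=
  (PowerSeries.expand q hqp.out.ne_zero).toRingHom.comp θ.toRingHom

theorem branchMap_injective (θ : PowerSeries W ≃+* PowerSeries W) :
    Function.Injective (branchMap q θ) :=
  (expand_injective q hqp.out.ne_zero).comp θ.injective

/-- `branchMap` on fractions. -/
def branchFrac (q : ℕ) [Fact q.Prime] [IsDomain W] (θ : PowerSeries W ≃+* PowerSeries W) :
    FractionRing (PowerSeries W) →+* FractionRing (PowerSeries W) :=
  IsFractionRing.map (branchMap_injective (q := q) θ)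

theorem branchFrac_algebraMap [IsDomain W] (θ : PowerSeries W ≃+* PowerSeries W)
    (f : PowerSeries W) :
    branchFrac q θ (algebraMap _ _ f) = algebraMap _ _ (branchMap q θ f) := by
  rw [branchFrac, IsFractionRing.map, IsLocalization.map_eq]

variable [IsDomain W] [IsDiscreteValuationRing W] [CharZero W]
  [IsAdicComplete (maximalIdeal W) W] [IsAlgClosed (ResidueField W)]
  [Fact (Prime (PowerSeries.C (q : W) : PowerSeries W))]

omit [CharZero W] in
/-- The root on one branch. -/
theorem exists_branchRoot {W' : Type} [CommRing W'] [IsDomain W'] [IsDiscreteValuationRing W']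
    (hW : maximalIdeal W = Ideal.span {(q : W)}) (ι : W →+* W') (hι : Function.Injective ι)
    {ϖ : W'} (hW' : maximalIdeal W' = Ideal.span {ϖ})
    (hres : ∀ w' : W', ∃ w : W, w' - ι w ∈ maximalIdeal W')
    {d : ℕ} (b : Fin d → W') (hb : ∀ w : W', ∃ c : Fin d → W, w = ∑ k, ι (c k) * b k)
    (θ : PowerSeries W ≃+* PowerSeries W) (hθC : ∀ w, θ (PowerSeries.C w) = PowerSeries.C w)
    {n : ℕ} (hn : 0 < n) (hnq : n.Coprime q) {LO : Type*} [CommRing LO]
    (jO : FractionRing (PowerSeries W') →+* LO)
    (ιL : FractionRing (HatAt (PowerSeries.C (q : W) : PowerSeries W)) →+* LO)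
    (hext : ∀ (M : Type) [Field M]
      (μ : FractionRing (HatAt (PowerSeries.C (q : W) : PowerSeries W)) →+* M)
      (g : PowerSeries W' →+* M), Function.Injective g →
      (∀ r, μ (algebraMap _ _ (toHat (PowerSeries.C (q : W) : PowerSeries W) r)) =
        g (PowerSeries.map ι (branchMap q θ r))) →
      ∃ ψ : LO →+* M, ∀ x, ψ (jO (algebraMap _ _ x)) = g x ∧ ψ.comp ιL = μ)
    {f : FractionRing (PowerSeries W')} (hf : f ≠ 0)
    (hval : ∀ (F : Type) [Field F] (ψ : FractionRing (PowerSeries W') →+* F)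
      (v : Valuation F (WithZero (Multiplicative ℤ))),
      (∀ w : W, w ≠ 0 → v (ψ (algebraMap _ _ (PowerSeries.C (ι w)))) = 1) → ∃ z, v (ψ f) = z ^ n)
    (hloc : ∃ Y : LO, Y ^ n = jO f) :
    ∃ G, G ^ n = f := by
  let j : PowerSeries W →+* PowerSeries W' := (PowerSeries.map ι).comp (branchMap q θ)
  have hjC : ∀ w, j (PowerSeries.C w) = PowerSeries.C (ι w) := fun w => by
    simp [j, branchMap, hθC, PowerSeries.expand_C]
  letI := j.toAlgebra
  have hjinj : Function.Injective (algebraMap (PowerSeries W) (PowerSeries W')) :=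
    (map_powerSeries_injective hι).comp (branchMap_injective θ)
  have : FaithfulSMul (PowerSeries W) (PowerSeries W') :=
    (faithfulSMul_iff_algebraMap_injective _ _).2 hjinj
  let g₀ : Fin (d * q) → PowerSeries W' := fun i =>
    PowerSeries.C (b i.divNat) * PowerSeries.X ^ (i.modNat : ℕ)
  have : Module.Finite (PowerSeries W) (PowerSeries W') := by
    refine Module.Finite.of_surjective (Fintype.linearCombination (PowerSeries W) g₀) fun x => ?_
    obtain ⟨p, hp⟩ := exists_sum_expand_mul ι b hb hqp.out.ne_zero x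
    refine ⟨fun i => θ.symm (p i), ?_⟩
    rw [Fintype.linearCombination_apply, hp]
    refine Finset.sum_congr rfl fun i _ => ?_
    simp [Algebra.smul_def, RingHom.algebraMap_toAlgebra, j, branchMap, g₀]
  have := isAdicComplete_series (W := W)
  have hR := isReg2_series hW
  have hO := isReg2_series hW'
  have hπ : (PowerSeries.C (q : W)) ∈ maximalIdeal (PowerSeries W) :=
    maximalIdeal_series hW ▸ Ideal.subset_span (by simp)
  have hπ2 : (PowerSeries.C (q : W)) ∉ maximalIdeal (PowerSeries W) ^ 2 :=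
    hR.not_mem_sq_of_gen (maximalIdeal_series hW)
  have hn' : IsUnit (n : PowerSeries W) := by
    simpa using (isUnit_natCast_of_coprime hW hnq).map (PowerSeries.C : W →+* PowerSeries W)
  refine exists_root_of_finite (O := PowerSeries W') hR hO hn' ?_
    (fun c _ => exists_pow_eq_residue_series hn c) (PowerSeries.C (q : W) : PowerSeries W)
    hπ hπ2 jO ιL ?_ hf ?_ hloc
  · intro c
    obtain ⟨z, rfl⟩ := residue_surjective c
    obtain ⟨w, hw⟩ := hres (PowerSeries.constantCoeff z)
    refine ⟨PowerSeries.C w, ?_⟩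
    show residue _ (j (PowerSeries.C w)) = _
    rw [hjC, eq_comm, ← sub_eq_zero, ← map_sub, residue_eq_zero_iff, mem_maximalIdeal_series_iff,
      map_sub, PowerSeries.constantCoeff_C]
    exact hw
  · intro M _ μ g hμ
    have hμ' := fun r => RingHom.congr_fun hμ r
    have hg : Function.Injective g := by
      rw [injective_iff_map_eq_zero]
      intro x hx
      by_contra hne
      have hker : RingHom.ker g ≠ ⊥ := fun h0 =>
        hne ((RingHom.ker_eq_bot_iff_eq_zero g).1 h0 x hx)
      have : (RingHom.ker g).IsPrime := RingHom.ker_isPrime g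
      refine hker (Ideal.eq_bot_of_comap_eq_bot (R := PowerSeries W) ?_)
      rw [RingHom.comap_ker, ← RingHom.injective_iff_ker_eq_bot]
      intro a c hac
      refine toHat_injective (PowerSeries.C (q : W) : PowerSeries W) (IsFractionRing.injective
        (HatAt (PowerSeries.C (q : W) : PowerSeries W))
        (FractionRing (HatAt (PowerSeries.C (q : W) : PowerSeries W))) (μ.injective ?_))
      exact (hμ' a).trans (hac.trans (hμ' c).symm)
    obtain ⟨ψ, hψ⟩ := hext M μ g hg fun r => hμ' r
    exact ⟨ψ, fun x => (hψ x).1, (hψ 0).2⟩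
  · intro p hp hpq
    refine exists_local_rep_of_valuation hf hp fun F _ ψ v hv => hval F ψ v fun w hw => hv _ ?_
    have hpq' : ¬ p ∣ PowerSeries.C (ι (q : W)) := by
      rwa [RingHom.algebraMap_toAlgebra, hjC] at hpq
    obtain ⟨k, u, rfl⟩ := IsDiscreteValuationRing.eq_unit_mul_pow_irreducible hw
      ((IsDiscreteValuationRing.irreducible_iff_uniformizer _).2 hW)
    rw [map_mul, map_mul, map_pow, map_pow]
    intro h
    rcases hp.dvd_or_dvd h with h | h
    · exact hp.not_isUnit (isUnit_of_dvd_unit h ((u.isUnit.map ι).map _))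
    · exact hpq' (hp.dvd_of_dvd_pow h)

/-- **The root at a totally ramified point.** -/
theorem exists_localRoot_of_branches (hW : maximalIdeal W = Ideal.span {(q : W)}) {n : ℕ}
    (hn : 0 < n) (hnq : n.Coprime q) {Ψ : (FractionRing (PowerSeries W))[X]} (hΨ : Ψ.Monic)
    (hdeg : Ψ.natDegree = q + 1) (θ : PowerSeries W ≃+* PowerSeries W)
    (hθC : ∀ w, θ (PowerSeries.C w) = PowerSeries.C w)
    (y : Pairs Ψ) (hy : IsUnit y)
    (hhor : HorizAt ((algebraMap (PowerSeries W) (FractionRing (PowerSeries W))).comp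
      PowerSeries.C) n y)
    (hloc : ∃ Y, Y ^ n = Pairs.map (Φ := Ψ) (toHatFrac q) rfl y)
    {x₀ : FractionRing (PowerSeries W)} (hx₀ : Ψ.eval x₀ = 0)
    {ξ : FractionRing (PowerSeries W)} (hξ : Ψ.eval₂ (branchFrac q θ) ξ = 0)
    (hne : ξ ≠ branchFrac q θ x₀) {a : PowerSeries W} {e : ℕ} (heq : e.Coprime q)
    (hae : PowerSeries.coeff e a ≠ 0)
    (hξa : ξ = algebraMap _ _ a ∨ ξ = (algebraMap _ _ a)⁻¹) :
    LocalRoot Ψ n y := by
  classical
  obtain ⟨Y, hY⟩ := hloc
  have hq := hqp.out
  have hqW := natCast_ne_zero_of_prime (W := W) (q := q)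
  let J := branchFrac q θ
  let jL := toHatFrac (W := W) q
  -- the ring `W[ζ]`
  let W' := cycRing W q
  let ι : W →+* W' := AdjoinRoot.of (cyclotomic q W)
  have hE := isShiftEis_cyclotomic hW
  have := isDomain_cycRing hW
  have := hE.isLocalRing
  have := hE.isDiscreteValuationRing
  have hι : Function.Injective ι := injective_of_cycRing
  set ζ : W' := AdjoinRoot.root (cyclotomic q W) with hζdef
  have hζ : IsPrimitiveRoot ζ q := isPrimitiveRoot_root hW
  have hζ0 : ∀ i : ℕ, ζ ^ i ≠ 0 := fun i => pow_ne_zero i (hζ.ne_zero hq.ne_zero)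
  have hζi : ∀ i : ℕ, (ζ ^ i) ^ q = 1 := fun i => by
    rw [← pow_mul, mul_comm, pow_mul, hζ.pow_eq_one, one_pow]
  -- maps into the largest field
  let I : FractionRing (PowerSeries W) →+* FractionRing (PowerSeries W') :=
    IsFractionRing.map (map_powerSeries_injective hι)
  let J₂ := I.comp J
  let σ : ℕ → FractionRing (PowerSeries W') →+* FractionRing (PowerSeries W') := fun i =>
    IsFractionRing.map (rescale_injective (hζ0 i))
  have hI : ∀ f, I (algebraMap _ _ f) = algebraMap _ _ (PowerSeries.map ι f) :=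
    fun f => IsLocalization.map_eq _ f
  have hσ : ∀ i f, σ i (algebraMap _ _ f) = algebraMap _ _ (PowerSeries.rescale (ζ ^ i) f) :=
    fun i f => IsLocalization.map_eq _ f
  have hJ : ∀ f, J (algebraMap _ _ f) = algebraMap _ _ (branchMap q θ f) :=
    fun f => branchFrac_algebraMap θ f
  have hσJ : ∀ i, (σ i).comp J₂ = J₂ := fun i => by
    refine IsLocalization.ringHom_ext (nonZeroDivisors (PowerSeries W)) (RingHom.ext fun f => ?_)
    simp only [RingHom.comp_apply, J₂, hJ, hI, hσ, branchMap, AlgHom.toRingHom_eq_coe,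
      RingHom.coe_coe, PowerSeries.map_expand, rescale_expand_of_pow_eq_one hq.ne_zero (hζi i)]
  let z : ℕ → FractionRing (PowerSeries W') := fun i => σ i (I ξ)
  have hz_inj : ∀ i < q, ∀ k < q, z i = z k → i = k := by
    intro i hi k hk hik
    have h1 : σ i (I (algebraMap _ _ a)) = σ k (I (algebraMap _ _ a)) := by
      rcases hξa with h | h
      · simpa [z, h] using hik
      · refine inv_injective ?_
        rw [show (σ i (I (algebraMap (PowerSeries W) _ a)))⁻¹ = z i by
            simp only [z, h, map_inv₀], hik]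
        simp only [z, h, map_inv₀]
    rw [hI, hσ, hσ] at h1
    have h2 := congrArg (PowerSeries.coeff e) (IsFractionRing.injective _ _ h1)
    rw [PowerSeries.coeff_rescale, PowerSeries.coeff_rescale, PowerSeries.coeff_map,
      ← pow_mul, ← pow_mul, mul_comm i, mul_comm k, pow_mul, pow_mul] at h2
    exact (hζ.pow_of_coprime e heq).pow_inj hi hk
      (mul_right_cancel₀ ((map_ne_zero_iff ι hι).2 hae) h2)
  have hz_ne : ∀ i, z i ≠ J₂ x₀ := fun i h => by
    have h1 : σ i (I ξ) = σ i (J₂ x₀) := h.trans (RingHom.congr_fun (hσJ i) x₀).symm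
    exact hne (I.injective ((σ i).injective h1))
  -- the polynomial of the first root
  let s : RootSplit Ψ := ⟨x₀, hx₀⟩
  have hd : 1 < Ψ.natDegree := by rw [hdeg]; have := hq.two_le; omega
  have hquo : s.quo.Monic := s.monic_quo hΨ (by omega)
  have hquod : s.quo.natDegree = q := by
    rw [s.natDegree_quo hΨ (by omega), hdeg, Nat.add_sub_cancel]
  have hquoξ : s.quo.eval₂ J ξ = 0 := by
    have h1 := congrArg (eval₂ J ξ) s.sub_mul_quo
    rw [eval₂_mul, hξ, eval₂_sub, eval₂_X, eval₂_C, mul_eq_zero] at h1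
    exact h1.resolve_left (sub_ne_zero.2 hne)
  have hquoz : ∀ i, s.quo.eval₂ J₂ (z i) = 0 := fun i => by
    rw [show z i = (σ i).comp I ξ from rfl, ← hσJ i, ← RingHom.comp_assoc, ← hom_eval₂, hquoξ,
      map_zero]
  have hirr : Irreducible s.quo := by
    refine irreducible_of_conjugates J₂ hquo (x := I ξ) ?_ (fun i => z i) ?_ fun i =>
      ⟨σ i, hσJ i, rfl⟩
    · rw [← hom_eval₂, hquoξ, map_zero]
    · intro i k hik
      exact Fin.ext (hz_inj i (hquod ▸ i.2) k (hquod ▸ k.2) hik)
  have := Fact.mk hirr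
  have h0 : s.quo.eval s.x₀ ≠ 0 := fun h =>
    hirr.not_isRoot_of_natDegree_ne_one (by rw [hquod]; exact hq.ne_one) h
  -- the models
  let ε : s.E →+* FractionRing (PowerSeries W) := AdjoinRoot.lift J ξ hquoξ
  have hεof : ε.comp (AdjoinRoot.of s.quo) = J := AdjoinRoot.lift_comp_of _
  have hb1 : ∀ w : W, ∃ c : Fin 1 → W, w = ∑ k, RingHom.id W (c k) * (1 : W) := fun w =>
    ⟨fun _ => w, by simp⟩
  have hεsurj : Function.Surjective ε := by
    refine surjective_of_generators J ε hεof (branchMap q θ) (algebraMap _ _)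
      (fun r => (hJ r).symm) (fun i : Fin (1 * q) => PowerSeries.C (1 : W) *
        PowerSeries.X ^ (i.modNat : ℕ)) (fun o => ?_) (le_of_eq ?_)
    · obtain ⟨p, hp⟩ := exists_sum_expand_mul (RingHom.id W) (fun _ => 1) hb1 hq.ne_zero o
      refine ⟨fun i => θ.symm (p i), hp.trans (Finset.sum_congr rfl fun i _ => ?_)⟩
      simp [branchMap]
    · rw [(AdjoinRoot.powerBasis' hquo).finrank, AdjoinRoot.powerBasis'_dim, hquod, one_mul]
  let e₁ := RingEquiv.ofBijective ε ⟨ε.injective, hεsurj⟩
  let t := s.map jL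
  -- `n`-th roots in the first field
  have root₁ : ∀ br : Pairs Ψ →+* s.E, (∀ c, br (Pairs.ofBase Ψ c) = AdjoinRoot.of s.quo c) →
      (∃ Z : t.E, Z ^ n = s.mapE jL (br y)) → ∃ g, g ^ n = br y := by
    intro br hbr hZ
    refine (exists_branchRoot hW (RingHom.id W) Function.injective_id hW
      (fun w => ⟨w, by simp⟩) (fun _ => (1 : W)) hb1 θ hθC hn hnq
      ((s.mapE jL).comp e₁.symm.toRingHom) (AdjoinRoot.of t.quo) (fun M _ μ g hg hμ => ?_)
      (f := ε (br y)) ((hy.map br).map ε).ne_zero (fun F _ ψ v hv => ?_)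
      (by
        obtain ⟨Z, hZ⟩ := hZ
        refine ⟨Z, hZ.trans (congrArg (s.mapE jL) ?_)⟩
        exact (e₁.symm_apply_apply (br y)).symm)).elim fun G hG =>
        ⟨e₁.symm G, e₁.injective (by rw [map_pow, e₁.apply_symm_apply, hG]; rfl)⟩
    · let gh : FractionRing (PowerSeries W) →+* M := IsFractionRing.lift hg
      have hgh : μ.comp jL = gh.comp J := by
        refine IsLocalization.ringHom_ext (nonZeroDivisors (PowerSeries W))
          (RingHom.ext fun r => ?_)
        simp only [RingHom.comp_apply, jL, toHatFrac, IsLocalization.map_eq, hJ, hμ, gh,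
          IsFractionRing.lift_algebraMap, PowerSeries.map_id, id_eq]
      have hev : t.quo.eval₂ μ (gh ξ) = 0 := by
        rw [RootSplit.quo_map, eval₂_map, hgh, ← hom_eval₂, hquoξ, map_zero]
      refine ⟨AdjoinRoot.lift μ _ hev, fun x => ⟨?_, AdjoinRoot.lift_comp_of _⟩⟩
      have key : (AdjoinRoot.lift μ _ hev).comp (s.mapE jL) = gh.comp ε := by
        refine AdjoinRoot.ringHom_ext (RingHom.ext fun c => ?_) ?_
        · simpa [RootSplit.mapE, ε, t] using RingHom.congr_fun hgh c
        · simp [RootSplit.mapE, ε, t]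
      show ((AdjoinRoot.lift μ _ hev).comp (s.mapE jL)) (e₁.symm _) = _
      rw [key, RingHom.comp_apply, show ε (e₁.symm _) = _ from e₁.apply_symm_apply _]
      simp [gh]
    · refine hhor F (ψ.comp (ε.comp br)) v fun w hw => ?_
      rw [RingHom.comp_apply, RingHom.comp_apply, hbr, RingHom.comp_apply, ← RingHom.comp_apply ε,
        hεof, hJ]
      simpa [branchMap, hθC, PowerSeries.expand_C] using hv w hw
  obtain ⟨g₀, hg₀⟩ := root₁ s.br₀ (fun c => by simp [RootSplit.br₀])
    ⟨t.br₀ Y, by rw [← map_pow, hY, s.mapE_br₀]⟩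
  obtain ⟨g₁, hg₁⟩ := root₁ s.br₁ (fun c => by simp [RootSplit.br₁])
    ⟨t.br₁ Y, by rw [← map_pow, hY, s.mapE_br₁]⟩
  -- the middle branch
  let ε' : s.E →+* FractionRing (PowerSeries W') := I.comp ε
  have hε'of : ε'.comp (AdjoinRoot.of s.quo) = J₂ := by rw [RingHom.comp_assoc, hεof]
  have hGm := s.monic_G hΨ hd
  have hGd : s.G.natDegree = q - 1 := by rw [s.natDegree_G hΨ hd, hdeg]; omega
  have hz0 : z 0 = I ξ := by
    have h1 : σ 0 = RingHom.id _ := by
      refine IsLocalization.ringHom_ext (nonZeroDivisors (PowerSeries W'))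
        (RingHom.ext fun f => ?_)
      simp [hσ]
    simp [z, h1]
  have hGz : ∀ i, 0 < i → i < q → s.G.eval₂ ε' (z i) = 0 := by
    intro i hi hiq
    have hmap : s.G.map ε' = divDiff (s.quo.map J₂) (I ξ) := by
      rw [RootSplit.G, map_divDiff, Polynomial.map_map, hε'of]
      congr 1
      simp [ε', ε]
    have h1 := sub_mul_divDiff_eval (s.quo.map J₂) (I ξ) (z i)
    rw [eval_map, eval_map, hquoz, ← hz0, hquoz, sub_zero, mul_eq_zero] at h1
    rw [← eval_map, hmap, ← hz0]
    exact h1.resolve_left (sub_ne_zero.2 fun h => hi.ne' (hz_inj i hiq 0 hq.pos h))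
  have hτ : ∀ i, 0 < i → i < q → ∃ τ : FractionRing (PowerSeries W') →+*
      FractionRing (PowerSeries W'), τ.comp ε' = ε' ∧ τ (z 1) = z i := by
    intro i hi hiq
    obtain ⟨τ, hτinj, hτι, hτζ⟩ := exists_cycConj hW
      ((Nat.coprime_of_lt_prime hi.ne' hiq hq).symm)
    let T : FractionRing (PowerSeries W') →+* FractionRing (PowerSeries W') :=
      IsFractionRing.map (map_powerSeries_injective hτinj)
    have hT : ∀ f : PowerSeries W', T (algebraMap (PowerSeries W') _ f) =
        algebraMap (PowerSeries W') _ ((PowerSeries.map τ f : PowerSeries W')) :=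
      fun f => IsLocalization.map_eq _ f
    have hmm : ∀ f : PowerSeries W,
        PowerSeries.map τ (PowerSeries.map ι f) = PowerSeries.map ι f := fun f => by
      ext m
      rw [PowerSeries.coeff_map, PowerSeries.coeff_map]
      exact RingHom.congr_fun hτι _
    have hTI : T.comp I = I := by
      refine IsLocalization.ringHom_ext (nonZeroDivisors (PowerSeries W)) (RingHom.ext fun f => ?_)
      simp only [RingHom.comp_apply, hI, hT, hmm]
    have hTσ : (T.comp (σ 1)).comp I = (σ i).comp I := by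
      refine IsLocalization.ringHom_ext (nonZeroDivisors (PowerSeries W)) (RingHom.ext fun f => ?_)
      simp only [RingHom.comp_apply, hI, hσ, hT, pow_one, ← PowerSeries.rescale_map, hmm, hτζ,
        hζdef]
    exact ⟨T, by rw [← RingHom.comp_assoc, hTI], RingHom.congr_fun hTσ ξ⟩
  have hirrG : Irreducible s.G := by
    refine irreducible_of_conjugates ε' hGm (hGz 1 one_pos hq.one_lt)
      (fun i => z (i.1 + 1)) ?_ fun i => hτ _ (Nat.succ_pos _) (by have := i.2; omega)
    intro i k hik
    have hi := i.2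
    have hk := k.2
    exact Fin.ext (Nat.succ_injective (hz_inj _ (by omega) _ (by omega) hik))
  have := Fact.mk hirrG
  let ε₂ : s.E' →+* FractionRing (PowerSeries W') :=
    AdjoinRoot.lift ε' (z 1) (hGz 1 one_pos hq.one_lt)
  have hε₂of : ε₂.comp (AdjoinRoot.of s.G) = ε' := AdjoinRoot.lift_comp_of _
  have hε₂J : ε₂.comp (algebraMap (FractionRing (PowerSeries W)) s.E') = J₂ := by
    rw [show algebraMap (FractionRing (PowerSeries W)) s.E' =
      (AdjoinRoot.of s.G).comp (AdjoinRoot.of s.quo) from rfl, ← RingHom.comp_assoc, hε₂of, hε'of]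
  have hb' : ∀ w : W', ∃ c : Fin (q - 1) → W, w = ∑ k, ι (c k) * ζ ^ (k : ℕ) :=
    exists_sum_cycRing
  have hε₂surj : Function.Surjective ε₂ := by
    refine surjective_of_generators J₂ ε₂ hε₂J ((PowerSeries.map ι).comp (branchMap q θ))
      (algebraMap _ _) (fun r => by simp only [RingHom.comp_apply, J₂, hJ, hI])
      (fun i : Fin ((q - 1) * q) => PowerSeries.C (ζ ^ (i.divNat : ℕ)) *
        PowerSeries.X ^ (i.modNat : ℕ)) (fun o => ?_) (le_of_eq ?_)
    · obtain ⟨p, hp⟩ := exists_sum_expand_mul ι (fun k => ζ ^ (k : ℕ)) hb' hq.ne_zero o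
      refine ⟨fun i => θ.symm (p i), hp.trans (Finset.sum_congr rfl fun i _ => ?_)⟩
      simp [branchMap]
    · have := hquo.free_adjoinRoot
      have := hquo.finite_adjoinRoot
      have := hGm.free_adjoinRoot
      have := hGm.finite_adjoinRoot
      rw [← Module.finrank_mul_finrank (FractionRing (PowerSeries W)) s.E s.E',
        (AdjoinRoot.powerBasis' hquo).finrank, (AdjoinRoot.powerBasis' hGm).finrank,
        AdjoinRoot.powerBasis'_dim, AdjoinRoot.powerBasis'_dim, hquod, hGd, mul_comm]
  have hε₂inj : Function.Injective ε₂ :=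
    (letI : Field s.E' := AdjoinRoot.instField (f := s.G)
     ε₂.injective)
  let e₂ := RingEquiv.ofBijective ε₂ ⟨hε₂inj, hε₂surj⟩
  obtain ⟨Gm, hGmy⟩ := exists_branchRoot (f := ε₂ (s.brₘ y)) hW ι hι hE.maximalIdeal_eq
    (fun w' => by
      obtain ⟨p, rfl⟩ := AdjoinRoot.mk_surjective w'
      refine ⟨p.eval 1, ?_⟩
      show AdjoinRoot.mk (cyclotomic q W) p - AdjoinRoot.of _ (p.eval 1) ∈ _
      rw [hE.maximalIdeal_eq, Ideal.mem_span_singleton, ← AdjoinRoot.mk_C, ← AdjoinRoot.mk_C,
        ← AdjoinRoot.mk_X, ← map_sub, ← map_sub]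
      exact map_dvd _ (dvd_iff_isRoot.2 (by simp)))
    (fun k => ζ ^ (k : ℕ)) hb' θ hθC hn hnq
    ((s.mapE' jL).comp e₂.symm.toRingHom) ((AdjoinRoot.of t.G).comp (AdjoinRoot.of t.quo))
    (fun M _ μ g hg hμ => by
      let gh : FractionRing (PowerSeries W') →+* M := IsFractionRing.lift hg
      have hgh : μ.comp jL = gh.comp J₂ := by
        refine IsLocalization.ringHom_ext (nonZeroDivisors (PowerSeries W))
          (RingHom.ext fun r => ?_)
        simp only [RingHom.comp_apply, jL, toHatFrac, IsLocalization.map_eq, J₂, hJ, hI, hμ, gh,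
          IsFractionRing.lift_algebraMap]
      have hev : t.quo.eval₂ μ (gh (I ξ)) = 0 := by
        rw [RootSplit.quo_map, eval₂_map, hgh, ← hom_eval₂, ← hz0, hquoz, map_zero]
      let ψ₀ := AdjoinRoot.lift μ _ hev
      have key₀ : ψ₀.comp (s.mapE jL) = gh.comp ε' := by
        refine AdjoinRoot.ringHom_ext (RingHom.ext fun c => ?_) ?_
        · simpa [RootSplit.mapE, ψ₀, ε', ε, J₂, t] using RingHom.congr_fun hgh c
        · simp [RootSplit.mapE, ψ₀, ε', ε, t]
      have hev' : t.G.eval₂ ψ₀ (gh (z 1)) = 0 := by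
        rw [← RootSplit.G_map, eval₂_map, key₀, ← hom_eval₂, hGz 1 one_pos hq.one_lt, map_zero]
      refine ⟨AdjoinRoot.lift ψ₀ _ hev', fun x => ⟨?_, ?_⟩⟩
      · have key : (AdjoinRoot.lift ψ₀ _ hev').comp (s.mapE' jL) = gh.comp ε₂ := by
          refine AdjoinRoot.ringHom_ext (RingHom.ext fun c => ?_) ?_
          · simpa [RootSplit.mapE', ε₂, t] using RingHom.congr_fun key₀ c
          · simp [RootSplit.mapE', ε₂, t]
        show ((AdjoinRoot.lift ψ₀ _ hev').comp (s.mapE' jL)) (e₂.symm _) = _
        rw [key, RingHom.comp_apply, show ε₂ (e₂.symm _) = _ from e₂.apply_symm_apply _]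
        simp [gh]
      · rw [← RingHom.comp_assoc, AdjoinRoot.lift_comp_of, AdjoinRoot.lift_comp_of])
    ((hy.map s.brₘ).map ε₂).ne_zero
    (fun F _ ψ v hv => by
      refine hhor F (ψ.comp (ε₂.comp s.brₘ)) v fun w hw => ?_
      have h1 : ε₂ (s.brₘ (Pairs.ofBase Ψ (algebraMap _ _ (PowerSeries.C w)))) =
          algebraMap _ _ (PowerSeries.C (ι w)) := by
        rw [RootSplit.brₘ, Pairs.lift_ofBase, ← RingHom.comp_apply ε₂, ← RingHom.comp_assoc,
          hε₂of, hε'of, RingHom.comp_apply, hJ, hI]
        simp [branchMap, hθC, PowerSeries.expand_C]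
      rw [RingHom.comp_apply, RingHom.comp_apply, RingHom.comp_apply, h1]
      exact hv w hw)
    ⟨t.brₘ Y, by
      rw [← map_pow, hY, ← s.mapE'_brₘ]
      exact congrArg (s.mapE' jL) (e₂.symm_apply_apply _).symm⟩
  obtain ⟨G, hG₀, hG₁, hG₂⟩ := s.br_surjective hΨ hd h0 g₀ g₁ (e₂.symm Gm)
  refine ⟨Or.inr ⟨x₀, hx₀⟩, G, sub_eq_zero.1 (s.br_injective hΨ hd h0 ?_ ?_ ?_)⟩
  · rw [map_sub, map_pow, hG₀, hg₀, sub_self]
  · rw [map_sub, map_pow, hG₁, hg₁, sub_self]
  · rw [map_sub, map_pow, hG₂, sub_eq_zero]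
    exact e₂.injective (by rw [map_pow, e₂.apply_symm_apply, hGmy]; rfl)

end FLTA.Carayol
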