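import Fermat.Agent.Carayol.RootLemma
import Fermat.Agent.Carayol.SeriesRing
import Fermat.Agent.Carayol.Haupt.Cusp
import Fermat.Agent.Congruence.FrobeniusField
import Mathlib.RingTheory.LaurentSeries

/-!
# The parameter at a cusp

A change of parameter `θ` of `W[[r]]` with `θ (r ^ e) = h (r ^ e)`, and the relations of the
modular equation read through a map of series.
-/

set_option autoImplicit false

noncomputable section

open IsLocalRing PowerSeries

namespace FLTA.Carayol

/-- Substitution of a series with linear term a unit, as an automorphism. -/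
theorem exists_substEquiv {A : Type*} [CommRing A] {w : PowerSeries A}
    (hw0 : constantCoeff w = 0) (hw1 : IsUnit (coeff 1 w)) :
    ∃ θ : PowerSeries A ≃+* PowerSeries A, ∀ f, θ f = subst w f := by
  set v := w.substInvOfIsUnit hw1
  have hw : HasSubst w := HasSubst.of_constantCoeff_zero' hw0
  have hv : HasSubst v := HasSubst.substInvOfIsUnit w hw1
  refine ⟨RingEquiv.ofRingHom (substAlgHom (R := A) hw).toRingHom
    (substAlgHom (R := A) hv).toRingHom ?_ ?_, fun f => by
      rw [← coe_substAlgHom hw]; rfl⟩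
  · refine RingHom.ext fun f => ?_
    show substAlgHom hw (substAlgHom hv f) = f
    rw [coe_substAlgHom, coe_substAlgHom, subst_comp_subst_apply hv hw,
      subst_substInvOfIsUnit_left w hw0 hw1, X_subst]
  · refine RingHom.ext fun f => ?_
    show substAlgHom hv (substAlgHom hw f) = f
    rw [coe_substAlgHom, coe_substAlgHom, subst_comp_subst_apply hw hv,
      subst_substInvOfIsUnit_right w hw0 hw1, X_subst]

variable {W : Type} [CommRing W] [IsDomain W] [IsDiscreteValuationRing W]
  [IsAdicComplete (maximalIdeal W) W] [IsAlgClosed (ResidueField W)]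

/-- The change of parameter at a cusp of width prime to the residue characteristic. -/
theorem exists_cuspParam {q : ℕ} (hW : maximalIdeal W = Ideal.span {(q : W)}) {e : ℕ} (he : 0 < e)
    (heq : e.Coprime q) {h : PowerSeries W} (h0 : constantCoeff h = 0)
    (h1 : IsUnit (coeff 1 h)) :
    ∃ θ : PowerSeries W ≃+* PowerSeries W, (∀ w, θ (C w) = C w) ∧
      θ (X ^ e) = expand e he.ne' h := by
  have := isAdicComplete_series (W := W)
  have : HenselianLocalRing (PowerSeries W) := ⟨fun f hf a₀ h₁ h₂ =>
    HenselianRing.is_henselian (I := maximalIdeal (PowerSeries W)) f hf a₀ h₁ (h₂.map _)⟩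
  have he' : IsUnit (e : PowerSeries W) := by
    simpa using (isUnit_natCast_of_coprime hW heq).map (C : W →+* PowerSeries W)
  set s : PowerSeries W := mk fun p => coeff (p + 1) h
  have hs : IsUnit s := by
    rw [isUnit_iff_constantCoeff, ← coeff_zero_eq_constantCoeff_apply, coeff_mk]
    exact h1
  have hh : h = X * s := by
    conv_lhs => rw [eq_X_mul_shift_add_const h]
    rw [h0, map_zero, add_zero]
  obtain ⟨c, hc⟩ :=
    exists_pow_eq_of_isUnit he' (fun a _ => exists_pow_eq_residue_series he a) hs
  have hcu : IsUnit (constantCoeff c) := by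
    have : IsUnit c := (isUnit_pow_iff he.ne').1 (hc ▸ hs)
    exact this.map _
  obtain ⟨θ, hθ⟩ := exists_substEquiv (w := X * expand e he.ne' c) (by simp) (by
    rw [show (1 : ℕ) = 0 + 1 from rfl, coeff_succ_X_mul, coeff_zero_eq_constantCoeff_apply,
      constantCoeff_expand]
    exact hcu)
  have hw : HasSubst (X * expand e he.ne' c) := HasSubst.of_constantCoeff_zero' (by simp)
  refine ⟨θ, fun w => ?_, ?_⟩
  · rw [hθ, subst_C]
    rfl
  · rw [map_pow, hθ, subst_X hw, mul_pow, hh, map_mul, expand_X, ← map_pow, hc]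

namespace Haupt

variable {q L : ℕ} [hq : Fact q.Prime] [NeZero L]

/-- The Laurent series extension of a map of series. -/
theorem exists_laurentHom {F : Type*} [Field F] (f : PowerSeries ℤ →+* F)
    (hX : f X ≠ 0) :
    ∃ g : LaurentSeries ℤ →+* F, ∀ s, g (HahnSeries.ofPowerSeries ℤ ℤ s) = f s := by
  have hu : ∀ y : Submonoid.powers (X : PowerSeries ℤ), IsUnit (f y) := by
    rintro ⟨_, k, rfl⟩
    rw [map_pow]
    exact (isUnit_iff_ne_zero.2 hX).pow k
  exact ⟨IsLocalization.lift hu, fun s => by
    rw [← LaurentSeries.coe_algebraMap, IsLocalization.lift_eq]⟩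

/-- The relation with outer variable `t`, through a map of series. -/
theorem IsModEq.eval₂_tInv {Φ : Polynomial (Polynomial ℤ)} (h : IsModEq q L Φ) {F : Type*}
    [Field F] (f : PowerSeries ℤ →+* F) (hX : f X ≠ 0) (φ : Polynomial ℤ →+* F)
    (hφ : φ Polynomial.X = (f (expand q hq.out.ne_zero (tInv L)))⁻¹) :
    Φ.eval₂ φ (f (tInv L))⁻¹ = 0 := by
  obtain ⟨g, hg⟩ := exists_laurentHom f hX
  have h1 : g (tSeries L) = (f (tInv L))⁻¹ := by
    have := congrArg g (ofPowerSeries_tInv_mul_tSeries L)
    rw [map_mul, map_one, hg] at this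
    exact eq_inv_of_mul_eq_one_right this
  have h2 : g (ModularCurve.qExpand ℤ q (tSeries L)) =
      (f (expand q hq.out.ne_zero (tInv L)))⁻¹ := by
    have := congrArg (fun x => g (ModularCurve.qExpand ℤ q x)) (ofPowerSeries_tInv_mul_tSeries L)
    simp only [map_mul, map_one, FLTA.Congruence.qExpand_ofPowerSeries, hg] at this
    exact eq_inv_of_mul_eq_one_right this
  have e : φ = g.comp (Polynomial.aeval (ModularCurve.qExpand ℤ q (tSeries L))).toRingHom :=
    Polynomial.ringHom_ext' (RingHom.ext_int _ _) (by simp [hφ, h2])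
  rw [e, ← h1, ← Polynomial.hom_eval₂, h.root, map_zero]

/-- The relation with inner variable `t`, through a map of series. -/
theorem IsModEq.eval₂_tInv_swap {Φ : Polynomial (Polynomial ℤ)} (h : IsModEq q L Φ) {F : Type*}
    [Field F] (f : PowerSeries ℤ →+* F) (hX : f X ≠ 0) (φ : Polynomial ℤ →+* F)
    (hφ : φ Polynomial.X = (f (tInv L))⁻¹) :
    Φ.eval₂ φ (f (expand q hq.out.ne_zero (tInv L)))⁻¹ = 0 := by
  obtain ⟨g, hg⟩ := exists_laurentHom f hX
  have h1 : g (tSeries L) = (f (tInv L))⁻¹ := by
    have := congrArg g (ofPowerSeries_tInv_mul_tSeries L)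
    rw [map_mul, map_one, hg] at this
    exact eq_inv_of_mul_eq_one_right this
  have h2 : g (ModularCurve.qExpand ℤ q (tSeries L)) =
      (f (expand q hq.out.ne_zero (tInv L)))⁻¹ := by
    have := congrArg (fun x => g (ModularCurve.qExpand ℤ q x)) (ofPowerSeries_tInv_mul_tSeries L)
    simp only [map_mul, map_one, FLTA.Congruence.qExpand_ofPowerSeries, hg] at this
    exact eq_inv_of_mul_eq_one_right this
  have e : φ = g.comp (Polynomial.aeval (tSeries L)).toRingHom :=
    Polynomial.ringHom_ext' (RingHom.ext_int _ _) (by simp [hφ, h1])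
  rw [e, ← h2, ← Polynomial.hom_eval₂, h.root_swap, map_zero]

end Haupt

end FLTA.Carayol
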