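import Fermat.Agent.Carayol.PointsDefs
import Fermat.Agent.Carayol.Haupt.Cusp
import Fermat.Agent.Carayol.CuspCover
import Fermat.Agent.Carayol.CuspParam
import Mathlib.FieldTheory.IsAlgClosed.Basic
import Mathlib.RingTheory.AdicCompletion.Basic

/-!
# The root at a cusp of the line
-/

set_option autoImplicit false

noncomputable section

open Polynomial IsLocalRing

namespace FLTA.Carayol

variable {W : Type} [CommRing W] [IsDomain W] [IsDiscreteValuationRing W] [CharZero W]
  [IsAdicComplete (maximalIdeal W) W] [IsAlgClosed (ResidueField W)]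

/-- The root at a finite cusp value, after `T = t₀ + r ^ e`. -/
theorem exists_localRoot_cusp {q L : ℕ} [Fact q.Prime] [NeZero L]
    [Fact (Prime (PowerSeries.C (q : W) : PowerSeries W))]
    (hW : maximalIdeal W = Ideal.span {(q : W)}) (hL : Haupt.IsHauptLevel L) (hqL : ¬ q ∣ L)
    {Φ : ℤ[X][X]} (hΦ : Haupt.IsModEq q L Φ) (t₀ : W)
    (ht₀ : ((Haupt.cuspPoly L).map (Int.castRingHom W)).eval t₀ = 0)
    {e : ℕ} (he : 0 < e) (heq : e.Coprime q) {n : ℕ} (hn : 0 < n) (hnq : n.Coprime q)
    (y : Pairs (phiAt Φ (pointHom W t₀ e))) (hy : IsUnit y)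
    (hhor : HorizAt ((pointHom W t₀ e).comp C) n y)
    (hloc : ∃ Y, Y ^ n = Pairs.map (Φ := phiAt Φ (pointHom W t₀ e)) (toHatFrac q) rfl y) :
    LocalRoot (phiAt Φ (pointHom W t₀ e)) n y := by
  have hq : q.Prime := Fact.out
  have hLW : IsUnit (L : W) :=
    isUnit_natCast_of_coprime hW (hq.coprime_iff_not_dvd.2 hqL).symm
  obtain ⟨g, g', hg0, hg1, -, hg'1, hA, hB⟩ := hΦ.exists_cuspSeries hL hqL hLW t₀ ht₀
  obtain ⟨θ, hθC, hθ⟩ := exists_cuspParam hW he heq (h := g - PowerSeries.C t₀) (by simp [hg0])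
    (by simpa [PowerSeries.coeff_C] using hg1)
  let E : PowerSeries W →+* PowerSeries W := (PowerSeries.expand e he.ne').toRingHom
  let Eq' : PowerSeries W →+* PowerSeries W := (PowerSeries.expand q hq.ne_zero).toRingHom
  let ι : PowerSeries W →+* FractionRing (PowerSeries W) := algebraMap _ _
  have hT : θ (pointMap W t₀ e X) = E g := by
    simp [pointMap, hθC, hθ, E, PowerSeries.expand_C]
  have hEE : ∀ f, Eq' (E f) = E (Eq' f) := fun f => by
    simp only [E, Eq', AlgHom.toRingHom_eq_coe, RingHom.coe_coe]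
    rw [← PowerSeries.expand_mul q hq.ne_zero e he.ne',
      ← PowerSeries.expand_mul e he.ne' q hq.ne_zero]
    congr 2
    exact mul_comm q e
  have hA' : (phiAt Φ (pointHom W t₀ e)).eval₂ (branchFrac q θ) (ι (E g')) = 0 := by
    have e1 : (branchFrac q θ).comp ((pointHom W t₀ e).comp (mapRingHom (Int.castRingHom W))) =
        (ι.comp E).comp (aeval (PowerSeries.expand q (NeZero.ne q) g)).toRingHom :=
      Polynomial.ringHom_ext' (RingHom.ext_int _ _) (by
        simp only [RingHom.comp_apply, coe_mapRingHom, map_X, pointHom, branchFrac_algebraMap,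
          AlgHom.toRingHom_eq_coe, RingHom.coe_coe, aeval_X]
        exact congrArg ι ((congrArg Eq' hT).trans (hEE g)))
    rw [eval₂_map, e1, ← RingHom.comp_apply, ← hom_eval₂, hA, map_zero]
  have hB' : (phiAt Φ (pointHom W t₀ e)).eval
      (ι (θ.symm (E (PowerSeries.expand q (NeZero.ne q) g')))) = 0 := by
    have e1 : (pointHom W t₀ e).comp (mapRingHom (Int.castRingHom W)) =
        (ι.comp (θ.symm.toRingHom.comp E)).comp (aeval g).toRingHom :=
      Polynomial.ringHom_ext' (RingHom.ext_int _ _) (by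
        simp [pointHom, ι, ← hT])
    rw [eval_map, e1, show ι (θ.symm (E _)) =
      (ι.comp (θ.symm.toRingHom.comp E)) (PowerSeries.expand q (NeZero.ne q) g') from rfl,
      ← hom_eval₂, hB, map_zero]
  refine exists_localRoot_of_branches hW hn hnq (hΦ.monic.map _)
    (by rw [hΦ.monic.natDegree_map, hΦ.natDegree]) θ hθC y hy ?_ hloc hB' hA' ?_
    (a := E g') heq ?_ (Or.inl rfl)
  · rwa [show (pointHom W t₀ e).comp C = ι.comp PowerSeries.C from
      RingHom.ext fun w => by simp [pointHom, pointMap, ι]] at hhor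
  · rw [branchFrac_algebraMap]
    intro h
    have h1 := congrArg (PowerSeries.coeff (e * 1)) (IsFractionRing.injective _ _ h)
    simp only [E, branchMap, RingHom.comp_apply, RingEquiv.toRingHom_eq_coe, RingHom.coe_coe,
      RingEquiv.apply_symm_apply, AlgHom.toRingHom_eq_coe] at h1
    rw [PowerSeries.coeff_expand_mul,
      PowerSeries.coeff_expand_of_not_dvd q hq.ne_zero _ (by
        rw [mul_one]; exact hq.coprime_iff_not_dvd.1 heq.symm)] at h1
    exact hg'1.ne_zero h1
  · have h1 : PowerSeries.coeff e (E g') = PowerSeries.coeff 1 g' := by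
      have := PowerSeries.coeff_expand_mul e he.ne' g' 1
      rwa [mul_one] at this
    rw [h1]
    exact hg'1.ne_zero

/-- The root at infinity, after `T = r ^ (-e)`. -/
theorem exists_localRoot_inf {q L : ℕ} [Fact q.Prime] [NeZero L]
    [Fact (Prime (PowerSeries.C (q : W) : PowerSeries W))]
    (hW : maximalIdeal W = Ideal.span {(q : W)}) (hL : Haupt.IsHauptLevel L) (hqL : ¬ q ∣ L)
    {Φ : ℤ[X][X]} (hΦ : Haupt.IsModEq q L Φ)
    {e : ℕ} (he : 0 < e) (heq : e.Coprime q) {n : ℕ} (hn : 0 < n) (hnq : n.Coprime q)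
    (y : Pairs (phiAt Φ (infHom W e))) (hy : IsUnit y)
    (hhor : HorizAt ((infHom W e).comp C) n y)
    (hloc : ∃ Y, Y ^ n = Pairs.map (Φ := phiAt Φ (infHom W e)) (toHatFrac q) rfl y) :
    LocalRoot (phiAt Φ (infHom W e)) n y := by
  have hq : q.Prime := Fact.out
  set h : PowerSeries W := PowerSeries.map (Int.castRingHom W) (Haupt.tInv L) with hh
  have h0 : PowerSeries.constantCoeff h = 0 := by
    rw [hh, ← PowerSeries.coeff_zero_eq_constantCoeff_apply, PowerSeries.coeff_map,
      PowerSeries.coeff_zero_eq_constantCoeff_apply, Haupt.constantCoeff_tInv, map_zero]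
  have h1 : PowerSeries.coeff 1 h = 1 := by
    rw [hh, PowerSeries.coeff_map, Haupt.coeff_one_tInv, map_one]
  obtain ⟨θ, hθC, hθ⟩ := exists_cuspParam hW he heq h0 (h1 ▸ isUnit_one)
  let E : PowerSeries W →+* PowerSeries W := (PowerSeries.expand e he.ne').toRingHom
  let ι : PowerSeries W →+* FractionRing (PowerSeries W) := algebraMap _ _
  let c : PowerSeries ℤ →+* PowerSeries W := PowerSeries.map (Int.castRingHom W)
  have hι : Function.Injective ι := IsFractionRing.injective _ _
  have hX : c PowerSeries.X ≠ 0 := by simp [c, PowerSeries.X_ne_zero]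
  have hinf : infHom W e X = (ι (PowerSeries.X ^ e))⁻¹ := by
    simp [infHom, ι, inv_pow]
  have hEE : ∀ f, PowerSeries.expand q hq.ne_zero (E f) =
      E (PowerSeries.expand q hq.ne_zero f) := fun f => by
    simp only [E, AlgHom.toRingHom_eq_coe, RingHom.coe_coe]
    rw [← PowerSeries.expand_mul q hq.ne_zero e he.ne',
      ← PowerSeries.expand_mul e he.ne' q hq.ne_zero]
    congr 2
    exact mul_comm q e
  have hA' : (phiAt Φ (infHom W e)).eval₂ (branchFrac q θ) (ι (E h))⁻¹ = 0 := by
    rw [eval₂_map]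
    refine hΦ.eval₂_tInv (ι.comp (E.comp c)) ?_ _ ?_
    · exact (map_ne_zero_iff ι hι).2 ((map_ne_zero_iff E (expand_injective e he.ne')).2 hX)
    · simp only [RingHom.comp_apply, coe_mapRingHom, map_X, hinf, map_inv₀, ι,
        branchFrac_algebraMap]
      congr 2
      simp only [branchMap, RingHom.comp_apply, RingEquiv.toRingHom_eq_coe, RingHom.coe_coe,
        AlgHom.toRingHom_eq_coe, hθ, c, PowerSeries.map_expand]
      exact hEE h
  have hB' : (phiAt Φ (infHom W e)).eval
      (ι (θ.symm (E (PowerSeries.expand q hq.ne_zero h))))⁻¹ = 0 := by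
    rw [eval_map]
    have h2 := hΦ.eval₂_tInv_swap (ι.comp ((θ.symm.toRingHom.comp E).comp c)) ?_
      ((infHom W e).comp (mapRingHom (Int.castRingHom W))) ?_
    · simpa [c, h, E, PowerSeries.map_expand] using h2
    · exact (map_ne_zero_iff ι hι).2 ((map_ne_zero_iff (θ.symm.toRingHom.comp E)
        (θ.symm.injective.comp (expand_injective e he.ne'))).2 hX)
    · simp only [RingHom.comp_apply, coe_mapRingHom, map_X, hinf]
      congr 2
      rw [show θ.symm.toRingHom (E (c (Haupt.tInv L))) = θ.symm (E h) from rfl,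
        show E h = θ (PowerSeries.X ^ e) from hθ.symm, RingEquiv.symm_apply_apply]
  refine exists_localRoot_of_branches hW hn hnq (hΦ.monic.map _)
    (by rw [hΦ.monic.natDegree_map, hΦ.natDegree]) θ hθC y hy ?_ hloc hB' hA' ?_
    (a := E h) heq ?_ (Or.inr rfl)
  · rwa [show (infHom W e).comp C = ι.comp PowerSeries.C from
      RingHom.ext fun w => by simp [infHom, ι]] at hhor
  · rw [map_inv₀, branchFrac_algebraMap]
    intro h'
    have h2 := congrArg (PowerSeries.coeff (e * 1)) (hι (inv_injective h'))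
    simp only [E, branchMap, RingHom.comp_apply, RingEquiv.toRingHom_eq_coe, RingHom.coe_coe,
      RingEquiv.apply_symm_apply, AlgHom.toRingHom_eq_coe] at h2
    rw [PowerSeries.coeff_expand_mul,
      PowerSeries.coeff_expand_of_not_dvd q hq.ne_zero _ (by
        rw [mul_one]; exact hq.coprime_iff_not_dvd.1 heq.symm), h1] at h2
    exact one_ne_zero h2
  · have h2 : PowerSeries.coeff e (E h) = PowerSeries.coeff 1 h := by
      have := PowerSeries.coeff_expand_mul e he.ne' h 1
      rwa [mul_one] at this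
    rw [h2, h1]
    exact one_ne_zero

end FLTA.Carayol
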