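import Fermat.Agent.Carayol.PointSetup

/-!
# The root at a point of the line which is not a cusp
-/

set_option autoImplicit false

noncomputable section

open Polynomial IsLocalRing

namespace FLTA.Carayol

variable {W : Type} [CommRing W] [IsDomain W] [IsDiscreteValuationRing W]

theorem constantCoeff_pointMap (t₀ : W) (p : W[X]) :
    PowerSeries.constantCoeff (pointMap W t₀ 1 p) = p.eval t₀ := by
  have : PowerSeries.constantCoeff.comp (pointMap W t₀ 1) = evalRingHom t₀ :=
    Polynomial.ringHom_ext (fun a => by simp [pointMap]) (by simp [pointMap])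
  exact RingHom.congr_fun this p

theorem pointMap_injective (t₀ : W) : Function.Injective (pointMap W t₀ 1) := by
  have h : pointMap W t₀ 1 =
      (Polynomial.coeToPowerSeries.ringHom (R := W)).comp (compRingHom (X + C t₀)) := by
    refine Polynomial.ringHom_ext (fun a => ?_) ?_ <;> simp [pointMap, add_comm]
  rw [h, RingHom.coe_comp]
  exact (Polynomial.coe_injective W).comp fun a b hab => taylor_injective t₀ (by simpa [taylor_apply] using hab)

variable [CharZero W] [IsAdicComplete (maximalIdeal W) W] [IsAlgClosed (ResidueField W)]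

/-- The root at a point of the line which is not a cusp. -/
theorem exists_localRoot_point {q L : ℕ} [Fact q.Prime] [NeZero L]
    [Fact (Prime (PowerSeries.C (q : W) : PowerSeries W))]
    (hW : maximalIdeal W = Ideal.span {(q : W)}) (hL : Haupt.IsHauptLevel L) (hqL : ¬ q ∣ L)
    {Φ : ℤ[X][X]} (hΦ : Haupt.IsModEq q L Φ) (t₀ : W)
    (ht₀ : IsUnit (((Haupt.cuspPoly L).map (Int.castRingHom W)).eval t₀))
    {n : ℕ} (hn : 0 < n) (hnq : n.Coprime q)
    (y : Pairs (phiAt Φ (pointHom W t₀ 1))) (hy : IsUnit y)
    (hhor : HorizAt ((pointHom W t₀ 1).comp C) n y)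
    (hloc : ∃ Y, Y ^ n = Pairs.map (Φ := phiAt Φ (pointHom W t₀ 1)) (toHatFrac q) rfl y) :
    LocalRoot (phiAt Φ (pointHom W t₀ 1)) n y := by
  have := isAdicComplete_series (W := W)
  have hq := (Fact.out : q.Prime)
  have : CharZero (PowerSeries W) :=
    charZero_of_injective_ringHom (f := PowerSeries.C (R := W)) PowerSeries.C_injective
  have : CharZero (FractionRing (PowerSeries W)) :=
    charZero_of_injective_ringHom (IsFractionRing.injective (PowerSeries W) _)
  set f : ℤ[X] →+* PowerSeries W := (pointMap W t₀ 1).comp (mapRingHom (Int.castRingHom W))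
    with hf
  have hfinj : Function.Injective f :=
    (pointMap_injective t₀).comp (map_injective _ Int.cast_injective)
  have hunit : IsUnit (f (Haupt.cuspPoly L)) := by
    rw [PowerSeries.isUnit_iff_constantCoeff, hf, RingHom.comp_apply, constantCoeff_pointMap]
    exact ht₀
  set g : Haupt.TRing L →+* PowerSeries W := IsLocalization.Away.lift (Haupt.cuspPoly L) hunit
    with hg
  have hgf : g.comp (Haupt.toT L) = f := IsLocalization.Away.lift_comp _ _
  have hT : g (Haupt.toT L X) = PowerSeries.C t₀ + PowerSeries.X := by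
    rw [← RingHom.comp_apply, hgf]
    simp [hf, pointMap]
  have hcq : PowerSeries.C (q : W) = (q : PowerSeries W) := map_natCast _ q
  have hqW : (q : W) ∈ maximalIdeal W := hW ▸ Ideal.mem_span_singleton_self _
  have hnW := isUnit_natCast_of_coprime hW hnq
  obtain ⟨ζ, hζ⟩ := exists_isPrimitiveRoot hnW
  set K := FractionRing (PowerSeries W)
  have hKinj : Function.Injective (algebraMap (PowerSeries W) K) := IsFractionRing.injective _ _
  have hinj : Function.Injective ((algebraMap (PowerSeries W) K).comp (g.comp (Haupt.toT L))) := by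
    rw [hgf, RingHom.coe_comp]
    exact hKinj.comp hfinj
  have hord : ∃ a : PowerSeries W, maximalIdeal (PowerSeries W) =
      Ideal.span {(q : PowerSeries W), PowerSeries.C t₀ + PowerSeries.X - a ^ q} := by
    obtain ⟨b, hb⟩ := IsAlgClosed.exists_pow_nat_eq (residue W t₀) hq.pos
    obtain ⟨a, rfl⟩ := residue_surjective b
    refine ⟨PowerSeries.C a, ?_⟩
    rw [← hcq]
    refine maximalIdeal_series_eq_span hW ?_ ?_
    · rw [← residue_eq_zero_iff]
      simp [hb]
    · simp [← map_pow, PowerSeries.coeff_C]
  have hss : (PowerSeries.C t₀ + PowerSeries.X) ^ (q * q) - (PowerSeries.C t₀ + PowerSeries.X) ∈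
        maximalIdeal (PowerSeries W) →
      maximalIdeal (PowerSeries W) = Ideal.span {(q : PowerSeries W),
        (PowerSeries.C t₀ + PowerSeries.X) ^ (q * q) - (PowerSeries.C t₀ + PowerSeries.X)} := by
    intro hmem
    rw [← hcq]
    refine maximalIdeal_series_eq_span hW ((mem_maximalIdeal_series_iff _).1 hmem) ?_
    have hq0 : residue W (q : W) = 0 := (residue_eq_zero_iff _).2 hqW
    rw [← notMem_maximalIdeal, ← residue_eq_zero_iff, map_sub, PowerSeries.coeff_one_pow, map_sub,
      map_mul, map_mul, Nat.cast_mul, map_mul, hq0]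
    simp [PowerSeries.coeff_C]
  have hconst : ∀ x : W, ((pointHom W t₀ 1).comp C) x =
      algebraMap (PowerSeries W) K (PowerSeries.C x) :=
    fun x => by simp [pointHom, pointMap, K]
  have hdiv : ∀ (F : Type) [Field F] (ψ : Pairs (phiAt Φ (pointHom W t₀ 1)) →+* F)
      (v : Valuation F (WithZero (Multiplicative ℤ))),
      (∀ r : PowerSeries W, IsUnit r → v (ψ (Pairs.ofBase _ (algebraMap _ K r))) = 1) →
      v (ψ (Pairs.ofBase _ (algebraMap _ K (q : PowerSeries W)))) = 1 →
        ∃ z, v (ψ y) = z ^ n := by
    intro F _ ψ v hu hqv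
    refine hhor F ψ v fun w hw => ?_
    obtain ⟨k, u, rfl⟩ := IsDiscreteValuationRing.eq_unit_mul_pow_irreducible hw
      ((IsDiscreteValuationRing.irreducible_iff_uniformizer _).2 hW)
    rw [hconst, map_mul, map_pow, hcq, map_mul, map_pow, map_mul, map_pow, map_mul, map_pow,
      map_mul, map_pow, hu _ (u.isUnit.map _), hqv, one_pow, one_mul]
  have hj : (toHatFrac q).comp (algebraMap (PowerSeries W) K) =
      (algebraMap _ (FractionRing (HatAt (PowerSeries.C (q : W) : PowerSeries W)))).comp
        (toHat (PowerSeries.C (q : W) : PowerSeries W)) :=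
    IsLocalization.map_comp _
  exact localRoot_of_isModEq (K := K)
    (M := FractionRing (HatAt (PowerSeries.C (q : W) : PowerSeries W))) (isReg2_series hW) hL hqL hΦ
    g hinj hT hord hss (n := n) (by simpa using hnW.map (PowerSeries.C (R := W)))
    (fun c _ => exists_pow_eq_residue_series hn c) (PowerSeries.C (q : W)) hcq (toHatFrac q) hj
    (ζ := algebraMap _ K (PowerSeries.C ζ))
    (hζ.map_of_injective (f := (algebraMap (PowerSeries W) K).comp PowerSeries.C)
      (hKinj.comp PowerSeries.C_injective))
    (Ψ := phiAt Φ (pointHom W t₀ 1)) (by rw [hgf]; rfl) y hy hdiv hloc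

end FLTA.Carayol
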