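import Fermat.Agent.Carayol.CoreLocal
import Fermat.Agent.Carayol.CoreExp
import Fermat.Agent.Carayol.CoreLift
import Fermat.Agent.Carayol.NormFix
import Fermat.Agent.Carayol.GlueCoverPhi
import Fermat.Agent.Carayol.PointFinite
import Fermat.Agent.Carayol.PointCusp

/-!
# Assembly of the algebraic main result

First over abstract fields `C` (the cover) and `L` (its field at the Gauss point), then the
points of the line.
-/

set_option autoImplicit false

noncomputable section

open Polynomial IsLocalRing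

namespace FLTA.Carayol

section Transfer

variable {P C CG L FU FM : Type} [CommRing P] [CommRing C] [CommRing CG] [CommRing L] [Field FU]
  [Field FM]

/-- Agreement only depends on the root after a map of the fields at the Gauss point. -/
theorem LocalAgree.of_ringHom {base : P →+* C} {Ψ : C[X]} {g : C →+* CG} {g' : C →+* L}
    (e : L →+* CG) (he : e.comp g' = g) {j : FU →+* FM} {β : P →+* FU} {n : ℕ} {y : Pairs Ψ}
    {Y : Pairs (Ψ.map g')} (h : LocalAgree base g' j β n y Y)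
    (heΨ : (Ψ.map g').map e = Ψ.map g) :
    LocalAgree base g j β n y (Pairs.map e heΨ Y) := by
  intro τ hτ jg hcomm
  have hcomm' : j.comp τ = (jg.comp e).comp g' := by rw [hcomm, RingHom.comp_assoc, he]
  obtain ⟨G, hG, hGY⟩ := h τ hτ (jg.comp e) hcomm'
  refine ⟨G, hG, ?_⟩
  have E : (Ψ.map g').map (jg.comp e) = (Ψ.map g).map jg := by
    rw [← Polynomial.map_map, heΨ]
  have h1 := congrArg (Pairs.cast E) hGY
  rw [Pairs.cast_map, Pairs.cast_map] at h1
  rw [h1, Pairs.map_map_apply]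

end Transfer

section Constants

theorem HorizOn.const_mul {W K : Type} [CommRing W] [CommRing K] {ι : W →+* K} {Ψ : K[X]} {n : ℕ}
    {y : Pairs Ψ} (h : HorizOn ι n y) {w : W} (hw : w ≠ 0) :
    HorizOn ι n (Pairs.ofBase Ψ (ι w) * y) := by
  intro F _ ψ v hv
  obtain ⟨z, hz⟩ := h F ψ v hv
  exact ⟨z, by rw [map_mul, map_mul, hv w hw, one_mul, hz]⟩

end Constants

variable {W : Type} [CommRing W] [IsDomain W] [IsDiscreteValuationRing W] [CharZero W]
  [IsAdicComplete (maximalIdeal W) W] [IsAlgClosed (ResidueField W)]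

/-- Over an abstract cover field `C` and its field `L` at the Gauss point: a root at the Gauss
point of a fixed power of `y`, up to a constant, with which every point agrees. -/
theorem exists_gauss_target {q L₀ n : ℕ} [Fact q.Prime] [NeZero L₀]
    [Fact (Prime (C (q : W) : W[X]))]
    (hW : maximalIdeal W = Ideal.span {(q : W)}) (hL₀ : Haupt.IsHauptLevel L₀) (hqL : ¬ q ∣ L₀)
    {Φ : ℤ[X][X]} (hΦ : Haupt.IsModEq q L₀ Φ) (hn : 0 < n) (hnq : n.Coprime q)
    {K L : Type} [Field K] [Field L] {A : Type} [CommRing A] [IsDomain A]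
    [IsDiscreteValuationRing A] [IsAdicComplete (maximalIdeal A) A] [Algebra A L]
    [IsFractionRing A L] (f : HatAt (C (q : W) : W[X]) →+* A)
    (hmax : maximalIdeal A = Ideal.span {(q : A)})
    (hpow : ∀ c : ResidueField A, c ^ q ≠ residue A (gaussCoeff f X))
    (base : W[X] →+* K) (hbase : Function.Injective (base.comp C)) (g : K →+* L)
    (hg : g.comp base = (algebraMap A L).comp (gaussCoeff f))
    (y : Pairs (phiAt Φ base)) (hy : IsUnit y) (hhor : HorizOn (base.comp C) n y)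
    (hfst : ∃ w : W, w ≠ 0 ∧ ∃ g, g ^ n = AdjoinRoot.of (phiAt Φ base) (base (C w)) *
      Pairs.normFst _ y)
    (hsnd : ∃ w : W, w ≠ 0 ∧ ∃ g, g ^ n = AdjoinRoot.of (phiAt Φ base) (base (C w)) *
      Pairs.normSnd _ y) :
    ∃ (y₂ : Pairs (phiAt Φ base)) (w : W) (Y' : Pairs ((phiAt Φ base).map g)),
      w ≠ 0 ∧ y₂ = Pairs.ofBase _ (base (C w)) * y ^ coreExp q ∧
      Y' ^ n = Pairs.map g rfl y₂ ∧
      ∀ (FU FM B : Type) [Field FU] [Field FM] [CommRing B] [IsDomain B]
        [IsDiscreteValuationRing B] [IsAdicComplete (maximalIdeal B) B] [Algebra B FM]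
        [IsFractionRing B FM] (j : FU →+* FM) (β : W[X] →+* FU) (TB : B),
        maximalIdeal B = Ideal.span {(q : B)} → algebraMap B FM TB = j (β X) →
        (∀ c : ResidueField B, c ^ q ≠ residue B TB) →
        PointRoot (β.comp C) j (phiAt Φ β) n → LocalAgree base g j β n y₂ Y' := by
  have hqp : q.Prime := Fact.out
  obtain ⟨a, ha, g₁, hg₁⟩ := hfst
  obtain ⟨b, hb, g₂, hg₂⟩ := hsnd
  have hd : (phiAt Φ base).natDegree = q + 1 := by rw [hΦ.monic.natDegree_map, hΦ.natDegree]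
  have hm : (phiAt Φ base).Monic := hΦ.monic.map _
  have hne : ∀ w : W, w ≠ 0 → base (C w) ≠ 0 := fun w hw =>
    (map_ne_zero_iff (base.comp C) hbase).2 hw
  obtain ⟨s, hN₁, hN₂⟩ := exists_exact_norms hm hd hqp.pos hn hnq (hne a ha) (hne b hb) y hy hg₁ hg₂
  obtain ⟨y₁, hy₁⟩ : ∃ y₁, y₁ =
      Pairs.ofBase (phiAt Φ base) (base (C a) ^ ((q + 1) * s)) * y ^ (q + 1) := ⟨_, rfl⟩
  rw [← hy₁] at hN₁ hN₂
  have hu₁ : IsUnit y₁ := hy₁ ▸
    ((isUnit_iff_ne_zero.2 (pow_ne_zero _ (hne a ha))).map _).mul (hy.pow _)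
  have hh₁ : HorizOn (base.comp C) n y₁ := by
    have := (hhor.pow (q + 1)).const_mul (pow_ne_zero ((q + 1) * s) ha)
    rwa [map_pow, RingHom.comp_apply, ← hy₁] at this
  have hnW := isUnit_natCast_of_coprime hW hnq
  obtain ⟨ζ, hζ⟩ := exists_isPrimitiveRoot hnW
  obtain ⟨sA, hs⟩ := exists_isGauss hL₀ hqL hΦ f hmax hpow
  have hnA : IsUnit (n : A) := by simpa using hnW.map ((gaussCoeff f).comp C)
  have hΨ : (phiAt Φ (gaussCoeff f)).map (algebraMap A L) = (phiAt Φ base).map g := by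
    rw [Polynomial.map_map, Polynomial.map_map]
    exact (congrArg (fun φ => Φ.map (φ.comp (mapRingHom (Int.castRingHom W)))) hg).symm
  obtain ⟨sL, Y₁, Y', hsL, hY₁, hY', htarget⟩ :=
    exists_target hn hnA hnq (hζ.map_of_injective hbase) hm hd g hs hΨ y₁ hu₁ hN₁ hN₂
  refine ⟨_, a ^ ((q + 1) * s * ((q - 1) * (q ^ 2 - 1))), Y', pow_ne_zero _ ha, ?_, hY', ?_⟩
  · rw [hy₁, mul_pow, ← pow_mul, coreExp, mul_assoc (q + 1) (q - 1), ← map_pow, ← pow_mul,
      map_pow C, map_pow base]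
  intro FU FM B _ _ _ _ _ _ _ _ j β TB hB hTB hpowB hroot
  exact localAgree_target base g hmax X (TA := gaussCoeff f X)
    (RingHom.congr_fun hg X).symm hs hΨ C y₁ hu₁ hh₁ sL hsL Y₁ hY₁ Y' htarget hB j β TB hTB hpowB
    (phiAt Φ β) (fun τ hτ => by rw [Polynomial.map_map, ← RingHom.comp_assoc, hτ]) hroot

section Points

variable {q L₀ n : ℕ} [Fact q.Prime] [NeZero L₀]
  [Fact (Prime (PowerSeries.C (q : W) : PowerSeries W))]
  {Φ : ℤ[X][X]}

omit [IsAdicComplete (maximalIdeal W) W] [IsAlgClosed (ResidueField W)] [Fact q.Prime]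
  [CharZero W] in
theorem maximalIdeal_hatSeries :
    maximalIdeal (HatAt (PowerSeries.C (q : W) : PowerSeries W)) =
      Ideal.span {(q : HatAt (PowerSeries.C (q : W) : PowerSeries W))} := by
  rw [maximalIdeal_hatAt]
  refine congrArg Ideal.span ?_
  exact congrArg Singleton.singleton
    (map_natCast ((toHat (PowerSeries.C (q : W) : PowerSeries W)).comp PowerSeries.C) q)

omit [IsAdicComplete (maximalIdeal W) W] [IsAlgClosed (ResidueField W)] [Fact q.Prime]
  [CharZero W] in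
theorem toHatFrac_algebraMap (z : PowerSeries W) :
    toHatFrac q (algebraMap (PowerSeries W) (FractionRing (PowerSeries W)) z) =
      algebraMap _ _ (toHat (PowerSeries.C (q : W) : PowerSeries W) z) :=
  IsLocalization.map_eq _ z

/-- Infinity has an integral coordinate in the completion. -/
theorem exists_infParam (hW : maximalIdeal W = Ideal.span {(q : W)}) {e : ℕ}
    (heq : e.Coprime q) :
    ∃ TB : HatAt (PowerSeries.C (q : W) : PowerSeries W),
      algebraMap _ (FractionRing (HatAt (PowerSeries.C (q : W) : PowerSeries W))) TB =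
        toHatFrac q (infHom W e X) ∧ ∀ c, c ^ q ≠ residue _ TB := by
  have hu : IsUnit (toHat (PowerSeries.C (q : W) : PowerSeries W) (PowerSeries.X ^ e)) := by
    refine isUnit_toHat _ fun h => ?_
    rw [C_dvd_powerSeries_iff ((IsDiscreteValuationRing.irreducible_iff_uniformizer _).2 hW),
      map_pow, PowerSeries.map_X] at h
    exact pow_ne_zero e PowerSeries.X_ne_zero h
  obtain ⟨u, hu'⟩ := hu
  refine ⟨↑u⁻¹, ?_, fun c hc => not_pow_inf hW heq c ?_⟩
  · rw [map_units_inv, hu']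
    simp [infHom, toHatFrac_algebraMap, inv_pow]
  · rw [hc, ← hu', ← map_mul, Units.inv_mul, map_one]

theorem pointRoot_point (hW : maximalIdeal W = Ideal.span {(q : W)})
    (hL₀ : Haupt.IsHauptLevel L₀) (hqL : ¬ q ∣ L₀) (hΦ : Haupt.IsModEq q L₀ Φ) (t₀ : W)
    (ht₀ : IsUnit (((Haupt.cuspPoly L₀).map (Int.castRingHom W)).eval t₀))
    (hn : 0 < n) (hnq : n.Coprime q) :
    PointRoot ((pointHom W t₀ 1).comp C) (toHatFrac q) (phiAt Φ (pointHom W t₀ 1)) n :=
  fun z hz hh hY => exists_localRoot_point hW hL₀ hqL hΦ t₀ ht₀ hn hnq z hz hh hY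

theorem pointRoot_cusp (hW : maximalIdeal W = Ideal.span {(q : W)})
    (hL₀ : Haupt.IsHauptLevel L₀) (hqL : ¬ q ∣ L₀) (hΦ : Haupt.IsModEq q L₀ Φ) (t₀ : W)
    (ht₀ : ((Haupt.cuspPoly L₀).map (Int.castRingHom W)).eval t₀ = 0) {e : ℕ} (he : 0 < e)
    (heq : e.Coprime q) (hn : 0 < n) (hnq : n.Coprime q) :
    PointRoot ((pointHom W t₀ e).comp C) (toHatFrac q) (phiAt Φ (pointHom W t₀ e)) n :=
  fun z hz hh hY => exists_localRoot_cusp hW hL₀ hqL hΦ t₀ ht₀ he heq hn hnq z hz hh hY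

theorem pointRoot_inf (hW : maximalIdeal W = Ideal.span {(q : W)})
    (hL₀ : Haupt.IsHauptLevel L₀) (hqL : ¬ q ∣ L₀) (hΦ : Haupt.IsModEq q L₀ Φ) {e : ℕ}
    (he : 0 < e) (heq : e.Coprime q) (hn : 0 < n) (hnq : n.Coprime q) :
    PointRoot ((infHom W e).comp C) (toHatFrac q) (phiAt Φ (infHom W e)) n :=
  fun z hz hh hY => exists_localRoot_inf hW hL₀ hqL hΦ he heq hn hnq z hz hh hY

end Points

end FLTA.Carayol
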