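import Fermat.Agent.Carayol.OrdOfModEq
import Fermat.Agent.Carayol.GaussRoot
import Fermat.Agent.Carayol.PointsDefs

/-!
# The branches at the Gauss point of the cover

`A` is a complete discrete valuation ring over the completion of `W[T]` at `q`, with uniformiser
`q`, in which `T` is not a `q`-th power modulo `q`.
-/

set_option autoImplicit false

noncomputable section

open Polynomial IsLocalRing

namespace FLTA.Carayol

variable {W : Type} [CommRing W] [IsDomain W] [IsDiscreteValuationRing W] [CharZero W]
  {q : ℕ} [Fact (Prime (C (q : W) : W[X]))]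

/-- A map out of the completion at the Gauss point into a domain of characteristic zero is
injective. -/
theorem injective_of_hat {S : Type*} [CommRing S] [IsDomain S] [CharZero S] (hq : q ≠ 0)
    (f : HatAt (C (q : W) : W[X]) →+* S) : Function.Injective f := by
  rw [injective_iff_map_eq_zero]
  intro x hx
  by_contra hne
  obtain ⟨k, u, rfl⟩ := exists_eq_unit_mul_pow_hat (C (q : W) : W[X]) hne
  have hπ : f (toHat (C (q : W) : W[X]) (C (q : W))) = (q : S) :=
    map_natCast ((f.comp (toHat (C (q : W) : W[X]))).comp C) q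
  rw [map_mul, (u.isUnit.map f).mul_right_eq_zero, map_pow, hπ] at hx
  exact pow_ne_zero k (Nat.cast_ne_zero.2 hq) hx

theorem not_C_dvd_of_monic {p : W[X]} (hp : p.Monic) : ¬ C (q : W) ∣ p := fun h => by
  have h1 : IsUnit (q : W) := isUnit_of_dvd_one
    (by simpa [hp.leadingCoeff] using (C_dvd_iff_dvd_coeff _ _).1 h p.natDegree)
  exact (Fact.out : Prime (C (q : W) : W[X])).not_isUnit (h1.map C)

variable {A : Type} [CommRing A]

/-- The integral coefficient map at a point with values in an algebra of the completion. -/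
abbrev gaussCoeff (f : HatAt (C (q : W) : W[X]) →+* A) : W[X] →+* A := f.comp (toHat _)

theorem isUnit_gaussCoeff (f : HatAt (C (q : W) : W[X]) →+* A) {p : W[X]}
    (hp : ¬ C (q : W) ∣ p) : IsUnit (gaussCoeff f p) :=
  (isUnit_toHat _ hp).map f

variable [IsDomain A] [IsDiscreteValuationRing A] [IsAdicComplete (maximalIdeal A) A]

/-- The branches of the modular equation at the Gauss point. -/
theorem exists_isGauss {L : ℕ} [Fact q.Prime] [NeZero L] (hL : Haupt.IsHauptLevel L)
    (hqL : ¬ q ∣ L) {Φ : ℤ[X][X]} (hΦ : Haupt.IsModEq q L Φ)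
    (f : HatAt (C (q : W) : W[X]) →+* A) (hmax : maximalIdeal A = Ideal.span {(q : A)})
    (hpow : ∀ c : ResidueField A, c ^ q ≠ residue A (gaussCoeff f X)) :
    ∃ s : RootSplit (phiAt Φ (gaussCoeff f)),
      IsGauss q (phiAt Φ (gaussCoeff f)) s (gaussCoeff f X) := by
  have hqp : q.Prime := Fact.out
  have hqA : (q : A) ≠ 0 := by
    intro h0
    rw [h0, Ideal.span_singleton_zero] at hmax
    exact IsDiscreteValuationRing.not_a_field A hmax
  have : CharZero A := by
    refine charZero_of_inj_zero fun m hm => ?_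
    by_contra hm0
    obtain ⟨k, m', hm', rfl⟩ := Nat.exists_eq_pow_mul_and_not_dvd hm0 q hqp.ne_one
    rw [Nat.cast_mul, Nat.cast_pow, mul_eq_zero] at hm
    rcases hm with hm | hm
    · exact pow_ne_zero k hqA hm
    · have hr : ((m' : ℕ) : ResidueField A) = 0 := by
        rw [← map_natCast (residue A), hm, map_zero]
      have : CharP (ResidueField A) q := (CharP.charP_iff_prime_eq_zero hqp).2 (by
        rw [← map_natCast (residue A), residue_eq_zero_iff, hmax]
        exact Ideal.mem_span_singleton_self _)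
      exact hm' ((CharP.cast_eq_zero_iff (ResidueField A) q m').1 hr)
  have hkq : CharP (ResidueField A) q := (CharP.charP_iff_prime_eq_zero hqp).2 (by
    rw [← map_natCast (residue A), residue_eq_zero_iff, hmax]
    exact Ideal.mem_span_singleton_self _)
  set cast' : ℤ[X] →+* W[X] := mapRingHom (Int.castRingHom W) with hcast
  have hu : IsUnit (((gaussCoeff f).comp cast') (Haupt.cuspPoly L)) :=
    isUnit_gaussCoeff f (not_C_dvd_of_monic ((Haupt.monic_cuspPoly L).map _))
  let g : Haupt.TRing L →+* A := IsLocalization.Away.lift (Haupt.cuspPoly L) hu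
  have hg : g.comp (Haupt.toT L) = (gaussCoeff f).comp cast' :=
    IsLocalization.Away.lift_comp (Haupt.cuspPoly L) hu
  have hgT : g (Haupt.toT L X) = gaussCoeff f X := by
    have := RingHom.congr_fun hg X
    simpa [hcast] using this
  have hinj : Function.Injective (g.comp (Haupt.toT L)) := by
    rw [hg]
    exact ((injective_of_hat hqp.ne_zero f).comp (toHat_injective _)).comp
      (map_injective _ (RingHom.injective_int _))
  obtain ⟨H, hH⟩ := hΦ.exists_kronecker hL hqL
  obtain ⟨χ, ρ, hχ, -, hK, hmod, hρ⟩ := hΦ.exists_vPoly hL hqL hH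
  have hρu : IsUnit (g ρ) := by
    rw [← notMem_maximalIdeal, ← residue_eq_zero_iff]
    refine exists_rho_ne_zero hρ hΦ ((residue A).comp g) ?_
    rw [RingHom.comp_apply, hgT]
    intro h0
    exact hpow (residue A (gaussCoeff f X) ^ q) (by rw [← pow_mul, h0])
  have hqP : Prime (q : A) :=
    ((IsDiscreteValuationRing.irreducible_iff_uniformizer _).2 hmax).prime
  have hOrd := IsModEq.isOrd_spec (K := FractionRing A) hΦ hH hχ hK hmod g hinj hqP (fun c hc => ?_) hρu
  swap
  · refine hpow (residue A c) ?_
    rw [← hgT, ← map_pow, ← sub_eq_zero, ← map_sub, residue_eq_zero_iff, hmax,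
      Ideal.mem_span_singleton]
    exact hc
  have e : specPhi g Φ = phiAt Φ (gaussCoeff f) := by rw [specPhi, hg]
  rw [hgT, e] at hOrd
  have : HenselianLocalRing A := henselianLocalRing_of_isAdicComplete
  obtain ⟨s, y₁, ψ, hx₀, hquo, hχψ, hψ, hP⟩ := hOrd.exists_rootSplit
  refine ⟨s, ?_⟩
  have hres0 : residue A (q : A) = 0 :=
    (residue_eq_zero_iff _).2 (hmax ▸ Ideal.mem_span_singleton_self _)
  have hquo' : s.quo.map (residue A) = X ^ q - C (residue A (gaussCoeff f X)) := by
    obtain ⟨r, hr⟩ := hquo
    rw [sub_eq_iff_eq_add] at hr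
    rw [hr]
    simp [Polynomial.map_add, Polynomial.map_sub, hres0]
  have hx₀' : residue A s.x₀ = residue A (gaussCoeff f X) ^ q := by
    obtain ⟨r, hr⟩ := hx₀
    rw [← map_pow, sub_eq_iff_eq_add.1 hr, map_add, map_mul, hres0, zero_mul, zero_add]
  have hdeg : (phiAt Φ (gaussCoeff f)).natDegree = q + 1 := hOrd.natDegree_eq
  have hmq : s.quo.Monic := s.monic_quo hOrd.monic (by omega)
  have hirr : Irreducible (s.quo.map (residue A)) :=
    hquo' ▸ X_pow_sub_C_irreducible_of_prime hqp hpow
  have := isDomain_adjoinRoot_of_irreducible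
    (Polynomial.Monic.irreducible_of_irreducible_map (residue A) _ hmq hirr)
  have := isLocalRing_inert hmax hmq hirr
  have := isDiscreteValuationRing_inert hmax hmq hirr
  have hmE := maximalIdeal_inert hmax hmq hirr
  rw [map_natCast] at hmE
  have hqE : Prime (q : s.E) :=
    ((IsDiscreteValuationRing.irreducible_iff_uniformizer _).2 hmE).prime
  have hsub : ¬ (q : s.E) ∣ AdjoinRoot.root s.quo - AdjoinRoot.of s.quo s.x₀ := by
    intro hd
    have hker := congrArg (fun I : Ideal s.E => AdjoinRoot.root s.quo - AdjoinRoot.of s.quo s.x₀ ∈ I)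
      (ker_residue_adjoinRoot (φ := s.quo) hmax hmq)
    simp only [map_natCast, Ideal.mem_span_singleton, RingHom.mem_ker, eq_iff_iff] at hker
    have h0 := hker.2 hd
    rw [map_sub, AdjoinRoot.map_root, AdjoinRoot.map_of, ← AdjoinRoot.mk_X, ← AdjoinRoot.mk_C,
      ← map_sub, AdjoinRoot.mk_eq_zero] at h0
    have h1 := natDegree_le_of_dvd h0 (X_sub_C_ne_zero _)
    rw [hquo', natDegree_X_pow_sub_C, natDegree_X_sub_C] at h1
    exact absurd h1 (by have := hqp.two_le; omega)
  refine
    { prime_q := hqp
      max_eq := hmax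
      monic := hOrd.monic
      natDegree_eq := hdeg
      x₀_mod := hx₀'
      quo_mod := hquo'
      not_pow := hpow
      mid := hOrd.exists_mid s hquo hx₀ hχψ hψ hP hqE hsub }

end FLTA.Carayol
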