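import Fermat.Agent.Carayol.CoreGauss
import Fermat.Agent.Carayol.GlueLine
import Mathlib.RingTheory.PowerSeries.Order
import Mathlib.FieldTheory.IsAlgClosed.Basic

/-!
# From the Gauss point of the cover to the points of the line

At a point with parameter `r` the map `W[T] → W[[r]]` extends to the completions at `q`: `T` is
not a `q`-th power in the residue field there. A map of the cover into `Frac W[[r]]` then extends
to the fields at the Gauss point, and maps integers to integers.
-/

set_option autoImplicit false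

noncomputable section

open Polynomial IsLocalRing

namespace FLTA.Carayol

variable {W : Type} [CommRing W] [IsDomain W] [IsDiscreteValuationRing W]
  {q : ℕ} [Fact q.Prime]

section Residue

variable [IsAlgClosed (ResidueField W)] [Fact (Prime (PowerSeries.C (q : W) : PowerSeries W))]

/-- No `q`-th power times `t + r ^ e` is a `q`-th power in `k[[r]]`. -/
theorem eq_zero_of_pow_eq_pow_mul {k : Type*} [Field k] [IsAlgClosed k] [CharP k q] {t : k} {e : ℕ}
    (heq : e.Coprime q) {a b : PowerSeries k}
    (h : a ^ q = b ^ q * (PowerSeries.C t + PowerSeries.X ^ e)) : b = 0 := by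
  have hq : q.Prime := Fact.out
  obtain ⟨s, rfl⟩ := IsAlgClosed.exists_pow_nat_eq t hq.pos
  by_contra hb
  have := Fact.mk hq
  have : CharP (PowerSeries k) q := charP_of_injective_ringHom PowerSeries.C_injective q
  have h' : (a - b * PowerSeries.C s) ^ q = b ^ q * PowerSeries.X ^ e := by
    rw [sub_pow_char, mul_pow, ← map_pow, h]
    ring
  have hord := congrArg PowerSeries.order h'
  rw [PowerSeries.order_mul, PowerSeries.order_X_pow, PowerSeries.order_pow,
    PowerSeries.order_pow] at hord
  obtain ⟨m, hm⟩ := ENat.ne_top_iff_exists.1 (mt PowerSeries.order_eq_top.1 hb)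
  rw [← hm] at hord
  rcases ne_or_eq (a - b * PowerSeries.C s).order ⊤ with ht | ht
  · obtain ⟨l, hl⟩ := ENat.ne_top_iff_exists.1 ht
    rw [← hl, nsmul_eq_mul, nsmul_eq_mul] at hord
    have h2 : q * l = q * m + e := by exact_mod_cast hord
    have h3 : q ∣ e := (Nat.dvd_add_right (dvd_mul_right q m)).1 (h2 ▸ dvd_mul_right q l)
    exact (hq.coprime_iff_not_dvd.1 heq.symm) h3
  · rw [ht, nsmul_eq_mul, nsmul_eq_mul, ENat.mul_top (by exact_mod_cast hq.ne_zero)] at hord
    have : ((q * m + e : ℕ) : ℕ∞) = ⊤ := by push_cast; exact hord.symm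
    exact ENat.coe_ne_top _ this

omit [IsAlgClosed (ResidueField W)] [Fact (Prime (PowerSeries.C (q : W) : PowerSeries W))] in
theorem charP_residueW (hW : maximalIdeal W = Ideal.span {(q : W)}) :
    CharP (ResidueField W) q :=
  (CharP.charP_iff_prime_eq_zero Fact.out).2 (by
    rw [← map_natCast (residue W), residue_eq_zero_iff, hW]
    exact Ideal.mem_span_singleton_self _)

omit [Fact q.Prime] [IsAlgClosed (ResidueField W)] in
/-- A `q`-th root in the residue field of the completion gives one among series. -/
theorem exists_pow_eq_mul_of_residue (hW : maximalIdeal W = Ideal.span {(q : W)})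
    {u v : PowerSeries W} {c : ResidueField (HatAt (PowerSeries.C (q : W) : PowerSeries W))}
    (hc : c ^ q * residue _ (toHat (PowerSeries.C (q : W) : PowerSeries W) v) =
      residue _ (toHat (PowerSeries.C (q : W) : PowerSeries W) u)) :
    ∃ a b : PowerSeries (ResidueField W), b ≠ 0 ∧
      a ^ q * PowerSeries.map (residue W) v = b ^ q * PowerSeries.map (residue W) u := by
  have hϖ : Irreducible (q : W) := (IsDiscreteValuationRing.irreducible_iff_uniformizer _).2 hW
  obtain ⟨x, rfl⟩ := residue_surjective c
  obtain ⟨r, s, hs, hrs⟩ := exists_residue_frac (PowerSeries.C (q : W) : PowerSeries W) x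
  refine ⟨PowerSeries.map (residue W) r, PowerSeries.map (residue W) s, ?_, ?_⟩
  · rwa [ne_eq, ← C_dvd_powerSeries_iff hϖ]
  have hrs' : residue _ (toHat (PowerSeries.C (q : W) : PowerSeries W) s) * residue _ x =
      residue _ (toHat (PowerSeries.C (q : W) : PowerSeries W) r) := by
    rw [← map_mul, ← sub_eq_zero, ← map_sub, residue_eq_zero_iff, maximalIdeal_hatAt,
      Ideal.mem_span_singleton]
    exact hrs
  have h0 : residue _ (toHat (PowerSeries.C (q : W) : PowerSeries W) (r ^ q * v - s ^ q * u)) = 0 := by
    simp only [map_sub, map_mul, map_pow, ← hrs', ← hc]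
    ring
  rw [residue_eq_zero_iff, maximalIdeal_hatAt, Ideal.mem_span_singleton] at h0
  have h1 := dvd_of_toHat_self_dvd _ h0
  rwa [C_dvd_powerSeries_iff hϖ, map_sub, sub_eq_zero, map_mul, map_mul, map_pow, map_pow] at h1

/-- `t₀ + r ^ e` is not a `q`-th power in the residue field. -/
theorem not_pow_point (hW : maximalIdeal W = Ideal.span {(q : W)}) (t₀ : W) {e : ℕ}
    (heq : e.Coprime q) (c : ResidueField (HatAt (PowerSeries.C (q : W) : PowerSeries W))) :
    c ^ q ≠ residue _ (toHat (PowerSeries.C (q : W) : PowerSeries W) (pointMap W t₀ e X)) := by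
  intro hc
  have := charP_residueW hW
  obtain ⟨a, b, hb, hab⟩ := exists_pow_eq_mul_of_residue hW (v := 1) (u := pointMap W t₀ e X)
    (c := c) (by rw [map_one, map_one, mul_one, hc])
  refine hb (eq_zero_of_pow_eq_pow_mul (a := a) (t := residue W t₀) heq ?_)
  simpa [pointMap] using hab

/-- `r ^ (-e)` is not a `q`-th power in the residue field. -/
theorem not_pow_inf (hW : maximalIdeal W = Ideal.span {(q : W)}) {e : ℕ} (heq : e.Coprime q)
    (c : ResidueField (HatAt (PowerSeries.C (q : W) : PowerSeries W))) :
    c ^ q * residue _ (toHat (PowerSeries.C (q : W) : PowerSeries W) (PowerSeries.X ^ e)) ≠ 1 := by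
  intro hc
  have := charP_residueW hW
  obtain ⟨a, b, hb, hab⟩ := exists_pow_eq_mul_of_residue hW (v := PowerSeries.X ^ e) (u := 1)
    (c := c) (by rw [map_one, map_one, hc])
  rw [map_one, mul_one, map_pow, PowerSeries.map_X] at hab
  have ha : a = 0 := eq_zero_of_pow_eq_pow_mul (t := (0 : ResidueField W)) heq
    (by rw [map_zero, zero_add, hab])
  rw [ha, zero_pow (Fact.out : q.Prime).ne_zero, zero_mul, eq_comm] at hab
  exact hb (eq_zero_of_pow_eq_zero hab)

end Residue

section Hat

variable [Fact (Prime (C (q : W) : W[X]))]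

/-- A map from `W[T]` extends to the completion at the Gauss point when `T` is not a `q`-th
power in the residue field. -/
theorem exists_hatHom [IsAlgClosed (ResidueField W)] (hW : maximalIdeal W = Ideal.span {(q : W)})
    {B : Type*} [CommRing B] [IsLocalRing B] [IsAdicComplete (maximalIdeal B) B]
    (b : W[X] →+* B) (hq : (q : B) ∈ maximalIdeal B)
    (hpow : ∀ c : ResidueField B, c ^ q ≠ residue B (b X)) :
    ∃ F : HatAt (C (q : W) : W[X]) →+* B, F.comp (toHat _) = b := by
  have hqp : q.Prime := Fact.out
  refine exists_hat_lift _ b ?_ fun p hp => ?_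
  · rwa [map_natCast C, map_natCast b]
  rw [← notMem_maximalIdeal, ← residue_eq_zero_iff]
  have hϖ : Irreducible (q : W) := (IsDiscreteValuationRing.irreducible_iff_uniformizer _).2 hW
  have hloc : IsLocalHom (b.comp C) := ⟨fun w hw => by
    by_contra hnu
    rw [← mem_nonunits_iff, ← IsLocalRing.mem_maximalIdeal, hW, Ideal.mem_span_singleton] at hnu
    obtain ⟨w', rfl⟩ := hnu
    rw [map_mul, map_natCast] at hw
    exact (IsLocalRing.mem_maximalIdeal _).1 hq (isUnit_of_mul_isUnit_left hw)⟩
  set ι := ResidueField.map (b.comp C) with hι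
  intro h0
  have hp0 : p.map (residue W) ≠ 0 := by rwa [ne_eq, ← C_dvd_polynomial_iff hϖ]
  have heval : (p.map (residue W)).eval₂ ι (residue B (b X)) = 0 := by
    rw [eval₂_map]
    have e : ((residue B).comp b) =
        eval₂RingHom (ι.comp (residue W)) (residue B (b X)) := by
      refine Polynomial.ringHom_ext (fun w => ?_) ?_
      · rw [RingHom.comp_apply, coe_eval₂RingHom, eval₂_C, RingHom.comp_apply, hι,
          ResidueField.map_residue, RingHom.comp_apply]
      · rw [RingHom.comp_apply, coe_eval₂RingHom, eval₂_X]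
    rw [← h0]
    exact (RingHom.congr_fun e p).symm
  have hd : ((p.map (residue W)).map ι).eval (residue B (b X)) = 0 := by rwa [eval_map]
  have hsplit := IsAlgClosed.splits (p.map (residue W))
  rw [hsplit.eq_prod_roots, Polynomial.map_mul, eval_mul, map_C, eval_C, mul_eq_zero,
    Polynomial.map_multiset_prod, Polynomial.eval_multiset_prod, Multiset.prod_eq_zero_iff] at hd
  rcases hd with hd | hd
  · exact leadingCoeff_ne_zero.2 hp0 ((map_eq_zero_iff _ ι.injective).1 hd)
  simp only [Multiset.map_map, Multiset.mem_map, Function.comp_apply, Polynomial.map_sub, map_X,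
    map_C, eval_sub, eval_X, eval_C, sub_eq_zero] at hd
  obtain ⟨c, -, hcB⟩ := hd
  obtain ⟨d, rfl⟩ := IsAlgClosed.exists_pow_nat_eq c hqp.pos
  exact hpow (ι d) (by rw [← map_pow, ← hcB])

end Hat

section Integers

variable {A B : Type*} [CommRing A] [IsLocalRing A] [IsAdicComplete (maximalIdeal A) A]
  [CommRing B] [IsDomain B] [IsDiscreteValuationRing B] {L : Type*} [Field L] [Algebra B L]
  [IsFractionRing B L]

/-- A complete local ring with `q` in the maximal ideal maps into the integers of a discrete
valuation ring with uniformiser `q`. -/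
theorem exists_integral_map (hqA : (q : A) ∈ maximalIdeal A)
    (hB : maximalIdeal B = Ideal.span {(q : B)}) (j : A →+* L) :
    ∃ j' : A →+* B, (algebraMap B L).comp j' = j := by
  have hq : q.Prime := Fact.out
  have := henselianLocalRing_of_isAdicComplete (B := A)
  have hirr : Irreducible (q : B) := (IsDiscreteValuationRing.irreducible_iff_uniformizer _).2 hB
  have hinjB := IsFractionRing.injective B L
  have hq0 : algebraMap B L (q : B) ≠ 0 := (map_ne_zero_iff _ hinjB).2 hirr.ne_zero
  -- units congruent to one go to units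
  have hunit : ∀ x : A, ∃ b : B, algebraMap B L b = j ((q : A) * x) := by
    intro x
    suffices h : ∃ b : B, algebraMap B L b = j (1 + (q : A) * x) by
      obtain ⟨b, hb⟩ := h
      exact ⟨b - 1, by rw [map_sub, map_one, hb, map_add, map_one]; ring⟩
    have hz : IsUnit (1 + (q : A) * x) := by
      refine notMem_maximalIdeal.1 fun hm => ?_
      have h1 := Ideal.sub_mem _ hm (Ideal.mul_mem_right x _ hqA)
      rw [add_sub_cancel_right] at h1
      exact (maximalIdeal.isMaximal A).ne_top ((Ideal.eq_top_iff_one _).2 h1)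
    set z := j (1 + (q : A) * x) with hz'
    have hz0 : z ≠ 0 := (hz.map j).ne_zero
    obtain ⟨b, hb⟩ | ⟨b, hb⟩ :=
      ValuationRing.isInteger_or_isInteger B z
    · exact ⟨b, hb⟩
    · have hb0 : b ≠ 0 := fun h0 => inv_ne_zero hz0 (by rw [← hb, h0, map_zero])
      obtain ⟨k, u, hku⟩ := IsDiscreteValuationRing.eq_unit_mul_pow_irreducible hb0 hirr
      rcases Nat.eq_zero_or_pos k with rfl | hk
      · refine ⟨↑u⁻¹, ?_⟩
        rw [map_units_inv, ← inv_inv z, ← hb, hku, pow_zero, mul_one]
      · exfalso
        obtain ⟨ℓ, hℓk, hℓ⟩ := Nat.exists_infinite_primes (k + q + 1)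
        have hℓA : IsUnit (ℓ : A) := by
          refine notMem_maximalIdeal.1 fun hm => ?_
          obtain ⟨s, t, hst⟩ :=
            Nat.Coprime.isCoprime ((Nat.coprime_primes hq hℓ).2 (by omega))
          have h1 : ((s * (q : ℤ) + t * (ℓ : ℤ) : ℤ) : A) ∈ maximalIdeal A := by
            push_cast
            exact add_mem (Ideal.mul_mem_left _ _ hqA) (Ideal.mul_mem_left _ _ hm)
          rw [hst, Int.cast_one] at h1
          exact (maximalIdeal.isMaximal A).ne_top ((Ideal.eq_top_iff_one _).2 h1)
        have hres : (1 : ResidueField A) ^ ℓ = residue A (1 + (q : A) * x) := by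
          rw [one_pow, map_add, map_one,
            (residue_eq_zero_iff _).2 (Ideal.mul_mem_right x _ hqA), add_zero]
        obtain ⟨w, hw⟩ := exists_pow_eq_of_residue hℓA hz hres
        have hbw : algebraMap B L b = ((j w)⁻¹) ^ ℓ := by rw [hb, hz', ← hw, map_pow, inv_pow]
        obtain ⟨w', hw'⟩ : IsLocalization.IsInteger B ((j w)⁻¹) :=
          IsIntegrallyClosed.isIntegral_iff.1 (IsIntegral.of_pow hℓ.pos
            (hbw ▸ isIntegral_algebraMap))
        have hb' : b = w' ^ ℓ := hinjB (by rw [map_pow, hw', hbw])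
        have hw0 : w' ≠ 0 := fun h0 => hb0 (by rw [hb', h0, zero_pow hℓ.ne_zero])
        obtain ⟨i, u', hiu⟩ := IsDiscreteValuationRing.eq_unit_mul_pow_irreducible hw0 hirr
        rw [hku, hiu, mul_pow, ← pow_mul, ← Units.val_pow_eq_pow_val] at hb'
        have := IsDiscreteValuationRing.unit_mul_pow_congr_pow hirr hirr _ _ _ _ hb'
        rcases Nat.eq_zero_or_pos i with rfl | hi
        · omega
        · nlinarith [Nat.le_mul_of_pos_left ℓ hi]
  have hint : ∀ a : A, ∃ b : B, algebraMap B L b = j a := by
    intro a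
    obtain ⟨b, hb⟩ | ⟨b, hb⟩ := ValuationRing.isInteger_or_isInteger B (j a)
    · exact ⟨b, hb⟩
    by_cases hbu : IsUnit b
    · obtain ⟨u, rfl⟩ := hbu
      exact ⟨↑u⁻¹, by rw [map_units_inv, hb, inv_inv]⟩
    rcases eq_or_ne (j a) 0 with h0 | h0
    · exact ⟨0, by rw [map_zero, h0]⟩
    exfalso
    obtain ⟨c, hc⟩ := hunit (a * a)
    rw [← mem_nonunits_iff, ← IsLocalRing.mem_maximalIdeal, hB, Ideal.mem_span_singleton] at hbu
    obtain ⟨b', rfl⟩ := hbu
    have hja : j a * algebraMap B L ((q : B) * b') = 1 := by rw [hb, mul_inv_cancel₀ h0]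
    have h1 : algebraMap B L (c * (b' * b') * (q : B)) = algebraMap B L 1 := by
      have e : algebraMap B L (c * (b' * b') * (q : B)) =
          (j a * algebraMap B L ((q : B) * b')) * (j a * algebraMap B L ((q : B) * b')) := by
        simp only [map_mul, map_natCast, hc]
        ring
      rw [e, hja, one_mul, map_one]
    exact hirr.not_isUnit (IsUnit.of_mul_eq_one_right _ (hinjB h1))
  choose g hg using hint
  refine ⟨{ toFun := g, map_one' := ?_, map_mul' := ?_, map_zero' := ?_, map_add' := ?_ },
    RingHom.ext hg⟩ <;> intros <;> apply hinjB <;> simp [hg]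

end Integers

end FLTA.Carayol
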