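import Fermat.Agent.Carayol.GlueCover

/-!
# Gluing on the cover of the line, in terms of the cover algebra

The form consumed by the assembly: the root over the completion at the Gauss point is given by a
map `g` out of the cover algebra, the local roots by maps `τ` into the fields at the points.
-/

set_option autoImplicit false

noncomputable section

open Polynomial IsLocalRing

namespace FLTA.Carayol

theorem Pairs.map_map_congr {A B B' D : Type*} [CommRing A] [CommRing B] [CommRing B']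
    [CommRing D] {Φ : A[X]} {Ψ : B[X]} {Ψ' : B'[X]} {Θ : D[X]} {f : A →+* B} {g : B →+* D}
    {f' : A →+* B'} {g' : B' →+* D} (h₁ : Φ.map f = Ψ) (h₂ : Ψ.map g = Θ)
    (h₁' : Φ.map f' = Ψ') (h₂' : Ψ'.map g' = Θ) (h : g.comp f = g'.comp f') (z : Pairs Φ) :
    Pairs.map g h₂ (Pairs.map f h₁ z) = Pairs.map g' h₂' (Pairs.map f' h₁' z) := by
  suffices e : (Pairs.map g h₂).comp (Pairs.map f h₁) =
      (Pairs.map g' h₂').comp (Pairs.map f' h₁') from RingHom.congr_fun e z
  refine Pairs.ringHom_ext (RingHom.ext fun a => ?_) (by simp) (by simp)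
  simp only [RingHom.comp_apply, Pairs.map_ofBase]
  exact congrArg _ (RingHom.congr_fun h a)

theorem Pairs.map_id_map {A B : Type*} [CommRing A] [CommRing B] {Φ : A[X]} {Θ : B[X]}
    (f : A →+* B) (h₂ : (Φ.map f).map (RingHom.id B) = Θ) (h : Φ.map f = Θ) (z : Pairs Φ) :
    Pairs.map (RingHom.id B) h₂ (Pairs.map f rfl z) = Pairs.map f h z := by
  subst h
  suffices e : (Pairs.map (RingHom.id B) h₂).comp (Pairs.map f rfl) = Pairs.map f rfl from
    RingHom.congr_fun e z
  exact Pairs.ringHom_ext (RingHom.ext fun a => by simp) (by simp) (by simp)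

/-- At the parametrisation `β`: for every map of the cover to the point and every compatible map
of the Gauss field there is a root restricting to `Y`. -/
def LocalAgree {P C CG FU FM : Type} [CommRing P] [CommRing C] [CommRing CG] [Field FU] [Field FM]
    (base : P →+* C) {Ψ : C[X]} (g : C →+* CG) (j : FU →+* FM) (β : P →+* FU) (n : ℕ)
    (y : Pairs Ψ) (Y : Pairs (Ψ.map g)) : Prop :=
  ∀ (τ : C →+* FU), τ.comp base = β → ∀ (jg : CG →+* FM) (h : j.comp τ = jg.comp g),
    ∃ G : Pairs (Ψ.map τ), G ^ n = Pairs.map τ rfl y ∧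
      Pairs.map j (Ψ := (Ψ.map g).map jg)
        (by rw [Polynomial.map_map, Polynomial.map_map, h]) G = Pairs.map jg rfl Y

section Field

variable {P FH FU FM KT : Type} [CommRing P] [IsDomain P] [Field FH] [Field FU] [Field FM]
  [Field KT] [Algebra P KT] [IsFractionRing P KT] {Q Φp : P[X]}

/-- Denominators are cleared. -/
theorem exists_eMap_eq_mul_pow (hQ : Q.Monic) (hQd : 0 < Q.natDegree) (hΦ : Φp.Monic)
    (hΦd : 0 < Φp.natDegree) (y : EAlg Q Φp (algebraMap P KT)) {n : ℕ} (hn : n ≠ 0) :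
    ∃ (r : P) (y₀ : EAlg Q Φp (RingHom.id P)), r ≠ 0 ∧
      eMap Q Φp (RingHom.id P) (algebraMap P KT) (RingHom.comp_id _) y₀ =
        y * algebraMap KT _ (algebraMap P KT r) ^ n := by
  classical
  obtain ⟨e₀, he₀⟩ := exists_eBasis (RingHom.id P) hQ hQd hΦ hΦd
  obtain ⟨eT, heT⟩ := exists_eBasis (algebraMap P KT) hQ hQd hΦ hΦd
  obtain ⟨⟨r, hr⟩, hint⟩ := IsLocalization.exist_integer_multiples (nonZeroDivisors P)
    Finset.univ (fun k => eT.repr y k)
  choose c hc using fun k => hint k (Finset.mem_univ k)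
  refine ⟨r, (∑ k, c k • e₀ k) * algebraMap P _ (r ^ (n - 1)), nonZeroDivisors.ne_zero hr, ?_⟩
  have h1 : eMap Q Φp (RingHom.id P) (algebraMap P KT) (RingHom.comp_id _) (∑ k, c k • e₀ k) =
      y * algebraMap KT _ (algebraMap P KT r) := by
    refine eT.repr.injective (Finsupp.ext fun k => ?_)
    rw [repr_map_of_basis e₀ eT (eMap_algebraMap Q Φp _ _ _)
      (fun l => by rw [he₀, heT, eMap_eMon]), congrFun (e₀.repr_sum_self _) k, hc k, mul_comm y,
      ← Algebra.smul_def, map_smul, Finsupp.smul_apply]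
    simp [Algebra.smul_def]
  obtain ⟨m, rfl⟩ := Nat.exists_eq_succ_of_ne_zero hn
  rw [map_mul, h1, eMap_algebraMap, mul_assoc, ← map_mul, ← map_pow]
  congr 2
  rw [map_pow, Nat.succ_sub_one, pow_succ']

variable {γ : P →+* FH} {j : FU →+* FM} {β : P →+* FU}

omit [IsDomain P] in
/-- From the cover algebra to the monomial model, at one parametrisation. -/
theorem LocalAgree.localRootsAt {r : P} {n : ℕ}
    (y : EAlg Q Φp (algebraMap P KT)) {y₀ : EAlg Q Φp (RingHom.id P)}
    (hy₀ : eMap Q Φp (RingHom.id P) (algebraMap P KT) (RingHom.comp_id _) y₀ =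
        y * algebraMap KT _ (algebraMap P KT r) ^ n)
    (hβ : Function.Injective β) (hsplit : ∃ ρ : Fin Q.natDegree → FU, Function.Injective ρ ∧
      Q.map β = ∏ J, (X - C (ρ J)))
    (g : AdjoinRoot (Q.map (algebraMap P KT)) →+* AdjoinRoot (Q.map γ))
    (hg : g.comp ((AdjoinRoot.of _).comp (algebraMap P KT)) = (AdjoinRoot.of _).comp γ)
    (hgr : g (AdjoinRoot.root _) = AdjoinRoot.root _)
    (hΨ : (coverPoly Q Φp (algebraMap P KT)).map g = coverPoly Q Φp γ)
    (Y : Pairs ((coverPoly Q Φp (algebraMap P KT)).map g))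
    (h : LocalAgree ((AdjoinRoot.of _).comp (algebraMap P KT)) g j β n y Y) :
    LocalRootsAt γ j β n y₀
      (Pairs.map (RingHom.id _) (by rw [Polynomial.map_id, hΨ]) Y *
        algebraMap FH (EAlg Q Φp γ) (γ r)) := by
  intro Φf hΦf
  obtain ⟨ρ, hρi, hprod⟩ := hsplit
  have hρ : ∀ J, Q.eval₂ β (ρ J) = 0 := fun J => by
    rw [← eval_map, hprod, eval_prod]
    exact Finset.prod_eq_zero (Finset.mem_univ J) (by simp)
  have hρ' : ∀ J, Q.eval₂ (j.comp β) (j (ρ J)) = 0 := fun J => by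
    rw [← hom_eval₂, hρ J, map_zero]
  refine ⟨ρ, hρ, hρ', hρi, fun J => ?_⟩
  let i : KT →+* FU := IsFractionRing.lift hβ
  have hi : i.comp (algebraMap P KT) = β :=
    RingHom.ext fun x => IsFractionRing.lift_algebraMap hβ x
  let τ : AdjoinRoot (Q.map (algebraMap P KT)) →+* FU :=
    AdjoinRoot.lift i (ρ J) (by rw [eval₂_map, hi]; exact hρ J)
  have hτ : τ.comp ((AdjoinRoot.of _).comp (algebraMap P KT)) = β := by
    rw [← RingHom.comp_assoc, AdjoinRoot.lift_comp_of, hi]
  let jg : AdjoinRoot (Q.map γ) →+* FM :=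
    AdjoinRoot.lift Φf (j (ρ J)) (by rw [eval₂_map, hΦf]; exact hρ' J)
  have hcomm : j.comp τ = jg.comp g := by
    refine AdjoinRoot.ringHom_ext ?_ ?_
    · refine IsLocalization.ringHom_ext (nonZeroDivisors P) (RingHom.ext fun x => ?_)
      have e1 := RingHom.congr_fun hτ x
      have e2 := RingHom.congr_fun hg x
      have e3 := RingHom.congr_fun hΦf x
      simp only [RingHom.comp_apply] at e1 e2 e3 ⊢
      rw [e1, e2]
      simp only [jg, AdjoinRoot.lift_of]
      exact e3.symm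
    · simp [τ, jg, hgr]
  obtain ⟨G, hG, hGY⟩ := h τ hτ jg hcomm
  have hΨτ : (coverPoly Q Φp (algebraMap P KT)).map τ = Φp.map β := by
    rw [coverPoly, Polynomial.map_map, hτ]
  refine ⟨Pairs.map (RingHom.id FU) (by rw [Polynomial.map_id, hΨτ]) G * Pairs.ofBase _ (β r),
    ?_, ?_⟩
  · have e1 : eEval Q Φp (RingHom.id P) β (RingHom.comp_id _) (hρ J) y₀ =
        Pairs.map τ hΨτ (eMap Q Φp (RingHom.id P) (algebraMap P KT) (RingHom.comp_id _) y₀) := by
      refine (RingHom.congr_fun (f := (Pairs.map τ hΨτ).comp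
        (eMap Q Φp (RingHom.id P) (algebraMap P KT) (RingHom.comp_id _))) ?_ y₀).symm
      refine Pairs.ringHom_ext ?_ (by simp [eMap, eEval]) (by simp [eMap, eEval])
      refine AdjoinRoot.ringHom_ext (RingHom.ext fun x => ?_) ?_
      · simpa [eMap, eEval] using congrArg (Pairs.ofBase (Φp.map β)) (RingHom.congr_fun hτ x)
      · simp [eMap, eEval, τ]
    rw [e1, hy₀, mul_pow, map_mul, map_pow, ← map_pow (Pairs.map (RingHom.id FU) _), hG]
    congr 1
    · exact Pairs.map_id_map τ _ hΨτ y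
    · rw [algebraMap_eAlg, Pairs.map_ofBase]
      congr 2
      exact (RingHom.congr_fun hτ r).symm
  · have hB : Φp.map (j.comp β) = ((coverPoly Q Φp (algebraMap P KT)).map g).map jg := by
      rw [Polynomial.map_map, ← hcomm, ← hτ, coverPoly, Polynomial.map_map, RingHom.comp_assoc]
    rw [map_mul, map_mul, Pairs.map_ofBase, eEval_algebraMap]
    congr 1
    · have h1 := congrArg (Pairs.map (RingHom.id FM)
        (by rw [Polynomial.map_id, hB] :
          (((coverPoly Q Φp (algebraMap P KT)).map g).map jg).map (RingHom.id FM) =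
            Φp.map (j.comp β))) hGY
      rw [Pairs.map_map_congr _ _ (f' := RingHom.id FU) (g' := j) (by rw [Polynomial.map_id, hΨτ])
        (Polynomial.map_map _ _ _) (by simp)] at h1
      rw [h1, eEval]
      exact Pairs.map_map_congr _ _ _ _ (by simp [jg]) Y
    · exact congrArg _ (RingHom.congr_fun hΦf r).symm

/-- The scaled root over the Gauss field of the monomial model, with all its local properties. -/
theorem exists_scaled_root {r : P} {n : ℕ} (y : EAlg Q Φp (algebraMap P KT))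
    {y₀ : EAlg Q Φp (RingHom.id P)}
    (hy₀ : eMap Q Φp (RingHom.id P) (algebraMap P KT) (RingHom.comp_id _) y₀ =
        y * algebraMap KT _ (algebraMap P KT r) ^ n)
    (g : AdjoinRoot (Q.map (algebraMap P KT)) →+* AdjoinRoot (Q.map γ))
    (hg : g.comp ((AdjoinRoot.of _).comp (algebraMap P KT)) = (AdjoinRoot.of _).comp γ)
    (hgr : g (AdjoinRoot.root _) = AdjoinRoot.root _)
    (Y : Pairs ((coverPoly Q Φp (algebraMap P KT)).map g)) (hY : Y ^ n = Pairs.map g rfl y) :
    ∃ Y₀ : EAlg Q Φp γ, Y₀ ^ n = eMap Q Φp (RingHom.id P) γ (RingHom.comp_id _) y₀ ∧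
      ∀ β : P →+* FU, Function.Injective β →
        (∃ ρ : Fin Q.natDegree → FU, Function.Injective ρ ∧ Q.map β = ∏ J, (X - C (ρ J))) →
        LocalAgree ((AdjoinRoot.of _).comp (algebraMap P KT)) g j β n y Y →
        LocalRootsAt γ j β n y₀ Y₀ := by
  have hΨg : (coverPoly Q Φp (algebraMap P KT)).map g = coverPoly Q Φp γ := by
    rw [coverPoly, coverPoly, Polynomial.map_map, hg]
  refine ⟨Pairs.map (RingHom.id _) (by rw [Polynomial.map_id, hΨg]) Y *
    algebraMap FH (EAlg Q Φp γ) (γ r), ?_,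
    fun β hβ hs h => h.localRootsAt y hy₀ hβ hs g hg hgr hΨg Y⟩
  have e1 : eMap Q Φp (RingHom.id P) γ (RingHom.comp_id _) y₀ =
      Pairs.map g hΨg (eMap Q Φp (RingHom.id P) (algebraMap P KT) (RingHom.comp_id _) y₀) := by
    refine (RingHom.congr_fun (f := (Pairs.map g hΨg).comp
      (eMap Q Φp (RingHom.id P) (algebraMap P KT) (RingHom.comp_id _))) ?_ y₀).symm
    refine Pairs.ringHom_ext ?_ (by simp [eMap]) (by simp [eMap])
    refine AdjoinRoot.ringHom_ext (RingHom.ext fun x => ?_) ?_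
    · simpa [eMap] using congrArg (Pairs.ofBase (coverPoly Q Φp γ)) (RingHom.congr_fun hg x)
    · simp [eMap, hgr]
  rw [e1, hy₀, mul_pow, map_mul, map_pow, ← map_pow (Pairs.map (RingHom.id _) _), hY]
  congr 1
  · exact Pairs.map_id_map g _ hΨg y
  · rw [algebraMap_eAlg, algebraMap_eAlg, Pairs.map_ofBase]
    congr 2
    exact (RingHom.congr_fun hg r).symm

end Field

variable {W : Type} [CommRing W] [IsDomain W] [IsDiscreteValuationRing W]
  [IsAdicComplete (maximalIdeal W) W] [IsAlgClosed (ResidueField W)] {ϖ : W}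
  [Fact (Prime (C ϖ : W[X]))] [Fact (Prime (PowerSeries.C ϖ : PowerSeries W))]
  {LH LQ Lu KT : Type} [Field LH] [Algebra (HatAt (C ϖ : W[X])) LH]
  [IsFractionRing (HatAt (C ϖ : W[X])) LH]
  [Field LQ] [Algebra (HatAt (PowerSeries.C ϖ : PowerSeries W)) LQ]
  [IsFractionRing (HatAt (PowerSeries.C ϖ : PowerSeries W)) LQ]
  [Field Lu] [Algebra (PowerSeries W) Lu] [IsFractionRing (PowerSeries W) Lu]
  [Field KT] [CharZero KT] [Algebra W[X] KT] [IsFractionRing W[X] KT]

omit [IsDiscreteValuationRing W] [IsAdicComplete (maximalIdeal W) W]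
  [IsAlgClosed (ResidueField W)] [Fact (Prime (C ϖ : W[X]))]
  [Fact (Prime (PowerSeries.C ϖ : PowerSeries W))] in
theorem evInfField_injective {e : ℕ} (he : 0 < e) :
    Function.Injective (evInfField (W := W) Lu e) := by
  rw [injective_iff_map_eq_zero]
  intro p hp
  have h := pow_mul_evInfField (W := W) (Lu := Lu) e p.natDegree p le_rfl
  rw [hp, mul_zero, eq_comm, map_eq_zero_iff _ (IsFractionRing.injective (PowerSeries W) Lu),
    Polynomial.coe_eq_zero_iff, map_eq_zero_iff _ (expand_injective he)] at h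
  exact reflect_eq_zero_iff.1 h

omit [IsDiscreteValuationRing W] [IsAdicComplete (maximalIdeal W) W]
  [IsAlgClosed (ResidueField W)] [Fact (Prime (C ϖ : W[X]))]
  [Fact (Prime (PowerSeries.C ϖ : PowerSeries W))] in
theorem evPtField_injective (t₀ : W) {e : ℕ} (he : 0 < e) :
    Function.Injective ((algebraMap (PowerSeries W) Lu).comp (evPt t₀ e)) :=
  (IsFractionRing.injective (PowerSeries W) Lu).comp (evPt_injective t₀ he)

/-- **Gluing on the cover.** -/
theorem exists_root_of_local_cover (hϖ : Irreducible ϖ) {Q Φp : W[X][X]}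
    (hQ : Q.Monic) (hQd : 0 < Q.natDegree) (hΦ : Φp.Monic) (hΦd : 0 < Φp.natDegree)
    (hQs : (Q.map (algebraMap W[X] KT)).Separable)
    (hΦs : (Φp.map (algebraMap W[X] KT)).Separable) (j : Lu →+* LQ)
    (hj : ∀ f, j (algebraMap (PowerSeries W) Lu f) =
      algebraMap _ LQ (toHat (PowerSeries.C ϖ : PowerSeries W) f))
    {Ψ : (AdjoinRoot (Q.map (algebraMap W[X] KT)))[X]}
    (hΨ : Ψ = coverPoly Q Φp (algebraMap W[X] KT)) {n : ℕ} (hn : n ≠ 0)
    (g : AdjoinRoot (Q.map (algebraMap W[X] KT)) →+*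
      AdjoinRoot (Q.map ((algebraMap _ LH).comp (toHat (C ϖ : W[X])))))
    (hg : g.comp ((AdjoinRoot.of _).comp (algebraMap W[X] KT)) =
      (AdjoinRoot.of _).comp ((algebraMap _ LH).comp (toHat (C ϖ : W[X]))))
    (hgr : g (AdjoinRoot.root _) = AdjoinRoot.root _)
    (y : Pairs Ψ) (Y : Pairs (Ψ.map g)) (hY : Y ^ n = Pairs.map g rfl y)
    (hpt : ∀ c : ResidueField W, ∃ (t₀ : W) (e : ℕ), residue W t₀ = c ∧ 0 < e ∧
      (∃ ρ : Fin Q.natDegree → Lu, Function.Injective ρ ∧
        Q.map ((algebraMap (PowerSeries W) Lu).comp (evPt t₀ e)) = ∏ J, (X - C (ρ J))) ∧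
      LocalAgree ((AdjoinRoot.of _).comp (algebraMap W[X] KT)) g j
        ((algebraMap (PowerSeries W) Lu).comp (evPt t₀ e)) n y Y)
    (hinf : ∃ e : ℕ, 0 < e ∧
      (∃ ρ : Fin Q.natDegree → Lu, Function.Injective ρ ∧
        Q.map (evInfField (W := W) Lu e) = ∏ J, (X - C (ρ J))) ∧
      LocalAgree ((AdjoinRoot.of _).comp (algebraMap W[X] KT)) g j
        (evInfField (W := W) Lu e) n y Y) :
    ∃ Z : Pairs Ψ, Z ^ n = y := by
  subst hΨ
  obtain ⟨r, y₀, hr, hy₀⟩ := exists_eMap_eq_mul_pow hQ hQd hΦ hΦd y hn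
  obtain ⟨Y₀, hY₀, hloc⟩ := exists_scaled_root (j := j) y hy₀ g hg hgr Y hY
  obtain ⟨Z, hZ⟩ := exists_root_of_local_eAlg (KT := KT) hϖ hQ hQd hΦ hΦd hQs hΦs j hj hn y₀ Y₀
    hY₀
    (fun c => by
      obtain ⟨t₀, e, hc, he, hs, h⟩ := hpt c
      exact ⟨t₀, e, hc, he, hloc _ (evPtField_injective t₀ he) hs h⟩)
    (by
      obtain ⟨e, he, hs, h⟩ := hinf
      exact ⟨e, he, hloc _ (evInfField_injective he) hs h⟩)
  have hu : IsUnit (algebraMap KT (EAlg Q Φp (algebraMap W[X] KT)) (algebraMap W[X] KT r)) :=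
    (isUnit_iff_ne_zero.2
      ((map_ne_zero_iff _ (IsFractionRing.injective W[X] KT)).2 hr)).map _
  refine ⟨Z * ↑hu.unit⁻¹, ?_⟩
  rw [mul_pow, hZ, hy₀, mul_assoc, ← mul_pow, IsUnit.mul_val_inv, one_pow, mul_one]

end FLTA.Carayol
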