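import Fermat.Agent.Carayol.CoreTarget
import Fermat.Agent.Carayol.CorePoint
import Fermat.Agent.Carayol.GlueCoverRoot

/-!
# Agreement with the target at a point

Everything is abstract: `C` is the cover field over the line with coordinate ring `P`, `L` its
field at the Gauss point, `β` a parametrisation into `FU` and `B` the completion of the local ring
at the point, with fractions `FM`.
-/

set_option autoImplicit false

noncomputable section

open Polynomial IsLocalRing

namespace FLTA.Carayol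

/-- Valuations trivial on the constants, abstract form. -/
def HorizOn {W K : Type} [CommRing W] [CommRing K] (ι : W →+* K) {Ψ : K[X]} (n : ℕ)
    (y : Pairs Ψ) : Prop :=
  ∀ (F : Type) [Field F] (ψ : Pairs Ψ →+* F)
    (v : Valuation F (WithZero (Multiplicative ℤ))),
    (∀ w : W, w ≠ 0 → v (ψ (Pairs.ofBase Ψ (ι w))) = 1) → ∃ z, v (ψ y) = z ^ n

theorem HorizOn.map {W K K' : Type} [CommRing W] [CommRing K] [CommRing K'] {ι : W →+* K}
    {Ψ : K[X]} {n : ℕ} {y : Pairs Ψ} (h : HorizOn ι n y) (f : K →+* K') {Ψ' : K'[X]}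
    (hf : Ψ.map f = Ψ') : HorizOn (f.comp ι) n (Pairs.map f hf y) := by
  intro F _ ψ v hv
  exact h F (ψ.comp (Pairs.map f hf)) v fun w hw => by
    rw [RingHom.comp_apply, Pairs.map_ofBase]
    exact hv w hw

theorem HorizOn.pow {W K : Type} [CommRing W] [CommRing K] {ι : W →+* K}
    {Ψ : K[X]} {n : ℕ} {y : Pairs Ψ} (h : HorizOn ι n y) (k : ℕ) : HorizOn ι n (y ^ k) := by
  intro F _ ψ v hv
  obtain ⟨z, hz⟩ := h F ψ v hv
  exact ⟨z ^ k, by rw [map_pow, map_pow, hz, ← pow_mul, ← pow_mul, mul_comm]⟩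

variable {W P C L FU FM : Type} [CommRing W] [CommRing P] [Field C] [Field L] [Field FU]
  [Field FM]

/-- What is known at a point: an element with divisible horizontal multiplicities and a root
after `j` has a root. -/
def PointRoot (cst : W →+* FU) (j : FU →+* FM) (ΦU : FU[X]) (n : ℕ) : Prop :=
  ∀ z : Pairs ΦU, IsUnit z → HorizOn cst n z → (∃ Y, Y ^ n = Pairs.map (Φ := ΦU) j rfl z) →
    (IsDomain (AdjoinRoot ΦU) ∨ ∃ x : FU, ΦU.eval x = 0) ∧ ∃ G, G ^ n = z

theorem localAgree_target {q : ℕ} [Fact q.Prime] {n : ℕ} {Ψ : C[X]} (base : P →+* C) (g : C →+* L)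
    {A : Type} [CommRing A] [IsDomain A] [IsDiscreteValuationRing A]
    [IsAdicComplete (maximalIdeal A) A] [Algebra A L] [IsFractionRing A L]
    (hA : maximalIdeal A = Ideal.span {(q : A)})
    (T : P) {TA : A} (hTA : algebraMap A L TA = g (base T))
    {ΨA : A[X]} {s : RootSplit ΨA} (hs : IsGauss q ΨA s TA)
    (hΨA : ΨA.map (algebraMap A L) = Ψ.map g)
    (cst : W →+* P) (y : Pairs Ψ) (hy : IsUnit y) (hhor : HorizOn (base.comp cst) n y)
    (sL : RootSplit (Ψ.map g)) (hsL : sL.x₀ = algebraMap A L s.x₀)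
    (Y₁ : Pairs (Ψ.map g)) (hY₁ : Y₁ ^ n = Pairs.map g rfl (y ^ (q - 1)))
    (Y' : Pairs (Ψ.map g))
    (htarget : ∀ (K M : Type) [Field K] [Field M] (κ : C →+* K) (κ' : K →+* M) (j : L →+* M)
        (hcomm : κ'.comp κ = j.comp g),
        Irreducible (sL.map j).quo → Irreducible (sL.map j).G →
        (IsDomain (AdjoinRoot (Ψ.map κ)) ∨ ∃ x : K, (Ψ.map κ).eval x = 0) →
        ∀ G : Pairs (Ψ.map κ), G ^ n = Pairs.map κ rfl (y ^ (q - 1)) →
          ∃ G' : Pairs (Ψ.map κ),
            G' ^ n = Pairs.map κ rfl (y ^ ((q - 1) * (q ^ 2 - 1))) ∧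
            Pairs.map κ' (Ψ := (Ψ.map g).map j)
                (by rw [Polynomial.map_map, Polynomial.map_map, hcomm]) G' =
              Pairs.map j rfl Y')
    {B : Type} [CommRing B] [IsDomain B] [IsDiscreteValuationRing B]
    [IsAdicComplete (maximalIdeal B) B] [Algebra B FM] [IsFractionRing B FM]
    (hB : maximalIdeal B = Ideal.span {(q : B)}) (j : FU →+* FM) (β : P →+* FU) (TB : B)
    (hTB : algebraMap B FM TB = j (β T)) (hpow : ∀ c : ResidueField B, c ^ q ≠ residue B TB)
    (ΦU : FU[X]) (hΦU : ∀ τ : C →+* FU, τ.comp base = β → Ψ.map τ = ΦU)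
    (hroot : PointRoot (β.comp cst) j ΦU n) :
    LocalAgree base g j β n (y ^ ((q - 1) * (q ^ 2 - 1))) Y' := by
  intro τ hτ jg hcomm
  -- irreducibility over the completion at the point
  obtain ⟨jA, hjA⟩ := exists_integral_map (q := q) (L := FM)
    (hA ▸ Ideal.mem_span_singleton_self _) hB (jg.comp (algebraMap A L))
  have hjA' : ∀ a, algebraMap B FM (jA a) = jg (algebraMap A L a) := fun a =>
    RingHom.congr_fun hjA a
  have hjloc : IsLocalHom jA := ⟨fun a ha => by
    by_contra hna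
    rw [← mem_nonunits_iff, ← IsLocalRing.mem_maximalIdeal, hA, Ideal.mem_span_singleton] at hna
    obtain ⟨a', rfl⟩ := hna
    rw [map_mul, map_natCast] at ha
    exact (IsLocalRing.mem_maximalIdeal _).1 (hB ▸ Ideal.mem_span_singleton_self _)
      (isUnit_of_mul_isUnit_left ha)⟩
  have hTAB : jA TA = TB := IsFractionRing.injective B FM (by
    rw [hjA', hTA, hTB, ← RingHom.comp_apply jg, ← hcomm, RingHom.comp_apply, ← hτ,
      RingHom.comp_apply])
  have hsB := hs.map jA hB (fun c => hTAB ▸ hpow c)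
  have eM : (Ψ.map g).map jg = (ΨA.map jA).map (algebraMap B FM) := by
    rw [← hΨA, Polynomial.map_map, Polynomial.map_map]
    congr 1
    exact RingHom.ext fun a => (hjA' a).symm
  have hx : (sL.map jg).x₀ = ((s.map jA).map (algebraMap B FM)).x₀ := by
    rw [RootSplit.map_x₀, RootSplit.map_x₀, RootSplit.map_x₀, hsL, hjA']
  have hquoB := hsB.irreducible_quo (L := FM)
  have : Fact (Irreducible ((s.map jA).map (algebraMap B FM)).quo) := ⟨hquoB⟩
  have hquo : Irreducible (sL.map jg).quo :=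
    RootSplit.irreducible_quo_congr eM _ _ hx hquoB
  have hG : Irreducible (sL.map jg).G :=
    RootSplit.irreducible_G_congr eM _ _ hx hsB.irreducible_G
  -- the local root
  have hU := hΦU τ hτ
  obtain ⟨z, hz⟩ : ∃ z, z = Pairs.map τ hU (y ^ (q - 1)) := ⟨_, rfl⟩
  have hzh : HorizOn (β.comp cst) n z := by
    have h := (hhor.pow (q - 1)).map τ hU
    rw [← RingHom.comp_assoc, hτ] at h
    exact hz ▸ h
  have eY : (Ψ.map g).map jg = ΦU.map j := by
    rw [Polynomial.map_map, ← hcomm, ← Polynomial.map_map, hU]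
  obtain ⟨hdich, G, hGz⟩ := hroot z (hz ▸ (hy.pow _).map _) hzh
    ⟨Pairs.map jg eY Y₁, by
      rw [← map_pow, hY₁, hz, Pairs.map_map_apply, Pairs.map_map_apply]
      exact Pairs.map_congr hcomm.symm _ _ _⟩
  exact htarget FU FM τ j jg hcomm hquo hG (by rw [hU]; exact hdich) (Pairs.cast hU.symm G)
    (by rw [← map_pow, hGz, hz, Pairs.cast_map])

end FLTA.Carayol
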