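import Fermat.Agent.Carayol.Pairs
import Mathlib.RingTheory.Localization.FractionRing
import Mathlib.RingTheory.IntegralClosure.IsIntegralClosure.Basic

/-!
# Generation, base change to the fraction field
-/

set_option autoImplicit false

open Polynomial

namespace FLTA.Carayol

variable {A B : Type*} [CommRing A] [CommRing B] {Φ : A[X]}

theorem Pairs.induction_on {P : Pairs Φ → Prop} (y : Pairs Φ)
    (hbase : ∀ a, P (Pairs.ofBase Φ a)) (hfst : P (Pairs.fst Φ)) (hsnd : P (Pairs.snd Φ))
    (hadd : ∀ x z, P x → P z → P (x + z)) (hmul : ∀ x z, P x → P z → P (x * z)) : P y := by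
  have h1 : ∀ a : AdjoinRoot Φ, P (AdjoinRoot.of (sndPoly Φ) a) := by
    intro a
    induction a using AdjoinRoot.induction_on with
    | ih p =>
      induction p using Polynomial.induction_on with
      | C r => exact hbase r
      | add p q hp hq => rw [map_add, map_add]; exact hadd _ _ hp hq
      | monomial k r hk =>
        rw [pow_succ, ← mul_assoc, map_mul, map_mul]
        exact hmul _ _ hk hfst
  induction y using AdjoinRoot.induction_on with
  | ih p =>
    induction p using Polynomial.induction_on with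
    | C r => exact h1 r
    | add p q hp hq => rw [map_add]; exact hadd _ _ hp hq
    | monomial k r hk =>
      rw [pow_succ, ← mul_assoc, map_mul]
      exact hmul _ _ hk hsnd

theorem adjoinRoot_map_injective {f : A →+* B} (hf : Function.Injective f) {p : A[X]} {q : B[X]}
    (hp : p.Monic) (h : p.map f = q) :
    Function.Injective (AdjoinRoot.map f p q h.symm.dvd) := by
  subst h
  rw [injective_iff_map_eq_zero]
  intro x hx
  obtain ⟨g, rfl⟩ := AdjoinRoot.mk_surjective x
  have hm : AdjoinRoot.map f p (p.map f) dvd_rfl (AdjoinRoot.mk p g) =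
      AdjoinRoot.mk (p.map f) (g.map f) := by
    rw [AdjoinRoot.map, AdjoinRoot.lift_mk, ← eval₂_map, ← AdjoinRoot.aeval_eq, aeval_def,
      AdjoinRoot.algebraMap_eq]
  rw [hm, AdjoinRoot.mk_eq_zero, ← modByMonic_eq_zero_iff_dvd (hp.map f),
    ← map_modByMonic f hp, Polynomial.map_eq_zero_iff hf, modByMonic_eq_zero_iff_dvd hp,
    ← AdjoinRoot.mk_eq_zero] at hx
  exact hx

namespace Pairs

theorem map_injective_of_injective (hΦ : Φ.Monic) (hd : 0 < Φ.natDegree) {f : A →+* B}
    (hf : Function.Injective f) {Ψ : B[X]} (h : Φ.map f = Ψ) :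
    Function.Injective (Pairs.map f h) := by
  obtain ⟨h', e⟩ := Pairs.map_eq_adjoinRootMap f h
  rw [e]
  exact adjoinRoot_map_injective (adjoinRoot_map_injective hf hΦ h) (monic_sndPoly hΦ hd) h'

variable {K : Type*} [Field K] [Algebra A K] [IsFractionRing A K]

/-- Clearing denominators. -/
theorem exists_mul_eq_map [IsDomain A] (y : Pairs (Φ.map (algebraMap A K))) :
    ∃ (r : A) (z : Pairs Φ), r ≠ 0 ∧
      Pairs.ofBase _ (algebraMap A K r) * y = Pairs.map (algebraMap A K) rfl z := by
  induction y using Pairs.induction_on with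
  | hbase c =>
    obtain ⟨a, b, hb, rfl⟩ := IsFractionRing.div_surjective A c
    refine ⟨b, Pairs.ofBase Φ a, nonZeroDivisors.ne_zero hb, ?_⟩
    rw [Pairs.map_ofBase, ← map_mul, mul_div_cancel₀]
    exact (map_ne_zero_iff _ (IsFractionRing.injective A K)).2 (nonZeroDivisors.ne_zero hb)
  | hfst => exact ⟨1, Pairs.fst Φ, one_ne_zero, by simp⟩
  | hsnd => exact ⟨1, Pairs.snd Φ, one_ne_zero, by simp⟩
  | hadd x z hx hz =>
    obtain ⟨r, u, hr, hu⟩ := hx
    obtain ⟨s, v, hs, hv⟩ := hz
    refine ⟨r * s, Pairs.ofBase Φ s * u + Pairs.ofBase Φ r * v, mul_ne_zero hr hs, ?_⟩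
    simp only [map_add, map_mul, Pairs.map_ofBase, ← hu, ← hv]
    ring
  | hmul x z hx hz =>
    obtain ⟨r, u, hr, hu⟩ := hx
    obtain ⟨s, v, hs, hv⟩ := hz
    refine ⟨r * s, u * v, mul_ne_zero hr hs, ?_⟩
    simp only [map_mul, ← hu, ← hv]
    ring

theorem isDomain_map [IsDomain A] [IsDomain (Pairs Φ)] (hΦ : Φ.Monic) (hd : 0 < Φ.natDegree) :
    IsDomain (Pairs (Φ.map (algebraMap A K))) := by
  have hinj := map_injective_of_injective hΦ hd (IsFractionRing.injective A K)
    (Ψ := Φ.map (algebraMap A K)) rfl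
  have : Nontrivial (Pairs (Φ.map (algebraMap A K))) := hinj.nontrivial
  have : NoZeroDivisors (Pairs (Φ.map (algebraMap A K))) := ⟨fun {x y} hxy => by
    obtain ⟨r, u, hr, hu⟩ := exists_mul_eq_map x
    obtain ⟨s, v, hs, hv⟩ := exists_mul_eq_map y
    have hunit : ∀ t : A, t ≠ 0 →
        IsUnit (Pairs.ofBase (Φ.map (algebraMap A K)) (algebraMap A K t)) := fun t ht =>
      (isUnit_iff_ne_zero.2 ((map_ne_zero_iff _ (IsFractionRing.injective A K)).2 ht)).map _
    have huv : u * v = 0 := hinj (by
      rw [map_mul, map_zero, ← hu, ← hv, mul_mul_mul_comm, hxy, mul_zero])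
    rcases mul_eq_zero.1 huv with rfl | rfl
    · left
      rwa [map_zero, (hunit r hr).mul_right_eq_zero] at hu
    · right
      rwa [map_zero, (hunit s hs).mul_right_eq_zero] at hv⟩
  exact NoZeroDivisors.to_isDomain _

theorem isField_map [IsDomain A] [IsDomain (Pairs Φ)] (hΦ : Φ.Monic) (hd : 0 < Φ.natDegree) :
    IsField (Pairs (Φ.map (algebraMap A K))) := by
  have := isDomain_map (K := K) hΦ hd
  have := (hΦ.map (algebraMap A K)).finite_adjoinRoot
  have := (monic_sndPoly (hΦ.map (algebraMap A K))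
    (by rwa [hΦ.natDegree_map])).finite_adjoinRoot
  have : Module.Finite K (Pairs (Φ.map (algebraMap A K))) :=
    Module.Finite.trans (AdjoinRoot (Φ.map (algebraMap A K))) _
  exact isField_of_isIntegral_of_isField' (Field.toIsField K)

end Pairs

end FLTA.Carayol
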