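import Fermat.Agent.Carayol.CoreAdjust
import Fermat.Agent.Carayol.GaussRoot
import Fermat.Agent.Carayol.PairsBase

/-!
# The root over the Gauss point to which all local roots are adjusted
-/

set_option autoImplicit false

noncomputable section

open Polynomial IsLocalRing

namespace FLTA.Carayol

section Transport

variable {R S T : Type*} [CommRing R] [CommRing S] [CommRing T]

theorem Pairs.map_map_apply {Φ : R[X]} {Ψ : S[X]} {Θ : T[X]} (f : R →+* S) (h : Φ.map f = Ψ)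
    (g : S →+* T) (h' : Ψ.map g = Θ) (x : Pairs Φ) :
    Pairs.map g h' (Pairs.map f h x) =
      Pairs.map (g.comp f) (by rw [← Polynomial.map_map, h, h']) x :=
  RingHom.congr_fun (Pairs.map_map f h g h') x

theorem Pairs.map_congr {Φ : R[X]} {Ψ : S[X]} {f f' : R →+* S} (e : f = f') (h : Φ.map f = Ψ)
    (h' : Φ.map f' = Ψ) (x : Pairs Φ) : Pairs.map f h x = Pairs.map f' h' x := by
  subst e; rfl

/-- The same algebra for equal polynomials. -/
def Pairs.cast {Φ Φ' : R[X]} (e : Φ = Φ') : Pairs Φ →+* Pairs Φ' :=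
  Pairs.map (RingHom.id R) (by rw [Polynomial.map_id, e])

theorem Pairs.cast_map {Φ : R[X]} {Ψ Ψ' : S[X]} (f : R →+* S) (h : Φ.map f = Ψ) (e : Ψ = Ψ')
    (x : Pairs Φ) : Pairs.cast e (Pairs.map f h x) = Pairs.map f (h.trans e) x := by
  subst e
  rw [Pairs.cast, Pairs.map_map_apply]
  exact Pairs.map_congr (RingHom.id_comp f) _ _ x

theorem Pairs.map_cast {Φ Φ' : R[X]} {Ψ : S[X]} (f : R →+* S) (e : Φ = Φ') (h : Φ'.map f = Ψ)
    (x : Pairs Φ) : Pairs.map f h (Pairs.cast e x) = Pairs.map f (by rw [e, h]) x := by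
  subst e
  rw [Pairs.cast, Pairs.map_map_apply]
  exact Pairs.map_congr (RingHom.comp_id f) _ _ x

end Transport

variable {Fg L : Type} [Field Fg] [Field L]

/-- The target: a root of a fixed power of `y` over the Gauss point which every local root can be
adjusted to. -/
theorem exists_target {q n : ℕ} {A : Type} [CommRing A] [IsDomain A] [IsDiscreteValuationRing A]
    [IsAdicComplete (maximalIdeal A) A] [Algebra A L] [IsFractionRing A L]
    (hn : 0 < n) (hnA : IsUnit (n : A)) (hnq : n.Coprime q) {ζ : Fg} (hζ : IsPrimitiveRoot ζ n)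
    {Φ : Fg[X]} (hΦ : Φ.Monic) (hd : Φ.natDegree = q + 1) (ι : Fg →+* L)
    {ΨA : A[X]} {TA : A} {s : RootSplit ΨA} (hs : IsGauss q ΨA s TA)
    (hΨ : ΨA.map (algebraMap A L) = Φ.map ι) (y : Pairs Φ) (hy : IsUnit y)
    (h₁ : ∃ g, g ^ n = Pairs.normFst Φ y) (h₂ : ∃ g, g ^ n = Pairs.normSnd Φ y) :
    ∃ (sL : RootSplit (Φ.map ι)) (Y₁ Y' : Pairs (Φ.map ι)),
      sL.x₀ = algebraMap A L s.x₀ ∧
      Y₁ ^ n = Pairs.map ι rfl (y ^ (q - 1)) ∧
      Y' ^ n = Pairs.map ι rfl (y ^ ((q - 1) * (q ^ 2 - 1))) ∧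
      ∀ (K M : Type) [Field K] [Field M] (κ : Fg →+* K) (κ' : K →+* M) (j : L →+* M)
        (hcomm : κ'.comp κ = j.comp ι),
        Irreducible (sL.map j).quo → Irreducible (sL.map j).G →
        (IsDomain (AdjoinRoot (Φ.map κ)) ∨ ∃ x : K, (Φ.map κ).eval x = 0) →
        ∀ G : Pairs (Φ.map κ), G ^ n = Pairs.map κ rfl (y ^ (q - 1)) →
          ∃ G' : Pairs (Φ.map κ), G' ^ n = Pairs.map κ rfl (y ^ ((q - 1) * (q ^ 2 - 1))) ∧
            Pairs.map κ' (Ψ := (Φ.map ι).map j)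
                (by rw [Polynomial.map_map, Polynomial.map_map, hcomm]) G' =
              Pairs.map j rfl Y' := by
  obtain ⟨g₁, hg₁⟩ := h₁
  obtain ⟨g₂, hg₂⟩ := h₂
  have hqp := hs.prime_q
  let sL : RootSplit (Φ.map ι) :=
    ⟨algebraMap A L s.x₀, by rw [← hΨ, eval_map, eval₂_at_apply, s.eval_x₀, map_zero]⟩
  let sA : RootSplit (ΨA.map (algebraMap A L)) := s.map (algebraMap A L)
  have hirr : Irreducible sL.quo :=
    RootSplit.irreducible_quo_congr hΨ.symm sL sA rfl hs.irreducible_quo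
  have : Fact (Irreducible sA.quo) := ⟨hs.irreducible_quo⟩
  have hirrG : Irreducible sL.G :=
    RootSplit.irreducible_G_congr hΨ.symm sL sA rfl hs.irreducible_G
  have hquoeq : sL.quo = sA.quo := by
    exact congrArg (fun P => divDiff P (algebraMap A L s.x₀)) hΨ.symm
  have h0 : sL.quo.eval sL.x₀ ≠ 0 := by
    rw [hquoeq]
    exact hs.quo_eval_x₀_ne_zero
  have : Fact (Irreducible sL.quo) := ⟨hirr⟩
  have : Fact (Irreducible sL.G) := ⟨hirrG⟩
  have hdd : 0 < Φ.natDegree := by omega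
  set z := Pairs.cast hΨ.symm (Pairs.map ι rfl y) with hz
  obtain ⟨Y₀, hY₀⟩ := hs.exists_root hnA hnq z ((hy.map _).map _)
    ⟨AdjoinRoot.map ι Φ (ΨA.map (algebraMap A L)) (dvd_of_eq hΨ) g₁, by
      rw [hz, Pairs.cast_map, Pairs.normFst_map hΦ hdd, ← map_pow, hg₁]⟩
    ⟨AdjoinRoot.map ι Φ (ΨA.map (algebraMap A L)) (dvd_of_eq hΨ) g₂, by
      rw [hz, Pairs.cast_map, Pairs.normSnd_map hΦ hdd, ← map_pow, hg₂]⟩
  have hY : Pairs.cast hΨ Y₀ ^ n = Pairs.map ι rfl (y ^ (q - 1)) := by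
    rw [← map_pow, hY₀, hz, Pairs.cast_map, map_pow, Pairs.cast_map, map_pow]
  obtain ⟨Y', hY', htar⟩ := exists_branch_target hqp hn hζ hΦ hd ι sL h0 (y ^ (q - 1))
    (hy.pow _) (g₁ ^ (q - 1)) (g₂ ^ (q - 1))
    (by rw [← pow_mul, mul_comm, pow_mul, hg₁, map_pow])
    (by rw [← pow_mul, mul_comm, pow_mul, hg₂, map_pow]) (Pairs.cast hΨ Y₀) hY
  refine ⟨sL, Pairs.cast hΨ Y₀, Y', rfl, hY, by rw [hY', ← map_pow, ← pow_mul], ?_⟩
  intro K M _ _ κ κ' j hcomm hquo hG hloc G hGn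
  obtain ⟨G', hG'n, hG'm⟩ := exists_adjusted hqp hn hζ hΦ hd ι sL h0 (y ^ (q - 1)) Y' hY' κ κ' j
    hcomm (fun hdom hq' hG' G₁ hG₁ => htar K M κ κ' j hcomm hdom hq' hG' G₁ hG₁) hquo hG hloc G hGn
  exact ⟨G', by rw [hG'n, ← map_pow, ← pow_mul], hG'm⟩

end FLTA.Carayol
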