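import Fermat.Agent.Carayol.Glue
import Fermat.Agent.Carayol.PairsBase
import Mathlib.LinearAlgebra.Vandermonde
import Mathlib.RingTheory.AlgebraTower
import Mathlib.LinearAlgebra.LinearIndependent.Basic
import Mathlib.FieldTheory.IsAlgClosed.AlgebraicClosure
import Mathlib.FieldTheory.Separable

/-!
# The pair algebra of a cover of the line, with its monomial basis

`Q` and `Φ` are monic over `P`.  For `β : P → F` the algebra `EAlg Q Φ β` is the algebra of
pairs of roots of `Φ` over `F[Y]/(Q)`; it is functorial in `β` and evaluates at roots of `Q`.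
-/

set_option autoImplicit false

open Polynomial

namespace FLTA.Carayol

variable {P F F' : Type*} [CommRing P] [CommRing F] [CommRing F'] (Q Φ : P[X]) (β : P →+* F)

/-- `Φ` over `F[Y]/(Q)`. -/
noncomputable abbrev coverPoly : (AdjoinRoot (Q.map β))[X] :=
  Φ.map ((AdjoinRoot.of (Q.map β)).comp β)

/-- The pair algebra of the cover. -/
abbrev EAlg : Type _ := Pairs (coverPoly Q Φ β)

variable (g : F →+* F') {β' : P →+* F'} (hg : g.comp β = β')

section
include hg

theorem map_map_of_comp : (Q.map β).map g = Q.map β' := by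
  rw [Polynomial.map_map, hg]

theorem coverPoly_map : (coverPoly Q Φ β).map
    (AdjoinRoot.map g (Q.map β) (Q.map β') (map_map_of_comp Q β g hg).symm.dvd) =
      coverPoly Q Φ β' := by
  subst hg
  rw [coverPoly, coverPoly, Polynomial.map_map]
  congr 1
  ext a
  simp

variable {σ : F'} (hσ : Q.eval₂ β' σ = 0)
include hσ

theorem eEval_root : (Q.map β).eval₂ g σ = 0 := by
  rw [eval₂_map, hg, hσ]

theorem coverPoly_map_eval : (coverPoly Q Φ β).map
    (AdjoinRoot.lift g σ (eEval_root Q β g hg hσ)) = Φ.map β' := by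
  rw [coverPoly, Polynomial.map_map, ← RingHom.comp_assoc, AdjoinRoot.lift_comp_of, hg]

end

/-- Base change. -/
noncomputable def eMap : EAlg Q Φ β →+* EAlg Q Φ β' :=
  Pairs.map _ (coverPoly_map Q Φ β g hg)

/-- Evaluation at a root of `Q`. -/
noncomputable def eEval {σ : F'} (hσ : Q.eval₂ β' σ = 0) :
    EAlg Q Φ β →+* Pairs (Φ.map β') :=
  Pairs.map _ (coverPoly_map_eval Q Φ β g hg hσ)

theorem algebraMap_eAlg (c : F) : algebraMap F (EAlg Q Φ β) c =
    Pairs.ofBase _ (AdjoinRoot.of (Q.map β) c) := rfl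

theorem eMap_algebraMap (c : F) :
    eMap Q Φ β g hg (algebraMap F (EAlg Q Φ β) c) = algebraMap F' _ (g c) := by
  rw [algebraMap_eAlg, algebraMap_eAlg, eMap, Pairs.map_ofBase, AdjoinRoot.map_of]

theorem eEval_algebraMap {σ : F'} (hσ : Q.eval₂ β' σ = 0) (c : F) :
    eEval Q Φ β g hg hσ (algebraMap F (EAlg Q Φ β) c) = Pairs.ofBase _ (g c) := by
  rw [algebraMap_eAlg, eEval, Pairs.map_ofBase, AdjoinRoot.lift_of]

variable (dQ dΦ : ℕ)

/-- Monomials. -/
noncomputable def eMon (k : Fin dQ × Fin dΦ × Fin (dΦ - 1)) : EAlg Q Φ β :=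
  Pairs.ofBase _ (AdjoinRoot.root (Q.map β) ^ (k.1 : ℕ)) *
    (Pairs.fst _ ^ (k.2.1 : ℕ) * Pairs.snd _ ^ (k.2.2 : ℕ))

theorem eMap_eMon (k : Fin dQ × Fin dΦ × Fin (dΦ - 1)) :
    eMap Q Φ β g hg (eMon Q Φ β dQ dΦ k) = eMon Q Φ β' dQ dΦ k := by
  simp [eMap, eMon]

theorem eEval_eMon {σ : F'} (hσ : Q.eval₂ β' σ = 0)
    (k : Fin dQ × Fin dΦ × Fin (dΦ - 1)) :
    eEval Q Φ β g hg hσ (eMon Q Φ β dQ dΦ k) =
      Pairs.ofBase _ (σ ^ (k.1 : ℕ)) *
        (Pairs.fst _ ^ (k.2.1 : ℕ) * Pairs.snd _ ^ (k.2.2 : ℕ)) := by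
  simp [eEval, eMon]

end FLTA.Carayol

namespace FLTA.Carayol

section Coord

variable {P F F' : Type*} [CommRing P] [CommRing F] [CommRing F'] {Q Φ : P[X]} {β : P →+* F}
  {g : F →+* F'} {β' : P →+* F'} (hg : g.comp β = β')

/-- Evaluating a base change. -/
theorem eEval_eMap {F'' : Type*} [CommRing F''] {g' : F' →+* F''} {β'' : P →+* F''}
    (hg' : g'.comp β' = β'') (hgg' : (g'.comp g).comp β = β'') {σ : F''}
    (hσ : Q.eval₂ β'' σ = 0) (u : EAlg Q Φ β) :
    eEval Q Φ β' g' hg' hσ (eMap Q Φ β g hg u) = eEval Q Φ β (g'.comp g) hgg' hσ u := by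
  refine RingHom.congr_fun (f := (eEval Q Φ β' g' hg' hσ).comp (eMap Q Φ β g hg)) ?_ u
  refine Pairs.ringHom_ext ?_ (by simp [eEval, eMap]) (by simp [eEval, eMap])
  refine AdjoinRoot.ringHom_ext (RingHom.ext fun c => ?_) ?_ <;> simp [eEval, eMap]

variable {dQ dΦ : ℕ} (e : Module.Basis (Fin dQ × Fin dΦ × Fin (dΦ - 1)) F (EAlg Q Φ β))
  (he : ∀ k, e k = eMon Q Φ β dQ dΦ k) {σ : F'} (hσ : Q.eval₂ β' σ = 0)
  (b : Module.Basis (Fin dΦ × Fin (dΦ - 1)) F' (Pairs (Φ.map β')))
  (hb : ∀ k, b k = Pairs.fst (Φ.map β') ^ (k.1 : ℕ) * Pairs.snd (Φ.map β') ^ (k.2 : ℕ))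

include he hb in
/-- Coordinates after evaluation. -/
theorem repr_eEval (u : EAlg Q Φ β) (k : Fin dΦ × Fin (dΦ - 1)) :
    b.repr (eEval Q Φ β g hg hσ u) k = ∑ i, g (e.repr u (i, k)) * σ ^ (i : ℕ) := by
  have h : eEval Q Φ β g hg hσ u =
      ∑ k, (∑ i, g (e.repr u (i, k)) * σ ^ (i : ℕ)) • b k := by
    conv_lhs => rw [← e.sum_repr u, map_sum, Fintype.sum_prod_type_right]
    refine Finset.sum_congr rfl fun k _ => ?_
    rw [Finset.sum_smul]
    refine Finset.sum_congr rfl fun i _ => ?_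
    rw [Algebra.smul_def, Algebra.smul_def, RingHom.map_mul, eEval_algebraMap, he, eEval_eMon,
      hb, ← mul_assoc, ← map_mul]
    rfl
  rw [h]
  exact congrFun (b.repr_sum_self _) k

end Coord

section Basis

variable {F : Type*} [CommRing F] [Nontrivial F]

omit [Nontrivial F] in
/-- The monomial basis of a pair algebra. -/
theorem exists_pairs_basis {Ψ : F[X]} (hΨ : Ψ.Monic) {d : ℕ} (hd : Ψ.natDegree = d) (h1 : 0 < d) :
    ∃ b : Module.Basis (Fin d × Fin (d - 1)) F (Pairs Ψ),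
      ∀ k, b k = Pairs.fst Ψ ^ (k.1 : ℕ) * Pairs.snd Ψ ^ (k.2 : ℕ) := by
  have hne : Ψ.natDegree ≠ 0 := by omega
  have : Nontrivial (AdjoinRoot Ψ) := by
    refine Ideal.Quotient.nontrivial_iff.mpr fun h => hne ?_
    rw [Ideal.span_singleton_eq_top] at h
    rw [hΨ.eq_one_of_isUnit h, natDegree_one]
  have hs := Pairs.monic_sndPoly hΨ (by omega)
  let b₁ := (AdjoinRoot.powerBasisAux' hΨ).reindex (finCongr hd)
  let b₂ := (AdjoinRoot.powerBasisAux' hs).reindex
    (finCongr (by rw [Pairs.natDegree_sndPoly hΨ (by omega), hd] :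
      (sndPoly Ψ).natDegree = d - 1))
  refine ⟨b₁.smulTower b₂, fun k => ?_⟩
  have e₁ : b₁ k.1 = AdjoinRoot.root Ψ ^ (k.1 : ℕ) := by
    simp only [b₁, Module.Basis.reindex_apply]
    exact (AdjoinRoot.powerBasis' hΨ).basis_eq_pow _
  have e₂ : b₂ k.2 = AdjoinRoot.root (sndPoly Ψ) ^ (k.2 : ℕ) := by
    simp only [b₂, Module.Basis.reindex_apply]
    exact (AdjoinRoot.powerBasis' hs).basis_eq_pow _
  rw [Module.Basis.smulTower_apply, e₁, e₂, Algebra.smul_def, AdjoinRoot.algebraMap_eq, map_pow]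
  rfl

variable {P : Type*} [CommRing P] {Q Φ : P[X]} (β : P →+* F)

/-- The monomial basis of the cover algebra. -/
theorem exists_eBasis (hQ : Q.Monic) (hQd : 0 < Q.natDegree) (hΦ : Φ.Monic)
    (hΦd : 0 < Φ.natDegree) :
    ∃ b : Module.Basis (Fin Q.natDegree × Fin Φ.natDegree × Fin (Φ.natDegree - 1)) F
        (EAlg Q Φ β),
      ∀ k, b k = eMon Q Φ β _ _ k := by
  have hQ' := hQ.map β
  have hdeg : (Q.map β).natDegree = Q.natDegree := hQ.natDegree_map β
  have : Nontrivial (AdjoinRoot (Q.map β)) := by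
    refine Ideal.Quotient.nontrivial_iff.mpr fun h => ?_
    rw [Ideal.span_singleton_eq_top] at h
    rw [hQ'.eq_one_of_isUnit h, natDegree_one] at hdeg
    omega
  obtain ⟨b, hb⟩ := exists_pairs_basis (hΦ.map ((AdjoinRoot.of (Q.map β)).comp β))
    (hΦ.natDegree_map _) hΦd
  refine ⟨((AdjoinRoot.powerBasisAux' hQ').reindex (finCongr hdeg)).smulTower b, fun k => ?_⟩
  have e₁ : (AdjoinRoot.powerBasisAux' hQ').reindex (finCongr hdeg) k.1 =
      AdjoinRoot.root (Q.map β) ^ (k.1 : ℕ) := by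
    simp only [Module.Basis.reindex_apply]
    exact (AdjoinRoot.powerBasis' hQ').basis_eq_pow _
  rw [Module.Basis.smulTower_apply, e₁, hb, Algebra.smul_def]
  rfl

end Basis

section Matrix

variable {P F E E' ι : Type*} [CommRing P] [CommRing F] [CommRing E] [CommRing E'] [Algebra P E]
  [Algebra F E'] [Fintype ι] [DecidableEq ι] {β : P →+* F} {γ : E →+* E'}
  (e : Module.Basis ι P E) (e' : Module.Basis ι F E')

omit [DecidableEq ι] in
theorem repr_map_of_basis (hβ : ∀ c, γ (algebraMap P E c) = algebraMap F E' (β c))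
    (he : ∀ k, γ (e k) = e' k) (x : E) (k : ι) : e'.repr (γ x) k = β (e.repr x k) := by
  conv_lhs => rw [← e.sum_repr x, map_sum]
  simp only [Algebra.smul_def, map_mul, hβ, he]
  simp only [← Algebra.smul_def]
  exact congrFun (e'.repr_sum_self _) k

theorem leftMulMatrix_map_of_basis (hβ : ∀ c, γ (algebraMap P E c) = algebraMap F E' (β c))
    (he : ∀ k, γ (e k) = e' k) (x : E) :
    Algebra.leftMulMatrix e' (γ x) = (Algebra.leftMulMatrix e x).map β := by
  ext i j
  rw [Matrix.map_apply, Algebra.leftMulMatrix_eq_repr_mul, Algebra.leftMulMatrix_eq_repr_mul,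
    ← he j, ← map_mul, repr_map_of_basis e e' hβ he]

theorem coordMatrix_eq_leftMulMatrix (hβ : ∀ c, γ (algebraMap P E c) = algebraMap F E' (β c))
    (he : ∀ k, γ (e k) = e' k) (v : ι → F) :
    coordMatrix e β v = Algebra.leftMulMatrix e' (∑ k, v k • e' k) := by
  rw [coordMatrix, map_sum]
  refine Finset.sum_congr rfl fun k _ => ?_
  rw [map_smul, ← he k, leftMulMatrix_map_of_basis e e' hβ he]

end Matrix

section Vandermonde

variable {L : Type*} [Field L] {d : ℕ} {σ : Fin d → L}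

theorem eq_zero_of_forall_sum_pow_eq_zero (hσ : Function.Injective σ) {c : Fin d → L}
    (h : ∀ J, ∑ i, c i * σ J ^ (i : ℕ) = 0) : c = 0 := by
  refine Matrix.eq_zero_of_mulVec_eq_zero (Matrix.det_vandermonde_ne_zero_iff.2 hσ)
    (funext fun J => ?_)
  rw [Pi.zero_apply, ← h J]
  simp [Matrix.mulVec, dotProduct, mul_comm]

theorem exists_sum_pow_eq (hσ : Function.Injective σ) (g : Fin d → L) :
    ∃ c : Fin d → L, ∀ J, ∑ i, c i * σ J ^ (i : ℕ) = g J := by
  have hu : IsUnit (Matrix.vandermonde σ) := by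
    rw [Matrix.isUnit_iff_isUnit_det, isUnit_iff_ne_zero, Matrix.det_vandermonde_ne_zero_iff]
    exact hσ
  obtain ⟨c, hc⟩ := (Matrix.mulVec_surjective_iff_isUnit.2 hu) g
  refine ⟨c, fun J => ?_⟩
  rw [← hc]
  simp [Matrix.mulVec, dotProduct, mul_comm]

end Vandermonde

section Discr

variable {P : Type*} [CommRing P] {Q Φ : P[X]}

/-- The lattice has nonzero discriminant. -/
theorem eBasis_discr_ne_zero (hQ : Q.Monic) (hΦ : Φ.Monic) {Ω : Type*} [Field Ω] [IsAlgClosed Ω] (β : P →+* Ω)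
    (hQs : (Q.map β).Separable) (hΦs : (Φ.map β).Separable)
    (e : Module.Basis (Fin Q.natDegree × Fin Φ.natDegree × Fin (Φ.natDegree - 1)) P
      (EAlg Q Φ (RingHom.id P))) :
    Algebra.discr P e ≠ 0 := by
  classical
  set rQ := (Q.map β).roots.toFinset
  set rΦ := (Φ.map β).roots.toFinset
  have hcQ : rQ.card = Q.natDegree := by
    rw [Multiset.toFinset_card_of_nodup (nodup_roots hQs),
      ← (IsAlgClosed.splits (Q.map β)).natDegree_eq_card_roots, hQ.natDegree_map]
  have hcΦ : rΦ.card = Φ.natDegree := by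
    rw [Multiset.toFinset_card_of_nodup (nodup_roots hΦs),
      ← (IsAlgClosed.splits (Φ.map β)).natDegree_eq_card_roots, hΦ.natDegree_map]
  let S := rQ ×ˢ rΦ.offDiag
  have hcard : Fintype.card S =
      Fintype.card (Fin Q.natDegree × Fin Φ.natDegree × Fin (Φ.natDegree - 1)) := by
    rw [Fintype.card_coe, Finset.card_product, Finset.offDiag_card, hcQ, hcΦ]
    simp [Fintype.card_prod, Nat.mul_sub]
  let eqv := Fintype.equivOfCardEq hcard.symm
  -- the points
  have hroot : ∀ s : S, Q.eval₂ β (s.1.1) = 0 ∧ Φ.eval₂ β s.1.2.1 = 0 ∧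
      Φ.eval₂ β s.1.2.2 = 0 ∧ s.1.2.1 ≠ s.1.2.2 := by
    rintro ⟨⟨ρ, x, z⟩, hs⟩
    simp only [S, rQ, rΦ, Finset.mem_product, Finset.mem_offDiag, Multiset.mem_toFinset,
      mem_roots', IsRoot, eval_map] at hs
    exact ⟨hs.1.2, hs.2.1.2, hs.2.2.1.2, hs.2.2.2⟩
  have hQ0 : ∀ s : S, Q.eval₂ β s.1.1 = 0 := fun s => (hroot s).1
  have hlift : ∀ s : S, ((AdjoinRoot.lift β s.1.1 (eEval_root Q (RingHom.id P) β (RingHom.comp_id β) (hQ0 s))).comp
      (AdjoinRoot.of (Q.map (RingHom.id P)))).comp (RingHom.id P) = β := fun s => by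
    rw [AdjoinRoot.lift_comp_of, RingHom.comp_id]
  have hx : ∀ s : S, (coverPoly Q Φ (RingHom.id P)).eval₂
      (AdjoinRoot.lift β s.1.1 (eEval_root Q (RingHom.id P) β (RingHom.comp_id β) (hQ0 s))) s.1.2.1 = 0 := fun s => by
    rw [coverPoly, eval₂_map, ← RingHom.comp_assoc, hlift s]; exact (hroot s).2.1
  have hz : ∀ s : S, (divDiff ((coverPoly Q Φ (RingHom.id P)).map
      (AdjoinRoot.lift β s.1.1 (eEval_root Q (RingHom.id P) β (RingHom.comp_id β) (hQ0 s)))) s.1.2.1).eval s.1.2.2 = 0 := fun s => by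
    have h := sub_mul_divDiff_eval ((coverPoly Q Φ (RingHom.id P)).map
      (AdjoinRoot.lift β s.1.1 (eEval_root Q (RingHom.id P) β (RingHom.comp_id β) (hQ0 s)))) s.1.2.1 s.1.2.2
    have h2 : (coverPoly Q Φ (RingHom.id P)).eval₂
        (AdjoinRoot.lift β s.1.1 (eEval_root Q (RingHom.id P) β (RingHom.comp_id β) (hQ0 s))) s.1.2.2 = 0 := by
      rw [coverPoly, eval₂_map, ← RingHom.comp_assoc, hlift s]; exact (hroot s).2.2.1
    rw [eval_map, eval_map, hx s, h2, sub_zero] at h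
    exact (mul_eq_zero.1 h).resolve_left (sub_ne_zero.2 (hroot s).2.2.2.symm)
  let χ : S → (EAlg Q Φ (RingHom.id P) →+* Ω) := fun s =>
    Pairs.lift (AdjoinRoot.lift β s.1.1 (eEval_root Q (RingHom.id P) β (RingHom.comp_id β) (hQ0 s))) s.1.2.1 s.1.2.2 (hx s) (hz s)
  have hχc : ∀ s c, χ s (algebraMap P (EAlg Q Φ (RingHom.id P)) c) = β c := fun s c => by
    simp [χ, algebraMap_eAlg]
  have hχinj : Function.Injective fun s => (χ s : EAlg Q Φ (RingHom.id P) →* Ω) := by
    intro s s' h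
    have h' : ∀ u, χ s u = χ s' u := fun u => DFunLike.congr_fun h u
    refine Subtype.ext (Prod.ext ?_ (Prod.ext ?_ ?_))
    · simpa [χ] using h' (Pairs.ofBase _ (AdjoinRoot.root _))
    · simpa [χ] using h' (Pairs.fst _)
    · simpa [χ] using h' (Pairs.snd _)
  let M : Matrix (Fin Q.natDegree × Fin Φ.natDegree × Fin (Φ.natDegree - 1))
      (Fin Q.natDegree × Fin Φ.natDegree × Fin (Φ.natDegree - 1)) Ω :=
    fun a k => χ (eqv a) (e k)
  have hM : IsUnit M := by
    refine Matrix.linearIndependent_rows_iff_isUnit.1 ?_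
    rw [Fintype.linearIndependent_iff]
    intro c hc a
    have hlin := linearIndependent_monoidHom (EAlg Q Φ (RingHom.id P)) Ω
    rw [linearIndependent_iff'] at hlin
    have hcomp := fun u : EAlg Q Φ (RingHom.id P) => (show ∑ a, c a * χ (eqv a) u = 0 by
      rw [← e.sum_repr u]
      simp only [map_sum, Algebra.smul_def, map_mul, hχc, Finset.mul_sum]
      rw [Finset.sum_comm]
      refine Finset.sum_eq_zero fun k _ => ?_
      have hk := congrFun hc k
      simp only [Finset.sum_apply, Pi.smul_apply, smul_eq_mul, Pi.zero_apply, M, Matrix.row] at hk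
      calc ∑ a, c a * (β (e.repr u k) * χ (eqv a) (e k))
          = β (e.repr u k) * ∑ a, c a * χ (eqv a) (e k) := by
            rw [Finset.mul_sum]; exact Finset.sum_congr rfl fun a _ => by ring
        _ = 0 := by rw [hk, mul_zero])
    have hu : Function.Injective fun a => (χ (eqv a) : EAlg Q Φ (RingHom.id P) →* Ω) :=
      hχinj.comp eqv.injective
    have := hlin (Finset.univ.map ⟨_, hu⟩)
      (fun f => if h : ∃ a, (χ (eqv a) : EAlg Q Φ (RingHom.id P) →* Ω) = f then c h.choose else 0)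
      (by
        funext u
        rw [Finset.sum_map, Finset.sum_apply, Pi.zero_apply, ← hcomp u]
        refine Finset.sum_congr rfl fun b _ => ?_
        have hb : ∃ a', (χ (eqv a') : EAlg Q Φ (RingHom.id P) →* Ω) = χ (eqv b) := ⟨b, rfl⟩
        simp only [Function.Embedding.coeFn_mk, Pi.smul_apply, smul_eq_mul, dif_pos hb,
          hu hb.choose_spec, MonoidHom.coe_coe])
      (χ (eqv a)) (Finset.mem_map.2 ⟨a, Finset.mem_univ _, rfl⟩)
    have ha : ∃ a', (χ (eqv a') : EAlg Q Φ (RingHom.id P) →* Ω) = χ (eqv a) := ⟨a, rfl⟩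
    rwa [dif_pos ha, hu ha.choose_spec] at this
  -- trace through the points
  have hmul : ∀ u, M * (Algebra.leftMulMatrix e u).map β =
      Matrix.diagonal (fun a => χ (eqv a) u) * M := fun u => by
    ext a k
    rw [Matrix.mul_apply, Matrix.diagonal_mul, show χ (eqv a) u * M a k = χ (eqv a) (u * e k) by
      simp [M]]
    conv_rhs => rw [← e.sum_repr (u * e k), map_sum]
    refine Finset.sum_congr rfl fun i _ => ?_
    rw [Matrix.map_apply, Algebra.leftMulMatrix_eq_repr_mul, Algebra.smul_def, RingHom.map_mul, hχc]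
    exact mul_comm _ _
  have htr : (Algebra.traceMatrix P e).map β = M.transpose * M := by
    ext i k
    have h1 : (Algebra.leftMulMatrix e (e i * e k)).map β =
        (↑hM.unit⁻¹ : Matrix _ _ Ω) * (Matrix.diagonal (fun a => χ (eqv a) (e i * e k)) * M) := by
      rw [← hmul, ← mul_assoc, IsUnit.val_inv_mul, one_mul]
    rw [Matrix.map_apply, Algebra.traceMatrix_apply, Algebra.traceForm_apply,
      Algebra.trace_eq_matrix_trace e, AddMonoidHom.map_trace, h1, Matrix.trace_mul_comm,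
      mul_assoc, IsUnit.mul_val_inv, mul_one, Matrix.trace_diagonal, Matrix.mul_apply]
    exact Finset.sum_congr rfl fun a _ => map_mul (χ (eqv a)) (e i) (e k)
  intro h0
  rw [Algebra.discr_def] at h0
  have h2 := congrArg β h0
  rw [map_zero, RingHom.map_det, RingHom.mapMatrix_apply, htr, Matrix.det_mul,
    Matrix.det_transpose, mul_self_eq_zero] at h2
  exact isUnit_iff_ne_zero.1 ((Matrix.isUnit_iff_isUnit_det _).1 hM) h2

end Discr

end FLTA.Carayol
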