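import Fermat.Agent.Carayol.Completion
import Mathlib.RingTheory.Valuation.Discrete.IsDiscreteValuationRing
import Mathlib.RingTheory.Multiplicity
import Mathlib.RingTheory.UniqueFactorizationDomain.Finite

/-!
# Local representatives from valuations
-/

set_option autoImplicit false

open IsLocalRing WithZero

namespace FLTA.Carayol

universe w

variable {O : Type w} [CommRing O] [IsDomain O] [IsNoetherianRing O] {KO : Type*} [Field KO]
  [Algebra O KO] [IsFractionRing O KO]

/-- If every valuation trivial away from `p` is divisible by `n` at `f`, then up to units at `p`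
the element `f` is an `n`-th power. -/
theorem exists_local_rep_of_valuation {n : ℕ} {f : KO} (hf : f ≠ 0) {p : O} (hp : Prime p)
    (hv : ∀ (F : Type w) [Field F] (ψ : KO →+* F)
      (v : Valuation F (WithZero (Multiplicative ℤ))),
      (∀ x : O, ¬ p ∣ x → v (ψ (algebraMap O KO x)) = 1) → ∃ z, v (ψ f) = z ^ n) :
    ∃ (g : KO) (a b : O), ¬ p ∣ a ∧ ¬ p ∣ b ∧
      f * algebraMap O KO b = g ^ n * algebraMap O KO a := by
  have := Fact.mk hp
  let M := FractionRing (HatAt p)
  let ψ : KO →+* M := IsFractionRing.lift (g := (algebraMap (HatAt p) M).comp (toHat p))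
    ((IsFractionRing.injective (HatAt p) M).comp (toHat_injective p))
  set V := (IsDiscreteValuationRing.maximalIdeal (HatAt p)).valuation M
  have hψ : ∀ x : O, ψ (algebraMap O KO x) = algebraMap (HatAt p) M (toHat p x) := fun x => by
    simp [ψ, IsFractionRing.lift_algebraMap]
  have hone : ∀ x : O, ¬ p ∣ x → V (ψ (algebraMap O KO x)) = 1 := by
    intro x hx
    rw [hψ, IsDedekindDomain.HeightOneSpectrum.valuation_of_algebraMap,
      IsDedekindDomain.HeightOneSpectrum.intValuation_eq_one_iff]
    exact fun h => (mem_maximalIdeal _).1 h (isUnit_toHat p hx)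
  have hp1 : V (ψ (algebraMap O KO p)) = exp (-1 : ℤ) := by
    rw [hψ, IsDedekindDomain.HeightOneSpectrum.valuation_of_algebraMap]
    exact IsDedekindDomain.HeightOneSpectrum.intValuation_singleton _ (toHat_self_ne_zero p)
      (maximalIdeal_hatAt p)
  obtain ⟨z, hz⟩ := hv M ψ V hone
  obtain ⟨u, v, hv0, rfl⟩ := IsFractionRing.div_surjective O f
  have hvK : algebraMap O KO v ≠ 0 := (map_ne_zero_iff _ (IsFractionRing.injective O KO)).2
    (nonZeroDivisors.ne_zero hv0)
  have hu0 : u ≠ 0 := by rintro rfl; simp at hf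
  obtain ⟨a, hua, ha⟩ :=
    (FiniteMultiplicity.of_prime_left hp hu0).exists_eq_pow_mul_and_not_dvd
  obtain ⟨b, hvb, hb⟩ := (FiniteMultiplicity.of_prime_left hp
    (nonZeroDivisors.ne_zero hv0)).exists_eq_pow_mul_and_not_dvd
  set i := multiplicity p u
  set k := multiplicity p v
  have hpK : algebraMap O KO p ≠ 0 :=
    (map_ne_zero_iff _ (IsFractionRing.injective O KO)).2 hp.ne_zero
  -- the valuation of `f`
  have hval : V (ψ (algebraMap O KO u / algebraMap O KO v)) = exp ((k : ℤ) - i) := by
    rw [hua, hvb]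
    simp only [map_div₀, map_mul, map_pow, hp1, hone a ha,
      hone b hb, mul_one]
    rw [← exp_nsmul, ← exp_nsmul, ← exp_sub]
    congr 1
    simp [sub_eq_add_neg, add_comm]
  have hz0 : z ≠ 0 ∨ n = 0 := by
    rcases Nat.eq_zero_or_pos n with h | h
    · exact Or.inr h
    left
    rintro rfl
    rw [hval, zero_pow h.ne'] at hz
    exact exp_ne_zero hz
  obtain ⟨m, hm⟩ : ∃ m : ℤ, (k : ℤ) - i = n * m := by
    rcases hz0 with hz0 | rfl
    · refine ⟨log z, ?_⟩
      have := congrArg log (hval.symm.trans hz)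
      rwa [log_exp, log_pow, nsmul_eq_mul] at this
    · rw [hval, pow_zero, ← exp_zero, exp_inj] at hz
      exact ⟨0, by simpa using hz⟩
  refine ⟨algebraMap O KO p ^ (-m), a, b, ha, hb, ?_⟩
  rw [← zpow_natCast, ← zpow_mul, show -m * (n : ℤ) = (i : ℤ) - k by linear_combination hm,
    zpow_sub₀ hpK, zpow_natCast, zpow_natCast, hua, hvb, map_mul, map_mul, map_pow, map_pow]
  have hbK : algebraMap O KO b ≠ 0 := (map_ne_zero_iff _ (IsFractionRing.injective O KO)).2
    fun h => hb (h ▸ dvd_zero p)
  field_simp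

end FLTA.Carayol
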