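import Fermat.Agent.Carayol.DVRExt
import Fermat.Agent.Carayol.SeriesRing
import Fermat.Agent.Carayol.DivisorVal
import Mathlib.RingTheory.Polynomial.Eisenstein.IsIntegral
import Mathlib.RingTheory.Polynomial.Cyclotomic.Eval
import Mathlib.RingTheory.PowerSeries.Expand
import Mathlib.FieldTheory.Minpoly.Field
import Mathlib.LinearAlgebra.FiniteDimensional.Lemmas

/-!
# Models of the branches at a cusp

The branch fields at a cusp are the fraction fields of `W[[x]]` and `W'[[x]]`, `W' = W[ζ_q]`, over
`W[[r]]` with `r` a series in `x ^ q`.  Finiteness, roots of unity, and irreducibility from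
conjugate roots.
-/

set_option autoImplicit false

noncomputable section

open Polynomial IsLocalRing

namespace FLTA.Carayol

/-- A monic polynomial is irreducible if a root has as many conjugates as its degree. -/
theorem irreducible_of_conjugates {F M : Type*} [Field F] [Field M] (ι : F →+* M) {p : F[X]}
    (hp : p.Monic) {x : M} (hx : p.eval₂ ι x = 0) (r : Fin p.natDegree → M)
    (hr : Function.Injective r)
    (h : ∀ i, ∃ σ : M →+* M, σ.comp ι = ι ∧ σ x = r i) : Irreducible p := by
  classical
  algebraize [ι]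
  have hint : IsIntegral F x := ⟨p, hp, hx⟩
  set m := minpoly F x with hm
  have hroot : ∀ i, r i ∈ (m.map ι).roots := fun i => by
    obtain ⟨σ, hσ, hσx⟩ := h i
    refine (mem_roots ((minpoly.monic hint).map ι).ne_zero).2 ?_
    rw [IsRoot, eval_map, ← hσx, ← hσ, ← hom_eval₂]
    have : m.eval₂ ι x = 0 := minpoly.aeval F x
    rw [this, map_zero]
  have hdeg : p.natDegree ≤ m.natDegree :=
    calc p.natDegree = (Finset.univ.image r).card := by
          rw [Finset.card_image_of_injective _ hr, Finset.card_univ, Fintype.card_fin]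
      _ ≤ (m.map ι).roots.toFinset.card := Finset.card_le_card (by
          intro z hz
          obtain ⟨i, -, rfl⟩ := Finset.mem_image.1 hz
          exact Multiset.mem_toFinset.2 (hroot i))
      _ ≤ Multiset.card (m.map ι).roots := Multiset.toFinset_card_le _
      _ ≤ (m.map ι).natDegree := Polynomial.card_roots' _
      _ = m.natDegree := (minpoly.monic hint).natDegree_map ι
  have hpm : p = m :=
    eq_of_monic_of_dvd_of_natDegree_le (minpoly.monic hint) hp (minpoly.dvd F x hx) hdeg
  exact hpm ▸ minpoly.irreducible hint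

/-- Generators of an order bound the dimension of its fraction field. -/
theorem finrank_le_of_generators {R O K M : Type*} [CommRing R] [CommRing O] [IsDomain O]
    [Field K] [Field M] [Algebra O M] [IsFractionRing O M] [Algebra K M] (j : R →+* O)
    (jK : R →+* K) (hj : ∀ r, algebraMap O M (j r) = algebraMap K M (jK r)) {N : ℕ}
    (b : Fin N → O) (hb : ∀ o : O, ∃ c : Fin N → R, o = ∑ i, j (c i) * b i) :
    Module.Finite K M ∧ Module.finrank K M ≤ N := by
  set V := Submodule.span K (Set.range fun i => algebraMap O M (b i)) with hV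
  have hO : ∀ o : O, algebraMap O M o ∈ V := fun o => by
    obtain ⟨c, rfl⟩ := hb o
    rw [map_sum]
    refine Submodule.sum_mem _ fun i _ => ?_
    rw [map_mul, hj, ← Algebra.smul_def]
    exact V.smul_mem _ (Submodule.subset_span ⟨i, rfl⟩)
  have htop : V = ⊤ := by
    refine eq_top_iff.2 fun x _ => ?_
    obtain ⟨a, d, hd, rfl⟩ := IsFractionRing.div_surjective O x
    have hd0 : algebraMap O M d ≠ 0 :=
      (map_ne_zero_iff _ (IsFractionRing.injective O M)).2 (nonZeroDivisors.ne_zero hd)
    have hmul : ∀ v ∈ V, LinearMap.mulLeft K (algebraMap O M d) v ∈ V := by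
      intro v hv
      induction hv using Submodule.span_induction with
      | mem v hv =>
        obtain ⟨i, rfl⟩ := hv
        rw [LinearMap.mulLeft_apply, ← map_mul]
        exact hO _
      | zero => simp
      | add u w _ _ hu hw => rw [map_add]; exact add_mem hu hw
      | smul k u _ hu => rw [map_smul]; exact V.smul_mem _ hu
    have : Module.Finite K V := Module.Finite.span_of_finite K (Set.finite_range _)
    have hinj : Function.Injective ((LinearMap.mulLeft K (algebraMap O M d)).restrict hmul) :=
      fun u v huv => Subtype.ext (mul_left_cancel₀ hd0 (congrArg Subtype.val huv))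
    obtain ⟨v, hv⟩ := LinearMap.surjective_of_injective hinj ⟨_, hO a⟩
    have hv' : algebraMap O M d * (v : M) = algebraMap O M a := congrArg Subtype.val hv
    rw [← hv', mul_div_cancel_left₀ _ hd0]
    exact v.2
  refine ⟨⟨?_⟩, ?_⟩
  · rw [← htop]
    exact Submodule.fg_span (Set.finite_range _)
  · rw [← finrank_top K M, ← htop]
    exact le_trans (finrank_range_le_card (R := K) fun i => algebraMap O M (b i)) (by simp)

section Series

variable {W W' : Type*} [CommRing W] [CommRing W']

/-- `W'[[x]]` is generated over series in `x ^ q` with coefficients in `W` by the products of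
generators of `W'` with `x ^ j`, `j < q`. -/
theorem exists_sum_expand_mul (ι : W →+* W') {d : ℕ} (b : Fin d → W')
    (hb : ∀ w : W', ∃ c : Fin d → W, w = ∑ k, ι (c k) * b k) {q : ℕ} (hq : q ≠ 0)
    (f : PowerSeries W') :
    ∃ p : Fin (d * q) → PowerSeries W, f = ∑ i, PowerSeries.map ι
      (PowerSeries.expand q hq (p i)) *
        (PowerSeries.C (b i.divNat) * PowerSeries.X ^ (i.modNat : ℕ)) := by
  choose c hc using hb
  refine ⟨fun i => PowerSeries.mk fun m => c (PowerSeries.coeff (q * m + i.modNat) f) i.divNat, ?_⟩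
  ext N
  rw [map_sum]
  have hlt : N % q < q := Nat.mod_lt _ (Nat.pos_of_ne_zero hq)
  rw [← (finProdFinEquiv (m := d) (n := q)).sum_comp, Fintype.sum_prod_type]
  conv_lhs => rw [hc (PowerSeries.coeff N f)]
  refine Finset.sum_congr rfl fun k _ => ?_
  have hdiv : ∀ j : Fin q, (finProdFinEquiv (k, j)).divNat = k ∧
      (finProdFinEquiv (k, j)).modNat = j := fun j => by
    have := (finProdFinEquiv (m := d) (n := q)).symm_apply_apply (k, j)
    rw [finProdFinEquiv_symm_apply, Prod.mk.injEq] at this
    exact this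
  rw [Finset.sum_eq_single (⟨N % q, hlt⟩ : Fin q)]
  · obtain ⟨h1, h2⟩ := hdiv ⟨N % q, hlt⟩
    simp only [h1, h2]
    rw [mul_left_comm, PowerSeries.coeff_C_mul, PowerSeries.coeff_mul_X_pow',
      if_pos (Nat.mod_le _ _), PowerSeries.coeff_map,
      show N - N % q = q * (N / q) by have := Nat.div_add_mod N q; omega,
      PowerSeries.coeff_expand_mul, PowerSeries.coeff_mk, Nat.div_add_mod, mul_comm]
  · intro j _ hj
    obtain ⟨h1, h2⟩ := hdiv j
    simp only [h1, h2]
    rw [mul_left_comm, PowerSeries.coeff_C_mul, PowerSeries.coeff_mul_X_pow']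
    split_ifs with hle
    · rw [PowerSeries.coeff_map, PowerSeries.coeff_expand_of_not_dvd q hq, map_zero, mul_zero]
      rintro ⟨m, hm⟩
      refine hj (Fin.ext ?_)
      show (j : ℕ) = N % q
      rw [show N = (j : ℕ) + q * m by omega, Nat.add_mul_mod_self_left,
        Nat.mod_eq_of_lt j.2]
    · rw [mul_zero]
  · exact fun h => absurd (Finset.mem_univ _) h

theorem rescale_expand_of_pow_eq_one {q : ℕ} (hq : q ≠ 0) {a : W} (ha : a ^ q = 1)
    (f : PowerSeries W) :
    PowerSeries.rescale a (PowerSeries.expand q hq f) = PowerSeries.expand q hq f := by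
  ext N
  rw [PowerSeries.coeff_rescale, PowerSeries.coeff_expand]
  split_ifs with h
  · obtain ⟨m, rfl⟩ := h
    rw [pow_mul, ha, one_pow, one_mul]
  · rw [mul_zero]

end Series

section Cyclotomic

variable {W : Type} [CommRing W] [IsDomain W] [IsDiscreteValuationRing W] [CharZero W] {q : ℕ}
  [Fact q.Prime]

/-- `W[ζ_q]`. -/
abbrev cycRing (W : Type) [CommRing W] (q : ℕ) : Type := AdjoinRoot (cyclotomic q W)

omit [CharZero W] in
theorem isShiftEis_cyclotomic (hW : maximalIdeal W = Ideal.span {(q : W)}) :
    IsShiftEis (q : W) (cyclotomic q W) 1 := by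
  have hE := cyclotomic_comp_X_add_one_isEisensteinAt q
  have hdeg : ((cyclotomic q ℤ).comp (X + 1)).natDegree = q - 1 := by
    rw [show ((1 : ℤ[X])) = C 1 from (map_one C).symm, ← taylor_apply, natDegree_taylor,
      natDegree_cyclotomic, Nat.totient_prime Fact.out]
  refine ⟨hW, cyclotomic.monic q W, ?_, fun i hi => ?_,
    ⟨1, isUnit_one, by rw [eval_one_cyclotomic_prime, mul_one]⟩⟩
  · rw [natDegree_cyclotomic]
    exact Nat.totient_pos.2 (Fact.out : q.Prime).pos
  · rw [natDegree_cyclotomic, Nat.totient_prime Fact.out, ← hdeg] at hi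
    have h1 := hE.mem hi
    rw [Ideal.submodule_span_eq, Ideal.mem_span_singleton] at h1
    obtain ⟨c, hc⟩ := h1
    have h2 : ((cyclotomic q W).comp (X + C 1)) =
        ((cyclotomic q ℤ).comp (X + 1)).map (Int.castRingHom W) := by
      rw [Polynomial.map_comp, map_cyclotomic, Polynomial.map_add, map_X, Polynomial.map_one,
        map_one]
    rw [h2, coeff_map, hc, hW]
    exact Ideal.mem_span_singleton.2 ⟨(c : W), by simp⟩

omit [IsDomain W] [IsDiscreteValuationRing W] in
theorem natCast_ne_zero_of_prime : (q : W) ≠ 0 :=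
  Nat.cast_ne_zero.2 (Fact.out : q.Prime).ne_zero

theorem isDomain_cycRing (hW : maximalIdeal W = Ideal.span {(q : W)}) :
    IsDomain (cycRing W q) :=
  isDomain_adjoinRoot_of_irreducible
    ((isShiftEis_cyclotomic hW).irreducible natCast_ne_zero_of_prime)

omit [IsDomain W] [IsDiscreteValuationRing W] [CharZero W] [Fact q.Prime] in
theorem finite_cycRing : Module.Finite W (cycRing W q) :=
  (cyclotomic.monic q W).finite_adjoinRoot

omit [IsDiscreteValuationRing W] [CharZero W] in
theorem injective_of_cycRing : Function.Injective (AdjoinRoot.of (cyclotomic q W)) := by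
  refine AdjoinRoot.of.injective_of_degree_ne_zero ?_
  rw [degree_cyclotomic]
  exact_mod_cast (Nat.totient_pos.2 (Fact.out : q.Prime).pos).ne'

omit [IsDiscreteValuationRing W] [CharZero W] in
theorem exists_sum_cycRing (w : cycRing W q) :
    ∃ c : Fin (q - 1) → W,
      w = ∑ k, AdjoinRoot.of _ (c k) * AdjoinRoot.root (cyclotomic q W) ^ (k : ℕ) := by
  obtain ⟨p, rfl⟩ := AdjoinRoot.mk_surjective w
  have hφ := cyclotomic.monic q W
  refine ⟨fun k => (p %ₘ cyclotomic q W).coeff k, ?_⟩
  have h0 : AdjoinRoot.mk (cyclotomic q W) p =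
      AdjoinRoot.mk (cyclotomic q W) (p %ₘ cyclotomic q W) := by
    rw [AdjoinRoot.mk_eq_mk, modByMonic_eq_sub_mul_div, sub_sub_cancel]
    exact dvd_mul_right _ _
  have hlt : (p %ₘ cyclotomic q W).natDegree < q - 1 := by
    rw [← Nat.totient_prime (p := q) Fact.out, ← natDegree_cyclotomic q W]
    refine natDegree_modByMonic_lt _ hφ fun h1 => ?_
    have := congrArg natDegree h1
    rw [natDegree_cyclotomic, natDegree_one, Nat.totient_prime Fact.out] at this
    have := (Fact.out : q.Prime).two_le
    omega
  rw [h0]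
  conv_lhs => rw [(p %ₘ cyclotomic q W).as_sum_range' _ hlt]
  rw [map_sum, Finset.sum_range]
  refine Finset.sum_congr rfl fun k _ => ?_
  rw [← C_mul_X_pow_eq_monomial, map_mul, AdjoinRoot.mk_C, map_pow, AdjoinRoot.mk_X]

theorem isPrimitiveRoot_root (hW : maximalIdeal W = Ideal.span {(q : W)}) :
    IsPrimitiveRoot (AdjoinRoot.root (cyclotomic q W)) q := by
  have := isDomain_cycRing hW
  have : NeZero (q : cycRing W q) := ⟨by
    rw [← map_natCast (AdjoinRoot.of (cyclotomic q W))]
    exact (map_ne_zero_iff _ injective_of_cycRing).2 natCast_ne_zero_of_prime⟩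
  rw [← isRoot_cyclotomic_iff, ← map_cyclotomic q (AdjoinRoot.of (cyclotomic q W)), IsRoot,
    eval_map]
  exact AdjoinRoot.eval₂_root _

/-- `ζ ↦ ζ ^ i`. -/
theorem exists_cycConj (hW : maximalIdeal W = Ideal.span {(q : W)}) {i : ℕ} (hi : i.Coprime q) :
    ∃ τ : cycRing W q →+* cycRing W q, Function.Injective τ ∧
      τ.comp (AdjoinRoot.of _) = AdjoinRoot.of _ ∧
      τ (AdjoinRoot.root _) = AdjoinRoot.root (cyclotomic q W) ^ i := by
  have := isDomain_cycRing hW
  have hζ := (isPrimitiveRoot_root hW).pow_of_coprime i hi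
  have hev : (cyclotomic q W).eval₂ (AdjoinRoot.of (cyclotomic q W))
      (AdjoinRoot.root (cyclotomic q W) ^ i) = 0 := by
    rw [← eval_map, map_cyclotomic]
    exact hζ.isRoot_cyclotomic (Fact.out : q.Prime).pos
  refine ⟨AdjoinRoot.lift _ _ hev, ?_, AdjoinRoot.lift_comp_of _, AdjoinRoot.lift_root _⟩
  set τ := AdjoinRoot.lift _ _ hev
  have : Module.Finite W (cycRing W q) := finite_cycRing
  rw [injective_iff_map_eq_zero]
  intro x hx
  by_contra hne
  have hker : RingHom.ker τ ≠ ⊥ := fun h0 => hne ((RingHom.ker_eq_bot_iff_eq_zero τ).1 h0 x hx)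
  have : (RingHom.ker τ).IsPrime := RingHom.ker_isPrime τ
  refine hker (Ideal.eq_bot_of_comap_eq_bot (R := W) ?_)
  rw [RingHom.comap_ker, AdjoinRoot.algebraMap_eq, AdjoinRoot.lift_comp_of,
    (RingHom.injective_iff_ker_eq_bot _).1 injective_of_cycRing]

end Cyclotomic

end FLTA.Carayol
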