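import Mathlib.Algebra.Polynomial.Div
import Mathlib.Algebra.Ring.GeomSum
import Mathlib.Algebra.Polynomial.Derivative
import Mathlib.Tactic.Ring
import Mathlib.Tactic.LinearCombination

/-!
# Divided differences of a polynomial

`FLTA.Carayol.divDiff Φ a = (Φ - Φ(a)) / (X - a)`.
-/

set_option autoImplicit false

open Polynomial

namespace FLTA.Carayol

variable {A B : Type*} [CommRing A] [CommRing B]

/-- The divided difference `(Φ(X) - Φ(a))/(X - a)`. -/
noncomputable def divDiff (Φ : A[X]) (a : A) : A[X] :=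
  (Φ - C (Φ.eval a)) /ₘ (X - C a)

theorem sub_mul_divDiff (Φ : A[X]) (a : A) :
    (X - C a) * divDiff Φ a = Φ - C (Φ.eval a) :=
  mul_divByMonic_eq_iff_isRoot.2 (by simp)

theorem sub_mul_divDiff_eval (Φ : A[X]) (a b : A) :
    (b - a) * (divDiff Φ a).eval b = Φ.eval b - Φ.eval a := by
  have := congrArg (Polynomial.eval b) (sub_mul_divDiff Φ a)
  simpa using this

theorem eq_divDiff_of_mul_eq {Φ D : A[X]} {a : A}
    (h : (X - C a) * D = Φ - C (Φ.eval a)) : D = divDiff Φ a := by
  rw [divDiff, ← h, mul_divByMonic_cancel_left _ (monic_X_sub_C a)]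

theorem divDiff_eq_sum (Φ : A[X]) (a : A) :
    divDiff Φ a = ∑ n ∈ Finset.range (Φ.natDegree + 1),
      C (Φ.coeff n) * ∑ i ∈ Finset.range n, X ^ i * C a ^ (n - 1 - i) := by
  refine (eq_divDiff_of_mul_eq ?_).symm
  rw [Finset.mul_sum]
  conv_rhs => rw [eval_eq_sum_range, map_sum]; arg 1; rw [Φ.as_sum_range_C_mul_X_pow]
  rw [← Finset.sum_sub_distrib]
  refine Finset.sum_congr rfl fun n _ => ?_
  rw [map_mul, map_pow, ← mul_sub, ← geom_sum₂_mul X (C a) n]
  ring

theorem divDiff_eval_eq_sum (Φ : A[X]) (a b : A) :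
    (divDiff Φ a).eval b = ∑ n ∈ Finset.range (Φ.natDegree + 1),
      Φ.coeff n * ∑ i ∈ Finset.range n, b ^ i * a ^ (n - 1 - i) := by
  simp [divDiff_eq_sum, eval_finsetSum]

/-- The divided difference is symmetric. -/
theorem divDiff_eval_comm (Φ : A[X]) (a b : A) :
    (divDiff Φ a).eval b = (divDiff Φ b).eval a := by
  rw [divDiff_eval_eq_sum, divDiff_eval_eq_sum]
  exact Finset.sum_congr rfl fun n _ => by rw [geom_sum₂_comm b a n]

theorem divDiff_eval_self (Φ : A[X]) (a : A) :
    (divDiff Φ a).eval a = Φ.derivative.eval a := by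
  have := congrArg (fun p => p.derivative.eval a) (sub_mul_divDiff Φ a)
  simpa using this

theorem map_divDiff (f : A →+* B) (Φ : A[X]) (a : A) :
    (divDiff Φ a).map f = divDiff (Φ.map f) (f a) := by
  refine eq_divDiff_of_mul_eq ?_
  have := congrArg (Polynomial.map f) (sub_mul_divDiff Φ a)
  simpa [eval_map, eval₂_at_apply] using this

theorem monic_divDiff {Φ : A[X]} (hΦ : Φ.Monic) (hd : 0 < Φ.natDegree) (a : A) :
    (divDiff Φ a).Monic := by
  nontriviality A
  refine (monic_X_sub_C a).of_mul_monic_left ?_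
  rw [sub_mul_divDiff]
  exact hΦ.sub_of_left (degree_C_le.trans_lt (natDegree_pos_iff_degree_pos.1 hd))

theorem natDegree_divDiff [Nontrivial A] {Φ : A[X]} (hΦ : Φ.Monic) (hd : 0 < Φ.natDegree)
    (a : A) : (divDiff Φ a).natDegree = Φ.natDegree - 1 := by
  have := congrArg natDegree (sub_mul_divDiff Φ a)
  rw [(monic_X_sub_C a).natDegree_mul (monic_divDiff hΦ hd a), natDegree_X_sub_C,
    natDegree_sub_C] at this
  omega

theorem coeff_zero_divDiff_zero (Φ : A[X]) : (divDiff Φ 0).coeff 0 = Φ.coeff 1 := by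
  rw [coeff_zero_eq_eval_zero, divDiff_eval_self, ← coeff_zero_eq_eval_zero, coeff_derivative]
  simp

end FLTA.Carayol
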