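import Mathlib.RingTheory.TensorProduct.Free
import Mathlib.RingTheory.Henselian
import Mathlib.RingTheory.AdjoinRoot
import Mathlib.RingTheory.Discriminant
import Mathlib.RingTheory.Artinian.Ring
import Mathlib.FieldTheory.IsAlgClosed.Basic
import Mathlib.LinearAlgebra.Vandermonde
import Mathlib.LinearAlgebra.Matrix.Charpoly.Coeff
import Mathlib.FieldTheory.Separable
import Mathlib.RingTheory.LocalRing.ResidueField.Basic
import Mathlib.RingTheory.Trace.Basic

/-!
# Splitting of finite free algebras with unit discriminant over a strictly henselian ring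

If `B` is free over `R` with unit discriminant, then over a henselian local `R`-algebra `W` with
algebraically closed residue field it splits: there are as many homomorphisms `B → W` as the
rank, and they separate a basis.
-/

set_option autoImplicit false

open IsLocalRing Polynomial TensorProduct

namespace FLTA.Carayol

/-- A finite algebra over an algebraically closed field with nondegenerate trace form is split. -/
theorem exists_algEquiv_pi_of_isUnit_discr {k S ι : Type*} [Field k] [IsAlgClosed k] [CommRing S]
    [Algebra k S] [Fintype ι] [DecidableEq ι] (e : Module.Basis ι k S)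
    (he : IsUnit (Algebra.discr k e)) : Nonempty (S ≃ₐ[k] (ι → k)) := by
  classical
  have := Module.Finite.of_basis e
  have : IsReduced S := by
    refine ⟨fun x hx => ?_⟩
    have h0 : Matrix.mulVec (Algebra.traceMatrix k e) (fun i => e.repr x i) = 0 := by
      funext i
      have h1 : Algebra.trace k S (e i * x) = 0 := by
        refine isNilpotent_iff_eq_zero.mp ?_
        exact LinearMap.isNilpotent_trace_of_isNilpotent
          (((Commute.all (e i) x).isNilpotent_mul_left hx).map (Algebra.lmul k S))
      rw [Pi.zero_apply, ← h1]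
      conv_rhs => rw [← e.sum_repr x, Finset.mul_sum, map_sum]
      refine Finset.sum_congr rfl fun j _ => ?_
      dsimp only
      rw [mul_smul_comm, map_smul, Algebra.traceMatrix_apply, Algebra.traceForm_apply,
        smul_eq_mul, mul_comm]
    have h1 := Matrix.eq_zero_of_mulVec_eq_zero (by rwa [← Algebra.discr_def, ← isUnit_iff_ne_zero]) h0
    exact e.repr.map_eq_zero_iff.mp (Finsupp.ext fun i => congrFun h1 i)
  have : IsArtinianRing S := IsArtinianRing.of_finite k S
  have : Fintype (MaximalSpectrum S) := Fintype.ofFinite _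
  let π : S →ₐ[k] (MaximalSpectrum S → k) := AlgHom.pi fun M =>
    letI := Ideal.Quotient.field M.asIdeal
    ((AlgEquiv.ofBijective (Algebra.ofId k (S ⧸ M.asIdeal))
      IsAlgClosed.algebraMap_bijective_of_isIntegral).symm : S ⧸ M.asIdeal →ₐ[k] k).comp
      (Ideal.Quotient.mkₐ k M.asIdeal)
  have hπ : Function.Bijective π := by
    have hb := (IsArtinianRing.equivPi S).bijective
    have hker : ∀ (x : S) (M : MaximalSpectrum S),
        π x M = 0 ↔ x ∈ M.asIdeal := fun x M => by
      simp [π, Ideal.Quotient.eq_zero_iff_mem]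
    refine ⟨(injective_iff_map_eq_zero π).mpr fun x hx => hb.1 ?_, fun y => ?_⟩
    · rw [map_zero]
      funext M
      exact Ideal.Quotient.eq_zero_iff_mem.mpr ((hker x M).mp (congrFun hx M))
    · obtain ⟨x, hx⟩ := hb.2 fun M => algebraMap k (S ⧸ M.asIdeal) (y M)
      refine ⟨x, funext fun M => ?_⟩
      have h1 : x - algebraMap k S (y M) ∈ M.asIdeal := by
        rw [← Ideal.Quotient.mk_eq_mk_iff_sub_mem]
        exact congrFun hx M
      rw [← hker, map_sub, Pi.sub_apply, AlgHom.commutes, Pi.algebraMap_apply,
        Algebra.algebraMap_self, RingHom.id_apply, sub_eq_zero] at h1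
      exact h1
  let Φ := AlgEquiv.ofBijective π hπ
  have hcard : Fintype.card (MaximalSpectrum S) = Fintype.card ι := by
    rw [← Module.finrank_pi k, ← Φ.toLinearEquiv.finrank_eq, Module.finrank_eq_card_basis e]
  exact ⟨Φ.trans (AlgEquiv.piCongrLeft k (fun _ => k) (Fintype.equivOfCardEq hcard))⟩

variable {R B : Type*} [CommRing R] [CommRing B] [Algebra R B]

theorem leftMulMatrix_basis_tmul {A : Type*} [CommRing A] [Algebra R A] {ι : Type*} [Fintype ι]
    [DecidableEq ι] (e : Module.Basis ι R B) (b : B) :
    Algebra.leftMulMatrix (Algebra.TensorProduct.basis A e) (1 ⊗ₜ[R] b) =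
      (Algebra.leftMulMatrix e b).map (algebraMap R A) := by
  ext i j
  rw [Algebra.leftMulMatrix_eq_repr_mul, Matrix.map_apply, Algebra.leftMulMatrix_eq_repr_mul,
    Algebra.TensorProduct.basis_apply, Algebra.TensorProduct.tmul_mul_tmul, mul_one,
    Algebra.TensorProduct.basis_repr_tmul]
  simp

theorem discr_basis_tmul {A : Type*} [CommRing A] [Algebra R A] {ι : Type*} [Fintype ι]
    [DecidableEq ι] (e : Module.Basis ι R B) :
    Algebra.discr A (Algebra.TensorProduct.basis A e) = algebraMap R A (Algebra.discr R e) := by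
  rw [Algebra.discr_def, Algebra.discr_def, RingHom.map_det]
  congr 1
  ext i j
  rw [RingHom.mapMatrix_apply, Matrix.map_apply, Algebra.traceMatrix_apply, Algebra.traceMatrix_apply,
    Algebra.traceForm_apply, Algebra.traceForm_apply, Algebra.TensorProduct.basis_apply,
    Algebra.TensorProduct.basis_apply, Algebra.TensorProduct.tmul_mul_tmul, mul_one,
    Algebra.trace_eq_matrix_trace (Algebra.TensorProduct.basis A e), leftMulMatrix_basis_tmul,
    Algebra.trace_eq_matrix_trace e]
  exact (AddMonoidHom.map_trace (algebraMap R A).toAddMonoidHom _).symm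

/-- Unit discriminant and strictly henselian target: the algebra splits. -/
theorem exists_homs_of_isUnit_discr {W ι : Type*} [CommRing W] [HenselianLocalRing W]
    [IsAlgClosed (ResidueField W)] [Fintype ι] [DecidableEq ι] (e : Module.Basis ι R B)
    (he : IsUnit (Algebra.discr R e)) (ψ : R →+* W) :
    ∃ φ : ι → (B →+* W), (∀ i, (φ i).comp (algebraMap R B) = ψ) ∧
      IsUnit (Matrix.of fun i j => φ i (e j)).det := by
  classical
  let : Algebra R W := ψ.toAlgebra
  set k := ResidueField W
  let eS := Algebra.TensorProduct.basis W e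
  let eK := Algebra.TensorProduct.basis k e
  let red : W ⊗[R] B →ₐ[W] k ⊗[R] B :=
    Algebra.TensorProduct.map (Algebra.ofId W k) (AlgHom.id R B)
  have hred : ∀ j, red (eS j) = eK j := fun j => by
    simp [red, eS, eK, Algebra.TensorProduct.basis_apply]
  obtain ⟨Θ⟩ := exists_algEquiv_pi_of_isUnit_discr eK (by
    rw [discr_basis_tmul]; exact he.map _)
  -- a separating element
  let n := Fintype.card ι
  let σ := Fintype.equivFin ι
  let a : ι → k := fun i => Infinite.natEmbedding k (σ i : ℕ)
  have ha : Function.Injective a := fun i j h =>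
    σ.injective (Fin.ext ((Infinite.natEmbedding k).injective h))
  obtain ⟨b, hb⟩ : ∃ b, Θ (red b) = a := by
    choose c hc using fun j => IsLocalRing.residue_surjective (eK.repr (Θ.symm a) j)
    refine ⟨∑ j, c j • eS j, ?_⟩
    rw [map_sum, ← Θ.apply_symm_apply a]
    congr 1
    conv_rhs => rw [← eK.sum_repr (Θ.symm a)]
    refine Finset.sum_congr rfl fun j _ => ?_
    rw [map_smul, hred, ← hc, ← algebraMap_smul k (c j)]
    rfl
  let v : ι → W ⊗[R] B := fun j => b ^ (σ j : ℕ)
  have hvK : ∀ y, (fun i => residue W (eS.repr y i)) = fun i => eK.repr (red y) i := by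
    intro y
    conv_rhs => rw [← eS.sum_repr y]
    simp only [map_sum, map_smul, hred]
    funext i
    simp only [← algebraMap_smul k (eS.repr y _), map_smul, Module.Basis.repr_self]
    simp [Finsupp.single_apply, Algebra.smul_def]
    rfl
  have hv : IsUnit (eS.det v) := by
    rw [Module.Basis.det_apply, ← IsLocalRing.notMem_maximalIdeal, ← residue_eq_zero_iff,
      RingHom.map_det, ← ne_eq]
    have h1 : (residue W).mapMatrix (eS.toMatrix v) = eK.toMatrix fun j => red (v j) := by
      ext i j
      exact congrFun (hvK (v j)) i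
    rw [h1, ← isUnit_iff_ne_zero, ← Module.Basis.det_apply, ← Module.Basis.is_basis_iff_det eK]
    have hli : LinearIndependent k fun j => red (v j) := by
      refine LinearIndependent.of_comp Θ.toLinearMap ?_
      have h2 := Matrix.linearIndependent_cols_of_det_ne_zero
        (A := (Matrix.vandermonde (a ∘ σ.symm)).submatrix σ σ) (by
          rw [Matrix.det_submatrix_equiv_self]
          exact Matrix.det_vandermonde_ne_zero_iff.mpr (ha.comp σ.symm.injective))
      have h3 : (Θ.toLinearMap ∘ fun j => red (v j)) =
          ((Matrix.vandermonde (a ∘ σ.symm)).submatrix σ σ).col := by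
        funext j i
        simp [v, hb, Matrix.vandermonde, Matrix.col, map_pow]
      rw [h3]
      exact h2
    refine ⟨hli, ?_⟩
    rcases isEmpty_or_nonempty ι with h | h
    · rw [eq_top_iff, ← eK.span_eq, Set.range_eq_empty (eK : ι → k ⊗[R] B), Submodule.span_empty]
      exact bot_le
    exact hli.span_eq_top_of_card_eq_finrank (Module.finrank_eq_card_basis eK).symm
  have hvbasis := (Module.Basis.is_basis_iff_det eS).mpr hv
  -- the minimal equation of `b` and its roots
  set χ := (Algebra.leftMulMatrix eS b).charpoly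
  have hχm : χ.Monic := Matrix.charpoly_monic _
  have : Nontrivial W := inferInstance
  have hχd : χ.natDegree = n := Matrix.charpoly_natDegree_eq_dim _
  have hχb : aeval b χ = 0 := by
    refine (injective_iff_map_eq_zero _).mp (Algebra.leftMulMatrix_injective eS) _ ?_
    rw [← aeval_algHom_apply]
    exact Matrix.aeval_self_charpoly _
  set χk := χ.map (residue W)
  have hχk : χk = ∏ i, (X - C (a i)) := by
    symm
    refine Polynomial.eq_of_monic_of_dvd_of_natDegree_le (monic_prod_of_monic _ _ fun i _ =>
      monic_X_sub_C _) (hχm.map _) ?_ ?_ |>.symm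
    · refine Fintype.prod_dvd_of_coprime (fun i j hij => ?_) fun i => ?_
      · exact isCoprime_X_sub_C_of_isUnit_sub (sub_ne_zero.mpr (ha.ne hij)).isUnit
      · rw [dvd_iff_isRoot, IsRoot.def, eval_map]
        have h1 := congrArg (fun z => Θ (red z) i) hχb
        simp only [map_zero, Pi.zero_apply] at h1
        rw [← aeval_algHom_apply] at h1
        rw [← h1]
        rw [aeval_def, ← IsLocalRing.ResidueField.algebraMap_eq, IsScalarTower.algebraMap_eq W k
          (k ⊗[R] B)]
        have h2 := hom_eval₂ χ ((algebraMap k (k ⊗[R] B)).comp (algebraMap W k))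
          ((Pi.evalRingHom (fun _ => k) i).comp (Θ : k ⊗[R] B →+* (ι → k))) (red b)
        simp only [RingHom.comp_apply, RingHom.coe_coe, Pi.evalRingHom_apply] at h2
        rw [h2, hb]
        refine congrArg (fun f => eval₂ f (a i) χ) (RingHom.ext fun w => ?_)
        show residue W w = Θ (algebraMap k (k ⊗[R] B) (algebraMap W k w)) i
        rw [AlgEquiv.commutes]
        rfl
    · rw [hχm.natDegree_map, hχd, natDegree_prod_of_monic _ _ fun i _ => monic_X_sub_C _]
      simp [n]
  have hroot : ∀ i, ∃ r : W, χ.IsRoot r ∧ residue W r = a i := by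
    intro i
    obtain ⟨r0, hr0⟩ := residue_surjective (a i)
    have hev : χk.eval (a i) = 0 := by
      rw [hχk, eval_prod]
      exact Finset.prod_eq_zero (Finset.mem_univ i) (by simp)
    obtain ⟨r, hr, hrr⟩ := HenselianLocalRing.is_henselian χ hχm r0
      (by rw [← residue_eq_zero_iff, ← eval₂_at_apply, ← eval_map, hr0]; exact hev)
      (by
        rw [← IsLocalRing.notMem_maximalIdeal, ← residue_eq_zero_iff, ← eval₂_at_apply, ← eval_map,
          ← derivative_map, hr0]
        refine Separable.eval₂_derivative_ne_zero (f := RingHom.id k) ?_ (by simpa using hev)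
        rw [show χ.map (residue W) = _ from hχk]
        exact separable_prod_X_sub_C_iff.mpr ha)
    refine ⟨r, hr, ?_⟩
    rw [← hr0]
    exact (Ideal.Quotient.mk_eq_mk_iff_sub_mem _ _).mpr hrr
  choose r hr hra using hroot
  -- `W[X]/χ ≅ W ⊗ B`
  let f : AdjoinRoot χ →ₐ[W] W ⊗[R] B :=
    AdjoinRoot.liftAlgHom χ (Algebra.ofId W _) b (by exact hχb)
  let pb := ((AdjoinRoot.powerBasis' hχm).basis.reindex
    (finCongr ((AdjoinRoot.powerBasis'_dim hχm).trans hχd))).reindex σ.symm
  have hfroot : f (AdjoinRoot.root χ) = b := AdjoinRoot.liftAlgHom_root ..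
  have hf : Function.Bijective f := by
    let vb := Module.Basis.mk hvbasis.1 hvbasis.2.ge
    have : f.toLinearMap = (pb.equiv vb (Equiv.refl _)).toLinearMap := by
      refine pb.ext fun i => ?_
      rw [LinearEquiv.coe_coe, Module.Basis.equiv_apply]
      simp [pb, vb, v, hfroot, PowerBasis.coe_basis]
    show Function.Bijective f.toLinearMap
    rw [this]
    exact (pb.equiv vb (Equiv.refl _)).bijective
  let Ψ := AlgEquiv.ofBijective f hf
  let φ : ι → (W ⊗[R] B →ₐ[W] W) := fun i =>
    (AdjoinRoot.liftAlgHom χ (Algebra.ofId W W) (r i) (by exact hr i)).comp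
      (Ψ.symm : W ⊗[R] B →ₐ[W] AdjoinRoot χ)
  refine ⟨fun i => (φ i).toRingHom.comp (Algebra.TensorProduct.includeRight (R := R) (A := W)
    (B := B)).toRingHom, fun i => RingHom.ext fun x => ?_, ?_⟩
  · show φ i (1 ⊗ₜ[R] algebraMap R B x) = ψ x
    rw [← Algebra.TensorProduct.algebraMap_apply', IsScalarTower.algebraMap_apply R W (W ⊗[R] B),
      AlgHom.commutes]
    rfl
  have hres : ∀ (i : ι) (z : W ⊗[R] B), residue W (φ i z) = Θ (red z) i := by
    intro i z
    let g1 : AdjoinRoot χ →+* k := ((residue W).comp (φ i).toRingHom).comp f.toRingHom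
    let g2 : AdjoinRoot χ →+* k :=
      (((Pi.evalRingHom (fun _ => k) i).comp (Θ : k ⊗[R] B →+* (ι → k))).comp red.toRingHom).comp
        f.toRingHom
    have hg : g1 = g2 := by
      refine AdjoinRoot.ringHom_ext (RingHom.ext fun w => ?_) ?_
      · show residue W (φ i (f (AdjoinRoot.of χ w))) = Θ (red (f (AdjoinRoot.of χ w))) i
        rw [← AdjoinRoot.algebraMap_eq, AlgHom.commutes, AlgHom.commutes, AlgHom.commutes,
          IsScalarTower.algebraMap_apply W k (k ⊗[R] B), AlgEquiv.commutes]
        rfl
      · show residue W (φ i (Ψ (AdjoinRoot.root χ))) = Θ (red (f (AdjoinRoot.root χ))) i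
        show residue W (AdjoinRoot.liftAlgHom χ (Algebra.ofId W W) (r i) (hr i)
          (Ψ.symm (Ψ (AdjoinRoot.root χ)))) = _
        rw [AlgEquiv.symm_apply_apply]
        rw [hfroot, hb]
        exact (congrArg (residue W)
          (AdjoinRoot.liftAlgHom_root χ (Algebra.ofId W W) (r i) (hr i))).trans (hra i)
    obtain ⟨y, rfl⟩ := hf.2 z
    exact RingHom.congr_fun hg y
  rw [← IsLocalRing.notMem_maximalIdeal, ← residue_eq_zero_iff, RingHom.map_det]
  have hm : (residue W).mapMatrix (Matrix.of fun i j => (φ i).toRingHom.comp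
      (Algebra.TensorProduct.includeRight (R := R) (A := W) (B := B)).toRingHom (e j))
      = LinearMap.toMatrix eK (Pi.basisFun k ι) Θ.toLinearMap := by
    ext i j
    rw [LinearMap.toMatrix_apply, ← hred]
    simp [eS, Algebra.TensorProduct.basis_apply, hres]
  rw [hm]
  exact (LinearEquiv.isUnit_det Θ.toLinearEquiv eK (Pi.basisFun k ι)).ne_zero

end FLTA.Carayol
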