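import Fermat.Agent.Carayol.Branch
import Fermat.Agent.Carayol.DVRExt
import Mathlib.FieldTheory.KummerPolynomial
import Mathlib.Algebra.Polynomial.Eval.Irreducible
import Mathlib.RingTheory.DedekindDomain.PID
import Mathlib.RingTheory.UniqueFactorizationDomain.GCDMonoid
import Mathlib.RingTheory.DiscreteValuationRing.Basic
import Mathlib.RingTheory.AdicCompletion.Noetherian
import Mathlib.RingTheory.Henselian
import Mathlib.RingTheory.LocalRing.ResidueField.Basic

/-!
# The three branches at the generic point of the special fibre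

`A` is a complete discrete valuation ring with uniformiser `q`, and `Φ ≡ (X - T^q)(X^q - T)`
modulo `q`, with `T` not a `q`-th power modulo `q`.
-/

set_option autoImplicit false
set_option linter.style.haveILetI false

open IsLocalRing Ideal Polynomial

namespace FLTA.Carayol

variable {A : Type*} [CommRing A] [IsLocalRing A]

/-- The branch hypotheses at the Gauss point. -/
structure IsGauss (q : ℕ) (Φ : A[X]) (s : RootSplit Φ) (T : A) : Prop where
  prime_q : q.Prime
  max_eq : maximalIdeal A = span {(q : A)}
  monic : Φ.Monic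
  natDegree_eq : Φ.natDegree = q + 1
  x₀_mod : residue A s.x₀ = residue A T ^ q
  quo_mod : s.quo.map (residue A) = X ^ q - C (residue A T)
  not_pow : ∀ c : ResidueField A, c ^ q ≠ residue A T
  mid : ∃ u : s.E, IsUnit u ∧
    s.quo.derivative.eval₂ (AdjoinRoot.of s.quo) (AdjoinRoot.root s.quo) = (q : s.E) * u

theorem exists_rootSplit [HenselianLocalRing A] {q : ℕ} (hq : q.Prime)
    (hmax : maximalIdeal A = span {(q : A)}) {Φ : A[X]} (hΦ : Φ.Monic) {T : A}
    (hmod : Φ.map (residue A) = (X - C (residue A T ^ q)) * (X ^ q - C (residue A T)))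
    (hT : ∀ c : ResidueField A, c ^ q ≠ residue A T) :
    ∃ s : RootSplit Φ, residue A s.x₀ = residue A T ^ q ∧
      s.quo.map (residue A) = X ^ q - C (residue A T) := by
  have hqk : (q : ResidueField A) = 0 := by
    rw [← map_natCast (residue A), residue_eq_zero_iff, hmax]
    exact mem_span_singleton_self _
  have hne : residue A T ^ q ^ 2 - residue A T ≠ 0 := fun h0 =>
    hT (residue A T ^ q) (by rw [← pow_mul, ← pow_two]; exact sub_eq_zero.1 h0)
  obtain ⟨x₀, hx₀, hmem⟩ := HenselianLocalRing.is_henselian Φ hΦ (T ^ q)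
    (by
      rw [← residue_eq_zero_iff, ← eval₂_at_apply, ← eval_map, hmod, map_pow, eval_mul, eval_sub,
        eval_X, eval_C, sub_self, zero_mul])
    (by
      rw [← notMem_maximalIdeal, ← residue_eq_zero_iff, ← eval₂_at_apply, ← eval_map,
        ← derivative_map, hmod, derivative_mul, derivative_sub, derivative_X, derivative_C,
        derivative_sub, derivative_X_pow, derivative_C, map_pow]
      simpa [hqk, ← pow_mul, ← pow_two] using hne)
  have hx : residue A x₀ = residue A T ^ q := by
    rw [← map_pow, ← sub_eq_zero, ← map_sub, residue_eq_zero_iff]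
    exact hmem
  refine ⟨⟨x₀, hx₀⟩, hx, ?_⟩
  have h1 := congrArg (Polynomial.map (residue A)) (RootSplit.sub_mul_quo ⟨x₀, hx₀⟩)
  rw [hmod, Polynomial.map_mul, Polynomial.map_sub, map_X, map_C, hx] at h1
  exact mul_left_cancel₀ (X_sub_C_ne_zero _) h1

theorem exists_mul_eq_adjoinRootMap [IsDomain A] {L : Type*} [Field L] [Algebra A L]
    [IsFractionRing A L] {φ : A[X]} {ψ : L[X]} (h : φ.map (algebraMap A L) = ψ)
    (y : AdjoinRoot ψ) :
    ∃ (r : A) (z : AdjoinRoot φ), r ≠ 0 ∧
      AdjoinRoot.of ψ (algebraMap A L r) * y = AdjoinRoot.map (algebraMap A L) φ ψ h.symm.dvd z := by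
  induction y using AdjoinRoot.induction_on with
  | ih p =>
    induction p using Polynomial.induction_on with
    | C c =>
      obtain ⟨u, v, hv, rfl⟩ := IsFractionRing.div_surjective A c
      refine ⟨v, AdjoinRoot.of φ u, nonZeroDivisors.ne_zero hv, ?_⟩
      rw [AdjoinRoot.map_of, AdjoinRoot.mk_C, ← map_mul, mul_div_cancel₀]
      exact (_root_.map_ne_zero_iff _ (IsFractionRing.injective A L)).2
        (nonZeroDivisors.ne_zero hv)
    | add p p' hp hp' =>
      obtain ⟨r, u, hr, hu⟩ := hp
      obtain ⟨r', v, hr', hv⟩ := hp'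
      refine ⟨r * r', AdjoinRoot.of φ r' * u + AdjoinRoot.of φ r * v, mul_ne_zero hr hr', ?_⟩
      simp only [map_add, map_mul, AdjoinRoot.map_of, ← hu, ← hv]
      ring
    | monomial k c hk =>
      obtain ⟨r, u, hr, hu⟩ := hk
      refine ⟨r, u * AdjoinRoot.root φ, hr, ?_⟩
      simp only [map_mul, map_pow, AdjoinRoot.map_root, AdjoinRoot.mk_X, pow_succ, ← hu]
      ring

namespace IsGauss

variable [IsDomain A] [IsDiscreteValuationRing A] [IsAdicComplete (maximalIdeal A) A]
  {q : ℕ} {Φ : A[X]} {s : RootSplit Φ} {T : A}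
  {L : Type*} [Field L] [Algebra A L] [IsFractionRing A L]

section Basic

omit [IsAdicComplete (maximalIdeal A) A]

omit [IsDomain A] [IsDiscreteValuationRing A] in
theorem monic_quo (h : IsGauss q Φ s T) : s.quo.Monic :=
  s.monic_quo h.monic (by rw [h.natDegree_eq]; omega)

theorem natDegree_quo (h : IsGauss q Φ s T) : s.quo.natDegree = q := by
  rw [s.natDegree_quo h.monic (by rw [h.natDegree_eq]; omega), h.natDegree_eq,
    Nat.add_sub_cancel]

omit [IsDomain A] [IsDiscreteValuationRing A] in
theorem irreducible_quo_residue (h : IsGauss q Φ s T) :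
    Irreducible (s.quo.map (residue A)) := by
  rw [h.quo_mod]
  exact X_pow_sub_C_irreducible_of_prime h.prime_q h.not_pow

theorem irreducible_quo_self (h : IsGauss q Φ s T) : Irreducible s.quo :=
  Polynomial.Monic.irreducible_of_irreducible_map (residue A) _ h.monic_quo
    h.irreducible_quo_residue

omit [IsDomain A] [IsDiscreteValuationRing A] in
theorem isLocalRing_E (h : IsGauss q Φ s T) : IsLocalRing s.E :=
  isLocalRing_inert h.max_eq h.monic_quo h.irreducible_quo_residue

theorem isDomain_E (h : IsGauss q Φ s T) : IsDomain s.E :=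
  isDomain_adjoinRoot_of_irreducible h.irreducible_quo_self

omit [IsDomain A] [IsDiscreteValuationRing A] in
theorem maximalIdeal_E (h : IsGauss q Φ s T) [IsLocalRing s.E] :
    maximalIdeal s.E = span {(q : s.E)} := by
  rw [maximalIdeal_inert h.max_eq h.monic_quo h.irreducible_quo_residue, map_natCast]

theorem isDiscreteValuationRing_E (h : IsGauss q Φ s T) [IsDomain s.E] [IsLocalRing s.E] :
    IsDiscreteValuationRing s.E :=
  isDiscreteValuationRing_inert h.max_eq h.monic_quo h.irreducible_quo_residue

omit [IsDiscreteValuationRing A] in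
theorem q_ne_zero [IsDiscreteValuationRing A] (h : IsGauss q Φ s T) : (q : A) ≠ 0 := by
  intro h0
  have := h.max_eq
  rw [h0, Ideal.span_singleton_zero] at this
  exact IsDiscreteValuationRing.not_a_field A this

omit [IsDomain A] [IsDiscreteValuationRing A] in
theorem charP_residue_E (h : IsGauss q Φ s T) [IsLocalRing s.E] :
    CharP (ResidueField s.E) q := by
  refine (CharP.charP_iff_prime_eq_zero h.prime_q).2 ?_
  rw [← map_natCast (residue s.E), residue_eq_zero_iff, h.maximalIdeal_E]
  exact mem_span_singleton_self _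

omit [IsDomain A] [IsDiscreteValuationRing A] in
theorem quo_map_residue_E (h : IsGauss q Φ s T) [IsLocalRing s.E] :
    s.quo.map ((residue s.E).comp (AdjoinRoot.of s.quo)) =
      X ^ q - C (residue s.E (AdjoinRoot.of s.quo T)) := by
  have h0 : ∀ x ∈ maximalIdeal A, (residue s.E).comp (AdjoinRoot.of s.quo) x = 0 := by
    intro x hx
    rw [h.max_eq, mem_span_singleton] at hx
    obtain ⟨c, rfl⟩ := hx
    rw [RingHom.comp_apply, residue_eq_zero_iff, h.maximalIdeal_E, map_mul, map_natCast]
    exact Ideal.mul_mem_right _ _ (mem_span_singleton_self _)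
  have h1 : s.quo.map ((residue s.E).comp (AdjoinRoot.of s.quo)) =
      (X ^ q - C T).map ((residue s.E).comp (AdjoinRoot.of s.quo)) := by
    rw [← sub_eq_zero, ← Polynomial.map_sub]
    ext i
    rw [coeff_map, coeff_zero]
    apply h0
    rw [← residue_eq_zero_iff, ← coeff_map, Polynomial.map_sub, h.quo_mod, Polynomial.map_sub,
      Polynomial.map_pow, map_X, map_C, sub_self, coeff_zero]
  rw [h1]
  simp

omit [IsDomain A] [IsDiscreteValuationRing A] in
theorem isShiftEis_G (h : IsGauss q Φ s T) [IsLocalRing s.E] :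
    IsShiftEis (q : s.E) s.G (AdjoinRoot.root s.quo) := by
  have hq := h.prime_q
  have hd : 1 < Φ.natDegree := by rw [h.natDegree_eq]; have := hq.two_le; omega
  have hdeg : s.G.natDegree = q - 1 := by
    rw [s.natDegree_G h.monic hd, h.natDegree_eq]
    omega
  refine ⟨h.maximalIdeal_E, s.monic_G h.monic hd, ?_, ?_, ?_⟩
  · rw [hdeg]; have := hq.two_le; omega
  · intro i hi
    rw [hdeg] at hi
    have := h.charP_residue_E
    have := Fact.mk hq
    rw [← residue_eq_zero_iff, ← coeff_map, map_comp, RootSplit.G, map_divDiff,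
      Polynomial.map_map, h.quo_map_residue_E, Polynomial.map_add, map_X, map_C]
    set x := residue s.E (AdjoinRoot.root s.quo) with hx
    have hxq : x ^ q = residue s.E (AdjoinRoot.of s.quo T) := by
      have h1 := congrArg (Polynomial.eval x) h.quo_map_residue_E
      rw [eval_map, hx, ← hom_eval₂, AdjoinRoot.eval₂_root, map_zero, eval_sub, eval_pow, eval_X,
        eval_C, eq_comm, sub_eq_zero] at h1
      exact h1
    rw [← hxq]
    have e : (divDiff (X ^ q - C (x ^ q)) x).comp (X + C x) = X ^ (q - 1) := by
      have h2 : (X ^ q - C (x ^ q)).comp (X + C x) = (X ^ q : (ResidueField s.E)[X]) := by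
        rw [sub_comp, pow_comp, X_comp, C_comp, add_pow_char, map_pow, add_sub_cancel_right]
      have h3 : ((X - C x) * divDiff (X ^ q - C (x ^ q)) x).comp (X + C x) =
          (X ^ q : (ResidueField s.E)[X]) := by
        rw [sub_mul_divDiff, eval_sub, eval_pow, eval_X, eval_C, sub_self, map_zero, sub_zero, h2]
      rw [mul_comp, sub_comp, X_comp, C_comp, add_sub_cancel_right] at h3
      refine mul_left_cancel₀ (X_ne_zero : (X : (ResidueField s.E)[X]) ≠ 0) ?_
      rw [h3, ← pow_succ', Nat.sub_add_cancel hq.pos]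
    rw [e, coeff_X_pow, if_neg hi.ne]
  · obtain ⟨u, hu, hue⟩ := h.mid
    exact ⟨u, hu, by rw [RootSplit.G, divDiff_eval_self, derivative_map, eval_map, hue]⟩

theorem isFractionRing_E (h : IsGauss q Φ s T) [IsDomain s.E]
    [Fact (Irreducible (s.map (algebraMap A L)).quo)] :
    letI := (s.mapE (algebraMap A L)).toAlgebra
    IsFractionRing s.E (s.map (algebraMap A L)).E := by
  letI := (s.mapE (algebraMap A L)).toAlgebra
  have hinj : Function.Injective (s.mapE (algebraMap A L)) :=
    adjoinRoot_map_injective (IsFractionRing.injective A L) h.monic_quo (s.quo_map _).symm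
  have : FaithfulSMul s.E (s.map (algebraMap A L)).E :=
    (faithfulSMul_iff_algebraMap_injective _ _).2 hinj
  refine IsFractionRing.of_field _ _ fun y => ?_
  obtain ⟨r, z, hr, hz⟩ := exists_mul_eq_adjoinRootMap (s.quo_map (algebraMap A L)).symm y
  refine ⟨z, AdjoinRoot.of s.quo r, ?_⟩
  show y = s.mapE (algebraMap A L) z / s.mapE (algebraMap A L) (AdjoinRoot.of s.quo r)
  simp only [RootSplit.mapE, AdjoinRoot.map_of]
  rw [← hz, mul_div_cancel_left₀]
  exact (_root_.map_ne_zero _).2 ((map_ne_zero_iff _ (IsFractionRing.injective A L)).2 hr)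

theorem irreducible_quo (h : IsGauss q Φ s T) :
    Irreducible (s.map (algebraMap A L)).quo := by
  rw [RootSplit.quo_map]
  exact (h.monic_quo.irreducible_iff_irreducible_map_fraction_map).1 h.irreducible_quo_self

theorem irreducible_G (h : IsGauss q Φ s T) [Fact (Irreducible (s.map (algebraMap A L)).quo)] :
    Irreducible (s.map (algebraMap A L)).G := by
  have := h.isDomain_E
  have := h.isLocalRing_E
  have := h.isDiscreteValuationRing_E
  letI := (s.mapE (algebraMap A L)).toAlgebra
  have := h.isFractionRing_E (L := L)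
  have hq0 : (q : s.E) ≠ 0 := by
    intro h0
    have hinj : Function.Injective (algebraMap A s.E) := by
      have := h.monic_quo.free_adjoinRoot
      exact FaithfulSMul.algebraMap_injective A s.E
    exact h.q_ne_zero (hinj (by rw [map_natCast, map_zero, h0]))
  have hG := h.isShiftEis_G
  rw [← RootSplit.G_map]
  exact (hG.monic.irreducible_iff_irreducible_map_fraction_map
    (K := (s.map (algebraMap A L)).E)).1 (hG.irreducible hq0)

theorem quo_eval_x₀_ne_zero (h : IsGauss q Φ s T) :
    (s.map (algebraMap A L)).quo.eval (s.map (algebraMap A L)).x₀ ≠ 0 := by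
  rw [RootSplit.quo_map, RootSplit.map_x₀, eval_map, eval₂_at_apply, Ne,
    map_eq_zero_iff _ (IsFractionRing.injective A L)]
  intro h0
  have h1 := congrArg (residue A) h0
  rw [← eval₂_at_apply, ← eval_map, h.quo_mod, h.x₀_mod, eval_sub, eval_pow, eval_X, eval_C,
    map_zero, sub_eq_zero] at h1
  exact h.not_pow _ h1

/-- The branch hypotheses pass to a larger complete discrete valuation ring. -/
theorem map {B : Type*} [CommRing B] [IsLocalRing B] (h : IsGauss q Φ s T) (f : A →+* B)
    [IsLocalHom f] (hmax : maximalIdeal B = span {(q : B)})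
    (hT : ∀ c : ResidueField B, c ^ q ≠ residue B (f T)) :
    IsGauss q (Φ.map f) (s.map f) (f T) := by
  have hres : (ResidueField.map f).comp (residue A) = (residue B).comp f :=
    RingHom.ext fun a => ResidueField.map_residue f a
  refine ⟨h.prime_q, hmax, h.monic.map f, by rw [h.monic.natDegree_map, h.natDegree_eq], ?_, ?_,
    hT, ?_⟩
  · rw [RootSplit.map_x₀, ← ResidueField.map_residue, h.x₀_mod, map_pow,
      ResidueField.map_residue]
  · rw [RootSplit.quo_map, Polynomial.map_map, ← hres, ← Polynomial.map_map, h.quo_mod,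
      Polynomial.map_sub, Polynomial.map_pow, map_X, map_C, ResidueField.map_residue]
  · obtain ⟨u, hu, hue⟩ := h.mid
    refine ⟨s.mapE f u, hu.map _, ?_⟩
    have hroot : s.mapE f (AdjoinRoot.root s.quo) = AdjoinRoot.root (s.map f).quo :=
      AdjoinRoot.map_root f _ _ (s.quo_map f).dvd
    have hd : (s.map f).quo.derivative = s.quo.derivative.map f := by
      rw [RootSplit.quo_map, derivative_map]
    rw [hd, eval₂_map, ← RootSplit.mapE_comp_of, ← hroot, ← hom_eval₂, hue, map_mul, map_natCast]

end Basic

end IsGauss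

end FLTA.Carayol
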