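import Mathlib.LinearAlgebra.Matrix.Charpoly.Eigs
import Mathlib.FieldTheory.IsAlgClosed.AlgebraicClosure
import Mathlib.FieldTheory.IsAlgClosed.Spectrum
import Mathlib.RingTheory.IntegralClosure.IntegrallyClosed

/-!
# The trace of a root of an integral matrix is integral
-/

set_option autoImplicit false

namespace FLTA.Carayol

/-- If the entries of a power of `M` are integral, so is the trace of `M`. -/
theorem exists_trace_of_pow_eq_map {R K ι : Type*} [CommRing R] [IsIntegrallyClosed R]
    [Field K] [Algebra R K] [IsFractionRing R K] [Fintype ι] [DecidableEq ι]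
    {M : Matrix ι ι K} {N : Matrix ι ι R} {n : ℕ} (hn : n ≠ 0)
    (h : M ^ n = N.map (algebraMap R K)) : ∃ r : R, algebraMap R K r = M.trace := by
  refine IsIntegrallyClosed.isIntegral_iff.mp ?_
  let Ω := AlgebraicClosure K
  set M' : Matrix ι ι Ω := M.map (algebraMap K Ω) with hM'
  have hpow : M' ^ n = N.map (algebraMap R Ω) := by
    have h1 := congrArg (fun A : Matrix ι ι K => A.map (algebraMap K Ω)) h
    simp only [← RingHom.mapMatrix_apply, map_pow] at h1
    rw [hM', ← RingHom.mapMatrix_apply, h1, RingHom.mapMatrix_apply, RingHom.mapMatrix_apply,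
      Matrix.map_map, ← RingHom.coe_comp, ← IsScalarTower.algebraMap_eq]
  refine (isIntegral_algebraMap_iff (algebraMap K Ω).injective).mp ?_
  have ht : algebraMap K Ω M.trace = M'.trace := by
    rw [hM', Matrix.trace, Matrix.trace, map_sum]
    rfl
  rw [ht, Matrix.trace_eq_sum_roots_charpoly]
  refine IsIntegral.multiset_sum fun x hx => ?_
  rw [Polynomial.mem_roots', ← Matrix.mem_spectrum_iff_isRoot_charpoly] at hx
  have h2 : x ^ n ∈ spectrum Ω (M' ^ n) := spectrum.pow_mem_pow M' n hx.2
  rw [Matrix.mem_spectrum_iff_isRoot_charpoly, hpow, Matrix.charpoly_map] at h2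
  refine IsIntegral.of_pow (Nat.pos_of_ne_zero hn) ⟨N.charpoly, N.charpoly_monic, ?_⟩
  rw [← Polynomial.eval_map]
  exact h2

end FLTA.Carayol
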