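import Fermat.Agent.Carayol.GlueLine
import Fermat.Agent.Carayol.TracePow
import Mathlib.RingTheory.PowerSeries.Ideal
import Mathlib.RingTheory.PowerSeries.Inverse
import Mathlib.RingTheory.Polynomial.UniqueFactorization
import Mathlib.RingTheory.Polynomial.RationalRoot
import Mathlib.RingTheory.Discriminant
import Mathlib.LinearAlgebra.Matrix.Adjugate

/-!
# Gluing local roots to a global one

`E` is a finite free algebra over `W[X]` with nonzero discriminant.  An element of `E` over the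
completion at the Gauss point which at every point of the line (and at infinity) agrees with a
root of a global element is global.
-/

set_option autoImplicit false

open IsLocalRing Polynomial

namespace FLTA.Carayol

section Coord

variable {P E : Type*} [CommRing P] [CommRing E] [Algebra P E] {ι : Type*} [Fintype ι]
  [DecidableEq ι] (e : Module.Basis ι P E)

/-- The multiplication matrix of the element with coordinates `v` after base change along `β`. -/
noncomputable def coordMatrix {L : Type*} [CommRing L] (β : P →+* L) (v : ι → L) : Matrix ι ι L :=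
  ∑ i, v i • (Algebra.leftMulMatrix e (e i)).map β

variable {L : Type*} [CommRing L] (β : P →+* L)

theorem coordMatrix_commute (v : ι → L) (x : E) :
    Commute (coordMatrix e β v) ((Algebra.leftMulMatrix e x).map β) := by
  refine Commute.sum_left _ _ _ fun i _ => Commute.smul_left ?_ _
  exact ((Commute.all (e i) x).map (Algebra.leftMulMatrix e)).map β.mapMatrix

theorem trace_coordMatrix_mul (v : ι → L) (j : ι) :
    (coordMatrix e β v * (Algebra.leftMulMatrix e (e j)).map β).trace =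
      ∑ i, v i * β (Algebra.traceMatrix P e i j) := by
  rw [coordMatrix, Finset.sum_mul, Matrix.trace_sum]
  refine Finset.sum_congr rfl fun i _ => ?_
  rw [Matrix.smul_mul, Matrix.trace_smul, smul_eq_mul, ← RingHom.mapMatrix_apply,
    ← RingHom.mapMatrix_apply, ← map_mul, ← map_mul, Algebra.traceMatrix_apply,
    Algebra.traceForm_apply, Algebra.trace_eq_matrix_trace e]
  congr 1
  rw [RingHom.mapMatrix_apply, Matrix.trace, Matrix.trace, map_sum]
  rfl

theorem pow_coordMatrix_mul {v : ι → L} {f : E} {n : ℕ}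
    (h : coordMatrix e β v ^ n = (Algebra.leftMulMatrix e f).map β) (x : E) :
    (coordMatrix e β v * (Algebra.leftMulMatrix e x).map β) ^ n =
      (Algebra.leftMulMatrix e (f * x ^ n)).map β := by
  rw [(coordMatrix_commute e β v x).mul_pow, h, ← RingHom.mapMatrix_apply,
    ← RingHom.mapMatrix_apply, ← map_pow, ← map_pow, ← map_mul, ← map_mul,
    RingHom.mapMatrix_apply]

end Coord

variable {W : Type*} [CommRing W] [IsDomain W] [IsDiscreteValuationRing W] {ϖ : W}
  [hP : Fact (Prime (C ϖ : W[X]))] [hQ : Fact (Prime (PowerSeries.C ϖ : PowerSeries W))]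

omit hP in
theorem injective_of_comp_toHat {R : Type*} [CommRing R] [IsDomain R] [IsNoetherianRing R]
    {π : R} [Fact (Prime π)] (F : HatAt π →+* HatAt (PowerSeries.C ϖ : PowerSeries W))
    (h : F (toHat π π) = toHat _ (PowerSeries.C ϖ)) : Function.Injective F := by
  rw [injective_iff_map_eq_zero]
  intro x hx
  by_contra hne
  obtain ⟨k, u, rfl⟩ := exists_eq_unit_mul_pow_hat π hne
  rw [map_mul, map_pow, h, (u.isUnit.map F).mul_right_eq_zero] at hx
  exact pow_ne_zero k (toHat_self_ne_zero _) hx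

variable {LH LQ Lu : Type*} [Field LH] [Algebra (HatAt (C ϖ : W[X])) LH]
  [IsFractionRing (HatAt (C ϖ : W[X])) LH]
  [Field LQ] [Algebra (HatAt (PowerSeries.C ϖ : PowerSeries W)) LQ]
  [IsFractionRing (HatAt (PowerSeries.C ϖ : PowerSeries W)) LQ]
  [Field Lu] [Algebra (PowerSeries W) Lu] [IsFractionRing (PowerSeries W) Lu]

/-- The map `X ↦ r ^ (-e)` into the fraction field. -/
noncomputable def evInfField (Lu : Type*) [Field Lu] [Algebra (PowerSeries W) Lu] (e : ℕ) :
    W[X] →+* Lu :=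
  eval₂RingHom ((algebraMap (PowerSeries W) Lu).comp PowerSeries.C)
    ((algebraMap (PowerSeries W) Lu PowerSeries.X)⁻¹ ^ e)

omit [IsDiscreteValuationRing W] hP hQ in
theorem pow_mul_evInfField (e N : ℕ) (p : W[X]) (hp : p.natDegree ≤ N) :
    algebraMap (PowerSeries W) Lu PowerSeries.X ^ (e * N) * evInfField Lu e p =
      algebraMap _ Lu ((expand W e (reflect N p) : W[X]) : PowerSeries W) := by
  have hX0 : algebraMap (PowerSeries W) Lu PowerSeries.X ≠ 0 :=
    (map_ne_zero_iff _ (IsFractionRing.injective (PowerSeries W) Lu)).2 PowerSeries.X_ne_zero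
  refine induction_with_natDegree_le
    (fun p => algebraMap (PowerSeries W) Lu PowerSeries.X ^ (e * N) * evInfField Lu e p =
      algebraMap _ Lu ((expand W e (reflect N p) : W[X]) : PowerSeries W)) N ?_ ?_ ?_ p hp
  · simp
  · intro n a _ hn
    obtain ⟨m, rfl⟩ := Nat.exists_eq_add_of_le hn
    rw [reflect_C_mul_X_pow, revAt_le hn, Nat.add_sub_cancel_left, map_mul (expand W e),
      map_pow (expand W e), expand_C, expand_X, ← pow_mul, Polynomial.coe_mul,
      Polynomial.coe_pow, Polynomial.coe_C, Polynomial.coe_X, map_mul, map_pow, map_mul, map_pow]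
    simp only [evInfField, coe_eval₂RingHom, eval₂_C, eval₂_X, RingHom.comp_apply]
    rw [← pow_mul, inv_pow, mul_add e, pow_add]
    field_simp
  · intro f g _ _ hf hg
    rw [map_add, mul_add, hf, hg, reflect_add, map_add (expand W e), Polynomial.coe_add, map_add]

variable {E : Type*} [CommRing E] [Algebra W[X] E] {ι : Type*} [Fintype ι] [DecidableEq ι]

/-- At a finite point the trace coordinates are integral. -/
theorem exists_trace_fin (e : Module.Basis ι W[X] E) (j : Lu →+* LQ)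
    (hj : ∀ s, j (algebraMap (PowerSeries W) Lu s) =
      algebraMap _ LQ (toHat (PowerSeries.C ϖ : PowerSeries W) s))
    (f : E) {n : ℕ} (hn : n ≠ 0) (a : ι → LH) (t₀ : W) (r₀ : ℕ)
    (F : HatAt (C ϖ : W[X]) →+* HatAt (PowerSeries.C ϖ : PowerSeries W)) (Φf : LH →+* LQ)
    (hF : ∀ q, F (toHat _ q) = toHat _ (evPt t₀ r₀ q))
    (hΦ : ∀ x, Φf (algebraMap _ LH x) = algebraMap _ LQ (F x))
    (v : ι → Lu)
    (hv : coordMatrix e ((algebraMap (PowerSeries W) Lu).comp (evPt t₀ r₀)) v ^ n =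
      (Algebra.leftMulMatrix e f).map ((algebraMap (PowerSeries W) Lu).comp (evPt t₀ r₀)))
    (hva : ∀ i, j (v i) = Φf (a i)) (k : ι) :
    ∃ r, Φf (∑ i, a i * algebraMap _ LH (toHat (C ϖ : W[X]) (Algebra.traceMatrix W[X] e i k))) =
      algebraMap _ LQ (toHat (PowerSeries.C ϖ : PowerSeries W) r) := by
  set β := (algebraMap (PowerSeries W) Lu).comp (evPt t₀ r₀) with hβ
  obtain ⟨r, hr⟩ := exists_trace_of_pow_eq_map (R := PowerSeries W)
    (M := coordMatrix e β v * (Algebra.leftMulMatrix e (e k)).map β)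
    (N := (Algebra.leftMulMatrix e (f * e k ^ n)).map (evPt t₀ r₀)) hn
    (by rw [pow_coordMatrix_mul e β hv, Matrix.map_map]; rfl)
  rw [trace_coordMatrix_mul] at hr
  refine ⟨r, ?_⟩
  rw [← hj r, hr, map_sum, map_sum]
  refine Finset.sum_congr rfl fun i _ => ?_
  rw [map_mul, map_mul, hva, hΦ, hF, hβ, RingHom.comp_apply, hj]

/-- At infinity the trace coordinates have a bounded pole. -/
theorem exists_trace_inf (hϖ : Irreducible ϖ) (e : Module.Basis ι W[X] E) (j : Lu →+* LQ)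
    (hj : ∀ s, j (algebraMap (PowerSeries W) Lu s) =
      algebraMap _ LQ (toHat (PowerSeries.C ϖ : PowerSeries W) s))
    (f : E) {n : ℕ} (hn : n ≠ 0) (a : ι → LH)
    (r₀ : ℕ) (F : HatAt (C ϖ : W[X]) →+* HatAt (PowerSeries.C ϖ : PowerSeries W)) (Φf : LH →+* LQ)
    (hF : ∀ q, F (toHat _ q) = evInf hϖ r₀ q)
    (hΦ : ∀ x, Φf (algebraMap _ LH x) = algebraMap _ LQ (F x))
    (v : ι → Lu)
    (hv : coordMatrix e (evInfField Lu r₀) v ^ n =
      (Algebra.leftMulMatrix e f).map (evInfField Lu r₀))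
    (hva : ∀ i, j (v i) = Φf (a i)) (k : ι) {d : ℕ}
    (hd : ∀ r s, (Algebra.leftMulMatrix e (f * e k ^ n) r s).natDegree ≤ d) :
    ∃ r, algebraMap _ LQ (toHat (PowerSeries.C ϖ : PowerSeries W) PowerSeries.X ^ (r₀ * d)) *
        Φf (∑ i, a i * algebraMap _ LH (toHat (C ϖ : W[X]) (Algebra.traceMatrix W[X] e i k))) =
      algebraMap _ LQ (toHat (PowerSeries.C ϖ : PowerSeries W) r) := by
  set β := evInfField (W := W) Lu r₀ with hβ
  set U := algebraMap (PowerSeries W) Lu PowerSeries.X with hU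
  obtain ⟨r, hr⟩ := exists_trace_of_pow_eq_map (R := PowerSeries W)
    (M := U ^ (r₀ * d) • (coordMatrix e β v * (Algebra.leftMulMatrix e (e k)).map β))
    (N := (Algebra.leftMulMatrix e (f * e k ^ n)).map fun q =>
      PowerSeries.X ^ (r₀ * d * n - r₀ * d) *
        ((expand W r₀ (reflect d q) : W[X]) : PowerSeries W))
    hn (by
      rw [smul_pow, pow_coordMatrix_mul e β hv]
      generalize Algebra.leftMulMatrix e (f * e k ^ n) = N at hd ⊢
      refine Matrix.ext fun r s => ?_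
      rw [Matrix.smul_apply, Matrix.map_apply, Matrix.map_apply, Matrix.map_apply,
        smul_eq_mul, map_mul, map_pow, ← pow_mul_evInfField r₀ d _ (hd r s), ← hU, ← mul_assoc,
        ← pow_add, ← pow_mul, Nat.sub_add_cancel (Nat.le_mul_of_pos_right _ (Nat.pos_of_ne_zero hn))])
  rw [Matrix.trace_smul, trace_coordMatrix_mul, smul_eq_mul] at hr
  refine ⟨r, ?_⟩
  have hjβ : ∀ q, j (β q) = algebraMap _ LQ (evInf hϖ r₀ q) := by
    have : j.comp β = (algebraMap _ LQ).comp (evInf hϖ r₀) := by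
      refine Polynomial.ringHom_ext (fun c => ?_) ?_
      · simp [hβ, evInfField, evInf, hj]
      · rw [RingHom.comp_apply, RingHom.comp_apply, hβ, evInfField, evInf, coe_eval₂RingHom,
          coe_eval₂RingHom, eval₂_X, eval₂_X, map_pow, map_inv₀, hj, map_pow, map_units_inv,
          IsUnit.unit_spec]
    exact fun q => RingHom.congr_fun this q
  rw [← hj r, hr, map_mul, map_pow, map_pow, hU, hj, map_sum, map_sum]
  refine congrArg₂ (· * ·) rfl (Finset.sum_congr rfl fun i _ => ?_)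
  rw [map_mul, map_mul, hva, hΦ, hF, hjβ]

/-- An element of the fraction field which is integral on the line is a polynomial. -/
theorem exists_eq_of_integral_frac [IsAdicComplete (maximalIdeal W) W]
    [IsAlgClosed (ResidueField W)] (hϖ : Irreducible ϖ) (t : LH) (d : ℕ)
    (hfin : ∀ c : ResidueField W, ∃ (t₀ : W) (r₀ : ℕ), residue W t₀ = c ∧ 0 < r₀ ∧
      ∃ (F : HatAt (C ϖ : W[X]) →+* HatAt (PowerSeries.C ϖ : PowerSeries W))
      (Φf : LH →+* LQ), F.comp (toHat _) = (toHat _).comp (evPt t₀ r₀) ∧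
        (∀ x, Φf (algebraMap _ LH x) = algebraMap _ LQ (F x)) ∧
        ∃ r, Φf t = algebraMap _ LQ (toHat (PowerSeries.C ϖ : PowerSeries W) r))
    (hinf : ∃ (r₀ : ℕ) (F : HatAt (C ϖ : W[X]) →+* HatAt (PowerSeries.C ϖ : PowerSeries W))
      (Φf : LH →+* LQ), 0 < r₀ ∧ F.comp (toHat _) = evInf hϖ r₀ ∧
        (∀ x, Φf (algebraMap _ LH x) = algebraMap _ LQ (F x)) ∧
        ∃ r, algebraMap _ LQ (toHat (PowerSeries.C ϖ : PowerSeries W) PowerSeries.X ^ (r₀ * d)) *
            Φf t = algebraMap _ LQ (toHat (PowerSeries.C ϖ : PowerSeries W) r)) :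
    ∃ p : W[X], t = algebraMap _ LH (toHat (C ϖ : W[X]) p) := by
  have hLQ := IsFractionRing.injective (HatAt (PowerSeries.C ϖ : PowerSeries W)) LQ
  obtain ⟨b, c, hc, hbc⟩ := IsFractionRing.div_surjective (A := HatAt (C ϖ : W[X])) t
  obtain ⟨m, w, rfl⟩ := exists_eq_unit_mul_pow_hat (C ϖ : W[X]) (nonZeroDivisors.ne_zero hc)
  obtain ⟨b', hb⟩ : ∃ b' : HatAt (C ϖ : W[X]),
      algebraMap _ LH b' = algebraMap _ LH (toHat (C ϖ : W[X]) (C ϖ)) ^ m * t := by
    have hπ0 : algebraMap _ LH (toHat (C ϖ : W[X]) (C ϖ)) ≠ 0 :=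
      (map_ne_zero_iff _ (IsFractionRing.injective (HatAt (C ϖ : W[X])) LH)).2 (toHat_self_ne_zero _)
    refine ⟨b * ↑w⁻¹, ?_⟩
    rw [← hbc, map_mul, map_mul, map_pow, map_units_inv]
    field_simp
  have hFb : ∀ (F : HatAt (C ϖ : W[X]) →+* HatAt (PowerSeries.C ϖ : PowerSeries W))
      (Φf : LH →+* LQ), (∀ x, Φf (algebraMap _ LH x) = algebraMap _ LQ (F x)) →
      algebraMap _ LQ (F b') = algebraMap _ LQ (F (toHat (C ϖ : W[X]) (C ϖ)) ^ m) * Φf t := by
    intro F Φf hΦ
    rw [← hΦ, hb, map_mul, map_pow, hΦ, map_pow]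
  have hloc : ∀ c : ResidueField W, ∃ (t₀ : W) (r₀ : ℕ), residue W t₀ = c ∧ 0 < r₀ ∧
      ∃ F : HatAt (C ϖ : W[X]) →+* HatAt (PowerSeries.C ϖ : PowerSeries W),
      F.comp (toHat _) = (toHat _).comp (evPt t₀ r₀) ∧
        ∃ r, F b' = toHat _ (PowerSeries.C ϖ ^ m * r) := by
    intro c
    obtain ⟨t₀, r₀, hc, hr₀, F, Φf, hF, hΦ, r, hr⟩ := hfin c
    refine ⟨t₀, r₀, hc, hr₀, F, hF, r, hLQ ?_⟩
    have hFp : ∀ q, F (toHat _ q) = toHat _ (evPt t₀ r₀ q) := RingHom.congr_fun hF
    rw [hFb F Φf hΦ, hr, hFp, evPt_C, ← map_pow, ← map_mul, ← map_mul]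
  obtain ⟨p, -, hp⟩ := exists_polynomial_of_lineIntegral hϖ (d := d) (a := b') ⟨fun c => by
      obtain ⟨t₀, r₀, hc, hr₀, F, hF, r, hr⟩ := hloc c
      exact ⟨t₀, r₀, hc, hr₀, F, hF, _, hr⟩, by
      obtain ⟨r₀, F, Φf, hr₀, hF, hΦ, r, hr⟩ := hinf
      refine ⟨r₀, F, hr₀, hF, PowerSeries.C ϖ ^ m * r, hLQ ?_⟩
      have hFp : ∀ q, F (toHat _ q) = evInf hϖ r₀ q := RingHom.congr_fun hF
      rw [map_mul, hFb F Φf hΦ, mul_left_comm, hr, hFp, evInf_C, map_mul, map_pow, ← map_pow,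
        ← map_mul, map_pow]⟩
  obtain ⟨t₀, r₀, -, hr₀, F, hF, r, hr⟩ := hloc 0
  have hdiv : ∀ (m : ℕ) (p : W[X]), PowerSeries.C ϖ ^ m ∣ evPt t₀ r₀ p → C ϖ ^ m ∣ p := by
    intro m
    induction m with
    | zero => simp
    | succ m ih =>
      intro p hdvd
      have h1 : C ϖ ∣ p := by
        by_contra hcon
        exact not_dvd_evPt hϖ t₀ hr₀ hcon ((dvd_pow_self _ (Nat.succ_ne_zero m)).trans hdvd)
      obtain ⟨q, rfl⟩ := h1
      rw [map_mul, evPt_C, pow_succ'] at hdvd
      rw [pow_succ']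
      exact mul_dvd_mul_left _
        (ih q ((mul_dvd_mul_iff_left (Fact.out (p := Prime (PowerSeries.C ϖ))).ne_zero).1 hdvd))
  obtain ⟨p', hp'⟩ : C ϖ ^ m ∣ p := hdiv m p ⟨r, toHat_injective _ (by
    rw [← hr, hp]
    exact (RingHom.congr_fun hF p).symm)⟩
  have hπ0 : algebraMap _ LH (toHat (C ϖ : W[X]) (C ϖ)) ≠ 0 :=
    (map_ne_zero_iff _ (IsFractionRing.injective (HatAt (C ϖ : W[X])) LH)).2 (toHat_self_ne_zero _)
  refine ⟨p', mul_left_cancel₀ (pow_ne_zero m hπ0) ?_⟩
  rw [← hb, hp, hp', map_mul, map_mul, map_pow, map_pow]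

omit [IsDomain W] [IsDiscreteValuationRing W] hP hQ [DecidableEq ι] in
theorem exists_natDegree_le (N : Matrix ι ι W[X]) : ∃ d, ∀ r s, (N r s).natDegree ≤ d :=
  ⟨_, fun r s => Finset.le_sup (f := fun q : ι × ι => (N q.1 q.2).natDegree)
    (Finset.mem_univ (r, s))⟩

/-- **Gluing.** `a` gives coordinates over the completion at the Gauss point; at every point it
agrees with an `n`-th root of `f`.  Then `discr • a` is integral on the line. -/
theorem exists_discr_mul_eq [IsAdicComplete (maximalIdeal W) W] [IsAlgClosed (ResidueField W)]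
    (hϖ : Irreducible ϖ) (e : Module.Basis ι W[X] E) (j : Lu →+* LQ)
    (hj : ∀ s, j (algebraMap (PowerSeries W) Lu s) = algebraMap _ LQ (toHat (PowerSeries.C ϖ : PowerSeries W) s))
    (f : E) {n : ℕ} (hn : n ≠ 0) (a : ι → LH)
    (hfin : ∀ c : ResidueField W, ∃ (t₀ : W) (r₀ : ℕ), residue W t₀ = c ∧ 0 < r₀ ∧
      ∃ (F : HatAt (C ϖ : W[X]) →+* HatAt (PowerSeries.C ϖ : PowerSeries W))
      (Φf : LH →+* LQ), F.comp (toHat _) = (toHat _).comp (evPt t₀ r₀) ∧
        (∀ x, Φf (algebraMap _ LH x) = algebraMap _ LQ (F x)) ∧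
        ∃ v : ι → Lu,
          coordMatrix e ((algebraMap (PowerSeries W) Lu).comp (evPt t₀ r₀)) v ^ n =
            (Algebra.leftMulMatrix e f).map ((algebraMap (PowerSeries W) Lu).comp (evPt t₀ r₀)) ∧
          ∀ i, j (v i) = Φf (a i))
    (hinf : ∃ (r₀ : ℕ) (F : HatAt (C ϖ : W[X]) →+* HatAt (PowerSeries.C ϖ : PowerSeries W))
      (Φf : LH →+* LQ), 0 < r₀ ∧ F.comp (toHat _) = evInf hϖ r₀ ∧
        (∀ x, Φf (algebraMap _ LH x) = algebraMap _ LQ (F x)) ∧
        ∃ v : ι → Lu,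
          coordMatrix e (evInfField Lu r₀) v ^ n =
            (Algebra.leftMulMatrix e f).map (evInfField Lu r₀) ∧
          ∀ i, j (v i) = Φf (a i)) :
    ∃ g : ι → W[X], ∀ i,
      algebraMap _ LH (toHat (C ϖ : W[X]) (Algebra.discr W[X] e)) * a i =
        algebraMap _ LH (toHat (C ϖ : W[X]) (g i)) := by
  let ιH : W[X] →+* LH := (algebraMap _ LH).comp (toHat (C ϖ : W[X]))
  have hιH : ∀ p, ιH p = algebraMap _ LH (toHat (C ϖ : W[X]) p) := fun p => rfl
  let T : Matrix ι ι W[X] := Algebra.traceMatrix W[X] e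
  have key : ∀ k, ∃ p : W[X], ∑ i, a i * ιH (T i k) = ιH p := by
    intro k
    simp only [hιH, T]
    obtain ⟨d, hd⟩ := exists_natDegree_le (Algebra.leftMulMatrix e (f * e k ^ n))
    refine exists_eq_of_integral_frac (LQ := LQ) hϖ _ d (fun c => ?_) ?_
    · obtain ⟨t₀, r₀, hc, hr₀, F, Φf, hF, hΦ, v, hv, hva⟩ := hfin c
      exact ⟨t₀, r₀, hc, hr₀, F, Φf, hF, hΦ, exists_trace_fin (LH := LH) (LQ := LQ) (Lu := Lu) e j
        hj f hn a t₀ r₀ F Φf (fun q => RingHom.congr_fun hF q) hΦ v hv hva k⟩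
    · obtain ⟨r₀, F, Φf, hr₀, hF, hΦ, v, hv, hva⟩ := hinf
      exact ⟨r₀, F, Φf, hr₀, hF, hΦ, exists_trace_inf (LH := LH) (LQ := LQ) (Lu := Lu) hϖ e j hj f
        hn a r₀ F Φf (fun q => RingHom.congr_fun hF q) hΦ v hv hva k hd⟩
  choose p hp using key
  refine ⟨fun i => ∑ k, p k * T.adjugate k i, fun i => ?_⟩
  have h1 : Matrix.vecMul a (T.map ιH) = fun k => ιH (p k) := funext fun k => hp k
  have h2 := congrArg (fun w => Matrix.vecMul w (T.map ιH).adjugate) h1
  simp only [Matrix.vecMul_vecMul, Matrix.mul_adjugate] at h2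
  have h3 := congrFun h2 i
  rw [Matrix.vecMul_smul, Matrix.vecMul_one, Pi.smul_apply, smul_eq_mul,
    ← RingHom.mapMatrix_apply, ← RingHom.map_det, ← RingHom.map_adjugate] at h3
  rw [Algebra.discr_def, ← hιH, h3, ← hιH, map_sum]
  simp only [Matrix.vecMul, dotProduct, RingHom.mapMatrix_apply, Matrix.map_apply, map_mul]

end FLTA.Carayol
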