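import Fermat.Agent.Carayol.CoverBasis
import Fermat.Agent.Carayol.PointsDefs

/-!
# Gluing on a cover of the line

An element of the pair algebra of the cover over the completion at the Gauss point which is an
`n`-th root of a global element and at one point over every residue class (and at infinity)
agrees with local roots is global.
-/

set_option autoImplicit false

noncomputable section

open Polynomial IsLocalRing

namespace FLTA.Carayol

section Coord

variable {P FL F FM : Type*} [CommRing P] [Field FL] [Field F] [Field FM] {Q Φ : P[X]} {dQ dΦ : ℕ}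
  (e₀ : Module.Basis (Fin dQ × Fin dΦ × Fin (dΦ - 1)) P (EAlg Q Φ (RingHom.id P)))
  (he₀ : ∀ k, e₀ k = eMon Q Φ (RingHom.id P) dQ dΦ k)
  {βG : P →+* FL} (eG : Module.Basis (Fin dQ × Fin dΦ × Fin (dΦ - 1)) FL (EAlg Q Φ βG))
  (heG : ∀ k, eG k = eMon Q Φ βG dQ dΦ k)
  {β : P →+* F} (eF : Module.Basis (Fin dQ × Fin dΦ × Fin (dΦ - 1)) F (EAlg Q Φ β))
  (heF : ∀ k, eF k = eMon Q Φ β dQ dΦ k)
  (j : F →+* FM) (Φf : FL →+* FM) {β' : P →+* FM} (hj : j.comp β = β') (hΦf : Φf.comp βG = β')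
  (bF : Module.Basis (Fin dΦ × Fin (dΦ - 1)) F (Pairs (Φ.map β)))
  (hbF : ∀ k, bF k = Pairs.fst (Φ.map β) ^ (k.1 : ℕ) * Pairs.snd (Φ.map β) ^ (k.2 : ℕ))
  (bM : Module.Basis (Fin dΦ × Fin (dΦ - 1)) FM (Pairs (Φ.map β')))
  (hbM : ∀ k, bM k = Pairs.fst (Φ.map β') ^ (k.1 : ℕ) * Pairs.snd (Φ.map β') ^ (k.2 : ℕ))

include he₀ heG heF hbF hbM in
/-- Local roots give local coordinates. -/
theorem exists_local_coord (y₀ : EAlg Q Φ (RingHom.id P)) (n : ℕ) (Y : EAlg Q Φ βG)
    (ρ : Fin dQ → F) (hρi : Function.Injective ρ) (hρ : ∀ J, Q.eval₂ β (ρ J) = 0)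
    (hρ' : ∀ J, Q.eval₂ β' (j (ρ J)) = 0)
    (hloc : ∀ J, ∃ G : Pairs (Φ.map β),
      G ^ n = eEval Q Φ (RingHom.id P) β (RingHom.comp_id β) (hρ J) y₀ ∧
      Pairs.map j (by rw [Polynomial.map_map, hj]) G = eEval Q Φ βG Φf hΦf (hρ' J) Y) :
    ∃ v : Fin dQ × Fin dΦ × Fin (dΦ - 1) → F,
      coordMatrix e₀ β v ^ n = (Algebra.leftMulMatrix e₀ y₀).map β ∧
      ∀ k, j (v k) = Φf (eG.repr Y k) := by
  choose G hG hGY using hloc
  choose v hv using fun k => exists_sum_pow_eq hρi (fun J => bF.repr (G J) k)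
  refine ⟨fun k => v k.2 k.1, ?_, fun k => ?_⟩
  · set V : EAlg Q Φ β := ∑ k, v k.2 k.1 • eF k with hV
    have hγ : ∀ c, eMap Q Φ (RingHom.id P) β (RingHom.comp_id β)
        (algebraMap P (EAlg Q Φ (RingHom.id P)) c) = algebraMap F (EAlg Q Φ β) (β c) :=
      eMap_algebraMap Q Φ _ _ _
    have hγe : ∀ k, eMap Q Φ (RingHom.id P) β (RingHom.comp_id β) (e₀ k) = eF k := fun k => by
      rw [he₀, heF, eMap_eMon]
    have hrepr : ∀ k, eF.repr V k = v k.2 k.1 := fun k => congrFun (eF.repr_sum_self _) k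
    have heval : ∀ J, eEval Q Φ β (RingHom.id F) (RingHom.id_comp β) (hρ J) V = G J := fun J => by
      refine bF.repr.injective (Finsupp.ext fun k => ?_)
      rw [repr_eEval (RingHom.id_comp β) eF heF (hρ J) bF hbF]
      simp only [RingHom.id_apply, hrepr]
      exact hv k J
    have hpow : V ^ n = eMap Q Φ (RingHom.id P) β (RingHom.comp_id β) y₀ := by
      refine eF.repr.injective (Finsupp.ext fun k => ?_)
      have h0 := eq_zero_of_forall_sum_pow_eq_zero hρi
        (c := fun i => eF.repr (V ^ n) (i, k.2) -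
          eF.repr (eMap Q Φ (RingHom.id P) β (RingHom.comp_id β) y₀) (i, k.2)) (fun J => by
        simp only [sub_mul, Finset.sum_sub_distrib]
        have e1 := repr_eEval (RingHom.id_comp β) eF heF (hρ J) bF hbF (V ^ n) k.2
        have e2 := repr_eEval (RingHom.id_comp β) eF heF (hρ J) bF hbF
          (eMap Q Φ (RingHom.id P) β (RingHom.comp_id β) y₀) k.2
        simp only [RingHom.id_apply] at e1 e2
        rw [← e1, ← e2, map_pow, heval, hG,
          eEval_eMap (RingHom.comp_id β) (RingHom.id_comp β) (by simp) (hρ J)]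
        simp only [RingHom.id_comp, sub_self])
      exact sub_eq_zero.1 (congrFun h0 k.1)
    rw [coordMatrix_eq_leftMulMatrix e₀ eF hγ hγe, ← map_pow, ← hV, hpow,
      leftMulMatrix_map_of_basis e₀ eF hγ hγe]
  · have h0 := eq_zero_of_forall_sum_pow_eq_zero (σ := fun J => j (ρ J)) (j.injective.comp hρi)
      (c := fun i => j (v k.2 i) - Φf (eG.repr Y (i, k.2))) (fun J => by
        simp only [sub_mul, Finset.sum_sub_distrib]
        rw [sub_eq_zero]
        calc ∑ i, j (v k.2 i) * j (ρ J) ^ (i : ℕ)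
            = j (bF.repr (G J) k.2) := by
              rw [← hv k.2 J, map_sum]; simp only [map_mul, map_pow]
          _ = bM.repr (Pairs.map j (by rw [Polynomial.map_map, hj]) (G J)) k.2 :=
              (repr_map_of_basis bF bM (fun c => by
                show Pairs.map j _ (Pairs.ofBase _ c) = _
                rw [Pairs.map_ofBase]; rfl) (fun l => by rw [hbF, hbM]; simp) (G J) k.2).symm
          _ = _ := by rw [hGY, repr_eEval hΦf eG heG (hρ' J) bM hbM])
    exact sub_eq_zero.1 (congrFun h0 k.1)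

end Coord

/-- Local roots at a parametrisation `β` with values in `FU`, agreeing with `Y` after `j`. -/
def LocalRootsAt {P FH FU FM : Type} [CommRing P] [Field FH] [Field FU] [Field FM] {Q Φ : P[X]}
    (γ : P →+* FH) (j : FU →+* FM) (β : P →+* FU) (n : ℕ)
    (y₀ : EAlg Q Φ (RingHom.id P)) (Y : EAlg Q Φ γ) : Prop :=
  ∀ (Φf : FH →+* FM) (hΦf : Φf.comp γ = j.comp β),
  ∃ (ρ : Fin Q.natDegree → FU) (hρ : ∀ J, Q.eval₂ β (ρ J) = 0)
    (hρ' : ∀ J, Q.eval₂ (j.comp β) (j (ρ J)) = 0),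
    Function.Injective ρ ∧ ∀ J, ∃ G : Pairs (Φ.map β),
      G ^ n = eEval Q Φ (RingHom.id P) β (RingHom.comp_id _) (hρ J) y₀ ∧
      Pairs.map j (Polynomial.map_map _ _ _) G = eEval Q Φ γ Φf hΦf (hρ' J) Y

theorem LocalRootsAt.exists_coord {P FH FU FM : Type} [CommRing P] [Field FH] [Field FU]
    [Field FM] {Q Φ : P[X]} {γ : P →+* FH} {j : FU →+* FM} {β : P →+* FU} {n : ℕ}
    {y₀ : EAlg Q Φ (RingHom.id P)} {Y : EAlg Q Φ γ} (h : LocalRootsAt γ j β n y₀ Y)
    (e₀ : Module.Basis (Fin Q.natDegree × Fin Φ.natDegree × Fin (Φ.natDegree - 1)) P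
      (EAlg Q Φ (RingHom.id P)))
    (he₀ : ∀ k, e₀ k = eMon Q Φ (RingHom.id P) _ _ k)
    (eG : Module.Basis (Fin Q.natDegree × Fin Φ.natDegree × Fin (Φ.natDegree - 1)) FH
      (EAlg Q Φ γ))
    (heG : ∀ k, eG k = eMon Q Φ γ _ _ k)
    (hQ : Q.Monic) (hQd : 0 < Q.natDegree) (hΦ : Φ.Monic) (hΦd : 0 < Φ.natDegree)
    (Φf : FH →+* FM) (hΦf : Φf.comp γ = j.comp β) :
    ∃ v : Fin Q.natDegree × Fin Φ.natDegree × Fin (Φ.natDegree - 1) → FU,
      coordMatrix e₀ β v ^ n = (Algebra.leftMulMatrix e₀ y₀).map β ∧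
      ∀ k, j (v k) = Φf (eG.repr Y k) := by
  obtain ⟨ρ, hρ, hρ', hρi, hG⟩ := h Φf hΦf
  obtain ⟨eF, heF⟩ := exists_eBasis β hQ hQd hΦ hΦd
  obtain ⟨bF, hbF⟩ := exists_pairs_basis (hΦ.map β) (hΦ.natDegree_map β) hΦd
  obtain ⟨bM, hbM⟩ := exists_pairs_basis (hΦ.map (j.comp β)) (hΦ.natDegree_map _) hΦd
  exact exists_local_coord e₀ he₀ eG heG eF heF j Φf rfl hΦf bF hbF bM hbM y₀ n Y
    ρ hρi hρ hρ' hG

/-- Descent from the Gauss point: polynomial coordinates give a root over the function field. -/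
theorem exists_root_of_polynomial_coord {P FH KT : Type} [CommRing P] [IsDomain P] [Field FH]
    [Field KT] [CharZero KT] [Algebra P KT] [IsFractionRing P KT] {Q Φ : P[X]} {γ : P →+* FH}
    (hγ : Function.Injective γ) {n : ℕ} {y₀ : EAlg Q Φ (RingHom.id P)} {Y : EAlg Q Φ γ}
    (hY : Y ^ n = eMap Q Φ (RingHom.id P) γ (RingHom.comp_id _) y₀)
    (hQ : Q.Monic) (hQd : 0 < Q.natDegree) (hΦ : Φ.Monic) (hΦd : 0 < Φ.natDegree)
    (hQs : (Q.map (algebraMap P KT)).Separable) (hΦs : (Φ.map (algebraMap P KT)).Separable)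
    (e₀ : Module.Basis (Fin Q.natDegree × Fin Φ.natDegree × Fin (Φ.natDegree - 1)) P
      (EAlg Q Φ (RingHom.id P)))
    (eG : Module.Basis (Fin Q.natDegree × Fin Φ.natDegree × Fin (Φ.natDegree - 1)) FH
      (EAlg Q Φ γ))
    (heG : ∀ k, eG k = eMon Q Φ γ _ _ k)
    (p : Fin Q.natDegree × Fin Φ.natDegree × Fin (Φ.natDegree - 1) → P)
    (hp : ∀ k, γ (Algebra.discr P e₀) * eG.repr Y k = γ (p k)) :
    ∃ Z : EAlg Q Φ (algebraMap P KT),
      Z ^ n = eMap Q Φ (RingHom.id P) (algebraMap P KT) (RingHom.comp_id _) y₀ := by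
  obtain ⟨eT, heT⟩ := exists_eBasis (algebraMap P KT) hQ hQd hΦ hΦd
  let Ω := AlgebraicClosure KT
  let β₁ : P →+* Ω := (algebraMap KT Ω).comp (algebraMap P KT)
  have hD : Algebra.discr P e₀ ≠ 0 := by
    refine eBasis_discr_ne_zero hQ hΦ β₁ ?_ ?_ e₀
    · simpa [β₁, Polynomial.map_map] using hQs.map (f := algebraMap KT Ω)
    · simpa [β₁, Polynomial.map_map] using hΦs.map (f := algebraMap KT Ω)
  let i : KT →+* FH := IsFractionRing.lift hγ
  have hi : i.comp (algebraMap P KT) = γ :=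
    RingHom.ext fun x => IsFractionRing.lift_algebraMap hγ x
  set D := algebraMap P KT (Algebra.discr P e₀)
  refine ⟨∑ k, (algebraMap P KT (p k) / D) • eT k, ?_⟩
  have hc : ∀ c : KT, eMap Q Φ (algebraMap P KT) i hi (algebraMap KT _ c) =
      algebraMap FH (EAlg Q Φ γ) (i c) := eMap_algebraMap Q Φ _ i hi
  have he : ∀ k, eMap Q Φ (algebraMap P KT) i hi (eT k) = eG k := fun k => by
    rw [heT, heG, eMap_eMon]
  have hinj : Function.Injective (eMap Q Φ (algebraMap P KT) i hi) := fun a b hab => by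
    refine eT.repr.injective (Finsupp.ext fun k => i.injective ?_)
    rw [← repr_map_of_basis eT eG hc he a k, ← repr_map_of_basis eT eG hc he b k, hab]
  have hZ : eMap Q Φ (algebraMap P KT) i hi
      (∑ k, (algebraMap P KT (p k) / D) • eT k) = Y := by
    refine eG.repr.injective (Finsupp.ext fun k => ?_)
    rw [repr_map_of_basis eT eG hc he, congrFun (eT.repr_sum_self _) k, map_div₀]
    simp only [D, ← RingHom.comp_apply i, hi]
    rw [div_eq_iff ((map_ne_zero_iff _ hγ).2 hD), mul_comm]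
    exact (hp k).symm
  apply hinj
  rw [map_pow, hZ, hY]
  refine (RingHom.congr_fun (f := (eMap Q Φ (algebraMap P KT) i hi).comp
    (eMap Q Φ (RingHom.id P) (algebraMap P KT) (RingHom.comp_id _))) ?_ y₀).symm
  refine Pairs.ringHom_ext ?_ (by simp [eMap]) (by simp [eMap])
  refine AdjoinRoot.ringHom_ext (RingHom.ext fun c => ?_) ?_
  · simp [eMap, ← hi]
  · simp [eMap]

variable {W : Type} [CommRing W] [IsDomain W] [IsDiscreteValuationRing W] {ϖ : W}
  [Fact (Prime (C ϖ : W[X]))] [Fact (Prime (PowerSeries.C ϖ : PowerSeries W))]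
  {LH LQ Lu KT : Type} [Field LH] [Algebra (HatAt (C ϖ : W[X])) LH]
  [IsFractionRing (HatAt (C ϖ : W[X])) LH]
  [Field LQ] [Algebra (HatAt (PowerSeries.C ϖ : PowerSeries W)) LQ]
  [IsFractionRing (HatAt (PowerSeries.C ϖ : PowerSeries W)) LQ]
  [Field Lu] [Algebra (PowerSeries W) Lu] [IsFractionRing (PowerSeries W) Lu]
  [Field KT] [CharZero KT] [Algebra W[X] KT] [IsFractionRing W[X] KT]

/-- An extension to the fields of the completions. -/
theorem exists_gauss_frac (F : HatAt (C ϖ : W[X]) →+* HatAt (PowerSeries.C ϖ : PowerSeries W))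
    (hF : F (toHat _ (C ϖ)) = toHat _ (PowerSeries.C ϖ)) :
    ∃ Φf : LH →+* LQ, ∀ x, Φf (algebraMap _ LH x) = algebraMap _ LQ (F x) := by
  exact ⟨IsFractionRing.lift (g := (algebraMap _ LQ).comp F)
    ((IsFractionRing.injective (HatAt (PowerSeries.C ϖ : PowerSeries W)) LQ).comp
      (injective_of_comp_toHat F hF)), fun x => IsFractionRing.lift_algebraMap _ x⟩

theorem comp_evInfField (hϖ : Irreducible ϖ) (j : Lu →+* LQ)
    (hj : ∀ f, j (algebraMap (PowerSeries W) Lu f) =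
      algebraMap _ LQ (toHat (PowerSeries.C ϖ : PowerSeries W) f)) (e : ℕ) :
    j.comp (evInfField (W := W) Lu e) = (algebraMap _ LQ).comp (evInf hϖ e) := by
  refine Polynomial.ringHom_ext (fun c => ?_) ?_
  · simp [evInfField, evInf, hj]
  · rw [RingHom.comp_apply, RingHom.comp_apply, evInfField, evInf, coe_eval₂RingHom,
      coe_eval₂RingHom, eval₂_X, eval₂_X, map_pow, map_inv₀, hj, map_pow, map_units_inv,
      IsUnit.unit_spec]

/-- **Gluing on the cover**, for the monomial model. -/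
theorem exists_root_of_local_eAlg [IsAdicComplete (maximalIdeal W) W]
    [IsAlgClosed (ResidueField W)] (hϖ : Irreducible ϖ) {Q Φ : W[X][X]}
    (hQ : Q.Monic) (hQd : 0 < Q.natDegree) (hΦ : Φ.Monic) (hΦd : 0 < Φ.natDegree)
    (hQs : (Q.map (algebraMap W[X] KT)).Separable)
    (hΦs : (Φ.map (algebraMap W[X] KT)).Separable) (j : Lu →+* LQ)
    (hj : ∀ f, j (algebraMap (PowerSeries W) Lu f) =
      algebraMap _ LQ (toHat (PowerSeries.C ϖ : PowerSeries W) f))
    {n : ℕ} (hn : n ≠ 0) (y₀ : EAlg Q Φ (RingHom.id W[X]))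
    (Y : EAlg Q Φ ((algebraMap _ LH).comp (toHat (C ϖ : W[X]))))
    (hY : Y ^ n = eMap Q Φ (RingHom.id W[X]) _ (RingHom.comp_id _) y₀)
    (hpt : ∀ c : ResidueField W, ∃ (t₀ : W) (e : ℕ), residue W t₀ = c ∧ 0 < e ∧
      LocalRootsAt ((algebraMap _ LH).comp (toHat (C ϖ : W[X]))) j
        ((algebraMap (PowerSeries W) Lu).comp (evPt t₀ e)) n y₀ Y)
    (hinf : ∃ e : ℕ, 0 < e ∧ LocalRootsAt ((algebraMap _ LH).comp (toHat (C ϖ : W[X]))) j
        (evInfField (W := W) Lu e) n y₀ Y) :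
    ∃ Z : EAlg Q Φ (algebraMap W[X] KT),
      Z ^ n = eMap Q Φ (RingHom.id W[X]) (algebraMap W[X] KT) (RingHom.comp_id _) y₀ := by
  obtain ⟨e₀, he₀⟩ := exists_eBasis (RingHom.id W[X]) hQ hQd hΦ hΦd
  obtain ⟨eG, heG⟩ := exists_eBasis ((algebraMap _ LH).comp (toHat (C ϖ : W[X]))) hQ hQd hΦ hΦd
  obtain ⟨p, hp⟩ := exists_discr_mul_eq hϖ e₀ j hj y₀ hn (fun k => eG.repr Y k) (fun c => by
      obtain ⟨t₀, e, hc, he, h⟩ := hpt c
      obtain ⟨F, hF⟩ := exists_locAt hϖ t₀ he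
      obtain ⟨Φf, hΦf⟩ := exists_gauss_frac (LH := LH) (LQ := LQ) F (by
        rw [← RingHom.comp_apply F, hF, RingHom.comp_apply, evPt_C])
      refine ⟨t₀, e, hc, he, F, Φf, hF, hΦf,
        h.exists_coord e₀ he₀ eG heG hQ hQd hΦ hΦd Φf (RingHom.ext fun x => ?_)⟩
      rw [RingHom.comp_apply, RingHom.comp_apply, hΦf, ← RingHom.comp_apply F, hF]
      exact (hj _).symm) (by
      obtain ⟨e, he, h⟩ := hinf
      obtain ⟨F, hF⟩ := exists_locInf hϖ he
      obtain ⟨Φf, hΦf⟩ := exists_gauss_frac (LH := LH) (LQ := LQ) F (by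
        rw [← RingHom.comp_apply F, hF, evInf_C])
      refine ⟨e, F, Φf, he, hF, hΦf,
        h.exists_coord e₀ he₀ eG heG hQ hQd hΦ hΦd Φf (RingHom.ext fun x => ?_)⟩
      rw [comp_evInfField hϖ j hj e, RingHom.comp_apply, RingHom.comp_apply, hΦf,
        ← RingHom.comp_apply F, hF]
      rfl)
  have hγ : Function.Injective ((algebraMap _ LH).comp (toHat (C ϖ : W[X]))) := by
    rw [RingHom.coe_comp]
    exact (IsFractionRing.injective (HatAt (C ϖ : W[X])) LH).comp (toHat_injective _)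
  refine exists_root_of_polynomial_coord (KT := KT) hγ hY hQ hQd hΦ hΦd hQs hΦs e₀ eG heG p
    fun k => ?_
  rw [RingHom.comp_apply, RingHom.comp_apply]
  exact hp k

end FLTA.Carayol
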