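import Fermat.Agent.Carayol.BridgeKernel

/-!
# The kernel of the two pushforwards at level `q² M` has no fixed torsion prime to `q`
-/

set_option autoImplicit false

open ModularCurve

namespace FLTA.Carayol

local notation "Qbar" => AlgebraicClosure ℚ

/-- The main result about `X₀(q² M)`: a class of order prime to `q` which is fixed by inertia at
`q` and killed by both pushforwards to level `q M` is killed by a constant depending only on `q`
and `M`. -/
theorem exists_smul_eq_zero_of_inertia_fixed_of_push (q M : ℕ) [Fact q.Prime] [NeZero q]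
    [NeZero M] (hqM : ¬ q ∣ M) :
    ∃ C : ℕ, C ≠ 0 ∧ ∀ n : ℕ, n.Coprime q → ∀ A : ValuationSubring Qbar, A.LiesOverPrime q →
      ∀ P : JZero (M * q * q), n • P = 0 → (∀ σ ∈ A.inertiaSubgroupIn ℚ, σ • P = P) →
        pushAlpha (M * q) q P = 0 → pushBeta (M * q) q P = 0 → C • P = 0 := by
  have hq : q.Prime := Fact.out
  by_cases h2 : q = 2
  · exact Bridge.exists_smul_eq_zero_aux q M 9 hqM (Or.inr rfl) (by rw [h2]; decide)
  · exact Bridge.exists_smul_eq_zero_aux q M 4 hqM (Or.inl rfl) fun h =>
      h2 ((Nat.prime_dvd_prime_iff_eq hq Nat.prime_two).1 (hq.dvd_of_dvd_pow (n := 2) h))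

end FLTA.Carayol
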