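/-
Frobenius at a good prime `q` has no eigenvalue `±1` on `E[lam]` for `lam > 2 q + 1`:
such an eigenvector would give `lam - 1` distinct points of the reduction with `x ∈ 𝔽_q`.
-/
import Fermat.Agent.EllReduction.Api
import Fermat.Agent.Galois.Places

set_option autoImplicit false

open scoped Classical WeierstrassCurve.Affine
open WeierstrassCurve

namespace FLTA.Carayol

open FLTA.EllReduction Polynomial

local notation "Qbar" => AlgebraicClosure ℚ

/-- Points of a Weierstrass curve with `x ^ q = x`. -/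
noncomputable def fqPairs {k : Type*} [Field k] (V : WeierstrassCurve k) (q : ℕ) :
    Finset (k × k) :=
  (X ^ q - X : k[X]).roots.toFinset.biUnion fun a =>
    (X ^ 2 + C (V.a₁ * a + V.a₃) * X
      - C (a ^ 3 + V.a₂ * a ^ 2 + V.a₄ * a + V.a₆) : k[X]).roots.toFinset.image fun b => (a, b)

theorem card_fqPairs_le {k : Type*} [Field k] (V : WeierstrassCurve k) {q : ℕ} (hq : 1 < q) :
    (fqPairs V q).card ≤ q * 2 := by
  refine (Finset.card_biUnion_le_card_mul _ _ 2 fun a _ => ?_).trans (Nat.mul_le_mul_right 2 ?_)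
  · refine Finset.card_image_le.trans ((Multiset.toFinset_card_le _).trans
      ((Polynomial.card_roots' _).trans ?_))
    compute_degree
  · refine (Multiset.toFinset_card_le _).trans ((Polynomial.card_roots' _).trans ?_)
    refine (natDegree_sub_le _ _).trans ?_
    simp only [natDegree_X_pow, natDegree_X]
    omega

theorem mem_fqPairs {k : Type*} [Field k] {V : WeierstrassCurve k} {q : ℕ} (hq : 1 < q) {a b : k}
    (ha : a ^ q = a) (h : V.toAffine.Equation a b) : (a, b) ∈ fqPairs V q := by
  have h1 : (X ^ q - X : k[X]) ≠ 0 := by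
    intro h0
    have := congrArg (Polynomial.coeff · q) h0
    simp [Polynomial.coeff_X, hq.ne] at this
  have h2 : ∀ c d : k, (X ^ 2 + C c * X - C d : k[X]) ≠ 0 := by
    intro c d h0
    have := congrArg (Polynomial.coeff · 2) h0
    simp [Polynomial.coeff_X, Polynomial.coeff_C] at this
  rw [fqPairs, Finset.mem_biUnion]
  refine ⟨a, ?_, Finset.mem_image.mpr ⟨b, ?_, rfl⟩⟩
  · rw [Multiset.mem_toFinset, mem_roots h1]
    simp [ha]
  · rw [Multiset.mem_toFinset, mem_roots (h2 _ _)]
    rw [Affine.equation_iff] at h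
    simp only [IsRoot.def, eval_add, eval_sub, eval_mul, eval_pow, eval_X, eval_C]
    linear_combination h

variable {W : WeierstrassCurve ℤ} {A : ValuationSubring Qbar} {q : ℕ}

/-- No `lam`-torsion point is sent to `±` itself by Frobenius at `q` when `lam > 2 q + 1`. -/
theorem frob_smul_ne (hq : q.Prime) (hA : A.LiesOverPrime q) (hgood : ¬ (q : ℤ) ∣ W.Δ)
    {σ : Qbar ≃ₐ[ℚ] Qbar} (hσ : A.IsFrobeniusAt σ q) {lam : ℕ} (hlam : lam.Prime)
    (hlt : 2 * q + 1 < lam) {P : GeomPoint W} (hP : lam • P = 0) (hP0 : P ≠ 0) :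
    σ • P ≠ P ∧ σ • P ≠ -P := by
  haveI := Fact.mk hlam
  rw [← not_or]
  intro heps
  have hW := geomCurve_integralAt W A
  have hnd : ¬ q ∣ lam := fun h => by
    have := (Nat.prime_dvd_prime_iff_eq hq hlam).mp h
    omega
  have hlamP : ∀ j : ℕ, lam • (j • P) = 0 := fun j => by rw [smul_comm, hP, nsmul_zero]
  have hmul : ∀ j : ℕ, 0 < j → j < lam → j • P ≠ 0 := by
    intro j hj hjl h0
    have h1 : addOrderOf P ∣ j := addOrderOf_dvd_of_nsmul_eq_zero h0
    have h2 : addOrderOf P = lam := addOrderOf_eq_prime hP hP0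
    exact absurd (Nat.le_of_dvd hj (h2 ▸ h1)) (not_le.mpr hjl)
  obtain ⟨hdec, hfrob⟩ := FLTA.Galois.isFrobeniusAt_iff.mp hσ
  -- every nonzero multiple gives a point of the reduction with `x` in `𝔽_q`
  have key : ∀ j : ℕ, 0 < j → j < lam →
      ∃ ab ∈ fqPairs (reducedCurve hW) q, ∃ hns : (reducedCurve hW).toAffine.Nonsingular ab.1 ab.2,
        redPoint hW (j • P : GeomPoint W) = .some ab.1 ab.2 hns := by
    intro j hj hjl
    rcases hQ : (j • P : GeomPoint W) with _ | ⟨x, y, h⟩
    · exact absurd hQ (hmul j hj hjl)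
    have hQ1 : (Affine.Point.some x y h : GeomPoint W) ∉ E1Z W A := fun hm =>
      hmul j hj hjl (eq_zero_of_mem_E1Z hq hA hnd (hQ ▸ hm) (hlamP j))
    have hx : x ∈ A := not_not.mp hQ1
    have hy := y_mem_of_x_mem hW h.1 hx
    have hQ0 : InE0 A (geomCurve W) (.some x y h) := (inZeroComponentAt_iff W A _).mp
      (mem_E0Z_of_good hq hA hgood _)
    have hns := (inE0_some_iff hW h hx hy).mp hQ0
    have hσx : σ x = x := by
      have hcomm : σ • (j • P) = j • (σ • P) :=
        map_nsmul (DistribSMul.toAddMonoidHom (GeomPoint W) σ) j P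
      have e : σ • (j • P) = j • P ∨ σ • (j • P) = -(j • P) := by
        rcases heps with e | e
        · exact Or.inl (by rw [hcomm, e])
        · exact Or.inr (by rw [hcomm, e, neg_nsmul])
      rw [hQ] at e
      rcases e with e | e
      · exact (Affine.Point.some.inj e).1
      · exact (Affine.Point.some.inj e).1
    refine ⟨(res hx, res hy), mem_fqPairs hq.one_lt ?_ hns.1, hns, redPoint_some hW hx hy hns⟩
    have h1 := hfrob x hx
    rw [hσx] at h1
    show IsLocalRing.residue A ⟨x, hx⟩ ^ q = IsLocalRing.residue A ⟨x, hx⟩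
    rw [← map_pow, eq_comm, FLTA.Galois.residue_eq_iff_sub_mem_nonunits]
    simpa using h1
  choose f hf hns hred using key
  have hle : (Finset.Ico 1 lam).card ≤ (fqPairs (reducedCurve hW) q).card := by
    refine Finset.card_le_card_of_injOn
      (fun j => if h : 0 < j ∧ j < lam then f j h.1 h.2 else (0, 0)) ?_ ?_
    · intro j hj
      simp only [Finset.coe_Ico, Set.mem_Ico] at hj
      simp only [Finset.mem_coe]
      rw [dif_pos ⟨hj.1, hj.2⟩]
      exact hf _ _ _
    · intro i hi j hj hij
      simp only [Finset.coe_Ico, Set.mem_Ico] at hi hj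
      simp only [dif_pos (show 0 < i ∧ i < lam from ⟨hi.1, hi.2⟩),
        dif_pos (show 0 < j ∧ j < lam from ⟨hj.1, hj.2⟩)] at hij
      have e : redPoint hW (i • P : GeomPoint W) = redPoint hW (j • P : GeomPoint W) := by
        rw [hred i hi.1 hi.2, hred j hj.1 hj.2]
        simp only [Affine.Point.some.injEq]
        exact Prod.ext_iff.mp hij
      have h0 : ∀ m : ℕ, InE0 A (geomCurve W) (m • P : GeomPoint W) := fun m =>
        (inZeroComponentAt_iff W A _).mp (mem_E0Z_of_good hq hA hgood _)
      have hz : i • P - j • P = 0 := eq_zero_of_mem_E1Z hq hA hnd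
        (sub_inE1_of_redPoint_eq hW (h0 i) (h0 j) e) (by rw [nsmul_sub, hlamP, hlamP, sub_zero])
      rw [sub_eq_zero] at hz
      have hmod : i % addOrderOf P = j % addOrderOf P := (nsmul_eq_nsmul_iff_modEq).mp hz
      rw [addOrderOf_eq_prime hP hP0, Nat.mod_eq_of_lt hi.2, Nat.mod_eq_of_lt hj.2] at hmod
      exact hmod
  have := hle.trans (card_fqPairs_le _ hq.one_lt)
  simp only [Nat.card_Ico] at this
  omega

end FLTA.Carayol
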