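/-
The mod `lam` representation of an integral Weierstrass curve, for large primes `lam`:
Frobenius characteristic polynomials, oddness and absolute irreducibility.
-/
import Fermat.Agent.Carayol.MatchFrobEigen
import Fermat.Agent.EllTorsion.GaloisDet
import Fermat.Agent.EllTorsion.WeilDet
import Fermat.Agent.EllReducible.Global
import Fermat.Agent.RepTheory.AbsIrr
import Fermat.Agent.RepTheory.Basic
import Fermat.Prelude.Def_GaloisRep_ComplexConjugation

set_option autoImplicit false

open scoped WeierstrassCurve.Affine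
open WeierstrassCurve WeierstrassCurve.Affine.Point Polynomial

namespace FLTA.Carayol

local notation "Γℚ" => AlgebraicClosure ℚ ≃ₐ[ℚ] AlgebraicClosure ℚ

/-- Complex conjugation is not the identity. -/
theorem complexConjugation_ne_one : complexConjugation ≠ 1 := by
  intro h
  obtain ⟨x, hx⟩ := IsAlgClosed.exists_pow_nat_eq (-1 : AlgebraicClosure ℚ) (n := 2) two_pos
  have hfix := complexEmbedding_complexConjugation x
  rw [h, AlgEquiv.one_apply] at hfix
  obtain ⟨r, hr⟩ := (Complex.conj_eq_iff_real).mp hfix.symm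
  have h2 : (complexEmbedding x) ^ 2 = -1 := by rw [← map_pow, hx, map_neg, map_one]
  rw [hr] at h2
  have h3 : r ^ 2 = -1 := by exact_mod_cast h2
  nlinarith [sq_nonneg r]

variable (W : WeierstrassCurve ℤ) (hΔ : W.Δ ≠ 0)

theorem isElliptic_mapRat (hΔ : W.Δ ≠ 0) : (W.map (Int.castRingHom ℚ)).IsElliptic := by
  refine ⟨isUnit_iff_ne_zero.mpr ?_⟩
  rw [WeierstrassCurve.map_Δ]
  simpa using hΔ

/-- The mod `lam` representation of `W`. -/
noncomputable def curveRep (lam : ℕ) [Fact lam.Prime] : ResidualGaloisRep (ZMod lam) :=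
  (W.map (Int.castRingHom ℚ)).residualGaloisRepOf lam
    (EllTorsion.natCard_torsionBy_intModel W hΔ (Fact.out : lam.Prime).ne_zero)
    (EllTorsion.galoisFactorsThroughFiniteLevel_intModel W hΔ (Fact.out : lam.Prime).ne_zero)

theorem curveRep_apply (lam : ℕ) [Fact lam.Prime] (σ : Γℚ) (v : (curveRep W hΔ lam).V) :
    (curveRep W hΔ lam).ρ σ v = galoisRepModuleEnd (K := AlgebraicClosure ℚ) ℚ
      (W.map (Int.castRingHom ℚ)) lam σ v := rfl

variable {W} {lam : ℕ} [Fact lam.Prime]

/-- Frobenius characteristic polynomials of the mod `lam` representation. -/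
theorem curveRep_charpoly_frobenius (hlam2 : lam ≠ 2) {ℓ : ℕ} (hℓ : ℓ.Prime) (hℓ2 : ℓ ≠ 2)
    (hgood : W.IsGoodPrimeFor ℓ) (hℓlam : ℓ ≠ lam)
    {A : ValuationSubring (AlgebraicClosure ℚ)} (hA : A.LiesOverPrime ℓ) {σ : Γℚ}
    (hσ : A.IsFrobeniusAt σ ℓ) :
    ((curveRep W hΔ lam).ρ σ).charpoly
      = X ^ 2 - C (W.apOfModel ℓ : ZMod lam) * X + C (ℓ : ZMod lam) := by
  rw [RepTheory.charpoly_of_finrank_two (curveRep W hΔ lam).finrank_eq]
  have h1 := EllTorsion.galoisTrace_frobenius W hΔ lam hlam2 ℓ hℓ hℓ2 hgood hℓlam A hA σ hσ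
  have h2 := EllTorsion.det_galoisRepModuleEnd_frobenius W hΔ lam ℓ hℓ hgood hℓlam A hA σ hσ
  rw [galoisTrace_def] at h1
  rw [← h1, ← h2]
  rfl

/-- The mod `lam` representation is odd. -/
theorem curveRep_isOdd : (curveRep W hΔ lam).IsOdd :=
  haveI := isElliptic_mapRat W hΔ
  FLTA.Elliptic.Weil.residualGaloisRepOf_isOdd _ lam _ _

/-- Frobenius at a good prime `q` has no eigenvalue `±1` when `lam > 2 q + 1`. -/
theorem curveRep_frobenius_ne {q : ℕ} (hq : q.Prime) (hgood : W.IsGoodPrimeFor q)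
    (hlt : 2 * q + 1 < lam) {A : ValuationSubring (AlgebraicClosure ℚ)} (hA : A.LiesOverPrime q)
    {σ : Γℚ} (hσ : A.IsFrobeniusAt σ q) {ε : ZMod lam} (hε : ε = 1 ∨ ε = -1) :
    ¬ ((curveRep W hΔ lam).ρ σ).charpoly.IsRoot ε := by
  intro hroot
  obtain ⟨v, hv⟩ :=
    ((Module.End.hasEigenvalue_iff_isRoot_charpoly _ _).mpr hroot).exists_hasEigenvector
  let w : EllReducible.Tors (W.map (Int.castRingHom ℚ)) lam := v
  have hPtor : lam • (w.1 : EllReduction.GeomPoint W) = 0 := EllReducible.nsmul_coe_eq_zero w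
  have h0 : (w.1 : EllReduction.GeomPoint W) ≠ 0 := fun h => hv.2 (Subtype.ext h)
  obtain ⟨hne1, hne2⟩ := frob_smul_ne hq hA hgood hσ Fact.out hlt hPtor h0
  have e := hv.apply_eq_smul
  rw [curveRep_apply, galoisRepModuleEnd_apply] at e
  rcases hε with rfl | rfl
  · rw [one_smul] at e
    exact hne1 (congrArg Subtype.val e)
  · rw [neg_smul, one_smul] at e
    exact hne2 (congrArg Subtype.val e)

/-- For `lam > 2 q + 1` with `q` good, the mod `lam` representation is irreducible. -/
theorem curveRep_isIrreducible (hss : W.IsSemistableModel) {q : ℕ} (hq : q.Prime)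
    (hgood : W.IsGoodPrimeFor q) (hlt : 2 * q + 1 < lam) :
    (curveRep W hΔ lam).IsIrreducible := by
  by_contra hirr
  have hlam : lam.Prime := Fact.out
  have hlam2 : lam ≠ 2 := by
    have := hq.two_le
    omega
  have hE : (W.map (Int.castRingHom ℚ)).Δ ≠ 0 := by
    rw [WeierstrassCurve.map_Δ]; simpa using hΔ
  obtain ⟨N, hN⟩ := EllReducible.exists_stableLine _ hE hlam fun h =>
    hirr fun U hU => h.2 U fun σ x hx => hU σ x hx
  obtain ⟨A, hA⟩ := FLTA.Galois.exists_liesOverPrime hq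
  obtain ⟨σ, hσ⟩ := FLTA.Galois.exists_isFrobeniusAt hq hA
  apply curveRep_frobenius_ne hΔ hq hgood hlt hA hσ (Or.inl rfl)
  rw [← Module.End.hasEigenvalue_iff_isRoot_charpoly]
  let f : Module.End (ZMod lam) (EllReducible.Tors (W.map (Int.castRingHom ℚ)) lam) :=
    galoisRepModuleEnd ℚ (W.map (Int.castRingHom ℚ)) lam σ
  show Module.End.HasEigenvalue f 1
  rcases EllReducible.subTrivial_or_quotTrivial W hΔ hss hlam hlam2 hN with h | h
  · obtain ⟨x, hx, hx0⟩ := (Submodule.ne_bot_iff N).mp hN.ne_bot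
    exact Module.End.hasEigenvalue_of_hasEigenvector
      ⟨Module.End.mem_eigenspace_iff.mpr (by rw [one_smul]; exact h σ x hx), hx0⟩
  · haveI := EllReducible.finite_tors _ hE hlam
    haveI : Module.Finite (ZMod lam) (EllReducible.Tors (W.map (Int.castRingHom ℚ)) lam) :=
      Module.Finite.of_finite
    have hlt' : LinearMap.range (f - 1) ≠ ⊤ := fun htop => hN.ne_top (eq_top_iff.mpr fun y _ => by
      have hy : y ∈ LinearMap.range (f - 1) := by rw [htop]; trivial
      obtain ⟨x, rfl⟩ := hy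
      exact h σ x)
    have hker : LinearMap.ker (f - 1) ≠ ⊥ := fun hb => hlt' <| LinearMap.range_eq_top.mpr <|
      (LinearMap.injective_iff_surjective).mp (LinearMap.ker_eq_bot.mp hb)
    obtain ⟨x, hx, hx0⟩ := (Submodule.ne_bot_iff _).mp hker
    refine Module.End.hasEigenvalue_of_hasEigenvector
      ⟨Module.End.mem_eigenspace_iff.mpr ?_, hx0⟩
    rw [one_smul]
    exact sub_eq_zero.mp hx

/-- For `lam > 2 q + 1` with `q` good, the mod `lam` representation is absolutely irreducible. -/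
theorem curveRep_spans (hss : W.IsSemistableModel) {q : ℕ} (hq : q.Prime)
    (hgood : W.IsGoodPrimeFor q) (hlt : 2 * q + 1 < lam) :
    RepTheory.Spans (curveRep W hΔ lam).ρ := by
  rw [← RepTheory.isAbsolutelyIrreducible_iff_spans]
  refine RepTheory.isAbsolutelyIrreducible_of_isOdd (curveRep_isIrreducible hΔ hss hq hgood hlt) ?_
    complexConjugation_mul_self
    (curveRep_isOdd hΔ complexConjugation complexConjugation_mul_self complexConjugation_ne_one)
  intro h2
  have h3 : ((2 : ℕ) : ZMod lam) = 0 := by exact_mod_cast h2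
  rw [ZMod.natCast_eq_zero_iff] at h3
  have := Nat.le_of_dvd two_pos h3
  have := hq.two_le
  omega

end FLTA.Carayol
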