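import Fermat.Agent.Carayol.InertiaValue
import Fermat.Agent.EllReduction.Api
import Fermat.Agent.EllTorsion.GaloisDet

/-!
# Ramification of `E[lam]` at a multiplicative prime when `lam ∤ v_q(Δ)`
-/

set_option autoImplicit false

open scoped Classical
open WeierstrassCurve WeierstrassCurve.Affine

open scoped WeierstrassCurve.Affine

namespace FLTA.Carayol

open FLTA.EllReduction

local notation "Qbar" => AlgebraicClosure ℚ

variable {W : WeierstrassCurve ℤ} {A : ValuationSubring Qbar} {q : ℕ}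

/-- A point fixed by inertia is killed by `v_q(Δ)` in the component group. -/
theorem nsmul_mem_E0Z_of_inertia_fixed (hq : q.Prime) (hA : A.LiesOverPrime q) (hΔ : W.Δ ≠ 0)
    (hΔq : (q : ℤ) ∣ W.Δ) (hc₄ : ¬ (q : ℤ) ∣ W.c₄) {P : GeomPoint W}
    (hP : ∀ σ ∈ A.inertiaSubgroupIn ℚ, σ • P = P) :
    (W.Δ.natAbs.factorization q) • P ∈ E0Z W A := by
  obtain ⟨D⟩ := exists_multData hq hA hΔ hΔq hc₄
  have hn : A.valuation D.a = A.valuation (q : Qbar) ^ (W.Δ.natAbs.factorization q) := by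
    rw [D.val, valuation_Δ_eq W hq hA hΔ]
  refine (inZeroComponentAt_iff W A _).mpr ?_
  obtain ⟨Q, rfl⟩ := D.equiv.surjective P
  rw [← map_nsmul, D.inE0_iff]
  cases Q with
  | zero => simp [← Point.zero_def]
  | some x y h =>
    have hfix : ∀ σ ∈ A.inertiaSubgroupIn ℚ, σ x = x ∧ σ y = y := fun σ hσ => by
      have hσ' := actsTriviallyMod_of_mem_inertiaSubgroupIn hσ
      have e := (D.smul_equiv hσ' h).symm.trans (hP σ hσ)
      have e' := D.equiv.injective e
      simp only [Point.some.injEq] at e'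
      exact e'
    have hval : ∀ z : Qbar, A.valuation z ≠ 0 → (∀ σ ∈ A.inertiaSubgroupIn ℚ, σ z = z) →
        ∃ j : ℤ, A.valuation z = A.valuation (q : Qbar) ^ j := fun z hz0 hz =>
      exists_zpow_of_inertia_fixed hq hA (fun e => hz0 (e ▸ map_zero _)) hz
    refine node_nsmul_inE0 D.lt D.ne (π := (q : Qbar)) hA hn (fun _ hlt => ?_) (fun hx hmid => ?_)
    · refine hval x (fun e => ?_) fun σ hσ => (hfix σ hσ).1
      rw [e, zero_pow two_ne_zero] at hlt
      exact absurd hlt not_lt_zero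
    · obtain ⟨hy, -⟩ := node_middle D.lt D.ne h.1 hx hmid
      refine hval y (fun e => ?_) fun σ hσ => (hfix σ hσ).2
      rw [e, zero_pow two_ne_zero] at hy
      exact D.ne ((map_eq_zero _).mp hy.symm)

/-- At a multiplicative prime `q` with `lam ∤ v_q(Δ)`, the `lam`-torsion is ramified. -/
theorem exists_inertia_smul_ne (hq : q.Prime) (hA : A.LiesOverPrime q) (hΔ : W.Δ ≠ 0)
    (hΔq : (q : ℤ) ∣ W.Δ) (hc₄ : ¬ (q : ℤ) ∣ W.c₄) {lam : ℕ} (hlam : lam.Prime) (hne : lam ≠ q)
    (hv : ¬ lam ∣ W.Δ.natAbs.factorization q) :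
    ∃ σ ∈ A.inertiaSubgroupIn ℚ, ∃ P : GeomPoint W, lam • P = 0 ∧ σ • P ≠ P := by
  by_contra! hall
  have hqlam : ¬ q ∣ lam := fun h => hne ((Nat.prime_dvd_prime_iff_eq hq hlam).mp h).symm
  have hE0 : ∀ P : GeomPoint W, lam • P = 0 → P ∈ E0Z W A := fun P hP => by
    obtain ⟨a, b, hab⟩ : IsCoprime (lam : ℤ) (W.Δ.natAbs.factorization q : ℤ) :=
      Int.isCoprime_iff_nat_coprime.mpr (by simpa using hlam.coprime_iff_not_dvd.mpr hv)
    have h : P = a • ((lam : ℤ) • P) + b • ((W.Δ.natAbs.factorization q : ℤ) • P) := by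
      rw [← mul_zsmul, ← mul_zsmul, ← add_zsmul, mul_comm a, mul_comm b]
      simp [mul_comm, hab]
    rw [h, natCast_zsmul, hP, zsmul_zero, zero_add, natCast_zsmul]
    exact (E0Z W A).zsmul_mem
      (nsmul_mem_E0Z_of_inertia_fixed hq hA hΔ hΔq hc₄ fun σ hσ => hall σ hσ P hP) b
  let T := AddSubgroup.torsionBy (GeomPoint W) (lam : ℤ)
  have hcard : Nat.card T = lam ^ 2 := by
    have h := EllTorsion.natCard_torsionBy_intModel W hΔ hlam.ne_zero
    refine Eq.trans ?_ h
    rfl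
  have htor : ∀ P : T, lam • (P : GeomPoint W) = 0 := fun P => by
    have h : (lam : ℤ) • (P : GeomPoint W) = 0 := P.2
    rwa [natCast_zsmul] at h
  obtain ⟨P, hP0⟩ : ∃ P : T, P ≠ 0 := by
    by_contra! hc
    have : Subsingleton T := ⟨fun a b => (hc a).trans (hc b).symm⟩
    have h1 : Nat.card T ≤ 1 := Finite.card_le_one_iff_subsingleton.mpr inferInstance
    rw [hcard] at h1
    have := hlam.two_le
    nlinarith
  have hP1 : (P : GeomPoint W) ∉ E1Z W A := fun h =>
    hP0 (Subtype.ext (eq_zero_of_mem_E1Z hq hA hqlam h (htor P)))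
  have hsurj : Function.Surjective fun k : Fin lam => (k : ℕ) • P := fun Q => by
    obtain ⟨k, hk⟩ := exists_zsmul_sub_mem_E1Z hq hA hΔ hΔq hc₄ hlam (hE0 _ (htor P))
      (hE0 _ (htor Q)) (htor P) (htor Q) hP1
    have h0 : lam • ((Q : GeomPoint W) - k • (P : GeomPoint W)) = 0 := by
      rw [nsmul_sub, htor Q, ← mul_nsmul', mul_comm, mul_nsmul', htor P, nsmul_zero, sub_zero]
    have hQ : (Q : GeomPoint W) = k • (P : GeomPoint W) :=
      sub_eq_zero.mp (eq_zero_of_mem_E1Z hq hA hqlam hk h0)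
    refine ⟨⟨k % lam, Nat.mod_lt _ hlam.pos⟩, Subtype.ext ?_⟩
    show (k % lam) • (P : GeomPoint W) = (Q : GeomPoint W)
    conv_rhs => rw [hQ, ← Nat.mod_add_div k lam, add_nsmul, mul_comm lam, mul_nsmul', htor P,
      nsmul_zero, add_zero]
  have h2 := Nat.card_le_card_of_surjective _ hsurj
  rw [hcard, Nat.card_fin] at h2
  have := hlam.two_le
  nlinarith

end FLTA.Carayol
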