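import Fermat.Agent.Carayol.MatchCompare
import Fermat.Agent.Carayol.MatchCurve
import Fermat.Agent.Carayol.MatchRamified

/-!
# Comparing residual representations with the mod `lam` representation of a semistable curve
-/

set_option autoImplicit false

open scoped WeierstrassCurve.Affine
open WeierstrassCurve WeierstrassCurve.Affine.Point Polynomial

namespace FLTA.Carayol

local notation "Qbar" => AlgebraicClosure ℚ
local notation "Γℚ" => AlgebraicClosure ℚ ≃ₐ[ℚ] AlgebraicClosure ℚ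

/-- Frobenius at good primes satisfies `X² - a_ℓ X + ℓ` on `lam`-power torsion. -/
def HasFrobQuadratic (W : WeierstrassCurve ℤ) (lam : ℕ) : Prop :=
  ∀ ℓ : ℕ, ℓ.Prime → W.IsGoodPrimeFor ℓ → ℓ ≠ lam →
    ∀ A : ValuationSubring Qbar, A.LiesOverPrime ℓ → ∀ σ : Γℚ, A.IsFrobeniusAt σ ℓ →
      ∀ (n : ℕ) (P : EllReduction.GeomPoint W), (lam ^ n) • P = 0 →
        σ • σ • P - W.apOfModel ℓ • (σ • P) + ℓ • P = 0

variable {W : WeierstrassCurve ℤ} (hΔ : W.Δ ≠ 0) {lam : ℕ} [Fact lam.Prime]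

/-- Frobenius characteristic polynomials of the mod `lam` representation, from the quadratic
relation. -/
theorem curveRep_charpoly_of_quadratic (hF : HasFrobQuadratic W lam) {ℓ : ℕ} (hℓ : ℓ.Prime)
    (hgood : W.IsGoodPrimeFor ℓ) (hℓlam : ℓ ≠ lam) {A : ValuationSubring Qbar}
    (hA : A.LiesOverPrime ℓ) {σ : Γℚ} (hσ : A.IsFrobeniusAt σ ℓ) :
    ((curveRep W hΔ lam).ρ σ).charpoly
      = X ^ 2 - C (W.apOfModel ℓ : ZMod lam) * X + C (ℓ : ZMod lam) := by
  let M := (curveRep W hΔ lam).ρ σ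
  let b := Module.finBasisOfFinrankEq (ZMod lam) _ (curveRep W hΔ lam).finrank_eq
  have hdet : LinearMap.det M = (ℓ : ZMod lam) :=
    EllTorsion.det_galoisRepModuleEnd_frobenius W hΔ lam ℓ hℓ hgood hℓlam A hA σ hσ
  have hrel : M * M - (W.apOfModel ℓ : ZMod lam) • M + (ℓ : ZMod lam) • (1 : Module.End _ _) = 0 := by
    rw [Int.cast_smul_eq_zsmul, Nat.cast_smul_eq_nsmul]
    refine LinearMap.ext fun v => Subtype.ext ?_
    let w : EllReduction.GeomPoint W := v.1
    show σ • σ • w - W.apOfModel ℓ • (σ • w) + ℓ • w = 0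
    refine hF ℓ hℓ hgood hℓlam A hA σ hσ 1 w ?_
    rw [pow_one]
    exact (natCast_zsmul _ _).symm.trans v.2
  have hmat := congrArg (LinearMap.toMatrixAlgEquiv b) hrel
  simp only [map_add, map_sub, map_mul, map_smul, map_one, _root_.map_zero] at hmat
  have hℓ0 : (ℓ : ZMod lam) ≠ 0 := fun h => hℓlam
    ((Nat.prime_dvd_prime_iff_eq Fact.out hℓ).mp ((ZMod.natCast_eq_zero_iff ℓ lam).mp h)).symm
  have hd : (LinearMap.toMatrixAlgEquiv b M).det = (ℓ : ZMod lam) := by
    rw [← hdet]; exact LinearMap.det_toMatrix b M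
  have ht := GaloisReps.trace_eq_of_quadratic_of_det_eq _ _ _ hℓ0 hd hmat
  rw [← LinearMap.charpoly_toMatrix M b, Matrix.charpoly_fin_two]
  exact (congrArg₂ (fun t d => X ^ 2 - C t * X + C d) ht hd)

variable {k : Type} [Field k] [CharP k lam]

/-- The mod `lam` representation with coefficients in `k`. -/
noncomputable def curveRepK (k : Type) [Field k] [CharP k lam] : ResidualGaloisRep k :=
  (curveRep W hΔ lam).baseChangeAlong (ZMod.castHom (dvd_refl lam) k)

theorem charpoly_curveRepK (σ : Γℚ) : ((curveRepK hΔ k).ρ σ).charpoly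
    = ((curveRep W hΔ lam).ρ σ).charpoly.map (ZMod.castHom (dvd_refl lam) k) :=
  RepTheory.residual_charpoly_baseChangeAlong _ _ σ

theorem charpoly_curveRepK_frobenius (hF : HasFrobQuadratic W lam) {ℓ : ℕ} (hℓ : ℓ.Prime)
    (hgood : W.IsGoodPrimeFor ℓ) (hℓlam : ℓ ≠ lam) {A : ValuationSubring Qbar}
    (hA : A.LiesOverPrime ℓ) {σ : Γℚ} (hσ : A.IsFrobeniusAt σ ℓ) :
    ((curveRepK hΔ k).ρ σ).charpoly
      = X ^ 2 - C (W.apOfModel ℓ : k) * X + C (ℓ : k) := by
  rw [charpoly_curveRepK, curveRep_charpoly_of_quadratic hΔ hF hℓ hgood hℓlam hA hσ]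
  simp

/-- A residual representation with the Frobenius polynomials of the curve has the same
characteristic polynomials. -/
theorem charpoly_eq_curveRepK (hF : HasFrobQuadratic W lam) (S : Finset ℕ) (hlamS : lam ∈ S)
    (hbadS : ∀ ℓ : ℕ, ℓ.Prime → ℓ ∉ S → W.IsGoodPrimeFor ℓ) (r : ResidualGaloisRep k)
    (hr : ∀ ℓ : ℕ, ℓ.Prime → ℓ ∉ S → ∀ A : ValuationSubring Qbar, A.LiesOverPrime ℓ →
      ∀ σ : Γℚ, A.IsFrobeniusAt σ ℓ →
        (r.ρ σ).charpoly = X ^ 2 - C (W.apOfModel ℓ : k) * X + C (ℓ : k)) (σ : Γℚ) :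
    (r.ρ σ).charpoly = ((curveRepK hΔ k).ρ σ).charpoly :=
  residual_charpoly_eq_of_frobenius r (curveRepK hΔ k) S (fun ℓ hℓ hS A hA τ hτ => by
    rw [hr ℓ hℓ hS A hA τ hτ, charpoly_curveRepK_frobenius hΔ hF hℓ (hbadS ℓ hℓ hS)
      (fun h => hS (h ▸ hlamS)) hA hτ]) σ

variable {q₀ : ℕ} (hss : W.IsSemistableModel) (hq₀ : q₀.Prime) (hgood₀ : W.IsGoodPrimeFor q₀)
  (hlt : 2 * q₀ + 1 < lam)

include hss hq₀ hgood₀ hlt in
theorem spans_curveRepK : RepTheory.Spans (curveRepK hΔ k).ρ := by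
  rw [← RepTheory.isAbsolutelyIrreducible_iff_spans, curveRepK,
    RepTheory.isAbsolutelyIrreducible_baseChangeAlong_iff,
    RepTheory.isAbsolutelyIrreducible_iff_spans]
  exact curveRep_spans hΔ hss hq₀ hgood₀ hlt

include hss hq₀ hgood₀ hlt in
/-- A residual representation with the characteristic polynomials of the curve is absolutely
irreducible and odd. -/
theorem absIrred_and_isOdd_of_charpoly_eq (r : ResidualGaloisRep k)
    (h : ∀ σ : Γℚ, (r.ρ σ).charpoly = ((curveRepK hΔ k).ρ σ).charpoly) :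
    r.IsAbsolutelyIrreducible ∧ r.IsOdd := by
  refine ⟨(RepTheory.isAbsolutelyIrreducible_iff_spans r).mpr ?_, fun c hc hc1 => ?_⟩
  · refine spans_of_trace_eq ((curveRepK hΔ k).finrank_eq.trans r.finrank_eq.symm)
      (spans_curveRepK hΔ hss hq₀ hgood₀ hlt) fun g => ?_
    exact ((RepTheory.trace_eq_of_charpoly_eq r.finrank_eq (curveRepK hΔ k).finrank_eq (h g)).1).symm
  · have hd : LinearMap.det ((curveRepK hΔ k).ρ c) = -1 := by
      letI : Algebra (ZMod lam) k := (ZMod.castHom (dvd_refl lam) k).toAlgebra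
      have e : LinearMap.det ((curveRepK hΔ k).ρ c) =
          algebraMap (ZMod lam) k (LinearMap.det ((curveRep W hΔ lam).ρ c)) :=
        LinearMap.det_baseChange _
      rw [e, curveRep_isOdd hΔ c hc hc1, map_neg, map_one]
    rw [(RepTheory.trace_eq_of_charpoly_eq r.finrank_eq (curveRepK hΔ k).finrank_eq (h c)).2, hd]

include hss hq₀ hgood₀ hlt in
/-- A bad prime `q ≠ lam` with `lam ∤ v_q(Δ)` is ramified in every residual representation with
the characteristic polynomials of the curve. -/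
theorem not_isUnramifiedAt_of_charpoly_eq (r : ResidualGaloisRep k)
    (h : ∀ σ : Γℚ, (r.ρ σ).charpoly = ((curveRepK hΔ k).ρ σ).charpoly)
    {q : ℕ} (hq : q.Prime) (hqΔ : (q : ℤ) ∣ W.Δ) (hne : lam ≠ q)
    (hv : ¬ lam ∣ W.Δ.natAbs.factorization q) : ¬ r.IsUnramifiedAt q := by
  intro hunr
  obtain ⟨A, hA⟩ := Galois.exists_liesOverPrime hq
  obtain ⟨σ, hσ, P, hP, hne'⟩ :=
    exists_inertia_smul_ne hq hA hΔ hqΔ (hss q hq hqΔ) Fact.out hne hv
  have h1 : (curveRepK hΔ k).ρ σ = 1 :=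
    eq_one_of_trace_eq (spans_curveRepK hΔ hss hq₀ hgood₀ hlt)
      (fun g => ((RepTheory.trace_eq_of_charpoly_eq r.finrank_eq (curveRepK hΔ k).finrank_eq
        (h g)).1).symm) (hunr A hA σ hσ)
  letI : Algebra (ZMod lam) k := (ZMod.castHom (dvd_refl lam) k).toAlgebra
  let b := Module.finBasisOfFinrankEq (ZMod lam) _ (curveRep W hΔ lam).finrank_eq
  have h2 : (curveRep W hΔ lam).ρ σ = 1 := by
    apply (LinearMap.toMatrix b b).injective
    apply Matrix.map_injective (algebraMap (ZMod lam) k).injective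
    show (LinearMap.toMatrix b b ((curveRep W hΔ lam).ρ σ)).map (algebraMap (ZMod lam) k) = _
    rw [← LinearMap.toMatrix_baseChange k ((curveRep W hΔ lam).ρ σ) b b]
    rw [show ((curveRep W hΔ lam).ρ σ).baseChange k = 1 from h1, LinearMap.toMatrix_one,
      LinearMap.toMatrix_one]
    exact (Matrix.map_one _ (_root_.map_zero _) (_root_.map_one _)).symm
  refine hne' (congrArg Subtype.val (LinearMap.congr_fun h2 ⟨P, ?_⟩))
  exact (natCast_zsmul _ _).trans hP

/-- At a good prime `q` with `lam > 2 q + 1`, Frobenius of a residual representation with the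
characteristic polynomials of the curve has no eigenvalue `±1`. -/
theorem not_isRoot_of_charpoly_eq (r : ResidualGaloisRep k)
    (h : ∀ σ : Γℚ, (r.ρ σ).charpoly = ((curveRepK hΔ k).ρ σ).charpoly)
    {q : ℕ} (hq : q.Prime) (hgood : W.IsGoodPrimeFor q) (hq' : 2 * q + 1 < lam)
    {A : ValuationSubring Qbar} (hA : A.LiesOverPrime q) {σ : Γℚ} (hσ : A.IsFrobeniusAt σ q)
    {ε : k} (hε : ε = 1 ∨ ε = -1) : ¬ (r.ρ σ).charpoly.IsRoot ε := by
  intro hroot
  rw [h σ, charpoly_curveRepK] at hroot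
  rcases hε with rfl | rfl
  · rw [← map_one (ZMod.castHom (dvd_refl lam) k),
      isRoot_map_iff (RingHom.injective _)] at hroot
    exact curveRep_frobenius_ne hΔ hq hgood hq' hA hσ (Or.inl rfl) hroot
  · rw [← map_one (ZMod.castHom (dvd_refl lam) k), ← map_neg,
      isRoot_map_iff (RingHom.injective _)] at hroot
    exact curveRep_frobenius_ne hΔ hq hgood hq' hA hσ (Or.inr rfl) hroot

end FLTA.Carayol
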