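import Fermat.Agent.Carayol.MatchCompare
import Fermat.Agent.EllTorsion.FiniteLevel
import Fermat.Agent.EllTorsion.Card
import Fermat.Agent.EllReduction.Api
import Fermat.Prelude.Def_GaloisRep_LocalConditions

/-!
# Adic representations with the Frobenius polynomials of a semistable curve are unipotent on inertia
-/

set_option autoImplicit false

open scoped WeierstrassCurve.Affine
open WeierstrassCurve WeierstrassCurve.Affine.Point Polynomial

namespace FLTA.Carayol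

local notation "Qbar" => AlgebraicClosure ℚ
local notation "Γℚ" => AlgebraicClosure ℚ ≃ₐ[ℚ] AlgebraicClosure ℚ

section Algebra

variable {R E : Type*} [CommRing R] [Ring E]

/-- If `y` is killed by `X² - tX + d`, where `t`, `d` are the trace and determinant of a two by two
matrix `x`, then `y ^ m` is killed by the characteristic polynomial of `x ^ m`. -/
theorem exists_trace_pow {x : Matrix (Fin 2) (Fin 2) R} {y : E} {t d : ℤ} (ht : x.trace = t)
    (hd : x.det = d) (h : y * y - t • y + d • (1 : E) = 0) (m : ℕ) :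
    ∃ u : ℤ, (x ^ m).trace = u ∧ y ^ m * y ^ m - u • y ^ m + (d ^ m) • (1 : E) = 0 := by
  suffices H : ∃ u : ℤ, (x ^ m).trace = u ∧
      (X ^ 2 - C t * X + C d : ℤ[X]) ∣ X ^ (2 * m) - C u * X ^ m + C (d ^ m) by
    obtain ⟨u, hu, Q, hQ⟩ := H
    refine ⟨u, hu, ?_⟩
    have := congrArg (aeval y) hQ
    simp only [map_mul, map_add, map_sub, map_pow, aeval_X, eq_intCast, map_intCast] at this
    simp only [zsmul_eq_mul, mul_one, Int.cast_pow] at h ⊢
    rw [sq, h, zero_mul, two_mul, pow_add] at this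
    exact this
  induction m using Nat.twoStepInduction with
  | zero => exact ⟨2, by simp, ⟨0, by simp; norm_num⟩⟩
  | one => exact ⟨t, by simpa using ht, ⟨1, by simp⟩⟩
  | more m h0 h1 =>
    obtain ⟨u0, hu0, Q0, hQ0⟩ := h0
    obtain ⟨u1, hu1, Q1, hQ1⟩ := h1
    refine ⟨t * u1 - d * u0, ?_,
      (X ^ 2 + C d) * Q1 + C u1 * X ^ (m + 1) - C d * X ^ 2 * Q0, ?_⟩
    · rw [pow_add, pow_two, mul_self_two, mul_sub, mul_smul_comm, mul_smul_comm, mul_one,
        ← pow_succ, Matrix.trace_sub, Matrix.trace_smul, Matrix.trace_smul, smul_eq_mul,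
        smul_eq_mul, hu0, hu1, ht, hd]
      push_cast
      ring
    · simp only [map_pow, map_sub, map_mul] at hQ0 hQ1 ⊢
      linear_combination (X ^ 2 + C d) * hQ1 - C d * X ^ 2 * hQ0

end Algebra

/-- The cyclotomic character modulo `lam ^ n`. -/
noncomputable def cycloMod (lam : ℕ) [Fact lam.Prime] (n : ℕ) : Γℚ →* ZMod (lam ^ n) :=
  (PadicInt.toZModPow n).toMonoidHom.comp (GaloisReps.cycloPadic lam)

theorem cycloMod_finiteLevel (lam : ℕ) [Fact lam.Prime] (n : ℕ) :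
    GaloisFactorsThroughFiniteLevel (cycloMod lam n) := by
  have : NeZero (lam ^ n) := ⟨pow_ne_zero _ (Fact.out : lam.Prime).ne_zero⟩
  obtain ⟨ζ, hζ⟩ := HasEnoughRootsOfUnity.exists_primitiveRoot Qbar (lam ^ n)
  have : Algebra.IsAlgebraic ℚ Qbar := AlgebraicClosure.isAlgebraic ℚ
  refine ⟨IntermediateField.adjoin ℚ {ζ},
    IntermediateField.adjoin.finiteDimensional (Algebra.IsIntegral.isIntegral ζ), fun g hg => ?_⟩
  show PadicInt.toZModPow n
    (((cyclotomicCharacter Qbar lam g.toRingEquiv : (ℤ_[lam])ˣ)) : ℤ_[lam]) = 1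
  rw [cyclotomicCharacter.toZModPow]
  symm
  apply modularCyclotomicCharacter.unique
  intro t ht
  have ht' : (t : Qbar) ^ lam ^ n = 1 := by
    rw [← Units.val_pow_eq_pow_val, (mem_rootsOfUnity _ t).mp ht, Units.val_one]
  obtain ⟨i, -, hi⟩ := hζ.eq_pow_of_pow_eq_one ht'
  rw [ZMod.val_one_eq_one_mod, ← pow_eq_pow_mod 1 ht', pow_one, ← hi]
  show g (ζ ^ i) = ζ ^ i
  rw [map_pow, hg ζ (IntermediateField.mem_adjoin_simple_self ℚ ζ)]

/-- The `lam ^ n` torsion has exponent exactly `lam ^ n`. -/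
theorem dvd_of_forall_zsmul_eq_zero (W : WeierstrassCurve ℤ) (hΔ : W.Δ ≠ 0) {lam : ℕ}
    (hlam : lam.Prime) (n : ℕ) {k : ℤ}
    (h : ∀ P : EllReduction.GeomPoint W, ((lam ^ n : ℕ) : ℤ) • P = 0 → k • P = 0) :
    ((lam ^ n : ℕ) : ℤ) ∣ k := by
  by_contra hk
  obtain ⟨j, hj, hje⟩ := (Nat.dvd_prime_pow hlam).mp
    (Int.natCast_dvd_natCast.mp (Int.gcd_dvd_left ((lam ^ n : ℕ) : ℤ) k))
  have hjn : j < n := by
    refine lt_of_le_of_ne hj fun e => hk ?_
    rw [e] at hje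
    rw [← hje]
    exact Int.gcd_dvd_right _ _
  have hle : ∀ P : EllReduction.GeomPoint W, ((lam ^ n : ℕ) : ℤ) • P = 0 →
      ((lam ^ j : ℕ) : ℤ) • P = 0 := fun P hP => by
    rw [← hje, Int.gcd_eq_gcd_ab, add_zsmul, mul_comm, mul_zsmul, mul_comm k, mul_zsmul, hP,
      h P hP, zsmul_zero, zsmul_zero, add_zero]
  have hc := EllTorsion.natCard_torsionBy_intModel W hΔ (pow_ne_zero n hlam.ne_zero)
  have hcj := EllTorsion.natCard_torsionBy_intModel W hΔ (pow_ne_zero j hlam.ne_zero)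
  have hsub : Submodule.torsionBy ℤ (EllReduction.GeomPoint W) ((lam ^ n : ℕ) : ℤ) ≤
      Submodule.torsionBy ℤ (EllReduction.GeomPoint W) ((lam ^ j : ℕ) : ℤ) := fun P hP => hle P hP
  have : Finite (Submodule.torsionBy ℤ (EllReduction.GeomPoint W) ((lam ^ j : ℕ) : ℤ)) :=
    Nat.finite_of_card_ne_zero (by
      rw [show Nat.card _ = _ from hcj]; exact pow_ne_zero _ (pow_ne_zero _ hlam.ne_zero))
  have hcard := Nat.card_le_card_of_injective _ (Submodule.inclusion_injective hsub)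
  rw [show Nat.card _ = _ from hc, show Nat.card _ = _ from hcj] at hcard
  exact absurd hcard (not_le.mpr (Nat.pow_lt_pow_left (Nat.pow_lt_pow_right hlam.one_lt hjn)
    two_ne_zero))

/-- A `lam`-adic representation whose Frobenius elements have the characteristic polynomials of
a semistable curve is unipotent on inertia away from `lam`. -/
theorem isUnipotentOnInertiaAt_of_frobenius {O : Type} [CommRing O] [IsLocalRing O]
    [IsNoetherianRing O] {lam : ℕ} [Fact lam.Prime] (hlamO : (lam : O) ∈ IsLocalRing.maximalIdeal O)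
    (ρ : GaloisRepAdic O) (W : WeierstrassCurve ℤ) (hΔ : W.Δ ≠ 0) (hss : W.IsSemistableModel)
    (S : Finset ℕ) (hlamS : lam ∈ S) (a : ℕ → ℤ)
    (hquad : ∀ ℓ : ℕ, ℓ.Prime → ℓ ∉ S → ∀ A : ValuationSubring Qbar, A.LiesOverPrime ℓ →
      ∀ σ : Γℚ, A.IsFrobeniusAt σ ℓ → ∀ (n : ℕ) (P : EllReduction.GeomPoint W),
        (lam ^ n) • P = 0 → σ • σ • P - a ℓ • (σ • P) + ℓ • P = 0)
    (hρ : ∀ ℓ : ℕ, ℓ.Prime → ℓ ∉ S → ∀ A : ValuationSubring Qbar, A.LiesOverPrime ℓ →
      ∀ σ : Γℚ, A.IsFrobeniusAt σ ℓ →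
        (ρ.ρ σ).charpoly = X ^ 2 - C ((a ℓ : ℤ) : O) * X + C (ℓ : O))
    {q : ℕ} (hq : q.Prime) (hqlam : q ≠ lam) : ρ.IsUnipotentOnInertiaAt q := by
  classical
  intro B hB g hg
  have hlam : lam.Prime := Fact.out
  let b := Module.finBasisOfFinrankEq O ρ.V ρ.finrank_eq
  suffices H : ∀ n : ℕ, (LinearMap.toMatrix b b (ρ.ρ g)).trace - 2
        ∈ IsLocalRing.maximalIdeal O ^ n ∧
      (LinearMap.toMatrix b b (ρ.ρ g)).det - 1 ∈ IsLocalRing.maximalIdeal O ^ n by
    rw [← LinearMap.charpoly_toMatrix (ρ.ρ g) b, Matrix.charpoly_fin_two,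
      sub_eq_zero.mp (GaloisReps.eq_zero_of_forall_mem_maximalIdeal_pow fun n => (H n).1),
      sub_eq_zero.mp (GaloisReps.eq_zero_of_forall_mem_maximalIdeal_pow fun n => (H n).2),
      map_one, map_ofNat]
    ring
  intro n
  let π := Ideal.Quotient.mk (IsLocalRing.maximalIdeal O ^ n)
  have hπlam : ∀ k : ℤ, ((lam ^ n : ℕ) : ℤ) ∣ k →
      (k : O ⧸ IsLocalRing.maximalIdeal O ^ n) = 0 := by
    rintro _ ⟨c, rfl⟩
    rw [← map_intCast π, Ideal.Quotient.eq_zero_iff_mem, Int.cast_mul]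
    refine Ideal.mul_mem_right _ _ ?_
    rw [Int.cast_natCast, Nat.cast_pow]
    exact Ideal.pow_mem_pow hlamO n
  let φx : Γℚ →* Matrix (Fin 2) (Fin 2) (O ⧸ IsLocalRing.maximalIdeal O ^ n) :=
    π.mapMatrix.toMonoidHom.comp (RepTheory.matHom b ρ.ρ)
  have hφ : ∀ s, φx s = π.mapMatrix (LinearMap.toMatrix b b (ρ.ρ s)) := fun s => rfl
  let φy := galoisRepModuleEnd (K := Qbar) ℚ (W.map (Int.castRingHom ℚ)) (lam ^ n)
  have hx : GaloisFactorsThroughFiniteLevel φx := by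
    obtain ⟨L, hL, h1⟩ := ρ.isAdicContinuous n
    refine ⟨L, hL, fun s hs => ?_⟩
    ext i j
    have h2 := GaloisReps.repr_mem_of_mem_smul_top b _ (h1 s hs (b j)) i
    rw [map_sub, Finsupp.sub_apply, b.repr_self] at h2
    show π (LinearMap.toMatrix b b (ρ.ρ s) i j) = _
    rw [LinearMap.toMatrix_apply, Ideal.Quotient.eq.mpr h2]
    by_cases hij : i = j
    · subst hij; simp
    · simp [hij]
  have key := Density.forall_of_frobenius (φx.prod (φy.prod (cycloMod lam n)))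
    (Density.galoisFactorsThroughFiniteLevel_prod hx
      (Density.galoisFactorsThroughFiniteLevel_prod
        (EllTorsion.galoisFactorsThroughFiniteLevel_intModel W hΔ (pow_ne_zero n hlam.ne_zero))
        (cycloMod_finiteLevel lam n))) S
    (fun w => ∃ t d : ℤ, w.1.trace = t ∧ w.1.det = d ∧ (d : ZMod (lam ^ n)) = w.2.2 ∧
      w.2.1 * w.2.1 - t • w.2.1 + d • (1 : Module.End (ZMod (lam ^ n)) _) = 0) ?_ ?_ g
  · obtain ⟨t, d, ht, hd, hz, hy⟩ := key
    simp only [MonoidHom.prod_apply, hφ] at ht hd hz hy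
    have hqn : ¬ q ∣ lam ^ n := fun h =>
      hqlam ((Nat.prime_dvd_prime_iff_eq hq hlam).mp (hq.dvd_of_dvd_pow h))
    have hd1 : ((lam ^ n : ℕ) : ℤ) ∣ d - 1 := by
      rw [← ZMod.intCast_zmod_eq_zero_iff_dvd, Int.cast_sub, hz, Int.cast_one, sub_eq_zero]
      show PadicInt.toZModPow n
        (((cyclotomicCharacter Qbar lam g.toRingEquiv : (ℤ_[lam])ˣ)) : ℤ_[lam]) = 1
      rw [show cyclotomicCharacter Qbar lam g.toRingEquiv = 1 from
          Galois.cyclotomicCharacter_inertia lam hq hqlam hB hg, Units.val_one, map_one]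
    have hss' : ¬ (q : ℤ) ∣ W.Δ ∨ ¬ (q : ℤ) ∣ W.c₄ := (em _).elim (Or.inr ∘ hss q hq) Or.inl
    have ht2 : ((lam ^ n : ℕ) : ℤ) ∣ 2 - t := by
      refine dvd_of_forall_zsmul_eq_zero W hΔ hlam n fun P hP => ?_
      obtain ⟨c, hc⟩ := hd1
      have hP' : (lam ^ n) • P = 0 := by rwa [natCast_zsmul] at hP
      have hP2 : (lam ^ n) • (g⁻¹ • P) = 0 := by
        have h1 := EllReduction.nsmul_smul_sub_eq_zero g⁻¹ hP'
        rwa [nsmul_sub, hP', sub_zero] at h1
      let v : Submodule.torsionBy ℤ (EllReduction.GeomPoint W) ((lam ^ n : ℕ) : ℤ) :=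
        ⟨g⁻¹ • P, (natCast_zsmul _ _).trans hP2⟩
      have e := congrArg Subtype.val (LinearMap.congr_fun hy v)
      have e2 : g • g • (g⁻¹ • P) - t • (g • (g⁻¹ • P)) + d • (g⁻¹ • P) = 0 := e
      rw [show d = 1 + ((lam ^ n : ℕ) : ℤ) * c by omega, add_zsmul, one_zsmul, mul_zsmul',
        natCast_zsmul, hP2, zsmul_zero, add_zero] at e2
      have hgg : g • (g⁻¹ • P) = P := smul_inv_smul g P
      rw [hgg] at e2
      have hu : g • (g • (g⁻¹ • P) - g⁻¹ • P) = g • (g⁻¹ • P) - g⁻¹ • P :=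
        EllReduction.smul_smul_sub_eq hq hB hss' hΔ hqn hg hg hP2
      rw [hgg, show g • (P - g⁻¹ • P) = g • P - g • (g⁻¹ • P) from
        map_sub (Affine.Point.map (W' := W.map (Int.castRingHom ℚ)) g.toAlgHom) P (g⁻¹ • P), hgg,
        sub_eq_sub_iff_add_eq_add] at hu
      rw [sub_zsmul, two_zsmul, ← hu]
      rw [← e2]
      abel
    refine ⟨?_, ?_⟩
    · rw [← Ideal.Quotient.eq_zero_iff_mem, map_sub, AddMonoidHom.map_trace]
      show (π.mapMatrix _).trace - π 2 = 0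
      rw [ht, map_ofNat, sub_eq_zero]
      refine (sub_eq_zero.mp ?_).symm
      exact_mod_cast hπlam _ ht2
    · rw [← Ideal.Quotient.eq_zero_iff_mem, map_sub, RingHom.map_det, map_one]
      show (π.mapMatrix _).det - 1 = 0
      rw [hd]
      exact_mod_cast hπlam _ hd1
  · rintro ⟨x, y, z⟩ m ⟨t, d, ht, hd, hz, hy⟩
    obtain ⟨u, hu, hy'⟩ := exists_trace_pow ht hd hy m
    refine ⟨u, d ^ m, hu, ?_, ?_, hy'⟩
    · show (x ^ m).det = _
      rw [Matrix.det_pow, show x.det = _ from hd, Int.cast_pow]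
    · show ((d ^ m : ℤ) : ZMod (lam ^ n)) = z ^ m
      rw [Int.cast_pow, show (d : ZMod (lam ^ n)) = z from hz]
  · intro ℓ hℓ hS A hA τ hτ
    obtain ⟨et, ed⟩ := RepTheory.trace_eq_of_charpoly ρ.finrank_eq (hρ ℓ hℓ hS A hA τ hτ)
    have hℓlam : ℓ ≠ lam := fun h => hS (h ▸ hlamS)
    refine ⟨a ℓ, ℓ, ?_, ?_, ?_, ?_⟩
    · show (π.mapMatrix (LinearMap.toMatrix b b (ρ.ρ τ))).trace = _
      rw [RingHom.mapMatrix_apply, ← AddMonoidHom.map_trace, ← LinearMap.trace_eq_matrix_trace O b,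
        et, map_intCast]
    · show (π.mapMatrix (LinearMap.toMatrix b b (ρ.ρ τ))).det = _
      rw [← RingHom.map_det, LinearMap.det_toMatrix, ed, map_natCast, Int.cast_natCast]
    · show _ = PadicInt.toZModPow n
        (((cyclotomicCharacter Qbar lam τ.toRingEquiv : (ℤ_[lam])ˣ)) : ℤ_[lam])
      rw [show ((cyclotomicCharacter Qbar lam τ.toRingEquiv : ℤ_[lam]ˣ) : ℤ_[lam]) = ℓ from
          Galois.cyclotomicCharacter_frobenius lam hℓ hℓlam hA hτ, map_natCast, Int.cast_natCast]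
    · refine LinearMap.ext fun v => Subtype.ext ?_
      let w : EllReduction.GeomPoint W := v.1
      show τ • τ • w - a ℓ • (τ • w) + (ℓ : ℤ) • w = 0
      rw [natCast_zsmul]
      exact hquad ℓ hℓ hS A hA τ hτ n w ((natCast_zsmul _ _).symm.trans v.2)

end FLTA.Carayol
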