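import Fermat.Agent.Carayol.MatchNewform
import Fermat.Agent.Carayol.MatchResidual
import Fermat.Agent.Carayol.MatchUnipotent
import Fermat.Agent.GaloisReps.ResidualAttach
import Fermat.Prelude.Def_WeierstrassCurve_ConductorLevel

/-!
# Conductor–level matching for semistable modular models

The local statements about newforms at primes dividing the level (`AttachedAtDvd`, the
multiplicative case, and `AttachedAtSq`, the case of exponent two) are hypotheses here.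
-/

set_option autoImplicit false

open WeierstrassCurve Polynomial ModularFormClass

namespace FLTA.Carayol

local notation "Qbar" => AlgebraicClosure ℚ
local notation "Γℚ" => AlgebraicClosure ℚ ≃ₐ[ℚ] AlgebraicClosure ℚ

/-- The attached representation of a newform at a prime exactly dividing the level. -/
def AttachedAtDvd : Prop :=
  ∀ {M : ℕ} [NeZero M] {g : CuspForm (CongruenceSubgroup.Gamma0 M) 2} (_ : g.IsNewform)
    (lam : ℕ) [Fact lam.Prime] (S : Finset ℕ)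
    (O' : Type) [CommRing O'] [IsDomain O'] [IsDiscreteValuationRing O']
    [IsAdicComplete (IsLocalRing.maximalIdeal O') O'] [Finite (IsLocalRing.ResidueField O')]
    [CharZero O'] (_ : (lam : O') ∈ IsLocalRing.maximalIdeal O')
    (chig : CuspForm.heckeAlgebra M 2 (↑S : Set ℕ) →+* ℂ)
    (_ : ∀ (ℓ : ℕ) (hℓ : ℓ.Prime) (hℓM : ¬ ℓ ∣ M) (hℓS : ℓ ∉ (↑S : Set ℕ)),
      chig (CuspForm.heckeAlgebra.T hℓ hℓM hℓS) = ModularFormClass.qCoeff g ℓ)
    (iota : chig.range →+* O')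
    (_ : lam ∈ S) (_ : ∀ q : ℕ, q.Prime → q ∣ M → q ∈ S),
    ∃ (O'' : Type) (_ : CommRing O'') (_ : IsDomain O'') (_ : IsDiscreteValuationRing O'')
      (_ : IsAdicComplete (IsLocalRing.maximalIdeal O'') O'')
      (_ : Finite (IsLocalRing.ResidueField O'')) (_ : CharZero O'') (_ : Algebra O' O'')
      (_ : Module.Finite O' O'') (_ : IsLocalHom (algebraMap O' O'')),
      Function.Injective (algebraMap O' O'') ∧
      ∃ ρ : GaloisRepAdic O'',
        (∀ (ℓ : ℕ) (hℓ : ℓ.Prime) (hℓM : ¬ ℓ ∣ M) (hℓS : ℓ ∉ (↑S : Set ℕ)),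
          ∀ A : ValuationSubring Qbar, A.LiesOverPrime ℓ →
            ∀ σ : Γℚ, A.IsFrobeniusAt σ ℓ →
              LinearMap.charpoly (ρ.ρ σ) =
                X ^ 2 - C (algebraMap O' O'' ((iota.comp chig.rangeRestrict)
                    (CuspForm.heckeAlgebra.T hℓ hℓM hℓS))) * X
                  + C ((ℓ : O''))) ∧
        (∀ q : ℕ, q.Prime → q ≠ lam → q ∣ M → ¬ q ^ 2 ∣ M →
          ∀ A : ValuationSubring Qbar, A.LiesOverPrime q →
            ∀ σ : Γℚ, A.IsFrobeniusAt σ q →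
              LinearMap.charpoly (ρ.ρ σ) = X ^ 2 - C ((q : O'') + 1) * X + C ((q : O'')) ∨
              LinearMap.charpoly (ρ.ρ σ) = X ^ 2 + C ((q : O'') + 1) * X + C ((q : O'')))

/-- The attached representation of a newform at a prime whose square exactly divides the level. -/
def AttachedAtSq : Prop :=
  ∀ {M : ℕ} [NeZero M] {g : CuspForm (CongruenceSubgroup.Gamma0 M) 2} (_ : g.IsNewform)
    (lam : ℕ) [Fact lam.Prime] (S : Finset ℕ)
    (O' : Type) [CommRing O'] [IsDomain O'] [IsDiscreteValuationRing O']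
    [IsAdicComplete (IsLocalRing.maximalIdeal O') O'] [Finite (IsLocalRing.ResidueField O')]
    [CharZero O'] (_ : (lam : O') ∈ IsLocalRing.maximalIdeal O') (_ : lam ≠ 2)
    (chig : CuspForm.heckeAlgebra M 2 (↑S : Set ℕ) →+* ℂ)
    (_ : ∀ (ℓ : ℕ) (hℓ : ℓ.Prime) (hℓM : ¬ ℓ ∣ M) (hℓS : ℓ ∉ (↑S : Set ℕ)),
      chig (CuspForm.heckeAlgebra.T hℓ hℓM hℓS) = ModularFormClass.qCoeff g ℓ)
    (iota : chig.range →+* O')
    (_ : lam ∈ S) (_ : ∀ q : ℕ, q.Prime → q ∣ M → q ∈ S)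
    (_ : ∀ (O'' : Type) [CommRing O''] [IsDomain O''] [IsDiscreteValuationRing O'']
      [IsAdicComplete (IsLocalRing.maximalIdeal O'') O''] [Finite (IsLocalRing.ResidueField O'')]
      [CharZero O''] [Algebra O' O''] [Module.Finite O' O''] [IsLocalHom (algebraMap O' O'')],
      Function.Injective (algebraMap O' O'') → ∀ (ρ : GaloisRepAdic O''),
      (∀ (ℓ : ℕ) (hℓ : ℓ.Prime) (_ : ℓ ≠ lam) (hℓM : ¬ ℓ ∣ M) (hℓS : ℓ ∉ (↑S : Set ℕ)),
        ∀ A : ValuationSubring Qbar, A.LiesOverPrime ℓ →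
          ∀ σ : Γℚ, A.IsFrobeniusAt σ ℓ →
            LinearMap.charpoly (ρ.ρ σ) =
              X ^ 2 - C (algebraMap O' O'' ((iota.comp chig.rangeRestrict)
                  (CuspForm.heckeAlgebra.T hℓ hℓM hℓS))) * X
                + C ((ℓ : O'')))
      → ρ.residual.IsAbsolutelyIrreducible ∧ ρ.residual.IsOdd),
    ∃ (O'' : Type) (_ : CommRing O'') (_ : IsDomain O'') (_ : IsDiscreteValuationRing O'')
      (_ : IsAdicComplete (IsLocalRing.maximalIdeal O'') O'')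
      (_ : Finite (IsLocalRing.ResidueField O'')) (_ : CharZero O'') (_ : Algebra O' O'')
      (_ : Module.Finite O' O'') (_ : IsLocalHom (algebraMap O' O'')),
      Function.Injective (algebraMap O' O'') ∧
      ∃ ρ : GaloisRepAdic O'',
        (∀ (ℓ : ℕ) (hℓ : ℓ.Prime) (hℓM : ¬ ℓ ∣ M) (hℓS : ℓ ∉ (↑S : Set ℕ)),
          ∀ A : ValuationSubring Qbar, A.LiesOverPrime ℓ →
            ∀ σ : Γℚ, A.IsFrobeniusAt σ ℓ →
              LinearMap.charpoly (ρ.ρ σ) =
                X ^ 2 - C (algebraMap O' O'' ((iota.comp chig.rangeRestrict)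
                    (CuspForm.heckeAlgebra.T hℓ hℓM hℓS))) * X
                  + C ((ℓ : O''))) ∧
        (∀ q : ℕ, q.Prime → q ≠ lam → M.factorization q = 2 → ¬ ρ.IsUnipotentOnInertiaAt q)

theorem charP_residueField {O : Type} [CommRing O] [IsLocalRing O] {lam : ℕ} (hlam : lam.Prime)
    (h : (lam : O) ∈ IsLocalRing.maximalIdeal O) : CharP (IsLocalRing.ResidueField O) lam :=
  (CharP.charP_iff_prime_eq_zero hlam).mpr (by
    rw [← map_natCast (IsLocalRing.residue O), IsLocalRing.residue_eq_zero_iff]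
    exact h)

theorem natCast_mem_of_algebra {R R' : Type} [CommRing R] [IsLocalRing R] [CommRing R']
    [IsLocalRing R'] [Algebra R R'] [IsLocalHom (algebraMap R R')] {lam : ℕ}
    (h : (lam : R) ∈ IsLocalRing.maximalIdeal R) : (lam : R') ∈ IsLocalRing.maximalIdeal R' := by
  rw [← map_natCast (algebraMap R R')]
  exact map_nonunit (algebraMap R R') _ h

theorem natCast_mem_maximalIdeal_padicInt (lam : ℕ) [Fact lam.Prime] :
    (lam : ℤ_[lam]) ∈ IsLocalRing.maximalIdeal ℤ_[lam] := by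
  rw [PadicInt.maximalIdeal_eq_span_p]
  exact Ideal.mem_span_singleton_self _

/-- A maximal ideal of the algebraic integers above a prime. -/
theorem exists_maximal_mem {lam : ℕ} (hlam : lam.Prime) :
    ∃ m : Ideal (integralClosure ℤ ℂ), m.IsMaximal ∧ (lam : integralClosure ℤ ℂ) ∈ m := by
  have : Fact lam.Prime := ⟨hlam⟩
  have : (Ideal.span {(lam : ℤ)}).IsMaximal := Int.ideal_span_isMaximal_of_prime lam
  obtain ⟨m, hmax, hm⟩ := Ideal.exists_ideal_over_maximal_of_isIntegral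
    (S := integralClosure ℤ ℂ) (Ideal.span {(lam : ℤ)}) fun x hx => by
      rw [RingHom.mem_ker, algebraMap_int_eq, eq_intCast] at hx
      rw [Int.cast_eq_zero.mp hx]
      exact zero_mem _
  refine ⟨m, hmax, ?_⟩
  have h : (lam : ℤ) ∈ m.comap (algebraMap ℤ (integralClosure ℤ ℂ)) :=
    hm ▸ Ideal.mem_span_singleton_self _
  simpa using h

section Main

variable {W : WeierstrassCurve ℤ} (hss : W.IsSemistableModel) (hΔ : W.Δ ≠ 0)
  (hF : ∀ lam : ℕ, lam.Prime → lam ≠ 2 → HasFrobQuadratic W lam)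
  {M : ℕ} [NeZero M] {g : CuspForm (CongruenceSubgroup.Gamma0 M) 2} (hg : g.IsNewform)
  (S₀ : Finset ℕ) (hM₀ : ∀ q : ℕ, q.Prime → q ∣ M → q ∈ S₀)
  (hbad₀ : ∀ q : ℕ, q.Prime → q ∉ S₀ → W.IsGoodPrimeFor q)
  (hap : ∀ ℓ : ℕ, ℓ.Prime → ℓ ∉ S₀ → qCoeff g ℓ = (W.apOfModel ℓ : ℂ))

include hΔ in
/-- A good prime and, beyond it and any bound, a large auxiliary prime. -/
theorem exists_auxiliary_primes (B : ℕ) :
    ∃ (q₀ lam : ℕ), q₀.Prime ∧ W.IsGoodPrimeFor q₀ ∧ lam.Prime ∧ B < lam ∧ 2 * q₀ + 1 < lam ∧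
      W.Δ.natAbs < lam := by
  obtain ⟨q₀, hq₀, hq₀p⟩ := Nat.exists_infinite_primes (W.Δ.natAbs + 1)
  obtain ⟨lam, hlam, hlamp⟩ := Nat.exists_infinite_primes (B + 2 * q₀ + W.Δ.natAbs + 2)
  refine ⟨q₀, lam, hq₀p, fun h => ?_, hlamp, by omega, by omega, by omega⟩
  have := Nat.le_of_dvd (Int.natAbs_pos.mpr hΔ) (Int.natCast_dvd.mp h)
  omega

include hΔ in
theorem not_dvd_factorization {lam q : ℕ} (hq : q.Prime) (hqΔ : (q : ℤ) ∣ W.Δ)
    (h : W.Δ.natAbs < lam) : ¬ lam ∣ W.Δ.natAbs.factorization q := fun hd => by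
  have h1 := Nat.factorization_lt q (Int.natAbs_ne_zero.mpr hΔ)
  have h2 := hq.factorization_pos_of_dvd (Int.natAbs_ne_zero.mpr hΔ) (Int.natCast_dvd.mp hqΔ)
  have := Nat.le_of_dvd h2 hd
  omega

include hss hF hg hM₀ hbad₀ hap in
/-- No prime square divides the level. -/
theorem not_sq_dvd_level (h36 : AttachedAtSq) (hΔ : W.Δ ≠ 0) {q : ℕ} (hq : q.Prime)
    (hq3 : ¬ q ^ 3 ∣ M) : ¬ q ^ 2 ∣ M := by
  intro hq2
  obtain ⟨q₀, lam, hq₀, hgood₀, hlam, hB, hlt, -⟩ := exists_auxiliary_primes hΔ (q + 2)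
  have := Fact.mk hlam
  let S := insert lam S₀
  have hMS : ∀ r : ℕ, r.Prime → r ∣ M → r ∈ S := fun r hr hd =>
    Finset.mem_insert_of_mem (hM₀ r hr hd)
  have hbadS : ∀ r : ℕ, r.Prime → r ∉ S → W.IsGoodPrimeFor r := fun r hr hS =>
    hbad₀ r hr fun h => hS (Finset.mem_insert_of_mem h)
  have hlamS : lam ∈ S := Finset.mem_insert_self _ _
  obtain ⟨chig, iota, hchig, hiota⟩ := exists_chig_iota hg.1 S hMS W.apOfModel
    (fun ℓ hℓ hS => hap ℓ hℓ fun h => hS (Finset.mem_insert_of_mem h)) ℤ_[lam]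
  have hlamO := natCast_mem_maximalIdeal_padicInt lam
  have hlam2 : lam ≠ 2 := by omega
  have hstep := h36 hg lam S ℤ_[lam] hlamO hlam2 chig hchig iota hlamS hMS
  obtain ⟨O'', _, _, _, _, _, _, _, _, _, -, ρ, hfrob, hnu⟩ := hstep (by
    intro O'' _ _ _ _ _ _ _ _ _ _ ρ hρ
    have := charP_residueField hlam (natCast_mem_of_algebra (R' := O'') hlamO)
    refine absIrred_and_isOdd_of_charpoly_eq hΔ hss hq₀ hgood₀ hlt ρ.residual fun σ =>
      charpoly_eq_curveRepK hΔ (hF lam hlam hlam2) S hlamS hbadS ρ.residual ?_ σ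
    intro ℓ hℓ hS A hA τ hτ
    rw [RepTheory.charpoly_residual, hρ ℓ hℓ (fun h => hS (h ▸ hlamS))
      (fun h => hS (hMS ℓ hℓ h)) (by simpa using hS) A hA τ hτ, hiota, map_intCast]
    simp)
  have hfac : M.factorization q = 2 := by
    have h2 := (hq.pow_dvd_iff_le_factorization (NeZero.ne M)).mp hq2
    have h3 := mt (hq.pow_dvd_iff_le_factorization (NeZero.ne M)).mpr hq3
    omega
  refine hnu q hq (by omega) hfac (isUnipotentOnInertiaAt_of_frobenius
    (natCast_mem_of_algebra hlamO) ρ W hΔ hss S hlamS W.apOfModel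
    (fun ℓ hℓ hS A hA σ hσ n P hP => hF lam hlam hlam2 ℓ hℓ (hbadS ℓ hℓ hS)
      (fun h => hS (h ▸ hlamS)) A hA σ hσ n P hP) ?_ hq (by omega))
  intro ℓ hℓ hS A hA σ hσ
  rw [hfrob ℓ hℓ (fun h => hS (hMS ℓ hℓ h)) (by simpa using hS) A hA σ hσ, hiota, map_intCast]

include hF hg hM₀ hbad₀ hap in
/-- A prime exactly dividing the level is bad for the curve. -/
theorem dvd_disc_of_dvd_level (h35 : AttachedAtDvd) (hΔ : W.Δ ≠ 0) {q : ℕ} (hq : q.Prime)
    (hqM : q ∣ M) (hq2 : ¬ q ^ 2 ∣ M) : (q : ℤ) ∣ W.Δ := by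
  by_contra hgood
  obtain ⟨q₀, lam, hq₀, hgood₀, hlam, hB, hlt, -⟩ := exists_auxiliary_primes hΔ (2 * q + 1)
  have := Fact.mk hlam
  let S := insert lam S₀
  have hMS : ∀ r : ℕ, r.Prime → r ∣ M → r ∈ S := fun r hr hd =>
    Finset.mem_insert_of_mem (hM₀ r hr hd)
  have hbadS : ∀ r : ℕ, r.Prime → r ∉ S → W.IsGoodPrimeFor r := fun r hr hS =>
    hbad₀ r hr fun h => hS (Finset.mem_insert_of_mem h)
  have hlamS : lam ∈ S := Finset.mem_insert_self _ _
  obtain ⟨chig, iota, hchig, hiota⟩ := exists_chig_iota hg.1 S hMS W.apOfModel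
    (fun ℓ hℓ hS => hap ℓ hℓ fun h => hS (Finset.mem_insert_of_mem h)) ℤ_[lam]
  have hlamO := natCast_mem_maximalIdeal_padicInt lam
  have hlam2 : lam ≠ 2 := by have := hq.two_le; omega
  obtain ⟨O'', _, _, _, _, _, _, _, _, _, -, ρ, hfrob, hstein⟩ := h35 hg lam S ℤ_[lam] hlamO
    chig hchig iota hlamS hMS
  have := charP_residueField hlam (natCast_mem_of_algebra (R' := O'') hlamO)
  have hcp : ∀ σ : Γℚ,
      (ρ.residual.ρ σ).charpoly = ((curveRepK hΔ _).ρ σ).charpoly :=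
    fun σ => charpoly_eq_curveRepK hΔ (hF lam hlam hlam2) S hlamS hbadS ρ.residual
      (fun ℓ hℓ hS A hA τ hτ => by
        rw [RepTheory.charpoly_residual,
          hfrob ℓ hℓ (fun h => hS (hMS ℓ hℓ h)) (by simpa using hS) A hA τ hτ, hiota, map_intCast]
        simp) σ
  obtain ⟨A, hA⟩ := Galois.exists_liesOverPrime hq
  obtain ⟨σ, hσ⟩ := Galois.exists_isFrobeniusAt hq hA
  rcases hstein q hq (by omega) hqM hq2 A hA σ hσ with h | h
  · refine not_isRoot_of_charpoly_eq hΔ ρ.residual hcp hq hgood hB hA hσ (Or.inl rfl) ?_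
    rw [RepTheory.charpoly_residual, h]
    simp
  · refine not_isRoot_of_charpoly_eq hΔ ρ.residual hcp hq hgood hB hA hσ (Or.inr rfl) ?_
    rw [RepTheory.charpoly_residual, h]
    simp

include hss hF hg hM₀ hbad₀ hap in
/-- A bad prime of the curve divides the level. -/
theorem dvd_level_of_dvd_disc (hΔ : W.Δ ≠ 0) {q : ℕ} (hq : q.Prime) (hqΔ : (q : ℤ) ∣ W.Δ) :
    q ∣ M := by
  by_contra hqM
  obtain ⟨q₀, lam, hq₀, hgood₀, hlam, hB, hlt, hΔlam⟩ := exists_auxiliary_primes hΔ (q + 2)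
  have := Fact.mk hlam
  obtain ⟨m, hmax, hm⟩ := exists_maximal_mem hlam
  let : Field (integralClosure ℤ ℂ ⧸ m) := Ideal.Quotient.field m
  have : CharP (integralClosure ℤ ℂ ⧸ m) lam := (CharP.charP_iff_prime_eq_zero hlam).mpr (by
    rw [← map_natCast (Ideal.Quotient.mk m), Ideal.Quotient.eq_zero_iff_mem]; exact hm)
  obtain ⟨r, hr, hunr⟩ := GaloisReps.exists_residual_attached hg.1 (Ideal.Quotient.mk m)
  let S := insert lam S₀
  have hbadS : ∀ r : ℕ, r.Prime → r ∉ S → W.IsGoodPrimeFor r := fun r hr hS =>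
    hbad₀ r hr fun h => hS (Finset.mem_insert_of_mem h)
  have hlam2 : lam ≠ 2 := by omega
  refine not_isUnramifiedAt_of_charpoly_eq hΔ hss hq₀ hgood₀ hlt r
    (fun σ => charpoly_eq_curveRepK hΔ (hF lam hlam hlam2) S (Finset.mem_insert_self _ _) hbadS r
      ?_ σ) hq hqΔ (by omega) (not_dvd_factorization hΔ hq hqΔ hΔlam) (hunr q hq fun h => ?_)
  · intro ℓ hℓ hS A hA τ hτ
    have hℓlam : ℓ ≠ lam := fun h => hS (h ▸ Finset.mem_insert_self _ _)
    obtain ⟨a, ha, hcp⟩ := hr ℓ hℓ (fun h => hS (Finset.mem_insert_of_mem (hM₀ ℓ hℓ h)))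
      (fun h => hℓlam ((Nat.prime_dvd_prime_iff_eq hlam hℓ).mp
        ((CharP.cast_eq_zero_iff _ lam ℓ).mp h)).symm) A hA τ hτ
    have haa : a = ((W.apOfModel ℓ : ℤ) : integralClosure ℤ ℂ) := Subtype.ext (by
      rw [ha, hap ℓ hℓ fun h => hS (Finset.mem_insert_of_mem h)]
      norm_cast)
    rw [hcp, haa, map_intCast]
  · rcases hq.dvd_mul.mp h with h | h
    · exact hqM h
    · have := (Nat.prime_dvd_prime_iff_eq hq hlam).mp h
      omega

include hF hg hM₀ hbad₀ hap in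
/-- The eigenvalue at a good prime not dividing the level is `a_ℓ`. -/
theorem qCoeff_eq_apOfModel (hΔ : W.Δ ≠ 0) {ℓ : ℕ} (hℓ : ℓ.Prime) (hℓM : ¬ ℓ ∣ M)
    (hgood : W.IsGoodPrimeFor ℓ) : qCoeff g ℓ = (W.apOfModel ℓ : ℂ) := by
  have key : ∀ B : ℕ, ∃ (lam : ℕ) (m : Ideal (integralClosure ℤ ℂ)) (a : integralClosure ℤ ℂ),
      lam.Prime ∧ B < lam ∧ m.IsMaximal ∧ (lam : integralClosure ℤ ℂ) ∈ m ∧
        (a : ℂ) = qCoeff g ℓ ∧ a - (W.apOfModel ℓ : integralClosure ℤ ℂ) ∈ m := by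
    intro B
    obtain ⟨q₀, lam, hq₀, hgood₀, hlam, hB, hlt, -⟩ := exists_auxiliary_primes hΔ (B + ℓ + 2)
    have := Fact.mk hlam
    obtain ⟨m, hmax, hm⟩ := exists_maximal_mem hlam
    let : Field (integralClosure ℤ ℂ ⧸ m) := Ideal.Quotient.field m
    have : CharP (integralClosure ℤ ℂ ⧸ m) lam := (CharP.charP_iff_prime_eq_zero hlam).mpr (by
      rw [← map_natCast (Ideal.Quotient.mk m), Ideal.Quotient.eq_zero_iff_mem]; exact hm)
    obtain ⟨r, hr, -⟩ := GaloisReps.exists_residual_attached hg.1 (Ideal.Quotient.mk m)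
    let S := insert lam S₀
    have hlam2 : lam ≠ 2 := by omega
    have hcp : ∀ σ : Γℚ, (r.ρ σ).charpoly = ((curveRepK hΔ _).ρ σ).charpoly := fun σ =>
      charpoly_eq_curveRepK hΔ (hF lam hlam hlam2) S (Finset.mem_insert_self _ _)
        (fun p hp hS => hbad₀ p hp fun h => hS (Finset.mem_insert_of_mem h)) r
        (fun p hp hS A hA τ hτ => by
          have hplam : p ≠ lam := fun h => hS (h ▸ Finset.mem_insert_self _ _)
          obtain ⟨a, ha, hcp⟩ := hr p hp (fun h => hS (Finset.mem_insert_of_mem (hM₀ p hp h)))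
            (fun h => hplam ((Nat.prime_dvd_prime_iff_eq hlam hp).mp
              ((CharP.cast_eq_zero_iff _ lam p).mp h)).symm) A hA τ hτ
          have haa : a = ((W.apOfModel p : ℤ) : integralClosure ℤ ℂ) := Subtype.ext (by
            rw [ha, hap p hp fun h => hS (Finset.mem_insert_of_mem h)]
            norm_cast)
          rw [hcp, haa, map_intCast]) σ
    obtain ⟨A, hA⟩ := Galois.exists_liesOverPrime hℓ
    obtain ⟨σ, hσ⟩ := Galois.exists_isFrobeniusAt hℓ hA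
    obtain ⟨a, ha, hcpa⟩ := hr ℓ hℓ hℓM
      (fun h => by
        have := (Nat.prime_dvd_prime_iff_eq hlam hℓ).mp ((CharP.cast_eq_zero_iff _ lam ℓ).mp h)
        omega) A hA σ hσ
    refine ⟨lam, m, a, hlam, by omega, hmax, hm, ha, ?_⟩
    have h := hcp σ
    rw [hcpa, charpoly_curveRepK_frobenius hΔ (hF lam hlam hlam2) hℓ hgood (by omega) hA hσ] at h
    have h1 := congrArg (coeff · 1) h
    simp [coeff_X_pow] at h1
    rw [← Ideal.Quotient.eq_zero_iff_mem, map_sub, h1, map_intCast, sub_self]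
  obtain ⟨-, -, a, -, -, -, -, ha, -⟩ := key 0
  set d := a - (W.apOfModel ℓ : integralClosure ℤ ℂ) with hd
  by_contra hne
  have hd0 : d ≠ 0 := fun h => hne (by
    rw [← ha, sub_eq_zero.mp h]
    norm_cast)
  have hdint : IsIntegral ℤ d := Algebra.IsIntegral.isIntegral d
  set c := (minpoly ℤ d).coeff 0 with hc
  have hc0 : c ≠ 0 := fun h0 => hd0 (by
    have hX : minpoly ℤ d = X := (eq_of_monic_of_associated monic_X (minpoly.monic hdint)
      (irreducible_X.associated_of_dvd (minpoly.irreducible hdint) (X_dvd_iff.mpr h0))).symm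
    have h := minpoly.aeval ℤ d
    rwa [hX, aeval_X] at h)
  obtain ⟨lam, m, a', hlam, hB, hmax, hm, ha', hmem⟩ := key c.natAbs
  rw [show a' = a from Subtype.ext (ha'.trans ha.symm)] at hmem
  have hcm : ((c : ℤ) : integralClosure ℤ ℂ) ∈ m := by
    have h1 := minpoly.aeval ℤ d
    rw [← Polynomial.X_mul_divX_add (minpoly ℤ d), map_add, map_mul, Polynomial.aeval_X,
      Polynomial.aeval_C, eq_intCast, add_eq_zero_iff_eq_neg', ← hc] at h1
    rw [h1]
    exact neg_mem (m.mul_mem_right _ hmem)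
  have hcop : IsCoprime (lam : ℤ) c := (Nat.prime_iff_prime_int.mp hlam).coprime_iff_not_dvd.mpr
    fun h => by
      have := Nat.le_of_dvd (Int.natAbs_pos.mpr hc0) (Int.natCast_dvd.mp h)
      omega
  obtain ⟨u, v, huv⟩ := hcop
  apply hmax.ne_top
  rw [Ideal.eq_top_iff_one]
  have := congrArg (fun z : ℤ => (z : integralClosure ℤ ℂ)) huv
  simp only [Int.cast_add, Int.cast_mul, Int.cast_natCast, Int.cast_one] at this
  rw [← this]
  exact add_mem (m.mul_mem_left _ hm) (m.mul_mem_left _ hcm)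

end Main

/-- **Conductor–level matching**, granting the local statements about newforms. -/
theorem isModularModelOfLevel_conductorLevel (h35 : AttachedAtDvd) (h36 : AttachedAtSq)
    (W : WeierstrassCurve ℤ) (hss : W.IsSemistableModel)
    (hF : ∀ lam : ℕ, lam.Prime → lam ≠ 2 → HasFrobQuadratic W lam) (N : ℕ)
    (hN : W.IsModularModelOfLevel N) (hbad : ∀ ℓ : ℕ, ℓ.Prime → (ℓ : ℤ) ∣ W.Δ → ℓ ∣ N)
    (hN3 : ∀ q : ℕ, q.Prime → ¬ q ^ 3 ∣ N) :
    W.IsModularModelOfLevel W.conductorLevel := by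
  have hN0 : N ≠ 0 := fun h => hN3 2 Nat.prime_two (h ▸ dvd_zero _)
  have hΔ : W.Δ ≠ 0 := fun h => by
    obtain ⟨q, hq, hqp⟩ := Nat.exists_infinite_primes (N + 1)
    have := Nat.le_of_dvd (Nat.pos_of_ne_zero hN0) (hbad q hqp (h ▸ dvd_zero _))
    omega
  obtain ⟨f, hf, hfap⟩ := hN
  obtain ⟨M, g, hMN, hg, hgf⟩ := exists_isNewform hf hN0
  have : NeZero M := ⟨ne_zero_of_dvd_ne_zero hN0 hMN⟩
  have hM₀ : ∀ q : ℕ, q.Prime → q ∣ M → q ∈ N.primeFactors := fun q hq h =>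
    Nat.mem_primeFactors.mpr ⟨hq, h.trans hMN, hN0⟩
  have hbad₀ : ∀ q : ℕ, q.Prime → q ∉ N.primeFactors → W.IsGoodPrimeFor q := fun q hq h hd =>
    h (Nat.mem_primeFactors.mpr ⟨hq, hbad q hq hd, hN0⟩)
  have hap : ∀ ℓ : ℕ, ℓ.Prime → ℓ ∉ N.primeFactors → qCoeff g ℓ = (W.apOfModel ℓ : ℂ) :=
    fun ℓ hℓ h => by
      have hℓN : ¬ ℓ ∣ N := fun hd => h (Nat.mem_primeFactors.mpr ⟨hℓ, hd, hN0⟩)
      rw [hgf ℓ hℓ hℓN, hfap ℓ hℓ (hbad₀ ℓ hℓ h) hℓN]
  have hsq : ∀ q : ℕ, q.Prime → ¬ q ^ 2 ∣ M := fun q hq =>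
    not_sq_dvd_level hss hF hg _ hM₀ hbad₀ hap h36 hΔ hq fun h => hN3 q hq (h.trans hMN)
  have hMeq : M = W.conductorLevel := by
    refine (Nat.Squarefree.ext_iff ?_ W.squarefree_conductorLevel).mpr fun q hq => ?_
    · exact Nat.squarefree_iff_prime_squarefree.mpr fun q hq h => hsq q hq (by rwa [sq])
    · rw [W.prime_dvd_conductorLevel_iff hΔ hq]
      exact ⟨fun h => dvd_disc_of_dvd_level hF hg _ hM₀ hbad₀ hap h35 hΔ hq h (hsq q hq),
        fun h => dvd_level_of_dvd_disc hss hF hg _ hM₀ hbad₀ hap hΔ hq h⟩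
  subst hMeq
  exact ⟨g, hg.1, fun ℓ hℓ hgood hℓM =>
    qCoeff_eq_apOfModel hF hg _ hM₀ hbad₀ hap hΔ hℓ hℓM hgood⟩

end FLTA.Carayol
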