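import Fermat.Agent.Carayol.MatchLevel
import Fermat.Agent.EllTorsion.FrobTwo

/-!
# Conductor–level matching, granting the local statements about newforms
-/

set_option autoImplicit false

open WeierstrassCurve

namespace FLTA.Carayol

/-- The quadratic relation of Frobenius on `lam`-power torsion for odd `lam`. -/
theorem hasFrobQuadratic (W : WeierstrassCurve ℤ) (hΔ : W.Δ ≠ 0) {lam : ℕ} (hlam : lam.Prime)
    (hlam2 : lam ≠ 2) : HasFrobQuadratic W lam :=
  fun _ hℓ hgood hℓlam _ hA _ hσ n P hP =>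
    EllTorsion.frobenius_quadratic_all W hΔ hℓ hgood hA hσ
      ((hlam.odd_of_ne_two hlam2).pow) (fun h => hℓlam
        ((Nat.prime_dvd_prime_iff_eq hℓ hlam).mp (hℓ.dvd_of_dvd_pow h))) P hP

/-- **Conductor–level matching** for a semistable modular model. -/
theorem matchLevel (h35 : AttachedAtDvd) (h36 : AttachedAtSq)
    (W : WeierstrassCurve ℤ) (hss : W.IsSemistableModel) (N : ℕ)
    (hN : W.IsModularModelOfLevel N) (hbad : ∀ ℓ : ℕ, ℓ.Prime → (ℓ : ℤ) ∣ W.Δ → ℓ ∣ N)
    (hN3 : ∀ q : ℕ, q.Prime → ¬ q ^ 3 ∣ N) :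
    W.IsModularModelOfLevel W.conductorLevel := by
  by_cases hΔ : W.Δ = 0
  · exfalso
    obtain ⟨q, hq, hqp⟩ := Nat.exists_infinite_primes (N + 1)
    have hN0 : N ≠ 0 := fun h => hN3 2 Nat.prime_two (h ▸ dvd_zero _)
    have := Nat.le_of_dvd (Nat.pos_of_ne_zero hN0) (hbad q hqp (hΔ ▸ dvd_zero _))
    omega
  · exact isModularModelOfLevel_conductorLevel h35 h36 W hss
      (fun _ hlam hlam2 => hasFrobQuadratic W hΔ hlam hlam2) N hN hbad hN3

end FLTA.Carayol
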