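import Fermat.Agent.GaloisReps.EigenChar
import Fermat.Prelude.Def_CuspForm_Newforms

/-!
# The newform attached to a modular model, and the integrality of its Hecke character
-/

set_option autoImplicit false

open ModularFormClass

namespace FLTA.Carayol

/-- A normalised eigenform has a newform with the same eigenvalues outside the level. -/
theorem exists_isNewform {N : ℕ} {f : CuspForm (CongruenceSubgroup.Gamma0 N) 2}
    (hf : f.IsNormalizedEigenform) (hN : N ≠ 0) :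
    ∃ (M : ℕ) (g : CuspForm (CongruenceSubgroup.Gamma0 M) 2), M ∣ N ∧ g.IsNewform ∧
      ∀ ℓ : ℕ, ℓ.Prime → ¬ ℓ ∣ N → qCoeff g ℓ = qCoeff f ℓ := by
  classical
  have hex : ∃ M, M ∣ N ∧ CuspForm.GoodEigensystemOccursAt f M :=
    ⟨N, dvd_rfl, CuspForm.GoodEigensystemOccursAt.refl hf⟩
  obtain ⟨hMN, g, hg, hgf⟩ := Nat.find_spec hex
  refine ⟨_, g, hMN, ⟨hg, fun M' hM' hne hocc => ?_⟩, hgf⟩
  obtain ⟨g', hg', hg'g⟩ := hocc
  have hle : M' ≤ Nat.find hex :=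
    Nat.le_of_dvd (Nat.pos_of_ne_zero fun h => hN (Nat.eq_zero_of_zero_dvd (h ▸ hMN))) hM'
  refine Nat.find_min hex (lt_of_le_of_ne hle hne) ⟨hM'.trans hMN, g', hg', fun ℓ hℓ hℓN => ?_⟩
  rw [hg'g ℓ hℓ fun h => hℓN (h.trans hMN), hgf ℓ hℓ hℓN]

/-- The Hecke character away from `S` of an eigenform with integral eigenvalues away from `S`
maps to every ring. -/
theorem exists_chig_iota {M : ℕ} [NeZero M] {g : CuspForm (CongruenceSubgroup.Gamma0 M) 2}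
    (hg : g.IsNormalizedEigenform) (S : Finset ℕ) (hMS : ∀ q : ℕ, q.Prime → q ∣ M → q ∈ S)
    (a : ℕ → ℤ) (ha : ∀ ℓ : ℕ, ℓ.Prime → ℓ ∉ S → qCoeff g ℓ = (a ℓ : ℂ))
    (R : Type) [CommRing R] :
    ∃ (chig : CuspForm.heckeAlgebra M 2 (↑S : Set ℕ) →+* ℂ) (iota : chig.range →+* R),
      (∀ (ℓ : ℕ) (hℓ : ℓ.Prime) (hℓM : ¬ ℓ ∣ M) (hℓS : ℓ ∉ (↑S : Set ℕ)),
        chig (CuspForm.heckeAlgebra.T hℓ hℓM hℓS) = qCoeff g ℓ) ∧
      ∀ (ℓ : ℕ) (hℓ : ℓ.Prime) (hℓM : ¬ ℓ ∣ M) (hℓS : ℓ ∉ (↑S : Set ℕ)),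
        (iota.comp chig.rangeRestrict) (CuspForm.heckeAlgebra.T hℓ hℓM hℓS) = (a ℓ : R) := by
  let chig := GaloisReps.eigenCharC (S := (↑S : Set ℕ)) hg
  have hint : ∀ t, ∃ m : ℤ, chig t = (m : ℂ) := by
    rintro ⟨t, ht⟩
    induction ht using Algebra.adjoin_induction with
    | mem x hx =>
      rcases hx with ⟨ℓ, hℓ, hℓM, hℓS, rfl⟩ | ⟨q, hqM, hq, hqS, rfl⟩
      · exact ⟨a ℓ, (GaloisReps.eigenCharC_T hg hℓ hℓM hℓS).trans (ha ℓ hℓ hℓS)⟩
      · exact absurd (hMS q hq hqM) hqS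
    | algebraMap r =>
      exact ⟨r, map_intCast chig r⟩
    | add x y hx hy h1 h2 =>
      obtain ⟨m, hm⟩ := h1
      obtain ⟨n, hn⟩ := h2
      refine ⟨m + n, ?_⟩
      rw [Int.cast_add, ← hm, ← hn, ← map_add]
      rfl
    | mul x y hx hy h1 h2 =>
      obtain ⟨m, hm⟩ := h1
      obtain ⟨n, hn⟩ := h2
      refine ⟨m * n, ?_⟩
      rw [Int.cast_mul, ← hm, ← hn, ← map_mul]
      rfl
  have hrange : ∀ x : chig.range, ∃ m : ℤ, (x : ℂ) = (m : ℂ) := by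
    rintro ⟨_, t, rfl⟩
    exact hint t
  choose v hv using hrange
  let e : chig.range →+* ℤ :=
    { toFun := v
      map_one' := by apply Int.cast_injective (α := ℂ); rw [← hv]; simp
      map_mul' := fun x y => by apply Int.cast_injective (α := ℂ); simp [← hv]
      map_zero' := by apply Int.cast_injective (α := ℂ); rw [← hv]; simp
      map_add' := fun x y => by apply Int.cast_injective (α := ℂ); simp [← hv] }
  refine ⟨chig, (Int.castRingHom R).comp e,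
    fun ℓ hℓ hℓM hℓS => GaloisReps.eigenCharC_T hg hℓ hℓM hℓS, fun ℓ hℓ hℓM hℓS => ?_⟩
  refine congrArg (Int.cast : ℤ → R) (Int.cast_injective (α := ℂ) ((hv _).symm.trans ?_))
  exact (GaloisReps.eigenCharC_T hg hℓ hℓM hℓS).trans (ha ℓ hℓ hℓS)

end FLTA.Carayol
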