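import Fermat.Agent.Carayol.Ordinary
import Fermat.Agent.Carayol.Haupt.ModEq

/-!
# The ordinary hypotheses from the modular equation

Specialisation of `Haupt.IsModEq.exists_vPoly` along `g : ℤ[T, 1/cuspPoly] → R`.
-/

set_option autoImplicit false

noncomputable section

open Polynomial

namespace FLTA.Carayol

open Haupt

theorem ordSpec_coeff_innerDeriv {A : Type*} [CommRing A] (Φ : A[X][X]) (i : ℕ) :
    (innerDeriv Φ).coeff i = derivative (Φ.coeff i) := by
  classical
  rw [innerDeriv, Polynomial.sum, finsetSum_coeff]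
  simp only [coeff_monomial]
  rw [Finset.sum_ite_eq']
  split_ifs with h
  · rfl
  · rw [notMem_support_iff.1 h, map_zero]

theorem ordSpec_innerDeriv_add {A : Type*} [CommRing A] (Φ Ψ : A[X][X]) :
    innerDeriv (Φ + Ψ) = innerDeriv Φ + innerDeriv Ψ :=
  Polynomial.ext fun i => by simp [ordSpec_coeff_innerDeriv]

theorem ordSpec_innerDeriv_sub {A : Type*} [CommRing A] (Φ Ψ : A[X][X]) :
    innerDeriv (Φ - Ψ) = innerDeriv Φ - innerDeriv Ψ :=
  Polynomial.ext fun i => by simp [ordSpec_coeff_innerDeriv]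

theorem ordSpec_innerDeriv_C_mul_X_pow {A : Type*} [CommRing A] (a : A[X]) (k : ℕ) :
    innerDeriv (C a * X ^ k) = C (derivative a) * X ^ k :=
  Polynomial.ext fun i => by
    rw [ordSpec_coeff_innerDeriv, coeff_C_mul_X_pow, coeff_C_mul_X_pow]
    split_ifs <;> simp

theorem ordSpec_innerDeriv_natCast_mul {A : Type*} [CommRing A] (m : ℕ) (Φ : A[X][X]) :
    innerDeriv ((m : A[X][X]) * Φ) = (m : A[X][X]) * innerDeriv Φ :=
  Polynomial.ext fun i => by
    rw [← C_eq_natCast, ordSpec_coeff_innerDeriv, coeff_C_mul, coeff_C_mul, ordSpec_coeff_innerDeriv,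
      derivative_natCast_mul]

/-- `Φ_T ≡ -(X - T ^ q)` modulo `q`. -/
theorem ordSpec_exists_innerDeriv_eq {q : ℕ} (hq : 1 ≤ q) (Φ H : ℤ[X][X])
    (h : Φ = (X ^ q - C X) * (X - C (X ^ q)) + (q : ℤ[X][X]) * H) :
    ∃ H' : ℤ[X][X], innerDeriv Φ = -(X - C (X ^ q)) + (q : ℤ[X][X]) * H' := by
  obtain ⟨m, rfl⟩ := Nat.exists_eq_add_of_le hq
  refine ⟨C (X ^ (1 + m)) * 1 - C (X ^ m) * X ^ (1 + m) + innerDeriv H, ?_⟩
  have e : (X ^ (1 + m) - C X) * (X - C (X ^ (1 + m))) =
      C 1 * X ^ (1 + m + 1) - C (X ^ (1 + m)) * X ^ (1 + m) - C X * X ^ 1 +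
        C (X * X ^ (1 + m)) * (X : ℤ[X][X]) ^ 0 := by
    simp only [map_one, map_mul, map_pow]
    ring
  rw [h, e, ordSpec_innerDeriv_add, ordSpec_innerDeriv_add, ordSpec_innerDeriv_sub, ordSpec_innerDeriv_sub,
    ordSpec_innerDeriv_C_mul_X_pow, ordSpec_innerDeriv_C_mul_X_pow, ordSpec_innerDeriv_C_mul_X_pow,
    ordSpec_innerDeriv_C_mul_X_pow, ordSpec_innerDeriv_natCast_mul]
  simp only [derivative_one, derivative_X, derivative_mul, derivative_X_pow, map_zero, map_one,
    map_add, map_mul, map_pow, add_tsub_cancel_left]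
  push_cast
  simp only [map_natCast, map_one, map_add]
  ring

variable {q L : ℕ} [hqf : Fact q.Prime] [NeZero L]

/-- The specialisation of `Φ` along `g`. -/
abbrev specPhi {R : Type*} [CommRing R] (g : TRing L →+* R) (Φ : ℤ[X][X]) : R[X] :=
  Φ.map (g.comp (toT L))

theorem IsModEq.isOrd_spec {Φ H : ℤ[X][X]} (h : IsModEq q L Φ) {χ : (TRing L)[X]} {ρ : TRing L}
    (hH : Φ = (X ^ q - C X) * (X - C (X ^ q)) + (q : ℤ[X][X]) * H)
    (hχ : χ.Monic)
    (hK : ∀ (K : Type) [Field K] [CharZero K] (f : TRing L →+* K),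
        Function.Injective (f.comp (toT L)) →
          (Φ.map (f.comp (toT L))).Separable ∧
          ∀ [Module.Free K (AdjoinRoot (Φ.map (f.comp (toT L))))]
            [Module.Finite K (AdjoinRoot (Φ.map (f.comp (toT L))))],
            (LinearMap.mulLeft K (vElt q Φ (f.comp (toT L)))).charpoly = χ.map f)
    (hmod : C (q : TRing L) ∣ χ - X * (X ^ q - C ρ))
    {R : Type} [CommRing R] [IsDomain R] {K : Type} [Field K] [CharZero K] [Algebra R K]
    [IsFractionRing R K] (g : TRing L →+* R) (hg : Function.Injective (g.comp (toT L)))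
    (hqR : Prime (q : R)) (hpow : ∀ c : R, ¬ (q : R) ∣ c ^ q - g (toT L X))
    (hρ : IsUnit (g ρ)) :
    IsOrd K q (specPhi g Φ) ((innerDeriv Φ).map (g.comp (toT L))) (χ.map g) (g (toT L X))
      (g ρ) := by
  obtain ⟨H', hH'⟩ := ordSpec_exists_innerDeriv_eq hqf.out.one_le Φ H hH
  set ι := algebraMap R K
  have hinj : Function.Injective ((ι.comp g).comp (toT L)) := by
    rw [RingHom.comp_assoc]
    exact (IsFractionRing.injective R K).comp hg
  obtain ⟨hsep, hchar⟩ := hK K (ι.comp g) hinj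
  have e1 : (specPhi g Φ).map ι = Φ.map ((ι.comp g).comp (toT L)) := by
    rw [specPhi, Polynomial.map_map, RingHom.comp_assoc]
  refine
    { prime_q := hqf.out
      prime_cast := hqR
      monic := h.monic.map _
      natDegree_eq := by rw [specPhi, h.monic.natDegree_map, h.natDegree]
      mod_q := ?_
      not_pow := hpow
      p_mod := ?_
      chi_monic := hχ.map g
      chi_mod := ?_
      rho := hρ
      separable := e1 ▸ hsep
      charpoly_eq := ?_ }
  · refine ⟨H.map (g.comp (toT L)), ?_⟩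
    rw [specPhi, hH]
    simp only [Polynomial.map_add, Polynomial.map_mul, Polynomial.map_sub, Polynomial.map_pow,
      map_X, map_C, Polynomial.map_natCast, RingHom.comp_apply, map_pow, map_natCast]
    ring
  · refine ⟨H'.map (g.comp (toT L)), ?_⟩
    rw [hH']
    simp only [Polynomial.map_add, Polynomial.map_mul, Polynomial.map_neg, Polynomial.map_sub,
      map_X, map_C, Polynomial.map_natCast, RingHom.comp_apply, map_pow, map_natCast,
      Polynomial.map_pow]
    ring
  · have := Polynomial.map_dvd g hmod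
    simpa using this
  · have key : ∀ (Ψ a b : K[X]), Ψ = Φ.map ((ι.comp g).comp (toT L)) →
        a = (innerDeriv Φ).map ((ι.comp g).comp (toT L)) →
        b = (derivative Φ).map ((ι.comp g).comp (toT L)) →
        ∀ [Module.Free K (AdjoinRoot Ψ)] [Module.Finite K (AdjoinRoot Ψ)],
          (LinearMap.mulLeft K (-(q : AdjoinRoot Ψ) * AdjoinRoot.mk Ψ a *
            Ring.inverse (AdjoinRoot.mk Ψ b))).charpoly = χ.map (ι.comp g) := by
      rintro Ψ a b rfl rfl rfl
      exact hchar
    intro _ _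
    rw [show (χ.map g).map ι = χ.map (ι.comp g) from Polynomial.map_map _ _ _]
    exact key _ _ _ e1 (by rw [Polynomial.map_map, RingHom.comp_assoc])
      (by rw [← Polynomial.derivative_map, e1, Polynomial.derivative_map])

/-- `ρ` does not vanish identically modulo `q`. -/
theorem exists_rho_ne_zero {Φ H : ℤ[X][X]} {ρ : TRing L}
    (hρ : ∀ (k : Type) [Field k] [CharP k q] (f : TRing L →+* k), f ρ = 0 →
        f (toT L X) ^ (q * q) = f (toT L X) ∧
        H.eval₂ (aeval (f (toT L X) ^ q)).toRingHom (f (toT L X)) ≠ 0)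
    (_hΦ : IsModEq q L Φ) {k : Type} [Field k] [CharP k q] (f : TRing L →+* k)
    (hf : f (toT L X) ^ (q * q) ≠ f (toT L X)) : f ρ ≠ 0 :=
  fun h0 => hf (hρ k f h0).1

end FLTA.Carayol
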