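import Fermat.Agent.Carayol.OrdinaryRoot
import Fermat.Agent.Carayol.OrdOfModEq
import Fermat.Agent.Carayol.PowerSeriesLocal

/-!
# The root at an ordinary point of the line

The point `t₀` is not a cusp and the image of `rho` at the residue of `t₀` is a unit.
-/

set_option autoImplicit false

noncomputable section

open Polynomial IsLocalRing

namespace FLTA.Carayol

open Haupt

variable {W : Type} [CommRing W] [IsDomain W] [IsDiscreteValuationRing W] [CharZero W]

omit [IsDomain W] [IsDiscreteValuationRing W] [CharZero W] in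
/-- The expansion at a point which is not a cusp, on `ℤ[T, 1/cuspPoly]`. -/
theorem exists_pointTRing {L : ℕ} (t₀ : W)
    (ht₀ : IsUnit (((cuspPoly L).map (Int.castRingHom W)).eval t₀)) :
    ∃ g : TRing L →+* PowerSeries W,
      g.comp (toT L) = (pointMap W t₀ 1).comp (mapRingHom (Int.castRingHom W)) := by
  have hu : IsUnit ((pointMap W t₀ 1).comp (mapRingHom (Int.castRingHom W)) (cuspPoly L)) := by
    rw [PowerSeries.isUnit_iff_constantCoeff, RingHom.comp_apply, coe_mapRingHom]
    have : PowerSeries.constantCoeff.comp (pointMap W t₀ 1) = evalRingHom t₀ := by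
      refine Polynomial.ringHom_ext (fun a => ?_) ?_ <;> simp [pointMap]
    rw [← RingHom.comp_apply PowerSeries.constantCoeff, this]
    exact ht₀
  exact ⟨IsLocalization.Away.lift (cuspPoly L) hu, IsLocalization.Away.lift_comp _ hu⟩

variable [IsAdicComplete (maximalIdeal W) W] [IsAlgClosed (ResidueField W)]

/-- The auxiliary form with the base change written out. -/
theorem exists_root_ordinary_aux {q L : ℕ} [Fact q.Prime] [NeZero L]
    (hW : maximalIdeal W = Ideal.span {(q : W)}) {Φ H : ℤ[X][X]} (h : IsModEq q L Φ)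
    (hH : Φ = (X ^ q - C X) * (X - C (X ^ q)) + (q : ℤ[X][X]) * H)
    {χ : (TRing L)[X]} {ρ : TRing L} (hχ : χ.Monic)
    (hK : ∀ (K : Type) [Field K] [CharZero K] (f : TRing L →+* K),
        Function.Injective (f.comp (toT L)) →
          (Φ.map (f.comp (toT L))).Separable ∧
          ∀ [Module.Free K (AdjoinRoot (Φ.map (f.comp (toT L))))]
            [Module.Finite K (AdjoinRoot (Φ.map (f.comp (toT L))))],
            (LinearMap.mulLeft K (vElt q Φ (f.comp (toT L)))).charpoly = χ.map f)
    (hmod : C (q : TRing L) ∣ χ - X * (X ^ q - C ρ))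
    (t₀ : W) (g : TRing L →+* PowerSeries W)
    (hg : g.comp (toT L) = (pointMap W t₀ 1).comp (mapRingHom (Int.castRingHom W)))
    (hρ : IsUnit (g ρ)) {n : ℕ} (hn : 0 < n) (hnq : n.Coprime q)
    {π : PowerSeries W} (hπ : π = (q : PowerSeries W)) [Fact (Prime π)]
    (j : FractionRing (PowerSeries W) →+* FractionRing (HatAt π))
    (hj : ∀ f, j (algebraMap (PowerSeries W) _ f) = algebraMap _ _ (toHat π f))
    {Ψ : (FractionRing (PowerSeries W))[X]}
    (hΨ : Ψ = (specPhi g Φ).map (algebraMap (PowerSeries W) (FractionRing (PowerSeries W))))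
    (y : Pairs Ψ) (hy : IsUnit y)
    (hhor : HorizAt ((algebraMap (PowerSeries W) (FractionRing (PowerSeries W))).comp
      PowerSeries.C) n y)
    (hloc : ∃ Y, Y ^ n = Pairs.map (Φ := Ψ) j rfl y) :
    (∃ x, Ψ.eval x = 0) ∧ ∃ G, G ^ n = y := by
  subst hπ hΨ
  have hinj : Function.Injective
      ((algebraMap (PowerSeries W) (FractionRing (PowerSeries W))).comp PowerSeries.C) :=
    (IsFractionRing.injective (PowerSeries W) (FractionRing (PowerSeries W))).comp
      PowerSeries.C_injective
  have : CharZero (FractionRing (PowerSeries W)) := charZero_of_injective_ringHom hinj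
  have := isAdicComplete_powerSeries_of_dvr (W := W)
  have hR := isReg2_powerSeries hW
  have := hR.isNoetherian
  have hq : q.Prime := Fact.out
  obtain ⟨a, ha⟩ := IsAlgClosed.exists_pow_nat_eq (residue W t₀) hq.pos
  obtain ⟨a, rfl⟩ := residue_surjective a
  obtain ⟨c, hc⟩ : (q : W) ∣ t₀ - a ^ q := by
    rw [← Ideal.mem_span_singleton, ← hW, ← residue_eq_zero_iff, map_sub, map_pow, ha, sub_self]
  have hT : g (toT L X) = PowerSeries.C t₀ + PowerSeries.X := by
    rw [← RingHom.comp_apply g, hg]
    simp [pointMap]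
  have hgen : maximalIdeal (PowerSeries W) =
      Ideal.span {(q : PowerSeries W), g (toT L X) - PowerSeries.C a ^ q} := by
    have e : g (toT L X) - PowerSeries.C a ^ q =
        PowerSeries.X + (q : PowerSeries W) * PowerSeries.C c := by
      rw [hT, ← map_pow, ← map_natCast PowerSeries.C, ← map_mul, ← hc, map_sub]
      ring
    rw [e, maximalIdeal_powerSeries_eq hW, ← span_pair_add_mul _ _ (PowerSeries.C c),
      Set.pair_comm]
  have hginj : Function.Injective (g.comp (toT L)) := by
    rw [injective_iff_map_eq_zero]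
    intro p hp
    rw [hg, RingHom.comp_apply, coe_mapRingHom] at hp
    have hcoe : pointMap W t₀ 1 (p.map (Int.castRingHom W)) =
        ((taylor t₀ (p.map (Int.castRingHom W)) : W[X]) : PowerSeries W) := by
      have : pointMap W t₀ 1 =
          Polynomial.coeToPowerSeries.ringHom.comp (taylorAlgHom t₀).toRingHom := by
        refine Polynomial.ringHom_ext (fun b => ?_) ?_ <;>
          simp [pointMap, taylor_X, taylor_C, add_comm]
      rw [this]
      rfl
    rw [hcoe, Polynomial.coe_eq_zero_iff, map_eq_zero_iff _ (taylor_injective t₀),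
      Polynomial.map_eq_zero_iff Int.cast_injective] at hp
    exact hp
  have hnW := isUnit_natCast_of_coprime hW hnq
  have hord := IsModEq.isOrd_spec h hH hχ hK hmod (R := PowerSeries W)
    (K := FractionRing (PowerSeries W)) g hginj (prime_natCast_powerSeries hW)
    (not_dvd_pow_sub_of_gen hR hq hgen) hρ
  obtain ⟨ζ, hζ⟩ := exists_isPrimitiveRoot_of_isUnit hnW
  have : UniqueFactorizationMonoid (PowerSeries W) := hR.uniqueFactorizationMonoid
  have : HenselianLocalRing (PowerSeries W) := ⟨fun f hf a₀ h₁ h₂ =>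
    HenselianRing.is_henselian (I := maximalIdeal (PowerSeries W)) f hf a₀ h₁ (h₂.map _)⟩
  refine ⟨?_, ?_⟩
  · obtain ⟨s, -⟩ := hord.exists_rootSplit
    exact ⟨_, (s.map (algebraMap (PowerSeries W) (FractionRing (PowerSeries W)))).eval_x₀⟩
  obtain ⟨Y, hY⟩ := hloc
  obtain ⟨G, hG, -⟩ := hord.exists_root hR hgen (by simpa using hnW.map PowerSeries.C)
    (fun c _ => exists_pow_eq_residue_powerSeries hn c) j (RingHom.ext hj)
    (hζ.map_of_injective hinj)
    y hy (fun F _ ψ v hu hqv => horiz_of_horizAt hW _ hhor F ψ v hu hqv) Y hY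
  exact ⟨G, hG⟩

/-- **The ordinary half of the root at a point which is not a cusp.** -/
theorem exists_localRoot_ordinary {q L : ℕ} [Fact q.Prime] [NeZero L]
    [Fact (Prime (PowerSeries.C (q : W) : PowerSeries W))]
    (hW : maximalIdeal W = Ideal.span {(q : W)}) {Φ H : ℤ[X][X]} (h : IsModEq q L Φ)
    (hH : Φ = (X ^ q - C X) * (X - C (X ^ q)) + (q : ℤ[X][X]) * H)
    {χ : (TRing L)[X]} {ρ : TRing L} (hχ : χ.Monic)
    (hK : ∀ (K : Type) [Field K] [CharZero K] (f : TRing L →+* K),
        Function.Injective (f.comp (toT L)) →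
          (Φ.map (f.comp (toT L))).Separable ∧
          ∀ [Module.Free K (AdjoinRoot (Φ.map (f.comp (toT L))))]
            [Module.Finite K (AdjoinRoot (Φ.map (f.comp (toT L))))],
            (LinearMap.mulLeft K (vElt q Φ (f.comp (toT L)))).charpoly = χ.map f)
    (hmod : C (q : TRing L) ∣ χ - X * (X ^ q - C ρ))
    (t₀ : W) (g : TRing L →+* PowerSeries W)
    (hg : g.comp (toT L) = (pointMap W t₀ 1).comp (mapRingHom (Int.castRingHom W)))
    (hρ : IsUnit (g ρ)) {n : ℕ} (hn : 0 < n) (hnq : n.Coprime q)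
    (y : Pairs (phiAt Φ (pointHom W t₀ 1))) (hy : IsUnit y)
    (hhor : HorizAt ((pointHom W t₀ 1).comp C) n y)
    (hloc : ∃ Y, Y ^ n = Pairs.map (Φ := phiAt Φ (pointHom W t₀ 1)) (toHatFrac q) rfl y) :
    LocalRoot (phiAt Φ (pointHom W t₀ 1)) n y := by
  have hC : (pointHom W t₀ 1).comp C =
      (algebraMap (PowerSeries W) (FractionRing (PowerSeries W))).comp PowerSeries.C := by
    refine RingHom.ext fun a => ?_
    simp [pointHom, pointMap]
  obtain ⟨hx, hG⟩ := exists_root_ordinary_aux hW h hH hχ hK hmod t₀ g hg hρ hn hnq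
    (map_natCast PowerSeries.C q) (toHatFrac q) (fun f => IsLocalization.map_eq _ f)
    (Ψ := phiAt Φ (pointHom W t₀ 1))
    (by rw [phiAt, specPhi, Polynomial.map_map, hg]; rfl) y hy (hC ▸ hhor) hloc
  exact ⟨Or.inr hx, hG⟩

end FLTA.Carayol
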