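import Fermat.Agent.Carayol.Regular
import Mathlib.RingTheory.Adjoin.Field
import Mathlib.RingTheory.IntegralClosure.IntegralRestrict
import Mathlib.RingTheory.Polynomial.Eisenstein.Basic
import Mathlib.RingTheory.Ideal.GoingUp

/-!
# Eisenstein-type extensions of two-dimensional regular local rings

If `φ` is monic over a regular two-dimensional `R`, all its lower coefficients are in the
maximal ideal `m` and `φ(0) ∉ m²`, then `R[X]/(φ)` is again such a ring, with maximal ideal
`(root, b)` where `m = (φ(0), b)`.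
-/

set_option autoImplicit false

open IsLocalRing Ideal Polynomial

namespace FLTA.Carayol

variable {R : Type*} [CommRing R] [IsLocalRing R]

/-- The hypotheses on the polynomial. -/
structure IsEis (φ : R[X]) : Prop where
  monic : φ.Monic
  natDegree_pos : 0 < φ.natDegree
  coeff_mem : ∀ i < φ.natDegree, φ.coeff i ∈ maximalIdeal R
  coeff_zero_not_mem : φ.coeff 0 ∉ maximalIdeal R ^ 2

namespace IsEis

variable {φ : R[X]}

theorem coeff_zero_mem (h : IsEis φ) : φ.coeff 0 ∈ maximalIdeal R :=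
  h.coeff_mem 0 h.natDegree_pos

omit [IsLocalRing R] in
theorem exists_eq_of_add_root_mul (x : AdjoinRoot φ) :
    ∃ (r : R) (y : AdjoinRoot φ), x = AdjoinRoot.of φ r + AdjoinRoot.root φ * y := by
  obtain ⟨p, rfl⟩ := AdjoinRoot.mk_surjective x
  refine ⟨p.coeff 0, AdjoinRoot.mk φ p.divX, ?_⟩
  conv_lhs => rw [← X_mul_divX_add p]
  rw [map_add, map_mul, AdjoinRoot.mk_X, AdjoinRoot.mk_C, add_comm]

omit [IsLocalRing R] in
theorem of_coeff_zero_mem_span_root :
    AdjoinRoot.of φ (φ.coeff 0) ∈ span ({AdjoinRoot.root φ} : Set (AdjoinRoot φ)) := by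
  refine mem_span_singleton'.2 ⟨-AdjoinRoot.mk φ φ.divX, ?_⟩
  have h := AdjoinRoot.mk_self (f := φ)
  conv at h => lhs; arg 2; rw [← X_mul_divX_add φ]
  rw [map_add, map_mul, AdjoinRoot.mk_X, AdjoinRoot.mk_C] at h
  linear_combination -h

/-- The ideal `(m, root)`. -/
noncomputable def maxIdeal (φ : R[X]) : Ideal (AdjoinRoot φ) :=
  (maximalIdeal R).map (AdjoinRoot.of φ) ⊔ span {AdjoinRoot.root φ}

theorem maxIdeal_ne_top (h : IsEis φ) : maxIdeal φ ≠ ⊤ := by
  have h0 : φ.eval₂ (residue R) 0 = 0 := by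
    rw [eval₂_at_zero]
    exact (residue_eq_zero_iff _).2 h.coeff_zero_mem
  set f := AdjoinRoot.lift (residue R) 0 h0
  refine ne_top_of_le_ne_top (RingHom.ker_ne_top f) ?_
  refine sup_le ?_ ?_
  · rw [Ideal.map_le_iff_le_comap]
    intro r hr
    rw [mem_comap, RingHom.mem_ker, AdjoinRoot.lift_of]
    exact (residue_eq_zero_iff _).2 hr
  · rw [span_singleton_le_iff_mem, RingHom.mem_ker, AdjoinRoot.lift_root]

theorem root_pow_mem_map (h : IsEis φ) :
    AdjoinRoot.root φ ^ φ.natDegree ∈ (maximalIdeal R).map (AdjoinRoot.of φ) := by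
  have e := AdjoinRoot.mk_self (f := φ)
  conv at e => lhs; arg 2; rw [h.monic.as_sum]
  rw [map_add, map_pow, AdjoinRoot.mk_X, map_sum] at e
  rw [eq_neg_of_add_eq_zero_left e]
  refine neg_mem (sum_mem fun i hi => ?_)
  rw [map_mul, AdjoinRoot.mk_C]
  exact Ideal.mul_mem_right _ _ (mem_map_of_mem _ (h.coeff_mem i (Finset.mem_range.1 hi)))

theorem eq_maxIdeal (h : IsEis φ) (M : Ideal (AdjoinRoot φ)) [M.IsMaximal] :
    M = maxIdeal φ := by
  have := h.monic.finite_adjoinRoot
  have hint : (algebraMap R (AdjoinRoot φ)).IsIntegral :=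
    algebraMap_isIntegral_iff.2 (Algebra.IsIntegral.of_finite R (AdjoinRoot φ))
  have hc : (M.comap (algebraMap R (AdjoinRoot φ))).IsMaximal :=
    Ideal.isMaximal_comap_of_isIntegral_of_isMaximal' _ hint M
  have hm : (maximalIdeal R).map (AdjoinRoot.of φ) ≤ M := by
    rw [Ideal.map_le_iff_le_comap, ← AdjoinRoot.algebraMap_eq]
    exact (eq_maximalIdeal hc).ge
  have hle : maxIdeal φ ≤ M :=
    sup_le hm ((span_singleton_le_iff_mem _).2
      ((Ideal.IsMaximal.isPrime inferInstance).mem_of_pow_mem _ (hm h.root_pow_mem_map)))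
  refine le_antisymm (fun x hx => ?_) hle
  obtain ⟨r, y, rfl⟩ := exists_eq_of_add_root_mul x
  have hy : AdjoinRoot.root φ * y ∈ maxIdeal φ :=
    Ideal.mul_mem_right _ _ (Ideal.mem_sup_right (mem_span_singleton_self _))
  refine add_mem (Ideal.mem_sup_left (mem_map_of_mem _ ?_)) hy
  have hr : AdjoinRoot.of φ r ∈ M := by
    have := sub_mem hx (hle hy)
    rwa [add_sub_cancel_right] at this
  exact le_maximalIdeal hc.ne_top (by rwa [mem_comap, AdjoinRoot.algebraMap_eq])

theorem isLocalRing (h : IsEis φ) : IsLocalRing (AdjoinRoot φ) := by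
  obtain ⟨M, hM, hle⟩ := Ideal.exists_le_maximal _ h.maxIdeal_ne_top
  exact IsLocalRing.of_unique_max_ideal
    ⟨M, hM, fun M' hM' => (h.eq_maxIdeal M').trans (h.eq_maxIdeal M).symm⟩

theorem maximalIdeal_eq (h : IsEis φ) [IsLocalRing (AdjoinRoot φ)] :
    maximalIdeal (AdjoinRoot φ) = maxIdeal φ :=
  h.eq_maxIdeal _

theorem maxIdeal_eq_span {b : R} (hb : maximalIdeal R = span {φ.coeff 0, b}) :
    maxIdeal φ = span {AdjoinRoot.root φ, AdjoinRoot.of φ b} := by
  refine le_antisymm (sup_le ?_ ?_) ?_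
  · rw [hb, map_span, span_le]
    rintro x ⟨r, hr, rfl⟩
    rcases hr with rfl | hr
    · exact (span_mono (by simp) : span {AdjoinRoot.root φ} ≤ _) of_coeff_zero_mem_span_root
    · rw [Set.mem_singleton_iff.1 hr]
      exact subset_span (by simp)
  · exact span_mono (by simp)
  · rw [span_le, Set.insert_subset_iff, Set.singleton_subset_iff]
    exact ⟨Ideal.mem_sup_right (mem_span_singleton_self _),
      Ideal.mem_sup_left (mem_map_of_mem _ (hb ▸ subset_span (by simp)))⟩

theorem of_mem_span_root_iff {r : R} :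
    AdjoinRoot.of φ r ∈ span ({AdjoinRoot.root φ} : Set (AdjoinRoot φ)) ↔
      r ∈ span ({φ.coeff 0} : Set R) := by
  constructor
  · intro hr
    have h0 : φ.eval₂ (Ideal.Quotient.mk (span ({φ.coeff 0} : Set R))) 0 = 0 := by
      rw [eval₂_at_zero]
      exact Ideal.Quotient.eq_zero_iff_mem.2 (mem_span_singleton_self _)
    set f := AdjoinRoot.lift _ 0 h0 with hf
    obtain ⟨y, hy⟩ := mem_span_singleton'.1 hr
    have := congrArg f hy
    rw [map_mul, hf, AdjoinRoot.lift_root, mul_zero, AdjoinRoot.lift_of] at this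
    exact Ideal.Quotient.eq_zero_iff_mem.1 this.symm
  · intro hr
    obtain ⟨s, rfl⟩ := mem_span_singleton'.1 hr
    rw [map_mul]
    exact Ideal.mul_mem_left _ _ of_coeff_zero_mem_span_root

theorem isPrime_span_root (hR : IsReg2 R) (h : IsEis φ) :
    (span ({AdjoinRoot.root φ} : Set (AdjoinRoot φ))).IsPrime := by
  obtain ⟨b, hb⟩ := hR.exists_gen_of_not_mem_sq h.coeff_zero_mem h.coeff_zero_not_mem
  have hprime := hR.isPrime_span_of_gen hb
  constructor
  · exact ne_top_of_le_ne_top h.maxIdeal_ne_top le_sup_right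
  intro x y hxy
  obtain ⟨r, x', rfl⟩ := exists_eq_of_add_root_mul x
  obtain ⟨s, y', rfl⟩ := exists_eq_of_add_root_mul y
  have hroot : ∀ z, AdjoinRoot.root φ * z ∈ span ({AdjoinRoot.root φ} : Set (AdjoinRoot φ)) :=
    fun z => Ideal.mul_mem_right _ _ (mem_span_singleton_self _)
  have hrs : AdjoinRoot.of φ (r * s) ∈ span ({AdjoinRoot.root φ} : Set (AdjoinRoot φ)) := by
    have e : AdjoinRoot.of φ (r * s) = (AdjoinRoot.of φ r + AdjoinRoot.root φ * x') *
        (AdjoinRoot.of φ s + AdjoinRoot.root φ * y') - AdjoinRoot.root φ *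
        (x' * (AdjoinRoot.of φ s + AdjoinRoot.root φ * y') + AdjoinRoot.of φ r * y') := by
      rw [map_mul]; ring
    rw [e]
    exact sub_mem hxy (hroot _)
  rcases hprime.mem_or_mem (of_mem_span_root_iff.1 hrs) with hr | hs
  · exact Or.inl (add_mem (of_mem_span_root_iff.2 hr) (hroot _))
  · exact Or.inr (add_mem (of_mem_span_root_iff.2 hs) (hroot _))

theorem coeff_zero_ne_zero (h : IsEis φ) : φ.coeff 0 ≠ 0 := by
  intro h0
  exact h.coeff_zero_not_mem (h0 ▸ zero_mem _)

theorem eq_zero_of_root_mul_eq_zero [IsDomain R] (h : IsEis φ) {y : AdjoinRoot φ}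
    (hy : AdjoinRoot.root φ * y = 0) : y = 0 := by
  obtain ⟨z, hz⟩ := mem_span_singleton'.1 (of_coeff_zero_mem_span_root (φ := φ))
  have h1 : φ.coeff 0 • y = 0 := by
    rw [Algebra.smul_def, AdjoinRoot.algebraMap_eq, ← hz, mul_assoc, hy, mul_zero]
  have := h.monic.free_adjoinRoot
  exact (smul_eq_zero.1 h1).resolve_left h.coeff_zero_ne_zero

theorem root_ne_zero (hR : IsReg2 R) (h : IsEis φ) : AdjoinRoot.root φ ≠ 0 := by
  have := hR.isDomain
  intro h0
  have := h.eq_zero_of_root_mul_eq_zero (y := 1) (by rw [h0, zero_mul])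
  exact h.maxIdeal_ne_top ((Ideal.eq_top_iff_one _).2 (this ▸ zero_mem _))

theorem isReg2 (hR : IsReg2 R) (h : IsEis φ) [IsLocalRing (AdjoinRoot φ)] :
    IsReg2 (AdjoinRoot φ) := by
  have := hR.isDomain
  have := hR.isNoetherian
  have := h.monic.finite_adjoinRoot
  have hnoe : IsNoetherianRing (AdjoinRoot φ) := IsNoetherianRing.of_finite R _
  obtain ⟨b, hb⟩ := hR.exists_gen_of_not_mem_sq h.coeff_zero_mem h.coeff_zero_not_mem
  have hprime := isPrime_span_root hR h
  have hgen : maximalIdeal (AdjoinRoot φ) = span {AdjoinRoot.root φ, AdjoinRoot.of φ b} :=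
    h.maximalIdeal_eq.trans (maxIdeal_eq_span hb)
  refine ⟨?_, hnoe, ⟨_, _, hgen⟩, ⟨_, hprime, ?_, ?_⟩⟩
  · have : Nontrivial (AdjoinRoot φ) := ⟨_, _, root_ne_zero hR h⟩
    have hne : span ({AdjoinRoot.root φ} : Set (AdjoinRoot φ)) ≠ ⊤ := hprime.ne_top
    have hdec : ∀ x : AdjoinRoot φ, x ≠ 0 → ∃ (i : ℕ) (x' : AdjoinRoot φ),
        x = AdjoinRoot.root φ ^ i * x' ∧
          x' ∉ span ({AdjoinRoot.root φ} : Set (AdjoinRoot φ)) := by
      intro x hx
      classical
      have hex : ∃ i, x ∉ span ({AdjoinRoot.root φ ^ i} : Set (AdjoinRoot φ)) := by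
        by_contra! hall
        have hb := Ideal.iInf_pow_eq_bot_of_isLocalRing _ hne
        exact hx ((Submodule.mem_bot _).1 (hb ▸ Submodule.mem_iInf _ |>.2
          fun i => by rw [span_singleton_pow]; exact hall i))
      obtain ⟨n, hn, hmin⟩ : ∃ n, x ∉ span ({AdjoinRoot.root φ ^ n} : Set (AdjoinRoot φ)) ∧
          ∀ k < n, x ∈ span ({AdjoinRoot.root φ ^ k} : Set (AdjoinRoot φ)) :=
        ⟨Nat.find hex, Nat.find_spec hex, fun k hk => not_not.1 (Nat.find_min hex hk)⟩
      match n with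
      | 0 => exact absurd (by simp) hn
      | k + 1 =>
        obtain ⟨x', hx'⟩ := mem_span_singleton'.1 (hmin k (Nat.lt_succ_self k))
        refine ⟨k, x', by rw [← hx', mul_comm], fun hmem => hn ?_⟩
        obtain ⟨w, hw⟩ := mem_span_singleton'.1 hmem
        exact mem_span_singleton'.2 ⟨w, by rw [← hx', ← hw]; ring⟩
    have hpow : ∀ (i : ℕ) (y : AdjoinRoot φ), AdjoinRoot.root φ ^ i * y = 0 → y = 0 := by
      intro i
      induction i with
      | zero => intro y hy; simpa using hy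
      | succ i ih =>
        intro y hy
        exact ih y (h.eq_zero_of_root_mul_eq_zero (by rw [← hy]; ring))
    have : NoZeroDivisors (AdjoinRoot φ) := ⟨fun {x y} hxy => by
      by_contra hcon
      rw [not_or] at hcon
      obtain ⟨i, x', rfl, hx'⟩ := hdec x hcon.1
      obtain ⟨j, y', rfl, hy'⟩ := hdec y hcon.2
      have h0 : x' * y' = 0 := hpow (i + j) _ (by rw [← hxy]; ring)
      exact (hprime.mem_or_mem (h0 ▸ zero_mem _)).elim hx' hy'⟩
    exact NoZeroDivisors.to_isDomain _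
  · rw [Ne, span_singleton_eq_bot]
    exact root_ne_zero hR h
  · intro heq
    have hb' : AdjoinRoot.of φ b ∈ span ({AdjoinRoot.root φ} : Set (AdjoinRoot φ)) :=
      heq ▸ hgen ▸ subset_span (by simp)
    exact hR.pow_not_mem_span hb 1 (by rw [pow_one]; exact of_mem_span_root_iff.1 hb')

end IsEis

end FLTA.Carayol
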