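import Fermat.Agent.Carayol.PairsBase
import Fermat.Agent.Carayol.RegularExt
import Fermat.Prelude.Thm_IsLocalRing_isAdicComplete_of_module_finite
import Mathlib.RingTheory.Henselian
import Mathlib.Algebra.Polynomial.Taylor

/-!
# The pair algebra at a supersingular point

`R` is a complete regular local ring of dimension two, `Φ` is monic, congruent to
`(X - a) ^ deg` modulo the maximal ideal, and its first two coefficients at `a` generate
the maximal ideal.  Then both one-root and two-root algebras are regular local rings.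
-/

set_option autoImplicit false

open IsLocalRing Ideal Polynomial

namespace FLTA.Carayol

variable {R : Type*} [CommRing R]

/-- Translation of the root. -/
noncomputable def shiftEquiv (φ : R[X]) (a : R) :
    AdjoinRoot (φ.comp (X + C a)) ≃+* AdjoinRoot φ :=
  RingEquiv.ofRingHom
    (AdjoinRoot.lift (AdjoinRoot.of φ) (AdjoinRoot.root φ - AdjoinRoot.of φ a) (by
      rw [eval₂_comp, eval₂_add, eval₂_X, eval₂_C, sub_add_cancel, AdjoinRoot.eval₂_root]))
    (AdjoinRoot.lift (AdjoinRoot.of _) (AdjoinRoot.root _ + AdjoinRoot.of _ a) (by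
      have h := AdjoinRoot.eval₂_root (φ.comp (X + C a))
      rwa [eval₂_comp, eval₂_add, eval₂_X, eval₂_C] at h))
    (AdjoinRoot.ringHom_ext (RingHom.ext fun r => by simp) (by simp))
    (AdjoinRoot.ringHom_ext (RingHom.ext fun r => by simp) (by simp))

@[simp] theorem shiftEquiv_root (φ : R[X]) (a : R) :
    shiftEquiv φ a (AdjoinRoot.root _) = AdjoinRoot.root φ - AdjoinRoot.of φ a := by
  simp [shiftEquiv]

@[simp] theorem shiftEquiv_of (φ : R[X]) (a r : R) :
    shiftEquiv φ a (AdjoinRoot.of _ r) = AdjoinRoot.of φ r := by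
  simp [shiftEquiv]

theorem divDiff_comp_add (Φ : R[X]) (a x : R) :
    (divDiff Φ x).comp (X + C a) = divDiff (Φ.comp (X + C a)) (x - a) := by
  apply eq_divDiff_of_mul_eq
  rw [eval_comp, eval_add, eval_X, eval_C, sub_add_cancel]
  have := congrArg (fun p => p.comp (X + C a)) (sub_mul_divDiff Φ x)
  simp only [mul_comp, sub_comp, X_comp, C_comp] at this
  rw [← this, map_sub]
  ring

theorem divDiff_zero_eq_divX (Φ : R[X]) : divDiff Φ 0 = Φ.divX := by
  refine (eq_divDiff_of_mul_eq ?_).symm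
  rw [map_zero, sub_zero, ← coeff_zero_eq_eval_zero, eq_sub_iff_add_eq, X_mul_divX_add]

variable [IsLocalRing R]

theorem IsReg2.of_ringEquiv {S : Type*} [CommRing S] [IsLocalRing S] (h : IsReg2 R)
    (e : R ≃+* S) : IsReg2 S := by
  have hm : (maximalIdeal R).map (e : R →+* S) = maximalIdeal S :=
    eq_maximalIdeal (Ideal.map_isMaximal_of_equiv e)
  refine ⟨e.toMulEquiv.isDomain_iff.1 h.isDomain, ?_, ?_, ?_⟩
  · exact @isNoetherianRing_of_ringEquiv R _ S _ e h.isNoetherian
  · obtain ⟨a, b, hab⟩ := h.gen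
    refine ⟨e a, e b, ?_⟩
    rw [← hm, hab, Ideal.map_span]
    simp [Set.image_insert_eq]
  · obtain ⟨p, hp, hp0, hpm⟩ := h.chain
    refine ⟨p.map (e : R →+* S), Ideal.map_isPrime_of_equiv e, fun h0 => hp0 ?_, fun h1 => hpm ?_⟩
    · exact (Ideal.map_eq_bot_iff_of_injective e.injective).1 h0
    · have := congrArg (Ideal.comap (e : R →+* S)) (h1.trans hm.symm)
      rwa [Ideal.comap_map_of_bijective (e : R →+* S) e.bijective,
        Ideal.comap_map_of_bijective (e : R →+* S) e.bijective] at this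

theorem IsReg2.not_mem_sq_of_gen (h : IsReg2 R) {c d : R} (hcd : maximalIdeal R = span {c, d}) :
    c ∉ maximalIdeal R ^ 2 := by
  intro hc
  have := h.isNoetherian
  have hle : maximalIdeal R ≤ span {d} := by
    refine Submodule.le_of_le_smul_of_le_jacobson_bot (I := maximalIdeal R)
      (IsNoetherian.noetherian _) (maximalIdeal_le_jacobson _) ?_
    calc maximalIdeal R = span {c, d} := hcd
      _ ≤ span {d} ⊔ maximalIdeal R • maximalIdeal R := by
        rw [span_le, Set.insert_subset_iff, Set.singleton_subset_iff]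
        refine ⟨Ideal.mem_sup_right ?_, Ideal.mem_sup_left (mem_span_singleton_self d)⟩
        rwa [smul_eq_mul, ← pow_two]
  have hcd' : maximalIdeal R = span {d, c} := by rw [hcd, Set.pair_comm]
  exact h.pow_not_mem_span hcd' 1 (by
    rw [pow_one]; exact hle (hcd ▸ subset_span (by simp)))

theorem mem_maximalIdeal_of_eval {p : R[X]} {ξ : R} (hξ : ξ ∈ maximalIdeal R) :
    p.eval ξ - p.coeff 0 ∈ maximalIdeal R := by
  nth_rewrite 1 [← X_mul_divX_add p]
  rw [eval_add, eval_mul, eval_X, eval_C, add_sub_cancel_right]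
  exact Ideal.mul_mem_right _ _ hξ

/-- The second Eisenstein step. -/
theorem isEis_divDiff (hR : IsReg2 R) {Ψ : R[X]} (hΨ : Ψ.Monic) (hd : 2 < Ψ.natDegree)
    (hcoeff : ∀ i < Ψ.natDegree, Ψ.coeff i ∈ maximalIdeal R) {ξ : R} (hξ : Ψ.eval ξ = 0)
    (hgen : maximalIdeal R = span {ξ, Ψ.coeff 1}) :
    IsEis (divDiff Ψ ξ) := by
  have := hR.isDomain
  have hξm : ξ ∈ maximalIdeal R := hgen ▸ subset_span (by simp)
  refine ⟨monic_divDiff hΨ (by omega) _, ?_, fun i hi => ?_, ?_⟩
  · rw [natDegree_divDiff hΨ (by omega)]; omega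
  · rw [← residue_eq_zero_iff, ← coeff_map, map_divDiff, (residue_eq_zero_iff ξ).2 hξm,
      divDiff_zero_eq_divX, coeff_divX, coeff_map, residue_eq_zero_iff]
    rw [natDegree_divDiff hΨ (by omega)] at hi
    exact hcoeff _ (by omega)
  · intro hmem
    have hdiff : (divDiff Ψ ξ).coeff 0 - Ψ.coeff 1 ∈ maximalIdeal R ^ 2 := by
      rw [coeff_zero_eq_eval_zero, divDiff_eval_comm, divDiff_zero_eq_divX]
      nth_rewrite 1 [← X_mul_divX_add Ψ.divX]
      rw [eval_add, eval_mul, eval_X, eval_C, coeff_divX, add_sub_cancel_right, pow_two]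
      refine Ideal.mul_mem_mul hξm ?_
      have h2 : Ψ.divX.divX.coeff 0 ∈ maximalIdeal R := by
        rw [coeff_divX, coeff_divX]
        exact hcoeff _ (by omega)
      simpa using add_mem (mem_maximalIdeal_of_eval (p := Ψ.divX.divX) hξm) h2
    have hgen' : maximalIdeal R = span {Ψ.coeff 1, ξ} := by rw [hgen, Set.pair_comm]
    exact hR.not_mem_sq_of_gen hgen' (by simpa using sub_mem hmem hdiff)

/-- The hypotheses at a supersingular point. -/
structure IsSSPoint (Φ : R[X]) (a : R) : Prop where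
  monic : Φ.Monic
  two_lt : 2 < Φ.natDegree
  coeff_mem : ∀ i < Φ.natDegree, (Φ.comp (X + C a)).coeff i ∈ maximalIdeal R
  gen : maximalIdeal R = span {Φ.eval a, Φ.derivative.eval a}

namespace IsSSPoint

variable {Φ : R[X]} {a : R}

theorem natDegree_comp_shift (h : IsSSPoint Φ a) :
    (Φ.comp (X + C a)).natDegree = Φ.natDegree := by
  rw [← taylor_apply, natDegree_taylor]

theorem coeff_zero_shift : (Φ.comp (X + C a)).coeff 0 = Φ.eval a := by
  rw [← taylor_apply, taylor_coeff_zero]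

theorem coeff_one_shift : (Φ.comp (X + C a)).coeff 1 = Φ.derivative.eval a := by
  rw [← taylor_apply, taylor_coeff_one]

theorem isEis_shift (hR : IsReg2 R) (h : IsSSPoint Φ a) : IsEis (Φ.comp (X + C a)) := by
  refine ⟨h.monic.comp_X_add_C a, ?_, ?_, ?_⟩
  · rw [h.natDegree_comp_shift]; exact lt_trans two_pos h.two_lt
  · rw [h.natDegree_comp_shift]; exact h.coeff_mem
  · rw [coeff_zero_shift]; exact hR.not_mem_sq_of_gen h.gen

theorem isLocalRing_adjoinRoot (hR : IsReg2 R) (h : IsSSPoint Φ a) :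
    IsLocalRing (AdjoinRoot Φ) :=
  have := (h.isEis_shift hR).isLocalRing
  (shiftEquiv Φ a).isLocalRing

theorem isReg2_adjoinRoot (hR : IsReg2 R) (h : IsSSPoint Φ a) [IsLocalRing (AdjoinRoot Φ)] :
    IsReg2 (AdjoinRoot Φ) :=
  have := (h.isEis_shift hR).isLocalRing
  ((h.isEis_shift hR).isReg2 hR).of_ringEquiv (shiftEquiv Φ a)

theorem maximalIdeal_adjoinRoot (hR : IsReg2 R) (h : IsSSPoint Φ a)
    [IsLocalRing (AdjoinRoot Φ)] : maximalIdeal (AdjoinRoot Φ) =
      span {AdjoinRoot.root Φ - AdjoinRoot.of Φ a, AdjoinRoot.of Φ (Φ.derivative.eval a)} := by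
  have := (h.isEis_shift hR).isLocalRing
  have hgen := (h.isEis_shift hR).maximalIdeal_eq.trans
    (IsEis.maxIdeal_eq_span (φ := Φ.comp (X + C a)) (b := Φ.derivative.eval a)
      (by rw [coeff_zero_shift]; exact h.gen))
  have hm : (maximalIdeal (AdjoinRoot (Φ.comp (X + C a)))).map
      (shiftEquiv Φ a : AdjoinRoot (Φ.comp (X + C a)) →+* AdjoinRoot Φ) =
      maximalIdeal (AdjoinRoot Φ) := by
    refine eq_maximalIdeal ?_
    exact Ideal.map_isMaximal_of_equiv (shiftEquiv Φ a)
  rw [← hm, hgen, Ideal.map_span]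
  simp [Set.image_insert_eq]

theorem isEis_snd (hR : IsReg2 R) (h : IsSSPoint Φ a) [IsLocalRing (AdjoinRoot Φ)] :
    IsEis ((sndPoly Φ).comp (X + C (AdjoinRoot.of Φ a))) := by
  have hmon := h.monic.comp_X_add_C a
  have := (h.isReg2_adjoinRoot hR).isDomain
  rw [sndPoly, divDiff_comp_add]
  have e : (Φ.map (AdjoinRoot.of Φ)).comp (X + C (AdjoinRoot.of Φ a)) =
      (Φ.comp (X + C a)).map (AdjoinRoot.of Φ) := by
    rw [map_comp, Polynomial.map_add, map_X, map_C]
  have hdeg : ((Φ.comp (X + C a)).map (AdjoinRoot.of Φ)).natDegree = Φ.natDegree := by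
    rw [hmon.natDegree_map, h.natDegree_comp_shift]
  rw [e]
  refine isEis_divDiff (h.isReg2_adjoinRoot hR) (hmon.map _) ?_ ?_ ?_ ?_
  · rw [hdeg]; exact h.two_lt
  · rw [hdeg]
    intro i hi
    rw [coeff_map, h.maximalIdeal_adjoinRoot hR]
    have hi' := h.coeff_mem i hi
    rw [h.gen] at hi'
    obtain ⟨u, v, huv⟩ := mem_span_pair.1 hi'
    rw [← huv, map_add, map_mul, map_mul]
    refine add_mem (Ideal.mul_mem_left _ _ ?_) (Ideal.mul_mem_left _ _ (subset_span (by simp)))
    refine (span_mono (by simp) : span {AdjoinRoot.root Φ - AdjoinRoot.of Φ a} ≤ _) ?_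
    rw [mem_span_singleton]
    have h1 : (X - C (AdjoinRoot.of Φ a)) ∣
        Φ.map (AdjoinRoot.of Φ) - C (AdjoinRoot.of Φ (Φ.eval a)) :=
      ⟨_, (by rw [sub_mul_divDiff, eval_map, eval₂_at_apply] :
        (X - C (AdjoinRoot.of Φ a)) * divDiff (Φ.map (AdjoinRoot.of Φ)) (AdjoinRoot.of Φ a) = _).symm⟩
    have h2 := Polynomial.eval_dvd (x := AdjoinRoot.root Φ) h1
    rw [eval_sub, eval_sub, eval_X, eval_C, eval_C, eval_map, AdjoinRoot.eval₂_root, zero_sub,
      dvd_neg] at h2
    exact h2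
  · rw [eval_map, eval₂_comp, eval₂_add, eval₂_X, eval₂_C, sub_add_cancel, AdjoinRoot.eval₂_root]
  · rw [coeff_map, coeff_one_shift]
    exact h.maximalIdeal_adjoinRoot hR

theorem isLocalRing_pairs (hR : IsReg2 R) (h : IsSSPoint Φ a) : IsLocalRing (Pairs Φ) :=
  have := h.isLocalRing_adjoinRoot hR
  have := (h.isEis_snd hR).isLocalRing
  (shiftEquiv (sndPoly Φ) (AdjoinRoot.of Φ a)).isLocalRing

theorem isReg2_pairs (hR : IsReg2 R) (h : IsSSPoint Φ a) [IsLocalRing (Pairs Φ)] :
    IsReg2 (Pairs Φ) :=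
  have := h.isLocalRing_adjoinRoot hR
  have := (h.isEis_snd hR).isLocalRing
  ((h.isEis_snd hR).isReg2 (h.isReg2_adjoinRoot hR)).of_ringEquiv
    (shiftEquiv (sndPoly Φ) (AdjoinRoot.of Φ a))

theorem henselianLocalRing_pairs [IsAdicComplete (maximalIdeal R) R] (hR : IsReg2 R)
    (h : IsSSPoint Φ a) : HenselianLocalRing (Pairs Φ) := by
  have := h.isLocalRing_pairs hR
  have := hR.isNoetherian
  have := h.monic.finite_adjoinRoot
  have := (Pairs.monic_sndPoly h.monic (by have := h.two_lt; omega)).finite_adjoinRoot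
  have : Module.Finite R (Pairs Φ) := Module.Finite.trans (AdjoinRoot Φ) _
  have := h.monic.free_adjoinRoot
  have := (Pairs.monic_sndPoly h.monic (by have := h.two_lt; omega)).free_adjoinRoot
  have : Module.Free R (Pairs Φ) := Module.Free.trans (R := R) (S := AdjoinRoot Φ)
  have : IsLocalHom (algebraMap R (Pairs Φ)) := RingHom.IsIntegral.isLocalHom
    (algebraMap_isIntegral_iff.2 (Algebra.IsIntegral.of_finite R (Pairs Φ)))
    (FaithfulSMul.algebraMap_injective R (Pairs Φ))
  have : IsAdicComplete (maximalIdeal (Pairs Φ)) (Pairs Φ) :=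
    IsLocalRing.isAdicComplete_of_module_finite (𝒪 := R) (T := Pairs Φ)
  exact ⟨fun f hf a₀ h₁ h₂ =>
    HenselianRing.is_henselian (I := maximalIdeal (Pairs Φ)) f hf a₀ h₁ (h₂.map _)⟩

theorem residue_fst_snd (hR : IsReg2 R) (h : IsSSPoint Φ a) [IsLocalRing (Pairs Φ)] :
    residue (Pairs Φ) (Pairs.fst Φ) = residue _ (Pairs.ofBase Φ a) ∧
      residue (Pairs Φ) (Pairs.snd Φ) = residue _ (Pairs.ofBase Φ a) := by
  have := h.isLocalRing_adjoinRoot hR
  have hE := h.isEis_snd hR
  have := hE.isLocalRing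
  have hmem : ∀ x : AdjoinRoot ((sndPoly Φ).comp (X + C (AdjoinRoot.of Φ a))),
      x ∈ maximalIdeal _ →
        shiftEquiv (sndPoly Φ) (AdjoinRoot.of Φ a) x ∈ maximalIdeal (Pairs Φ) := fun x hx hu =>
    hx ((MulEquiv.isUnit_map (shiftEquiv (sndPoly Φ) (AdjoinRoot.of Φ a))).1 hu)
  constructor
  · rw [← sub_eq_zero, ← map_sub, residue_eq_zero_iff]
    have hx : AdjoinRoot.root Φ - AdjoinRoot.of Φ a ∈ maximalIdeal (AdjoinRoot Φ) := by
      rw [h.maximalIdeal_adjoinRoot hR]; exact subset_span (by simp)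
    have := hmem _ (hE.maximalIdeal_eq.ge (Ideal.mem_sup_left (mem_map_of_mem _ hx)))
    rw [shiftEquiv_of, map_sub] at this
    exact this
  · rw [← sub_eq_zero, ← map_sub, residue_eq_zero_iff]
    have := hmem _ (hE.maximalIdeal_eq.ge (Ideal.mem_sup_right (mem_span_singleton_self _)))
    rw [shiftEquiv_root] at this
    exact this

theorem residue_ofBase_surjective (hR : IsReg2 R) (h : IsSSPoint Φ a) [IsLocalRing (Pairs Φ)] :
    Function.Surjective fun r : R => residue (Pairs Φ) (Pairs.ofBase Φ r) := by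
  obtain ⟨hx, hz⟩ := h.residue_fst_snd hR
  intro c
  obtain ⟨y, rfl⟩ := residue_surjective c
  induction y using Pairs.induction_on with
  | hbase r => exact ⟨r, rfl⟩
  | hfst => exact ⟨a, hx.symm⟩
  | hsnd => exact ⟨a, hz.symm⟩
  | hadd x z hx hz =>
    obtain ⟨r, hr⟩ := hx
    obtain ⟨s, hs⟩ := hz
    exact ⟨r + s, by simp only at hr hs ⊢; rw [map_add, map_add, hr, hs, ← map_add]⟩
  | hmul x z hx hz =>
    obtain ⟨r, hr⟩ := hx
    obtain ⟨s, hs⟩ := hz
    exact ⟨r * s, by simp only at hr hs ⊢; rw [map_mul, map_mul, hr, hs, ← map_mul]⟩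

theorem map_injective (h : IsSSPoint Φ a) {K : Type*} [Field K] [Algebra R K]
    [IsFractionRing R K] : Function.Injective (Pairs.map (Φ := Φ) (algebraMap R K) rfl) :=
  Pairs.map_injective_of_injective h.monic (by have := h.two_lt; omega)
    (IsFractionRing.injective R K) rfl

theorem isField_pairs (hR : IsReg2 R) (h : IsSSPoint Φ a) {K : Type*} [Field K] [Algebra R K]
    [IsFractionRing R K] : IsField (Pairs (Φ.map (algebraMap R K))) := by
  have := hR.isDomain
  have := h.isLocalRing_pairs hR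
  have := (h.isReg2_pairs hR).isDomain
  exact Pairs.isField_map h.monic (by have := h.two_lt; omega)

theorem isDomain_adjoinRoot (hR : IsReg2 R) (h : IsSSPoint Φ a) {K : Type*} [Field K]
    [Algebra R K] [IsFractionRing R K] : IsDomain (AdjoinRoot (Φ.map (algebraMap R K))) := by
  have := (h.isField_pairs hR (K := K)).isDomain
  have hd : 0 < (Φ.map (algebraMap R K)).natDegree := by
    rw [h.monic.natDegree_map]; have := h.two_lt; omega
  have := (Pairs.monic_sndPoly (h.monic.map (algebraMap R K)) hd).free_adjoinRoot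
  exact (FaithfulSMul.algebraMap_injective (AdjoinRoot (Φ.map (algebraMap R K)))
    (Pairs (Φ.map (algebraMap R K)))).isDomain _

end IsSSPoint

end FLTA.Carayol
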