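import Fermat.Agent.Carayol.Branch
import Fermat.Agent.Carayol.SSPoint
import Mathlib.LinearAlgebra.Charpoly.ToMatrix
import Mathlib.LinearAlgebra.Vandermonde
import Mathlib.RingTheory.IntegralClosure.IntegrallyClosed
import Mathlib.RingTheory.Polynomial.RationalRoot
import Mathlib.RingTheory.Trace.Basic
import Mathlib.FieldTheory.IsAlgClosed.AlgebraicClosure

/-!
# The modular equation at an ordinary point

`R` is a normal henselian local domain with `q` prime, `Φ ≡ (X^q - T)(X - T^q)` modulo `q` and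
the characteristic polynomial `χ` of `v = - q P(x)/Φ'(x)` is integral, `χ ≡ X (X^q - ρ)` modulo
`q` with `ρ` a unit.  Then `Φ` has a root `x₀ ∈ R` and the different of the other factor is `q`.
-/

set_option autoImplicit false

open IsLocalRing Polynomial

namespace FLTA.Carayol

section Diagonal

variable {K Ω : Type*} [Field K] [Field Ω] (ι : K →+* Ω)

/-- Multiplication matrices of a monogenic algebra become diagonal at the distinct roots. -/
theorem exists_diagonalisation {p : K[X]} (hp : p.Monic) (x : Fin p.natDegree → Ω)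
    (hx : ∀ i, p.eval₂ ι (x i) = 0) (hinj : Function.Injective x) :
    ∃ V : (Matrix (Fin p.natDegree) (Fin p.natDegree) Ω)ˣ, ∀ y : AdjoinRoot p,
      (Algebra.leftMulMatrix (AdjoinRoot.powerBasisAux' hp) y).map ι =
        (↑V⁻¹ : Matrix _ _ Ω) * Matrix.diagonal (fun i => AdjoinRoot.lift ι (x i) (hx i) y) *
          (↑V : Matrix _ _ Ω) := by
  classical
  have hV : IsUnit (Matrix.vandermonde x) := by
    rw [Matrix.isUnit_iff_isUnit_det, isUnit_iff_ne_zero, Matrix.det_vandermonde_ne_zero_iff]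
    exact hinj
  refine ⟨hV.unit, fun y => ?_⟩
  have hb : ∀ k : Fin p.natDegree, AdjoinRoot.powerBasisAux' hp k =
      AdjoinRoot.root p ^ (k : ℕ) := fun k => (AdjoinRoot.powerBasis' hp).basis_eq_pow k
  have key : Matrix.vandermonde x * (Algebra.leftMulMatrix (AdjoinRoot.powerBasisAux' hp) y).map ι =
      Matrix.diagonal (fun i => AdjoinRoot.lift ι (x i) (hx i) y) * Matrix.vandermonde x := by
    ext i k
    rw [Matrix.diagonal_mul, Matrix.vandermonde_apply, Matrix.mul_apply]
    have h := congrArg (AdjoinRoot.lift ι (x i) (hx i))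
      ((AdjoinRoot.powerBasisAux' hp).sum_repr (y * AdjoinRoot.powerBasisAux' hp k))
    rw [map_sum] at h
    conv_rhs at h => rw [map_mul, hb k, map_pow, AdjoinRoot.lift_root]
    rw [← h]
    refine Finset.sum_congr rfl fun j _ => ?_
    rw [Matrix.vandermonde_apply, Matrix.map_apply, Algebra.leftMulMatrix_eq_repr_mul,
      Algebra.smul_def, RingHom.map_mul, hb j, RingHom.map_pow, AdjoinRoot.lift_root,
      AdjoinRoot.algebraMap_eq, AdjoinRoot.lift_of, mul_comm]
  rw [mul_assoc, IsUnit.unit_spec, ← key, ← mul_assoc, IsUnit.val_inv_mul, one_mul]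

/-- Trace and characteristic polynomial through the roots. -/
theorem trace_and_charpoly_eq_roots {p : K[X]} (hp : p.Monic) (x : Fin p.natDegree → Ω)
    (hx : ∀ i, p.eval₂ ι (x i) = 0) (hinj : Function.Injective x) (y : AdjoinRoot p)
    [Module.Free K (AdjoinRoot p)] [Module.Finite K (AdjoinRoot p)] :
    ι (Algebra.trace K (AdjoinRoot p) y) = ∑ i, AdjoinRoot.lift ι (x i) (hx i) y ∧
      (LinearMap.mulLeft K y).charpoly.map ι =
        ∏ i, (X - C (AdjoinRoot.lift ι (x i) (hx i) y)) := by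
  classical
  obtain ⟨V, hV⟩ := exists_diagonalisation ι hp x hx hinj
  constructor
  · rw [Algebra.trace_eq_matrix_trace (AdjoinRoot.powerBasisAux' hp)]
    have : ι (Algebra.leftMulMatrix (AdjoinRoot.powerBasisAux' hp) y).trace =
        ((Algebra.leftMulMatrix (AdjoinRoot.powerBasisAux' hp) y).map ι).trace := by
      rw [Matrix.trace, Matrix.trace, map_sum]
      rfl
    rw [this, hV y, Matrix.trace_units_conj', Matrix.trace_diagonal]
  · rw [← LinearMap.charpoly_toMatrix _ (AdjoinRoot.powerBasisAux' hp), ← Matrix.charpoly_map]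
    have : LinearMap.toMatrix (AdjoinRoot.powerBasisAux' hp) (AdjoinRoot.powerBasisAux' hp)
        (LinearMap.mulLeft K y) = Algebra.leftMulMatrix (AdjoinRoot.powerBasisAux' hp) y := by
      rw [Algebra.leftMulMatrix_apply]
      rfl
    rw [this, hV y, Matrix.coe_units_inv, Matrix.charpoly_units_conj' V, Matrix.charpoly_diagonal]

end Diagonal

variable {R : Type*} [CommRing R] [IsDomain R] [IsLocalRing R]

/-- The hypotheses at an ordinary point. -/
structure IsOrd (K : Type*) [Field K] [Algebra R K] (q : ℕ) (Φ P χ : R[X]) (T ρ : R) : Prop where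
  prime_q : q.Prime
  prime_cast : Prime (q : R)
  monic : Φ.Monic
  natDegree_eq : Φ.natDegree = q + 1
  mod_q : C (q : R) ∣ Φ - (X ^ q - C T) * (X - C (T ^ q))
  not_pow : ∀ c : R, ¬ (q : R) ∣ c ^ q - T
  p_mod : C (q : R) ∣ P + (X - C (T ^ q))
  chi_monic : χ.Monic
  chi_mod : C (q : R) ∣ χ - X * (X ^ q - C ρ)
  rho : IsUnit ρ
  separable : (Φ.map (algebraMap R K)).Separable
  charpoly_eq : ∀ [Module.Free K (AdjoinRoot (Φ.map (algebraMap R K)))]
    [Module.Finite K (AdjoinRoot (Φ.map (algebraMap R K)))], (LinearMap.mulLeft K (-(q : AdjoinRoot (Φ.map (algebraMap R K))) *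
      AdjoinRoot.mk _ (P.map (algebraMap R K)) *
      Ring.inverse (AdjoinRoot.mk _ (Φ.derivative.map (algebraMap R K))))).charpoly =
    χ.map (algebraMap R K)

theorem eval_mem_span_of_C_dvd {S : Type*} [CommRing S] {c : S} {p p' : S[X]}
    (h : C c ∣ p - p') (x : S) : c ∣ p.eval x - p'.eval x := by
  obtain ⟨g, hg⟩ := h
  exact ⟨g.eval x, by rw [← eval_sub, hg, eval_mul, eval_C]⟩

variable {K : Type*} [Field K] [CharZero K] [Algebra R K] [IsFractionRing R K]
  {q : ℕ} {Φ P χ : R[X]} {T ρ : R}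

omit [IsLocalRing R] [CharZero K] in
/-- The root `x₀` and the root `y₀ = v(x₀)` of `χ`. -/
theorem IsOrd.exists_rootSplit [IsIntegrallyClosed R] [HenselianLocalRing R]
    (h : IsOrd K q Φ P χ T ρ) :
    ∃ (s : RootSplit Φ) (y₁ : R) (ψ : R[X]), (q : R) ∣ s.x₀ - T ^ q ∧
      C (q : R) ∣ s.quo - (X ^ q - C T) ∧ χ = (X - C ((q : R) * y₁)) * ψ ∧
      IsUnit (ψ.eval ((q : R) * y₁)) ∧ P.eval s.x₀ = -(y₁ * s.quo.eval s.x₀) := by
  classical
  have hq0 : (q : R) ≠ 0 := h.prime_cast.ne_zero
  have hqm : (q : R) ∈ maximalIdeal R := (mem_maximalIdeal _).2 h.prime_cast.not_isUnit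
  have hq2 : 2 ≤ q := h.prime_q.two_le
  -- the root of `χ` near zero
  obtain ⟨g, hg⟩ := h.chi_mod
  have hχ0 : χ.eval 0 ∈ maximalIdeal R := by
    have : χ = X * (X ^ q - C ρ) + C (q : R) * g := by rw [← hg]; ring
    rw [this]
    simp only [eval_add, eval_mul, eval_X, eval_C, zero_mul, zero_add]
    exact Ideal.mul_mem_right _ _ hqm
  have hχ' : IsUnit (χ.derivative.eval 0) := by
    have : χ = X * (X ^ q - C ρ) + C (q : R) * g := by rw [← hg]; ring
    rw [this]
    simp only [derivative_add, derivative_mul, derivative_X, derivative_C, one_mul, zero_mul,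
      zero_add, eval_add, eval_mul, eval_sub, eval_pow, eval_X, eval_C,
      zero_pow h.prime_q.ne_zero, zero_sub, add_zero]
    rw [← notMem_maximalIdeal]
    intro hmem
    have := sub_mem hmem (Ideal.mul_mem_right (g.derivative.eval 0) _ hqm)
    rw [add_sub_cancel_right, neg_mem_iff] at this
    exact (mem_maximalIdeal _).1 this h.rho
  obtain ⟨y₀, hy₀, hy₀m⟩ := HenselianLocalRing.is_henselian χ h.chi_monic 0 hχ0 hχ'
  rw [sub_zero] at hy₀m
  set ψ := divDiff χ y₀ with hψ
  have hχψ : χ = (X - C y₀) * ψ := by rw [hψ, sub_mul_divDiff, hy₀.eq_zero, map_zero, sub_zero]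
  have hψu : IsUnit (ψ.eval y₀) := by
    rw [hψ, divDiff_eval_self, ← notMem_maximalIdeal]
    intro hmem
    refine notMem_maximalIdeal.2 hχ' ?_
    have h1 := mem_maximalIdeal_of_eval (p := χ.derivative) hy₀m
    rw [← coeff_zero_eq_eval_zero]
    simpa using sub_mem hmem h1
  -- the roots
  let Ω := AlgebraicClosure K
  let ι : R →+* Ω := (algebraMap K Ω).comp (algebraMap R K)
  have hι : Function.Injective ι := (algebraMap K Ω).injective.comp (IsFractionRing.injective R K)
  set Φ' := Φ.map (algebraMap R K) with hΦ'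
  have hΦm : Φ'.Monic := h.monic.map _
  have hroots : ((Φ'.map (algebraMap K Ω)).roots).Nodup := nodup_roots (h.separable.map)
  have hcard : (Φ'.map (algebraMap K Ω)).roots.toFinset.card = Φ'.natDegree := by
    rw [Multiset.toFinset_card_of_nodup hroots,
      ← (IsAlgClosed.splits (Φ'.map (algebraMap K Ω))).natDegree_eq_card_roots,
      natDegree_map]
  let x : Fin Φ'.natDegree → Ω := fun i =>
    ((Φ'.map (algebraMap K Ω)).roots.toFinset.equivFinOfCardEq hcard).symm i
  have hxinj : Function.Injective x := fun i j hij => by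
    simpa [x, Subtype.ext_iff] using hij
  have hx : ∀ i, Φ'.eval₂ (algebraMap K Ω) (x i) = 0 := fun i => by
    have := ((Φ'.map (algebraMap K Ω)).roots.toFinset.equivFinOfCardEq hcard).symm i |>.2
    rw [Multiset.mem_toFinset, mem_roots', IsRoot, eval_map] at this
    exact this.2
  let φ : Fin Φ'.natDegree → AdjoinRoot Φ' →+* Ω := fun i =>
    AdjoinRoot.lift (algebraMap K Ω) (x i) (hx i)
  set v : AdjoinRoot Φ' := -(q : AdjoinRoot Φ') * AdjoinRoot.mk _ (P.map (algebraMap R K)) *
      Ring.inverse (AdjoinRoot.mk _ (Φ.derivative.map (algebraMap R K))) with hv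
  have := hΦm.free_adjoinRoot
  have := hΦm.finite_adjoinRoot
  have hprod : (χ.map ι) = ∏ i, (X - C (φ i v)) := by
    rw [← (trace_and_charpoly_eq_roots (algebraMap K Ω) hΦm x hx hxinj v).2]
    show χ.map ((algebraMap K Ω).comp (algebraMap R K)) = _
    rw [← Polynomial.map_map, ← h.charpoly_eq]
  -- exactly one root maps to `y₀`
  obtain ⟨i₀, hi₀⟩ : ∃ i, φ i v = ι y₀ := by
    have h1 : (χ.map ι).eval (ι y₀) = 0 := by
      rw [eval_map, eval₂_at_apply, hy₀.eq_zero, map_zero]
    rw [hprod, eval_prod] at h1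
    obtain ⟨i, -, hi⟩ := Finset.prod_eq_zero_iff.1 h1
    exact ⟨i, by rw [eval_sub, eval_X, eval_C] at hi; exact (sub_eq_zero.1 hi).symm⟩
  have hother : ∀ i, i ≠ i₀ → (ψ.map ι).eval (φ i v) = 0 := by
    intro i hi
    have h1 : (X - C (ι y₀)) * ψ.map ι =
        (X - C (ι y₀)) * ∏ j ∈ Finset.univ.erase i₀, (X - C (φ j v)) := by
      conv_rhs => rw [← hi₀, Finset.mul_prod_erase _ (fun j => X - C (φ j v)) (Finset.mem_univ i₀),
        ← hprod, hχψ]
      simp
    rw [mul_left_cancel₀ (X_sub_C_ne_zero _) h1, eval_prod]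
    exact Finset.prod_eq_zero (Finset.mem_erase.2 ⟨hi, Finset.mem_univ _⟩) (by simp)
  -- `x₀` as a trace
  set b : AdjoinRoot Φ' := AdjoinRoot.root Φ' * (ψ.map (algebraMap R K)).eval₂
      (AdjoinRoot.of Φ') v with hb
  have hφb : ∀ i, φ i b = x i * (ψ.map ι).eval (φ i v) := fun i => by
    simp only [hb, map_mul, φ, AdjoinRoot.lift_root, hom_eval₂, AdjoinRoot.lift_comp_of]
    rw [eval₂_map, eval_map]
  have htr : algebraMap K Ω (Algebra.trace K (AdjoinRoot Φ') b) = x i₀ * ι (ψ.eval y₀) := by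
    rw [(trace_and_charpoly_eq_roots (algebraMap K Ω) hΦm x hx hxinj b).1]
    rw [Finset.sum_eq_single i₀]
    · show φ i₀ b = _
      rw [hφb, hi₀, eval_map, eval₂_at_apply]
    · intro i _ hi
      show φ i b = _
      rw [hφb, hother i hi, mul_zero]
    · simp
  have hxint : ∀ i, IsIntegral R (x i) := fun i => ⟨Φ, h.monic, by
    have := hx i
    rwa [hΦ', eval₂_map, ← IsScalarTower.algebraMap_eq] at this⟩
  obtain ⟨t, ht⟩ : ∃ t : R, algebraMap R K t = Algebra.trace K (AdjoinRoot Φ') b := by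
    refine IsIntegrallyClosed.isIntegral_iff.mp ((isIntegral_algebraMap_iff (B := Ω)
      (algebraMap K Ω).injective).mp ?_)
    rw [htr]
    refine (hxint i₀).mul ?_
    show IsIntegral R (algebraMap R Ω (ψ.eval y₀))
    exact isIntegral_algebraMap
  obtain ⟨x₀, hx₀⟩ : ∃ x₀ : R, ι x₀ = x i₀ := by
    obtain ⟨u, hu⟩ := hψu
    refine ⟨t * ↑u⁻¹, ?_⟩
    have h1 : ι t = x i₀ * ι (ψ.eval y₀) := by rw [← htr, ← ht]; rfl
    rw [map_mul, h1, ← hu, mul_assoc, ← map_mul, Units.mul_inv, map_one, mul_one]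
  have heval : Φ.eval x₀ = 0 := hι (by
    rw [map_zero, ← eval₂_at_apply, hx₀]
    have := hx i₀
    rwa [hΦ', eval₂_map] at this)
  let s : RootSplit Φ := ⟨x₀, heval⟩
  -- reductions
  have hpr : (Ideal.span ({(q : R)} : Set R)).IsPrime :=
    (Ideal.span_singleton_prime hq0).2 h.prime_cast
  have hx₀q : (q : R) ∣ x₀ - T ^ q := by
    have h1 := eval_mem_span_of_C_dvd h.mod_q x₀
    rw [heval, zero_sub, dvd_neg] at h1
    simp only [eval_mul, eval_sub, eval_pow, eval_X, eval_C] at h1
    exact (h.prime_cast.dvd_or_dvd h1).resolve_left (h.not_pow x₀)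
  have hquo : C (q : R) ∣ s.quo - (X ^ q - C T) := by
    have hP : Prime (C (q : R)) := Polynomial.prime_C_iff.2 h.prime_cast
    have h1 : C (q : R) ∣ (X - C x₀) * (s.quo - (X ^ q - C T)) := by
      obtain ⟨a, ha⟩ := hx₀q
      have e : (X - C x₀) * (s.quo - (X ^ q - C T)) =
          (Φ - (X ^ q - C T) * (X - C (T ^ q))) + (X ^ q - C T) * C (x₀ - T ^ q) := by
        rw [mul_sub, show (X - C x₀) * s.quo = Φ from s.sub_mul_quo, map_sub]
        ring
      rw [e, ha, map_mul]
      exact dvd_add h.mod_q ((dvd_mul_right _ _).mul_left _)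
    refine (hP.dvd_or_dvd h1).resolve_left fun hd => ?_
    rw [C_dvd_iff_dvd_coeff] at hd
    have := hd 1
    rw [coeff_sub, coeff_X_one, coeff_C_succ, sub_zero] at this
    exact h.prime_cast.not_isUnit (isUnit_of_dvd_one this)
  -- the value `v(x₀) = y₀`
  have hder : Φ.derivative.eval x₀ = s.quo.eval x₀ := by
    conv_lhs => rw [← s.sub_mul_quo]
    simp [s]
  have hne : ¬ (q : R) ∣ s.quo.eval x₀ := by
    intro hd
    have h1 := eval_mem_span_of_C_dvd hquo x₀
    have h2 := dvd_sub hd h1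
    simp only [sub_sub_cancel, eval_sub, eval_pow, eval_X, eval_C] at h2
    exact h.not_pow x₀ h2
  have hval : y₀ * s.quo.eval x₀ = -((q : R) * P.eval x₀) := by
    apply hι
    rw [← hder, map_mul, map_neg, map_mul, ← hi₀, map_natCast ι, ← eval₂_at_apply,
      ← eval₂_at_apply, hx₀]
    have hU : IsUnit (AdjoinRoot.mk Φ' (Φ.derivative.map (algebraMap R K))) := by
      obtain ⟨a, b, hab⟩ := h.separable
      refine .of_mul_eq_one (AdjoinRoot.mk Φ' b) ?_
      have := congrArg (AdjoinRoot.mk Φ') hab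
      rw [map_add, map_mul, map_mul, AdjoinRoot.mk_self, mul_zero, zero_add, map_one,
        derivative_map] at this
      rw [mul_comm, this]
    have h2 : v * AdjoinRoot.mk Φ' (Φ.derivative.map (algebraMap R K)) =
        -(q : AdjoinRoot Φ') * AdjoinRoot.mk _ (P.map (algebraMap R K)) := by
      rw [hv, mul_assoc, Ring.inverse_mul_cancel _ hU, mul_one]
    have h3 := congrArg (φ i₀) h2
    simp only [map_mul, map_neg, map_natCast, φ, AdjoinRoot.lift_mk, eval₂_map] at h3
    rw [neg_mul] at h3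
    simpa [φ, ι] using h3
  obtain ⟨y₁, hy₁⟩ : (q : R) ∣ y₀ := by
    refine (h.prime_cast.dvd_or_dvd (a := y₀) (b := s.quo.eval x₀) ?_).resolve_right hne
    rw [hval]
    exact dvd_neg.2 (dvd_mul_right _ _)
  refine ⟨s, y₁, ψ, hx₀q, hquo, hy₁ ▸ hχψ, hy₁ ▸ hψu, mul_left_cancel₀ hq0 ?_⟩
  rw [mul_neg, ← mul_assoc, ← hy₁, hval, neg_neg]

omit [IsLocalRing R] [CharZero K] in
/-- The different at the second root is `q`. -/
theorem IsOrd.exists_mid [IsLocalRing R] (h : IsOrd K q Φ P χ T ρ) (s : RootSplit Φ) {y₁ : R}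
    {ψ : R[X]} (hquo : C (q : R) ∣ s.quo - (X ^ q - C T))
    (hx₀ : (q : R) ∣ s.x₀ - T ^ q)
    (hχψ : χ = (X - C ((q : R) * y₁)) * ψ) (hψ : IsUnit (ψ.eval ((q : R) * y₁)))
    (hP : P.eval s.x₀ = -(y₁ * s.quo.eval s.x₀))
    [IsLocalRing s.E] [IsDomain s.E] [IsIntegrallyClosed s.E] (hqE : Prime (q : s.E))
    (hsub : ¬ (q : s.E) ∣ AdjoinRoot.root s.quo - AdjoinRoot.of s.quo s.x₀) :
    ∃ u : s.E, IsUnit u ∧
      s.quo.derivative.eval₂ (AdjoinRoot.of s.quo) (AdjoinRoot.root s.quo) = (q : s.E) * u := by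
  classical
  set f := AdjoinRoot.of s.quo with hf
  set x₁ := AdjoinRoot.root s.quo with hx₁def
  set x₀ := f s.x₀ with hx₀def
  have hqm : (q : s.E) ∈ maximalIdeal s.E := (mem_maximalIdeal _).2 hqE.not_isUnit
  have hx₁ : s.quo.eval₂ f x₁ = 0 := AdjoinRoot.eval₂_root _
  have hΦ₁ : Φ.eval₂ f x₁ = 0 := s.eval₂_root
  -- `Φ'(x₁) = (x₁ - x₀) φ'(x₁)`
  have hd : Φ.derivative.eval₂ f x₁ = (x₁ - x₀) * s.quo.derivative.eval₂ f x₁ := by
    rw [← congrArg (fun p => p.derivative.eval₂ f x₁) s.sub_mul_quo]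
    simp [hx₁, hx₀def]
  -- `P(x₁) = - (x₁ - x₀) w`
  set a := (divDiff (P.map f) x₀).eval x₁
  set b := (divDiff (s.quo.map f) x₀).eval x₁
  have ha : P.eval₂ f x₁ - f (P.eval s.x₀) = (x₁ - x₀) * a := by
    rw [sub_mul_divDiff_eval, eval_map, eval_map, hx₀def, eval₂_at_apply]
  have hb : - f (s.quo.eval s.x₀) = (x₁ - x₀) * b := by
    rw [sub_mul_divDiff_eval, eval_map, eval_map, hx₀def, eval₂_at_apply, hx₁, zero_sub]
  set w := -(a + f y₁ * b) with hw
  have hP₁ : P.eval₂ f x₁ = -((x₁ - x₀) * w) := by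
    rw [hP, map_neg, map_mul] at ha
    linear_combination ha + f y₁ * hb
  have hw1 : (q : s.E) ∣ w - 1 := by
    refine (hqE.dvd_or_dvd (a := x₁ - x₀) (b := w - 1) ?_).resolve_left hsub
    obtain ⟨g, hg⟩ := h.p_mod
    obtain ⟨c, hc⟩ := hx₀
    have h1 := congrArg (eval₂ f x₁) hg
    rw [eval₂_add, eval₂_sub, eval₂_X, eval₂_C, eval₂_mul, eval₂_C, map_natCast] at h1
    have hc' := congrArg f hc
    rw [map_sub, map_mul, map_natCast, ← hx₀def] at hc'
    refine ⟨f c - g.eval₂ f x₁, ?_⟩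
    linear_combination hP₁ - h1 + hc'
  have hwu : IsUnit w := by
    rw [← notMem_maximalIdeal]
    intro hmem
    obtain ⟨c, hc⟩ := hw1
    refine (maximalIdeal.isMaximal s.E).ne_top ((Ideal.eq_top_iff_one _).2 ?_)
    have : (1 : s.E) = w - (q : s.E) * c := by rw [← hc]; ring
    rw [this]
    exact sub_mem hmem (Ideal.mul_mem_right _ _ hqm)
  -- the value of `v` at `x₁`
  let L := FractionRing s.E
  have hinj : Function.Injective (algebraMap R s.E) := by
    rw [injective_iff_map_eq_zero]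
    intro r hr
    rw [AdjoinRoot.algebraMap_eq, ← AdjoinRoot.mk_C, AdjoinRoot.mk_eq_zero] at hr
    have hm := s.monic_quo h.monic (by rw [h.natDegree_eq]; omega)
    by_contra hr0
    have := natDegree_le_of_dvd hr (C_ne_zero.2 hr0)
    rw [natDegree_C, s.natDegree_quo h.monic (by rw [h.natDegree_eq]; omega), h.natDegree_eq] at this
    have := h.prime_q.two_le
    omega
  let j : K →+* L := IsFractionRing.lift (g := (algebraMap s.E L).comp (algebraMap R s.E))
    ((IsFractionRing.injective s.E L).comp hinj)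
  have hj : j.comp (algebraMap R K) = (algebraMap s.E L).comp f := by
    ext r
    simp [j, hf, IsFractionRing.lift_algebraMap, AdjoinRoot.algebraMap_eq]
  let φ : AdjoinRoot (Φ.map (algebraMap R K)) →+* L := AdjoinRoot.lift j (algebraMap s.E L x₁) (by
    rw [eval₂_map, hj, ← hom_eval₂, hΦ₁, map_zero])
  set v : AdjoinRoot (Φ.map (algebraMap R K)) := -(q : AdjoinRoot (Φ.map (algebraMap R K))) *
      AdjoinRoot.mk _ (P.map (algebraMap R K)) *
      Ring.inverse (AdjoinRoot.mk _ (Φ.derivative.map (algebraMap R K))) with hv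
  have hroot : (χ.map f).map (algebraMap s.E L) |>.IsRoot (φ v) := by
    have := (h.monic.map (algebraMap R K)).free_adjoinRoot
    have := (h.monic.map (algebraMap R K)).finite_adjoinRoot
    have hCH := LinearMap.aeval_self_charpoly (LinearMap.mulLeft K v)
    rw [h.charpoly_eq, show LinearMap.mulLeft K v = Algebra.lmul K _ v from rfl,
      aeval_algHom_apply] at hCH
    have h0 : aeval v (χ.map (algebraMap R K)) = 0 := by
      simpa using congrArg (fun l => l 1) hCH
    rw [aeval_def, AdjoinRoot.algebraMap_eq] at h0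
    have h1 := congrArg φ h0
    rw [hom_eval₂, map_zero, eval₂_map, show φ.comp (AdjoinRoot.of _) = j from
      AdjoinRoot.lift_comp_of _, hj] at h1
    rwa [IsRoot, Polynomial.map_map, eval_map]
  obtain ⟨z, hz⟩ : ∃ z, algebraMap s.E L z = φ v :=
    IsIntegrallyClosed.isIntegral_iff.mp ⟨χ.map f, h.chi_monic.map _, by
      rw [← eval_map]; exact hroot⟩
  have hzroot : (χ.map f).eval z = 0 := IsFractionRing.injective s.E L (by
    rw [map_zero, ← eval₂_at_apply, ← eval_map, hz]; exact hroot)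
  have hrel : z * ((x₁ - x₀) * s.quo.derivative.eval₂ f x₁) = (q : s.E) * ((x₁ - x₀) * w) := by
    apply IsFractionRing.injective s.E L
    have hU : IsUnit (AdjoinRoot.mk (Φ.map (algebraMap R K))
        (Φ.derivative.map (algebraMap R K))) := by
      obtain ⟨c, d, hcd⟩ := h.separable
      refine .of_mul_eq_one (AdjoinRoot.mk _ d) ?_
      have := congrArg (AdjoinRoot.mk (Φ.map (algebraMap R K))) hcd
      rw [map_add, map_mul, map_mul, AdjoinRoot.mk_self, mul_zero, zero_add, map_one,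
        derivative_map] at this
      rw [mul_comm, this]
    have h2 := congrArg φ (show v * AdjoinRoot.mk _ (Φ.derivative.map (algebraMap R K)) =
        -(q : AdjoinRoot (Φ.map (algebraMap R K))) * AdjoinRoot.mk _ (P.map (algebraMap R K)) by
      rw [hv, mul_assoc, Ring.inverse_mul_cancel _ hU, mul_one])
    simp only [map_mul, map_neg, map_natCast, φ, AdjoinRoot.lift_mk, eval₂_map, hj,
      ← hom_eval₂, hd, hP₁] at h2
    simp only [map_mul, map_natCast]
    rw [hz]
    linear_combination h2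
  have hsub0 : x₁ - x₀ ≠ 0 := fun h0 => hsub (by rw [h0]; exact dvd_zero _)
  have hrel' : z * s.quo.derivative.eval₂ f x₁ = (q : s.E) * w :=
    mul_left_cancel₀ hsub0 (by linear_combination hrel)
  -- `z` is a unit
  have hzu : IsUnit z := by
    rw [← notMem_maximalIdeal]
    intro hzm
    have hz0 : z = (q : s.E) * f y₁ := by
      have h1 : (z - (q : s.E) * f y₁) * (ψ.map f).eval z = 0 := by
        rw [← hzroot, hχψ]
        simp
      refine sub_eq_zero.1 ((mul_eq_zero.1 h1).resolve_right fun h2 => ?_)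
      have h3 := hψ.map f
      rw [← eval₂_at_apply, ← eval_map, map_mul, map_natCast] at h3
      refine notMem_maximalIdeal.2 h3 ?_
      have e1 := mem_maximalIdeal_of_eval (p := ψ.map f) hzm
      have e2 := mem_maximalIdeal_of_eval (p := ψ.map f) (Ideal.mul_mem_right (f y₁) _ hqm)
      rw [h2, zero_sub, neg_mem_iff] at e1
      simpa using add_mem e2 e1
    rw [hz0, mul_assoc] at hrel'
    have h4 := mul_left_cancel₀ hqE.ne_zero hrel'
    have h5 : IsUnit (s.quo.derivative.eval₂ f x₁) := isUnit_of_mul_isUnit_right (h4 ▸ hwu)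
    refine notMem_maximalIdeal.2 h5 ?_
    obtain ⟨g, hg⟩ := hquo
    have h6 : s.quo = X ^ q - C T + C (q : R) * g := by rw [← hg]; ring
    rw [congrArg (fun p => p.derivative.eval₂ f x₁) h6]
    simp only [derivative_add, derivative_sub, derivative_X_pow, derivative_C, derivative_mul,
      derivative_natCast, zero_mul, zero_add, sub_zero, eval₂_add, eval₂_mul, eval₂_pow, eval₂_X,
      eval₂_natCast, map_natCast]
    exact add_mem (Ideal.mul_mem_right _ _ hqm) (Ideal.mul_mem_right _ _ hqm)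
  obtain ⟨zu, rfl⟩ := hzu
  refine ⟨↑zu⁻¹ * w, zu⁻¹.isUnit.mul hwu, ?_⟩
  calc s.quo.derivative.eval₂ f x₁ = ↑zu⁻¹ * (↑zu * s.quo.derivative.eval₂ f x₁) := by
        rw [← mul_assoc, Units.inv_mul, one_mul]
    _ = _ := by rw [hrel']; ring

end FLTA.Carayol
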