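import Fermat.Agent.Carayol.SSPoint
import Fermat.Agent.Carayol.RootLemma
import Fermat.Agent.Carayol.Completion

/-!
# The root at a supersingular point

If all horizontal multiplicities of `y` are divisible by `n` and `y` is an `n`-th power in
the pair algebra over the completion at the vertical prime `π`, then `y` is an `n`-th power.
-/

set_option autoImplicit false
set_option linter.style.haveILetI false

open IsLocalRing Ideal Polynomial

namespace FLTA.Carayol

variable {R : Type*} [CommRing R] [IsLocalRing R]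

theorem IsReg2.maximalIdeal_ne_span_singleton (h : IsReg2 R) (p : R) :
    maximalIdeal R ≠ span {p} := by
  intro hp
  refine h.pow_not_mem_span (c := p) (d := 0) ?_ 1 (by simp)
  rw [hp]
  refine le_antisymm (span_mono (by simp)) ?_
  rw [span_le, Set.insert_subset_iff, Set.singleton_subset_iff]
  exact ⟨mem_span_singleton_self _, zero_mem _⟩

theorem IsSSPoint.isLocalHom_ofBase (hR : IsReg2 R) {Φ : R[X]} {a : R} (h : IsSSPoint Φ a) :
    IsLocalHom (Pairs.ofBase Φ) := by
  have := hR.isDomain
  have := h.isLocalRing_pairs hR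
  have := h.monic.free_adjoinRoot
  have := h.monic.finite_adjoinRoot
  have hs := Pairs.monic_sndPoly h.monic (Φ := Φ) (by have := h.two_lt; omega)
  have := hs.free_adjoinRoot
  have := hs.finite_adjoinRoot
  have : Module.Finite R (Pairs Φ) := Module.Finite.trans (AdjoinRoot Φ) _
  have : Module.Free R (Pairs Φ) := Module.Free.trans (R := R) (S := AdjoinRoot Φ)
  exact RingHom.IsIntegral.isLocalHom
    (algebraMap_isIntegral_iff.2 (Algebra.IsIntegral.of_finite R (Pairs Φ)) :
      (algebraMap R (Pairs Φ)).IsIntegral)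
    (FaithfulSMul.algebraMap_injective R (Pairs Φ))

/-- Non-multiples of a vertical parameter avoid every principal prime containing it. -/
theorem IsSSPoint.not_dvd_ofBase (hR : IsReg2 R) {Φ : R[X]} {a : R} (h : IsSSPoint Φ a)
    [IsLocalRing (Pairs Φ)] {π : R} (hπ : π ∈ maximalIdeal R) (hπ2 : π ∉ maximalIdeal R ^ 2)
    {p : Pairs Φ} (hp : Prime p) (hpπ : p ∣ Pairs.ofBase Φ π) {r : R} (hr : ¬ π ∣ r) :
    ¬ p ∣ Pairs.ofBase Φ r := by
  intro hpr
  obtain ⟨d, hd⟩ := hR.exists_gen_of_not_mem_sq hπ hπ2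
  obtain ⟨k, u, hu, hru⟩ := hR.exists_eq_unit_mul_pow hd (x := r)
    (fun hmem => hr (mem_span_singleton.1 hmem))
  obtain ⟨t, ht⟩ := mem_span_singleton'.1 hru
  have hpu : p ∣ Pairs.ofBase Φ u * Pairs.ofBase Φ d ^ k := by
    rw [← map_pow, ← map_mul,
      show u * d ^ k = r - t * π by linear_combination ht, map_sub, map_mul]
    exact dvd_sub hpr (hpπ.mul_left _)
  have hpd : p ∣ Pairs.ofBase Φ d := by
    refine (hp.dvd_or_dvd hpu).elim (fun h1 => ?_) hp.dvd_of_dvd_pow
    exact absurd (isUnit_of_dvd_unit h1 (hu.map _)) hp.not_unit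
  -- then `(p)` is maximal
  have := h.monic.finite_adjoinRoot
  have := (Pairs.monic_sndPoly h.monic (Φ := Φ) (by have := h.two_lt; omega)).finite_adjoinRoot
  have : Module.Finite R (Pairs Φ) := Module.Finite.trans (AdjoinRoot Φ) _
  have : (span ({p} : Set (Pairs Φ))).IsPrime := (span_singleton_prime hp.ne_zero).2 hp
  have hle : maximalIdeal R ≤ (span ({p} : Set (Pairs Φ))).comap (algebraMap R (Pairs Φ)) := by
    rw [hd, span_le, Set.insert_subset_iff, Set.singleton_subset_iff]
    exact ⟨mem_span_singleton.2 hpπ, mem_span_singleton.2 hpd⟩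
  have hmax : ((span ({p} : Set (Pairs Φ))).comap (algebraMap R (Pairs Φ))).IsMaximal := by
    rw [← (maximalIdeal.isMaximal R).eq_of_le (Ideal.IsPrime.ne_top inferInstance) hle]
    exact maximalIdeal.isMaximal R
  have := Ideal.isMaximal_of_isIntegral_of_isMaximal_comap _ hmax
  exact (h.isReg2_pairs hR).maximalIdeal_ne_span_singleton p (eq_maximalIdeal this).symm

section MultiplicityHat

variable {O : Type*} [CommRing O] [IsDomain O] [IsNoetherianRing O] (p : O) [hp : Fact (Prime p)]

theorem exists_toHat_eq_pow_multiplicity {u : O} (hu : u ≠ 0) :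
    ∃ e : (HatAt p)ˣ, toHat p u = e * toHat p p ^ multiplicity p u := by
  have hf := FiniteMultiplicity.of_prime_left hp.out hu
  obtain ⟨c, hc, hpc⟩ := hf.exists_eq_pow_mul_and_not_dvd
  exact ⟨(isUnit_toHat p hpc).unit, by
    rw [IsUnit.unit_spec, ← map_pow, ← map_mul, mul_comm, ← hc]⟩

/-- A quotient which is a power in the completion has divisible multiplicity. -/
theorem dvd_multiplicity_sub_of_pow_eq {M : Type*} [Field M] [Algebra (HatAt p) M]
    [IsFractionRing (HatAt p) M] {n : ℕ} {u v : O} (hu : u ≠ 0) (hv : v ≠ 0) {Z : M}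
    (h : algebraMap (HatAt p) M (toHat p v) * Z ^ n = algebraMap (HatAt p) M (toHat p u)) :
    (n : ℤ) ∣ (multiplicity p u : ℤ) - multiplicity p v := by
  rcases Nat.eq_zero_or_pos n with rfl | hn
  · obtain ⟨e, he⟩ := exists_toHat_eq_pow_multiplicity p hu
    obtain ⟨e', he'⟩ := exists_toHat_eq_pow_multiplicity p hv
    rw [pow_zero, mul_one] at h
    have hh := IsFractionRing.injective (HatAt p) M h
    rw [he, he'] at hh
    have := IsDiscreteValuationRing.unit_mul_pow_congr_pow (irreducible_toHat_self p)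
      (irreducible_toHat_self p) e' e _ _ hh
    exact ⟨0, by simp [this]⟩
  obtain ⟨α, β, hβ, rfl⟩ := IsFractionRing.div_surjective (HatAt p) Z
  have hβ' : β ≠ 0 := nonZeroDivisors.ne_zero hβ
  have hu' : algebraMap (HatAt p) M (toHat p u) ≠ 0 :=
    (map_ne_zero_iff _ (IsFractionRing.injective (HatAt p) M)).2
      ((map_ne_zero_iff _ (toHat_injective p)).2 hu)
  have hα : α ≠ 0 := by
    rintro rfl
    rw [map_zero, zero_div, zero_pow hn.ne', mul_zero] at h
    exact hu' h.symm
  have hβM : algebraMap (HatAt p) M β ≠ 0 :=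
    (map_ne_zero_iff _ (IsFractionRing.injective (HatAt p) M)).2 hβ'
  rw [div_pow, mul_div_assoc', div_eq_iff (pow_ne_zero _ hβM), ← map_pow, ← map_pow, ← map_mul,
    ← map_mul] at h
  have hh := IsFractionRing.injective (HatAt p) M h
  obtain ⟨e, he⟩ := exists_toHat_eq_pow_multiplicity p hu
  obtain ⟨e', he'⟩ := exists_toHat_eq_pow_multiplicity p hv
  obtain ⟨i, a, rfl⟩ := exists_eq_unit_mul_pow_hat p hα
  obtain ⟨k, b, rfl⟩ := exists_eq_unit_mul_pow_hat p hβ'
  rw [he, he', mul_pow, mul_pow, ← pow_mul, ← pow_mul, ← Units.val_pow_eq_pow_val,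
    ← Units.val_pow_eq_pow_val] at hh
  have hh' : ((e' * a ^ n : (HatAt p)ˣ) : HatAt p) * toHat p p ^ (multiplicity p v + i * n) =
      ((e * b ^ n : (HatAt p)ˣ) : HatAt p) * toHat p p ^ (multiplicity p u + k * n) := by
    rw [pow_add, pow_add, Units.val_mul, Units.val_mul]
    linear_combination hh
  have := IsDiscreteValuationRing.unit_mul_pow_congr_pow (irreducible_toHat_self p)
    (irreducible_toHat_self p) _ _ _ _ hh'
  refine ⟨(i : ℤ) - k, ?_⟩
  have : (multiplicity p v : ℤ) + i * n = multiplicity p u + k * n := by exact_mod_cast this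
  linear_combination -this

end MultiplicityHat

variable [IsDomain R] [IsNoetherianRing R]
  [IsAdicComplete (maximalIdeal R) R] (π : R) [Fact (Prime π)]
  {K : Type*} [Field K] [Algebra R K] [IsFractionRing R K]
  {L : Type*} [Field L] [Algebra (HatAt π) L] [IsFractionRing (HatAt π) L]

theorem IsSSPoint.exists_root (hR : IsReg2 R) {Φ : R[X]} {a : R} (h : IsSSPoint Φ a)
    {n : ℕ} (hn : IsUnit (n : R)) (hk : ∀ c : ResidueField R, c ≠ 0 → ∃ d, d ^ n = c)
    (hπ : π ∈ maximalIdeal R) (hπ2 : π ∉ maximalIdeal R ^ 2) (j : K →+* L)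
    (hj : j.comp (algebraMap R K) = (algebraMap (HatAt π) L).comp (toHat π))
    {y : Pairs (Φ.map (algebraMap R K))} (hy : y ≠ 0)
    (hgen : ∀ p : Pairs Φ, Prime p → ¬ p ∣ Pairs.ofBase Φ π → ∀ u v : Pairs Φ, v ≠ 0 →
      y * Pairs.map (algebraMap R K) rfl v = Pairs.map (algebraMap R K) rfl u →
        (n : ℤ) ∣ (multiplicity p u : ℤ) - multiplicity p v)
    (hloc : ∃ Y, Y ^ n = Pairs.map (Φ := Φ.map (algebraMap R K)) j rfl y) :
    ∃ G, G ^ n = y := by
  have := h.isLocalRing_pairs hR
  have hreg := h.isReg2_pairs hR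
  have := hreg.isDomain
  have := hreg.isNoetherian
  have := hreg.uniqueFactorizationMonoid
  have := h.henselianLocalRing_pairs hR
  have := h.isLocalHom_ofBase hR
  letI : Field (Pairs (Φ.map (algebraMap R K))) := (h.isField_pairs hR).toField
  letI : Algebra (Pairs Φ) (Pairs (Φ.map (algebraMap R K))) :=
    (Pairs.map (algebraMap R K) rfl).toAlgebra
  have hinj : Function.Injective (Pairs.map (Φ := Φ) (algebraMap R K) rfl) := h.map_injective
  have : FaithfulSMul (Pairs Φ) (Pairs (Φ.map (algebraMap R K))) :=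
    (faithfulSMul_iff_algebraMap_injective _ _).2 hinj
  have hfrac : ∀ z : Pairs (Φ.map (algebraMap R K)), ∃ u v : Pairs Φ,
      v ≠ 0 ∧ z * Pairs.map (algebraMap R K) rfl v = Pairs.map (algebraMap R K) rfl u := by
    intro z
    obtain ⟨r, w, hr, hw⟩ := Pairs.exists_mul_eq_map z
    refine ⟨w, Pairs.ofBase Φ r, fun h0 => hr ?_, by rw [Pairs.map_ofBase, mul_comm, hw]⟩
    have h1 := congrArg (Pairs.map (algebraMap R K) rfl) h0
    rw [Pairs.map_ofBase, map_zero, map_eq_zero] at h1
    exact (map_eq_zero_iff _ (IsFractionRing.injective R K)).1 h1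
  have : IsFractionRing (Pairs Φ) (Pairs (Φ.map (algebraMap R K))) := by
    refine IsFractionRing.of_field _ _ fun z => ?_
    obtain ⟨u, v, hv, huv⟩ := hfrac z
    exact ⟨u, v, ((div_eq_iff ((map_ne_zero_iff _ hinj).2 hv)).2 huv.symm).symm⟩
  obtain ⟨u, v, hv, huv⟩ := hfrac y
  have hu : u ≠ 0 := by
    rintro rfl
    rw [map_zero, mul_eq_zero, map_eq_zero_iff _ hinj] at huv
    exact huv.elim hy hv
  have hn' : IsUnit (n : Pairs Φ) := by simpa using hn.map (Pairs.ofBase Φ)
  have hk' : ∀ c : ResidueField (Pairs Φ), c ≠ 0 → ∃ d, d ^ n = c := by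
    intro c hc
    obtain ⟨r, rfl⟩ := h.residue_ofBase_surjective hR c
    have hr : residue R r ≠ 0 := fun h0 => hc (by
      have := map_zero (ResidueField.map (Pairs.ofBase Φ))
      rwa [← h0, ResidueField.map_residue] at this)
    obtain ⟨d, hd⟩ := hk _ hr
    exact ⟨ResidueField.map (Pairs.ofBase Φ) d, by
      rw [← map_pow, hd, ResidueField.map_residue]⟩
  obtain ⟨G, hG⟩ := exists_pow_eq_div (K := Pairs (Φ.map (algebraMap R K))) hn' hk' hu hv
    fun p hp => by
      by_cases hpπ : p ∣ Pairs.ofBase Φ π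
      swap
      · exact hgen p hp hpπ u v hv huv
      have : Fact (Prime p) := ⟨hp⟩
      let g : R →+* HatAt p := (toHat p).comp (Pairs.ofBase Φ)
      have hg0 : g π ∈ maximalIdeal (HatAt p) := by
        obtain ⟨c, hc⟩ := hpπ
        simp only [g, RingHom.comp_apply, hc, map_mul]
        exact Ideal.mul_mem_right _ _ (toHat_self_mem p)
      obtain ⟨F, hF⟩ := exists_hat_lift π g hg0 fun r hr =>
        isUnit_toHat p (h.not_dvd_ofBase hR hπ hπ2 hp hpπ hr)
      let M := FractionRing (HatAt p)
      have hFinj : Function.Injective F := by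
        rw [injective_iff_map_eq_zero]
        intro x hx
        by_contra hx0
        obtain ⟨k, e, rfl⟩ := exists_eq_unit_mul_pow_hat π hx0
        rw [map_mul, (e.isUnit.map F).mul_right_eq_zero, map_pow] at hx
        have h0 := eq_zero_of_pow_eq_zero hx
        rw [← RingHom.comp_apply, hF] at h0
        simp only [g, RingHom.comp_apply] at h0
        rw [map_eq_zero_iff _ (toHat_injective p)] at h0
        have h1 := congrArg (Pairs.map (algebraMap R K) rfl) h0
        rw [Pairs.map_ofBase, map_zero, map_eq_zero] at h1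
        exact (Fact.out : Prime π).ne_zero ((map_eq_zero_iff _ (IsFractionRing.injective R K)).1 h1)
      have hMinj : Function.Injective ((algebraMap (HatAt p) M).comp F) :=
        (IsFractionRing.injective (HatAt p) M).comp hFinj
      let μ : L →+* M := IsFractionRing.lift hMinj
      let g' : Pairs Φ →+* M := (algebraMap (HatAt p) M).comp (toHat p)
      have hbase : (μ.comp j).comp (algebraMap R K) = g'.comp (Pairs.ofBase Φ) := by
        ext r
        simp only [RingHom.comp_apply]
        rw [← RingHom.comp_apply j, hj, RingHom.comp_apply, IsFractionRing.lift_algebraMap,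
          RingHom.comp_apply, ← RingHom.comp_apply F, hF]
        rfl
      let ψ : Pairs ((Φ.map (algebraMap R K)).map j) →+* M :=
        Pairs.lift μ (g' (Pairs.fst Φ)) (g' (Pairs.snd Φ))
          (by rw [eval₂_map, eval₂_map, hbase, ← hom_eval₂, Pairs.eval₂_fst, map_zero])
          (by
            rw [Polynomial.map_map, Polynomial.map_map, hbase, ← Polynomial.map_map,
              ← map_divDiff, eval_map, eval₂_at_apply, Pairs.divDiff_fst_eval_snd, map_zero])
      have hψ : ∀ z : Pairs Φ,
          ψ (Pairs.map j rfl (Pairs.map (algebraMap R K) rfl z)) = g' z := by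
        intro z
        have e : (ψ.comp (Pairs.map j rfl)).comp (Pairs.map (algebraMap R K) rfl) = g' := by
          refine Pairs.ringHom_ext ?_ (by simp [ψ]) (by simp [ψ])
          rw [← hbase]
          ext r
          simp [ψ]
        exact RingHom.congr_fun e z
      obtain ⟨Y, hY⟩ := hloc
      refine dvd_multiplicity_sub_of_pow_eq p hu hv (Z := ψ Y) ?_
      show g' v * ψ Y ^ n = g' u
      rw [← hψ v, ← hψ u, ← map_pow, hY, ← map_mul, ← map_mul, mul_comm, huv]
  exact ⟨G, hG.trans ((div_eq_iff ((map_ne_zero_iff _ hinj).2 hv)).2 huv.symm)⟩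

end FLTA.Carayol
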