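import Fermat.Agent.Carayol.Ordinary
import Fermat.Agent.Carayol.SSPoint
import Fermat.Agent.Carayol.SSRoot
import Mathlib.Algebra.CharP.Lemmas

/-!
# Regularity of the branches at an ordinary point

`m = (q, T - a^q)`.  Then `R[X]/quo` and its extension by the third root are regular of
dimension two, with residue field that of `R`.
-/

set_option autoImplicit false

open IsLocalRing Ideal Polynomial

namespace FLTA.Carayol

section Ring

variable {S : Type*} [CommRing S]

theorem span_pair_add_mul (q u w : S) : span ({u + q * w, q} : Set S) = span {q, u} := by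
  refine le_antisymm ?_ ?_ <;> rw [span_le, Set.insert_subset_iff, Set.singleton_subset_iff]
  · exact ⟨mem_span_pair.2 ⟨w, 1, by ring⟩, subset_span (by simp)⟩
  · exact ⟨subset_span (by simp), mem_span_pair.2 ⟨1, -w, by ring⟩⟩

theorem C_dvd_comp_shift {q : ℕ} (hq : q.Prime) {p : S[X]} {T : S}
    (h : C (q : S) ∣ p - (X ^ q - C T)) (a : S) :
    C (q : S) ∣ p.comp (X + C a) - (X ^ q + C (a ^ q - T)) := by
  obtain ⟨g, hg⟩ := h
  obtain ⟨r, hr⟩ := exists_add_pow_prime_eq hq (X : S[X]) (C a)
  have h1 := congrArg (fun f => f.comp (X + C a)) hg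
  simp only [sub_comp, pow_comp, X_comp, C_comp, mul_comp, map_natCast, natCast_comp] at h1
  refine ⟨g.comp (X + C a) + X * C a * r, ?_⟩
  rw [map_sub, map_pow, map_natCast]
  linear_combination h1 + hr

variable [IsLocalRing S]

/-- Residue classes after adjoining a shifted Eisenstein root. -/
theorem IsEis.exists_residue_of_shift {φ : S[X]} {a : S} (h : IsEis (φ.comp (X + C a)))
    [IsLocalRing (AdjoinRoot φ)] (c : ResidueField (AdjoinRoot φ)) :
    ∃ r : S, residue (AdjoinRoot φ) (AdjoinRoot.of φ r) = c := by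
  have := h.isLocalRing
  have hroot : residue (AdjoinRoot φ) (AdjoinRoot.root φ) =
      residue _ (AdjoinRoot.of φ a) := by
    rw [← sub_eq_zero, ← map_sub, residue_eq_zero_iff]
    intro hu
    refine (mem_maximalIdeal _).1 (h.maximalIdeal_eq.ge (Ideal.mem_sup_right
      (mem_span_singleton_self (AdjoinRoot.root (φ.comp (X + C a)))))) ?_
    refine (MulEquiv.isUnit_map (shiftEquiv φ a)).1 ?_
    rw [shiftEquiv_root]
    exact hu
  obtain ⟨y, rfl⟩ := residue_surjective c
  induction y using AdjoinRoot.induction_on with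
  | ih p =>
    refine ⟨p.eval a, ?_⟩
    rw [← AdjoinRoot.aeval_eq, aeval_def, AdjoinRoot.algebraMap_eq, hom_eval₂, hroot,
      ← hom_eval₂, eval₂_at_apply]

end Ring

variable {R : Type*} [CommRing R] [IsDomain R] [IsLocalRing R] {K : Type*} [Field K] [Algebra R K]
  {q : ℕ} {Φ P χ : R[X]} {T ρ a : R}

omit [IsDomain R] in
/-- The parameter is not a `q`-th power modulo `q`. -/
theorem not_dvd_pow_sub_of_gen (hR : IsReg2 R) (hq : q.Prime)
    (hgen : maximalIdeal R = span {(q : R), T - a ^ q}) (c : R) : ¬ (q : R) ∣ c ^ q - T := by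
  rintro ⟨e, he⟩
  obtain ⟨r, hr⟩ := exists_add_pow_prime_eq hq (c - a) a
  rw [sub_add_cancel] at hr
  set w := e - (c - a) * a * r
  have hw : (c - a) ^ q = T - a ^ q + (q : R) * w := by
    simp only [w]; linear_combination he - hr
  have hgen' : maximalIdeal R = span {T - a ^ q + (q : R) * w, (q : R)} :=
    hgen.trans (span_pair_add_mul _ _ _).symm
  by_cases hu : IsUnit (c - a)
  · refine notMem_maximalIdeal.2 (hu.pow q) ?_
    rw [hw, hgen']
    exact subset_span (by simp)
  · refine hR.not_mem_sq_of_gen hgen' ?_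
    rw [← hw]
    exact Ideal.pow_le_pow_right hq.two_le (Ideal.pow_mem_pow ((mem_maximalIdeal _).2 hu) q)

namespace IsOrd

variable (h : IsOrd K q Φ P χ T ρ) (hgen : maximalIdeal R = span {(q : R), T - a ^ q})
  (s : RootSplit Φ) (hquo : C (q : R) ∣ s.quo - (X ^ q - C T))

include h

omit [IsDomain R] [IsLocalRing R] in
theorem one_lt_natDegree : 1 < Φ.natDegree := by
  rw [h.natDegree_eq]; have := h.prime_q.two_le; omega

omit [IsLocalRing R] in
theorem monic_quo : s.quo.Monic := s.monic_quo h.monic (by have := h.one_lt_natDegree; omega)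

omit [IsLocalRing R] in
theorem natDegree_quo : s.quo.natDegree = q := by
  rw [s.natDegree_quo h.monic (by have := h.one_lt_natDegree; omega), h.natDegree_eq,
    Nat.add_sub_cancel]

omit [IsLocalRing R] in
/-- `x₁ - x₀` is not divisible by `q`. -/
theorem not_dvd_root_sub : ¬ (q : s.E) ∣ AdjoinRoot.root s.quo - AdjoinRoot.of s.quo s.x₀ := by
  rintro ⟨e, he⟩
  obtain ⟨p, rfl⟩ := AdjoinRoot.mk_surjective e
  rw [← AdjoinRoot.mk_X, ← AdjoinRoot.mk_C, ← map_natCast (AdjoinRoot.mk s.quo), ← map_sub,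
    ← map_mul, AdjoinRoot.mk_eq_mk, ← modByMonic_eq_zero_iff_dvd (h.monic_quo s), sub_modByMonic,
    sub_eq_zero] at he
  have hlt : (X - C s.x₀).degree < s.quo.degree := by
    rw [degree_X_sub_C, degree_eq_natDegree (h.monic_quo s).ne_zero, h.natDegree_quo s]
    exact_mod_cast h.prime_q.one_lt
  rw [(modByMonic_eq_self_iff (h.monic_quo s)).2 hlt, ← map_natCast C, ← smul_eq_C_mul,
    smul_modByMonic] at he
  have h1 := congrArg (fun f => f.coeff 1) he
  simp only [coeff_sub, coeff_X_one, coeff_C_succ, sub_zero, coeff_smul, smul_eq_mul] at h1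
  exact h.prime_cast.not_isUnit (isUnit_of_dvd_one ⟨_, h1⟩)

include hquo hgen

theorem isEis_quo (hR : IsReg2 R) : IsEis (s.quo.comp (X + C a)) ∧
    maximalIdeal R = span {(s.quo.comp (X + C a)).coeff 0, (q : R)} := by
  obtain ⟨g, hg⟩ := C_dvd_comp_shift h.prime_q hquo a
  rw [sub_eq_iff_eq_add] at hg
  have hc : ∀ i, (s.quo.comp (X + C a)).coeff i =
      (q : R) * g.coeff i + ((if i = q then 1 else 0) + if i = 0 then a ^ q - T else 0) := by
    intro i
    rw [hg, coeff_add, coeff_C_mul, coeff_add, coeff_X_pow, coeff_C]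
  have h0 : (s.quo.comp (X + C a)).coeff 0 = -((T - a ^ q) + (q : R) * -g.coeff 0) := by
    rw [hc, if_neg h.prime_q.pos.ne, if_pos rfl]; ring
  have hgen' : maximalIdeal R = span {(s.quo.comp (X + C a)).coeff 0, (q : R)} := by
    rw [h0, hgen, ← span_pair_add_mul (q : R) (T - a ^ q) (-g.coeff 0)]
    simp only [Ideal.span_insert, Ideal.span_singleton_neg]
  have hdeg : (s.quo.comp (X + C a)).natDegree = q := by
    rw [← taylor_apply, natDegree_taylor, h.natDegree_quo s]
  refine ⟨⟨(h.monic_quo s).comp_X_add_C a, by rw [hdeg]; exact h.prime_q.pos, fun i hi => ?_,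
    hR.not_mem_sq_of_gen hgen'⟩, hgen'⟩
  rcases eq_or_ne i 0 with rfl | hi0
  · rw [hgen']; exact subset_span (by simp)
  · rw [hdeg] at hi
    rw [hc, if_neg hi.ne, if_neg hi0, add_zero, add_zero, hgen']
    exact Ideal.mul_mem_right _ _ (subset_span (by simp))

theorem isLocalRing_E (hR : IsReg2 R) : IsLocalRing s.E :=
  have := (h.isEis_quo hgen s hquo hR).1.isLocalRing
  (shiftEquiv s.quo a).isLocalRing

theorem isReg2_E (hR : IsReg2 R) [IsLocalRing s.E] : IsReg2 s.E :=
  have := (h.isEis_quo hgen s hquo hR).1.isLocalRing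
  ((h.isEis_quo hgen s hquo hR).1.isReg2 hR).of_ringEquiv (shiftEquiv s.quo a)

theorem maximalIdeal_E (hR : IsReg2 R) [IsLocalRing s.E] :
    maximalIdeal s.E = span {(q : s.E), AdjoinRoot.root s.quo - AdjoinRoot.of s.quo a} := by
  obtain ⟨hE, hb⟩ := h.isEis_quo hgen s hquo hR
  have := hE.isLocalRing
  have hgen2 := hE.maximalIdeal_eq.trans (IsEis.maxIdeal_eq_span hb)
  have hm : (maximalIdeal (AdjoinRoot (s.quo.comp (X + C a)))).map
      (shiftEquiv s.quo a : AdjoinRoot (s.quo.comp (X + C a)) →+* AdjoinRoot s.quo) =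
      maximalIdeal s.E :=
    eq_maximalIdeal (Ideal.map_isMaximal_of_equiv (shiftEquiv s.quo a))
  rw [← hm, hgen2, Ideal.map_span, Set.pair_comm]
  simp [Set.image_insert_eq]

theorem prime_q_E (hR : IsReg2 R) [IsLocalRing s.E] : Prime (q : s.E) := by
  have hE := h.isReg2_E hgen s hquo hR
  have := hE.isDomain
  have hp := hE.isPrime_span_of_gen (h.maximalIdeal_E hgen s hquo hR)
  have hq0 : (q : s.E) ≠ 0 := by
    intro h0
    refine hE.maximalIdeal_ne_span_singleton
      (AdjoinRoot.root s.quo - AdjoinRoot.of s.quo a) ?_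
    rw [h.maximalIdeal_E hgen s hquo hR, h0, Ideal.span_insert, Ideal.span_singleton_zero,
      bot_sup_eq]
  exact (span_singleton_prime hq0).1 hp

theorem isEis_G (hR : IsReg2 R) [IsLocalRing s.E]
    (hmid : ∃ u : s.E, IsUnit u ∧
      s.quo.derivative.eval₂ (AdjoinRoot.of s.quo) (AdjoinRoot.root s.quo) = (q : s.E) * u) :
    IsEis (s.G.comp (X + C (AdjoinRoot.root s.quo))) := by
  obtain ⟨u, hu, hmid⟩ := hmid
  have hE := h.isReg2_E hgen s hquo hR
  have hd := h.one_lt_natDegree
  have e : s.G.comp (X + C (AdjoinRoot.root s.quo)) =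
      ((s.quo.map (AdjoinRoot.of s.quo)).comp (X + C (AdjoinRoot.root s.quo))).divX := by
    rw [RootSplit.G, divDiff_comp_add, sub_self, divDiff_zero_eq_divX]
  have hdeg : (s.G.comp (X + C (AdjoinRoot.root s.quo))).natDegree = q - 1 := by
    rw [← taylor_apply, natDegree_taylor, s.natDegree_G h.monic hd, h.natDegree_eq]
    omega
  have hqE : (q : s.E) ∈ maximalIdeal s.E := by
    rw [h.maximalIdeal_E hgen s hquo hR]; exact subset_span (by simp)
  have hc : C (q : s.E) ∣
      s.quo.map (AdjoinRoot.of s.quo) - (X ^ q - C (AdjoinRoot.of s.quo T)) := by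
    have h2 := _root_.map_dvd (mapRingHom (AdjoinRoot.of s.quo)) hquo
    simpa only [coe_mapRingHom, map_C, Polynomial.map_sub, Polynomial.map_pow, map_X,
      map_natCast] using h2
  obtain ⟨g, hg⟩ := C_dvd_comp_shift h.prime_q hc (AdjoinRoot.root s.quo)
  rw [sub_eq_iff_eq_add] at hg
  refine ⟨(s.monic_G h.monic hd).comp_X_add_C _, ?_, fun i hi => ?_, ?_⟩
  · rw [hdeg]; have := h.prime_q.two_le; omega
  · rw [hdeg] at hi
    rw [e, coeff_divX, hg, coeff_add, coeff_C_mul, coeff_add, coeff_X_pow,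
      if_neg (by omega : ¬ i + 1 = q), coeff_C_succ, add_zero, add_zero]
    exact Ideal.mul_mem_right _ _ hqE
  · rw [e, coeff_divX, zero_add, ← taylor_apply, taylor_coeff_one, derivative_map, eval_map, hmid,
      mul_comm, Ideal.unit_mul_mem_iff_mem _ hu]
    exact hE.not_mem_sq_of_gen (h.maximalIdeal_E hgen s hquo hR)

end IsOrd

end FLTA.Carayol
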