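import Fermat.Agent.Carayol.OrdinaryReg
import Fermat.Agent.Carayol.GaussBranch
import Fermat.Agent.Carayol.BranchCombine
import Fermat.Agent.Carayol.DivisorVal
import Fermat.Agent.Carayol.GlueLine

/-!
# The root at an ordinary point

At an ordinary point of the special fibre an `n`-th root over the completion at the vertical
prime `q` of a fraction with divisor divisible by `n` comes from `K`.
-/

set_option autoImplicit false
set_option linter.style.haveILetI false

open IsLocalRing Ideal Polynomial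

namespace FLTA.Carayol

/-- Fraction field of a monogenic domain. -/
theorem isFractionRing_adjoinRoot_map {A L : Type*} [CommRing A] [IsLocalRing A] [IsDomain A]
    [Field L] [Algebra A L] [IsFractionRing A L] {φ : A[X]} (hφ : φ.Monic) {ψ : L[X]}
    (h : φ.map (algebraMap A L) = ψ) [IsDomain (AdjoinRoot φ)] [Fact (Irreducible ψ)] :
    letI := (AdjoinRoot.map (algebraMap A L) φ ψ h.symm.dvd).toAlgebra
    IsFractionRing (AdjoinRoot φ) (AdjoinRoot ψ) := by
  letI := (AdjoinRoot.map (algebraMap A L) φ ψ h.symm.dvd).toAlgebra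
  have hinj : Function.Injective (AdjoinRoot.map (algebraMap A L) φ ψ h.symm.dvd) :=
    adjoinRoot_map_injective (IsFractionRing.injective A L) hφ h
  have : FaithfulSMul (AdjoinRoot φ) (AdjoinRoot ψ) :=
    (faithfulSMul_iff_algebraMap_injective _ _).2 hinj
  refine IsFractionRing.of_field _ _ fun y => ?_
  obtain ⟨r, z, hr, hz⟩ := exists_mul_eq_adjoinRootMap h y
  refine ⟨z, AdjoinRoot.of φ r, ?_⟩
  rw [RingHom.algebraMap_toAlgebra, AdjoinRoot.map_of, ← hz, mul_div_cancel_left₀]
  exact (_root_.map_ne_zero _).2 ((map_ne_zero_iff _ (IsFractionRing.injective A L)).2 hr)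

theorem RootSplit.irreducible_congr {L : Type*} [Field L] {Φ₁ Φ₂ : L[X]} (e : Φ₁ = Φ₂)
    (s₁ : RootSplit Φ₁) (s₂ : RootSplit Φ₂) (hx : s₁.x₀ = s₂.x₀)
    [Fact (Irreducible s₁.quo)] (hG : Irreducible s₁.G) :
    Irreducible s₂.quo ∧ Irreducible s₂.G := by
  subst e
  obtain ⟨x, hx₁⟩ := s₁
  obtain ⟨y, hy₁⟩ := s₂
  obtain rfl : x = y := hx
  exact ⟨Fact.out, hG⟩

universe u

variable {R : Type u} [CommRing R] [IsDomain R] [IsLocalRing R]

/-- The parameter is not a `q`-th power in the residue field at the vertical prime. -/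
theorem not_pow_residue_hatAt [IsNoetherianRing R] (hR : IsReg2 R) {q : ℕ} (hq : q.Prime)
    [Fact (Prime (q : R))] {T a : R} (hgen : maximalIdeal R = span {(q : R), T - a ^ q})
    (c : ResidueField (HatAt (q : R))) : c ^ q ≠ residue _ (toHat (q : R) T) := by
  intro hc
  obtain ⟨z, rfl⟩ := residue_surjective c
  obtain ⟨α, β, hβ, hz⟩ := exists_residue_frac (q : R) z
  have hqR : Prime (q : R) := Fact.out
  have h0 := not_dvd_pow_sub_of_gen hR hq hgen
  have hpr : (span ({(q : R)} : Set R)).IsPrime := (span_singleton_prime hqR.ne_zero).2 hqR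
  have h1 : (q : R) ∣ α ^ q - T * β ^ q := by
    refine dvd_of_toHat_self_dvd (q : R) ?_
    rw [← mem_span_singleton, ← maximalIdeal_hatAt, ← residue_eq_zero_iff] at hz
    rw [← mem_span_singleton, ← maximalIdeal_hatAt, ← residue_eq_zero_iff]
    rw [map_sub, map_mul, sub_eq_zero] at hz
    simp only [map_sub, map_mul, map_pow, ← hz, ← hc]
    ring
  have hu : maximalIdeal R = span {(q : R), T - a ^ q} := hgen
  set d := T - a ^ q
  obtain ⟨k, v, hv, hβv⟩ := hR.exists_eq_unit_mul_pow hu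
    (fun hmem => hβ (mem_span_singleton.1 hmem))
  by_cases hα : α ∈ span ({(q : R)} : Set R)
  · have h2 : (q : R) ∣ T * β ^ q := by
      rw [mem_span_singleton] at hα
      have := dvd_sub (dvd_pow hα hq.ne_zero) h1
      rwa [sub_sub_cancel] at this
    refine (hqR.dvd_or_dvd h2).elim (fun hT => h0 0 ?_) fun hb => hβ (hqR.dvd_of_dvd_pow hb)
    rwa [zero_pow hq.ne_zero, zero_sub, dvd_neg]
  obtain ⟨l, w, hw, hαw⟩ := hR.exists_eq_unit_mul_pow hu hα
  rw [← mem_span_singleton, ← Ideal.Quotient.eq_zero_iff_mem] at h1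
  rw [← Ideal.Quotient.eq_zero_iff_mem, map_sub, sub_eq_zero] at hβv hαw
  set Q := Ideal.Quotient.mk (span ({(q : R)} : Set R))
  have hd : Q d ≠ 0 := fun hd0 => hR.pow_not_mem_span hu 1 (by
    rw [pow_one]; exact Ideal.Quotient.eq_zero_iff_mem.1 hd0)
  obtain ⟨v, rfl⟩ := hv
  rw [map_sub, sub_eq_zero, map_mul, map_pow, map_pow, hαw, hβv, map_mul, map_mul, map_pow,
    map_pow] at h1
  rcases le_or_gt k l with hkl | hkl
  · obtain ⟨i, rfl⟩ := Nat.exists_eq_add_of_le hkl
    refine h0 (w * ↑v⁻¹ * d ^ i) (mem_span_singleton.1 (Ideal.Quotient.eq_zero_iff_mem.1 ?_))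
    have hvi : Q (↑v⁻¹) * Q ↑v = 1 := by rw [← map_mul, Units.inv_mul, map_one]
    rw [map_sub, sub_eq_zero, map_pow, map_mul, map_mul, map_pow]
    refine mul_right_cancel₀ (pow_ne_zero q (mul_ne_zero (right_ne_zero_of_mul_eq_one hvi)
      (pow_ne_zero k hd))) ?_
    calc (Q w * Q ↑v⁻¹ * Q d ^ i) ^ q * (Q ↑v * Q d ^ k) ^ q
        = (Q w * Q d ^ (k + i)) ^ q * (Q ↑v⁻¹ * Q ↑v) ^ q := by rw [← mul_pow, ← mul_pow]; ring
      _ = _ := by rw [hvi, one_pow, mul_one, h1]
  · obtain ⟨i, rfl⟩ := Nat.exists_eq_add_of_lt hkl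
    have h2 : Q (w ^ q) = Q (T * (↑v * d ^ (i + 1)) ^ q) := by
      rw [map_pow, map_mul, map_pow, map_mul, map_pow]
      refine mul_right_cancel₀ (pow_ne_zero q (pow_ne_zero l hd)) ?_
      calc Q w ^ q * (Q d ^ l) ^ q = (Q w * Q d ^ l) ^ q := (mul_pow _ _ _).symm
        _ = _ := by rw [h1]; ring
    rw [Ideal.Quotient.mk_eq_mk_iff_sub_mem] at h2
    have h3 : w ^ q ∈ maximalIdeal R := by
      have hle : span ({(q : R)} : Set R) ≤ maximalIdeal R :=
        (span_singleton_le_iff_mem _).2 ((mem_maximalIdeal _).2 hqR.not_isUnit)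
      have hmem : T * (↑v * d ^ (i + 1)) ^ q ∈ maximalIdeal R :=
        Ideal.mul_mem_left _ _ (Ideal.pow_mem_of_mem _ (Ideal.mul_mem_left _ _
          (Ideal.pow_mem_of_mem _ (hu ▸ subset_span (by simp)) _ (by omega))) _ hq.pos)
      simpa using add_mem (hle h2) hmem
    exact (mem_maximalIdeal _).1 h3 (hw.pow q)

variable {K : Type*} [Field K] [CharZero K] [Algebra R K] [IsFractionRing R K]
  {q : ℕ} {Φ P χ : R[X]} {T ρ a : R}

omit [CharZero K] in
/-- **The root at an ordinary point.** -/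
theorem IsOrd.exists_root [IsNoetherianRing R] [IsAdicComplete (maximalIdeal R) R] (hR : IsReg2 R)
    (h : IsOrd K q Φ P χ T ρ) (hgen : maximalIdeal R = span {(q : R), T - a ^ q}) {n : ℕ}
    (hn : IsUnit (n : R)) (hk : ∀ c : ResidueField R, c ≠ 0 → ∃ d, d ^ n = c)
    [Fact (Prime (q : R))] {L : Type*} [Field L] [Algebra (HatAt (q : R)) L]
    [IsFractionRing (HatAt (q : R)) L] (j : K →+* L)
    (hj : j.comp (algebraMap R K) = (algebraMap (HatAt (q : R)) L).comp (toHat (q : R)))
    {ζ : K} (hζ : IsPrimitiveRoot ζ n) (y : Pairs (Φ.map (algebraMap R K))) (hy : IsUnit y)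
    (hdiv : ∀ (F : Type u) [Field F] (ψ : Pairs (Φ.map (algebraMap R K)) →+* F)
      (v : Valuation F (WithZero (Multiplicative ℤ))),
      (∀ r : R, IsUnit r → v (ψ (Pairs.ofBase _ (algebraMap R K r))) = 1) →
      v (ψ (Pairs.ofBase _ (algebraMap R K (q : R)))) = 1 → ∃ z, v (ψ y) = z ^ n)
    (Y : Pairs ((Φ.map (algebraMap R K)).map j)) (hY : Y ^ n = Pairs.map j rfl y) :
    ∃ G, G ^ n = y ∧ Pairs.map j rfl G = Y := by
  classical
  have hn0 : NeZero n := ⟨by rintro rfl; simp at hn⟩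
  have := hR.uniqueFactorizationMonoid
  have : HenselianLocalRing R := ⟨fun f hf a₀ h₁ h₂ =>
    HenselianRing.is_henselian (I := maximalIdeal R) f hf a₀ h₁ (h₂.map _)⟩
  obtain ⟨s, y₁, ψ, hx₀, hquo, hχψ, hψ, hP⟩ := h.exists_rootSplit
  have hq := h.prime_q
  have hd := h.one_lt_natDegree
  have hqm : (q : R) ∈ maximalIdeal R := hgen ▸ subset_span (by simp)
  have hqm2 : (q : R) ∉ maximalIdeal R ^ 2 := hR.not_mem_sq_of_gen hgen
  have := h.isLocalRing_E hgen s hquo hR
  have hE := h.isReg2_E hgen s hquo hR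
  have := hE.isDomain
  have := hE.isNoetherian
  have := hE.uniqueFactorizationMonoid
  have hmid := h.exists_mid s hquo hx₀ hχψ hψ hP (h.prime_q_E hgen s hquo hR)
    (h.not_dvd_root_sub s)
  have hEisG := h.isEis_G hgen s hquo hR hmid
  have := hEisG.isLocalRing
  have : IsLocalRing s.E' := (shiftEquiv s.G (AdjoinRoot.root s.quo)).isLocalRing
  have hE' : IsReg2 s.E' := (hEisG.isReg2 hE).of_ringEquiv (shiftEquiv s.G _)
  have := hE'.isDomain
  -- the Gauss point
  set f₀ := toHat (q : R) with hf₀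
  have hres : ∀ r : R, (q : R) ∣ r → residue (HatAt (q : R)) (f₀ r) = 0 := by
    rintro r ⟨c, rfl⟩
    rw [residue_eq_zero_iff, map_mul]
    exact Ideal.mul_mem_right _ _ (toHat_self_mem _)
  have hG : IsGauss q (Φ.map f₀) (s.map f₀) (f₀ T) := by
    refine ⟨hq, by rw [maximalIdeal_hatAt, map_natCast], h.monic.map f₀,
      by rw [h.monic.natDegree_map, h.natDegree_eq], ?_, ?_,
      not_pow_residue_hatAt hR hq hgen, ?_⟩
    · rw [RootSplit.map_x₀, ← map_pow, ← map_pow, ← sub_eq_zero, ← map_sub, ← map_sub]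
      exact hres _ hx₀
    · obtain ⟨g, hg⟩ := hquo
      rw [RootSplit.quo_map, Polynomial.map_map]
      have h1 := congrArg (Polynomial.map ((residue (HatAt (q : R))).comp f₀)) hg
      rw [Polynomial.map_sub, Polynomial.map_mul, map_C, RingHom.comp_apply,
        hres _ dvd_rfl, map_zero, zero_mul, sub_eq_zero] at h1
      simpa using h1
    · obtain ⟨u, hu, hue⟩ := hmid
      refine ⟨s.mapE f₀ u, hu.map _, ?_⟩
      have hroot : s.mapE f₀ (AdjoinRoot.root s.quo) = AdjoinRoot.root (s.map f₀).quo :=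
        AdjoinRoot.map_root f₀ _ _ (s.quo_map f₀).dvd
      have hdq : (s.map f₀).quo.derivative = s.quo.derivative.map f₀ := by
        rw [RootSplit.quo_map, derivative_map]
      rw [hdq, eval₂_map, ← RootSplit.mapE_comp_of, ← hroot,
        ← hom_eval₂, hue, map_mul, map_natCast]
  let sK := s.map (algebraMap R K)
  let sL := sK.map j
  obtain ⟨hirrL, hirrGL⟩ : Irreducible sL.quo ∧ Irreducible sL.G := by
    have := Fact.mk (hG.irreducible_quo (L := L))
    refine RootSplit.irreducible_congr ?_ ((s.map f₀).map (algebraMap (HatAt (q : R)) L)) sL ?_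
      hG.irreducible_G
    · rw [Polynomial.map_map, Polynomial.map_map, hj]
    · simpa [sL, sK] using (RingHom.congr_fun hj s.x₀).symm
  have := Fact.mk hirrL
  have hdK : 1 < (Φ.map (algebraMap R K)).natDegree := by rwa [h.monic.natDegree_map]
  have hirrK : Irreducible sK.quo :=
    (sK.monic_quo (h.monic.map _) (by omega)).irreducible_of_irreducible_map j _
      (by rw [← RootSplit.quo_map]; exact hirrL)
  have := Fact.mk hirrK
  have := Fact.mk hirrGL
  have hirrGK : Irreducible sK.G :=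
    (sK.monic_G (h.monic.map _) hdK).irreducible_of_irreducible_map (sK.mapE j) _
      (by rw [sK.G_map]; exact hirrGL)
  have := Fact.mk hirrGK
  have h0 : sK.quo.eval sK.x₀ ≠ 0 := by
    rw [RootSplit.quo_map, RootSplit.map_x₀, eval_map, eval₂_at_apply, Ne,
      map_eq_zero_iff _ (IsFractionRing.injective R K)]
    intro h1
    have h2 := eval_mem_span_of_C_dvd hquo s.x₀
    rw [h1, zero_sub, dvd_neg, eval_sub, eval_pow, eval_X, eval_C] at h2
    exact not_dvd_pow_sub_of_gen hR hq hgen _ h2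
  -- the two algebras as fraction fields
  letI : Algebra s.E sK.E := (s.mapE (algebraMap R K)).toAlgebra
  have : IsFractionRing s.E sK.E :=
    isFractionRing_adjoinRoot_map (h.monic_quo s) (s.quo_map (algebraMap R K)).symm
  letI : Algebra s.E' sK.E' := (s.mapE' (algebraMap R K)).toAlgebra
  have : IsFractionRing s.E' sK.E' :=
    isFractionRing_adjoinRoot_map (A := s.E) (L := sK.E) (s.monic_G h.monic hd) (s.G_map (algebraMap R K))
  have := (h.monic_quo s).finite_adjoinRoot
  have := (h.monic_quo s).free_adjoinRoot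
  have := (s.monic_G h.monic hd).finite_adjoinRoot
  have := (s.monic_G h.monic hd).free_adjoinRoot
  have : Module.Finite R s.E' := Module.Finite.trans s.E _
  have : Module.Free R s.E' := Module.Free.trans (R := R) (S := s.E)
  have hsE : Function.Surjective fun r : R => residue s.E (algebraMap R s.E r) :=
    (h.isEis_quo hgen s hquo hR).1.exists_residue_of_shift
  have hsE' : Function.Surjective fun r : R => residue s.E' (algebraMap R s.E' r) := by
    intro c
    obtain ⟨e, rfl⟩ := hEisG.exists_residue_of_shift c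
    obtain ⟨r, hr⟩ := hsE (residue s.E e)
    have : IsLocalHom (AdjoinRoot.of s.G) := RingHom.IsIntegral.isLocalHom
      (algebraMap_isIntegral_iff.2 (Algebra.IsIntegral.of_finite s.E s.E') :
        (algebraMap s.E s.E').IsIntegral)
      (FaithfulSMul.algebraMap_injective s.E s.E')
    refine ⟨r, ?_⟩
    have h1 := congrArg (ResidueField.map (AdjoinRoot.of s.G)) hr
    rw [ResidueField.map_residue, ResidueField.map_residue] at h1
    exact h1
  -- roots on the branches
  obtain ⟨hy₀, hy₁', hym⟩ := (⟨hy.map sK.br₀, hy.map sK.br₁, hy.map sK.brₘ⟩ :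
    IsUnit (sK.br₀ y) ∧ IsUnit (sK.br₁ y) ∧ IsUnit (sK.brₘ y))
  have extE : ∀ (M : Type _) [Field M] (μ : L →+* M) (g : s.E →+* M),
      μ.comp ((algebraMap (HatAt (q : R)) L).comp (toHat (q : R))) =
        g.comp (algebraMap R s.E) →
      ∃ ψ : sL.E →+* M, (∀ x, ψ (sK.mapE j (algebraMap s.E sK.E x)) = g x) ∧
        ψ.comp (AdjoinRoot.of sL.quo) = μ := by
    intro M _ μ g hμ
    rw [← hj, ← RingHom.comp_assoc, AdjoinRoot.algebraMap_eq] at hμ
    have hev : sL.quo.eval₂ μ (g (AdjoinRoot.root s.quo)) = 0 := by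
      rw [RootSplit.quo_map, RootSplit.quo_map, eval₂_map, eval₂_map, hμ, ← hom_eval₂,
        AdjoinRoot.eval₂_root, map_zero]
    refine ⟨AdjoinRoot.lift μ _ hev, fun x => ?_, AdjoinRoot.lift_comp_of _⟩
    · refine RingHom.congr_fun (f := ((AdjoinRoot.lift μ _ hev).comp (sK.mapE j)).comp
        (s.mapE (algebraMap R K))) ?_ x
      refine AdjoinRoot.ringHom_ext (RingHom.ext fun r => ?_) ?_
      · simpa [RootSplit.mapE, sK, sL] using RingHom.congr_fun hμ r
      · simp [RootSplit.mapE, sK, sL]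
  have base₀ : ∀ r : R, sK.br₀ (Pairs.ofBase _ (algebraMap R K r)) =
      algebraMap s.E sK.E (algebraMap R s.E r) := fun r => by
    simp [sK, RootSplit.br₀, RootSplit.mapE, RingHom.algebraMap_toAlgebra]
  have base₁ : ∀ r : R, sK.br₁ (Pairs.ofBase _ (algebraMap R K r)) =
      algebraMap s.E sK.E (algebraMap R s.E r) := fun r => by
    simp [sK, RootSplit.br₁, RootSplit.mapE, RingHom.algebraMap_toAlgebra]
  have baseₘ : ∀ r : R, sK.brₘ (Pairs.ofBase _ (algebraMap R K r)) =
      algebraMap s.E' sK.E' (algebraMap R s.E' r) := fun r => by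
    have e : algebraMap R s.E' r = AdjoinRoot.of s.G (AdjoinRoot.of s.quo r) := rfl
    simp [sK, e, RootSplit.brₘ, RootSplit.mapE, RootSplit.mapE', RingHom.algebraMap_toAlgebra]
  refine sK.exists_root_of_branches (h.monic.map _) hdK h0 j hirrGL hζ y ?_ ?_ ?_ Y hY
  · refine exists_root_of_finite (O := s.E) hR hE hn hsE hk (q : R) hqm hqm2 (sK.mapE j)
      (AdjoinRoot.of sL.quo) extE hy₀.ne_zero (fun p hp hpq => ?_)
      ⟨sL.br₀ Y, by rw [← map_pow, hY, sK.mapE_br₀]⟩
    refine exists_local_rep_of_valuation hy₀.ne_zero hp fun F _ ψ v hv => ?_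
    have h1 : ∀ r : R, ¬ p ∣ algebraMap R _ r →
        v ((ψ.comp sK.br₀) (Pairs.ofBase _ (algebraMap R K r))) = 1 := fun r hr => by
      rw [RingHom.comp_apply, base₀]
      exact hv _ hr
    exact hdiv F (ψ.comp sK.br₀) v
      (fun r hr => h1 r fun h2 => hp.not_isUnit (isUnit_of_dvd_unit h2 (hr.map _))) (h1 _ hpq)
  · refine exists_root_of_finite (O := s.E) hR hE hn hsE hk (q : R) hqm hqm2 (sK.mapE j)
      (AdjoinRoot.of sL.quo) extE hy₁'.ne_zero (fun p hp hpq => ?_)
      ⟨sL.br₁ Y, by rw [← map_pow, hY, sK.mapE_br₁]⟩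
    refine exists_local_rep_of_valuation hy₁'.ne_zero hp fun F _ ψ v hv => ?_
    have h1 : ∀ r : R, ¬ p ∣ algebraMap R _ r →
        v ((ψ.comp sK.br₁) (Pairs.ofBase _ (algebraMap R K r))) = 1 := fun r hr => by
      rw [RingHom.comp_apply, base₁]
      exact hv _ hr
    exact hdiv F (ψ.comp sK.br₁) v
      (fun r hr => h1 r fun h2 => hp.not_isUnit (isUnit_of_dvd_unit h2 (hr.map _))) (h1 _ hpq)
  · refine exists_root_of_finite (O := s.E') hR hE' hn hsE' hk (q : R) hqm hqm2 (sK.mapE' j)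
      ((AdjoinRoot.of sL.G).comp (AdjoinRoot.of sL.quo)) ?_ hym.ne_zero (fun p hp hpq => ?_)
      ⟨sL.brₘ Y, by rw [← map_pow, hY, sK.mapE'_brₘ]⟩
    · intro M _ μ g hμ
      obtain ⟨ψ₀, hψ₀, hψμ⟩ := extE M μ (g.comp (AdjoinRoot.of s.G)) (by
        rw [hμ, RingHom.comp_assoc]; rfl)
      have hev : sL.G.eval₂ ψ₀ (g (AdjoinRoot.root s.G)) = 0 := by
        rw [← RootSplit.G_map, ← RootSplit.G_map, eval₂_map, eval₂_map,
          show (ψ₀.comp (sK.mapE j)).comp (s.mapE (algebraMap R K)) = g.comp (AdjoinRoot.of s.G) from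
            RingHom.ext hψ₀, ← hom_eval₂, AdjoinRoot.eval₂_root, map_zero]
      refine ⟨AdjoinRoot.lift ψ₀ _ hev, fun x => ?_, ?_⟩
      · refine RingHom.congr_fun (f := ((AdjoinRoot.lift ψ₀ _ hev).comp (sK.mapE' j)).comp
          (s.mapE' (algebraMap R K))) ?_ x
        refine AdjoinRoot.ringHom_ext (RingHom.ext fun r => ?_) ?_
        · simpa [RootSplit.mapE', sK, sL, RingHom.algebraMap_toAlgebra] using hψ₀ r
        · simp [RootSplit.mapE', sK, sL]
      · rw [← RingHom.comp_assoc, AdjoinRoot.lift_comp_of, hψμ]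
    refine exists_local_rep_of_valuation hym.ne_zero hp fun F _ ψ v hv => ?_
    have h1 : ∀ r : R, ¬ p ∣ algebraMap R _ r →
        v ((ψ.comp sK.brₘ) (Pairs.ofBase _ (algebraMap R K r))) = 1 := fun r hr => by
      rw [RingHom.comp_apply, baseₘ]
      exact hv _ hr
    exact hdiv F (ψ.comp sK.brₘ) v
      (fun r hr => h1 r fun h2 => hp.not_isUnit (isUnit_of_dvd_unit h2 (hr.map _))) (h1 _ hpq)

end FLTA.Carayol
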