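import Fermat.Agent.Carayol.DivDiff
import Mathlib.RingTheory.AdjoinRoot
import Mathlib.RingTheory.Norm.Basic

/-!
# The algebra of ordered pairs of roots

For a monic `Φ : A[X]`, `FLTA.Carayol.Pairs Φ = A[X, Z]/(Φ(X), (Φ(Z) - Φ(X))/(Z - X))`
parametrises ordered pairs of roots of `Φ`.  It is functorial in `A`, it has the swap
automorphism, and the norms to the first and to the second root commute with base change.
-/

set_option autoImplicit false

open Polynomial

namespace FLTA.Carayol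

variable {A B C : Type*} [CommRing A] [CommRing B] [CommRing C]

/-- The norm of `AdjoinRoot` commutes with base change. -/
theorem norm_adjoinRoot_map {p : A[X]} {q : B[X]} (hp : p.Monic) (f : A →+* B)
    (hq : p.map f = q) (x : AdjoinRoot p) :
    Algebra.norm B (AdjoinRoot.map f p q hq.symm.dvd x) = f (Algebra.norm A x) := by
  subst hq
  nontriviality B
  have := f.domain_nontrivial
  have hdeg : (p.map f).natDegree = p.natDegree := hp.natDegree_map f
  let b := (AdjoinRoot.powerBasisAux' hp)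
  let c := (AdjoinRoot.powerBasisAux' (hp.map f)).reindex (finCongr hdeg)
  rw [Algebra.norm_eq_matrix_det b, Algebra.norm_eq_matrix_det c, RingHom.map_det]
  congr 1
  ext i j
  have hb : ∀ k : Fin p.natDegree, b k = AdjoinRoot.root p ^ (k : ℕ) := fun k =>
    (AdjoinRoot.powerBasis' hp).basis_eq_pow k
  have hc : ∀ k : Fin p.natDegree, c k = AdjoinRoot.root (p.map f) ^ (k : ℕ) := fun k => by
    simp only [c, Module.Basis.reindex_apply]
    exact (AdjoinRoot.powerBasis' (hp.map f)).basis_eq_pow _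
  rw [RingHom.mapMatrix_apply, Matrix.map_apply, Algebra.leftMulMatrix_eq_repr_mul,
    Algebra.leftMulMatrix_eq_repr_mul, hb, hc]
  obtain ⟨g, rfl⟩ := AdjoinRoot.mk_surjective x
  have e : AdjoinRoot.map f p (p.map f) dvd_rfl (AdjoinRoot.mk p g) *
      AdjoinRoot.root (p.map f) ^ (j : ℕ) =
      AdjoinRoot.mk (p.map f) ((g * X ^ (j : ℕ)).map f) := by
    rw [Polynomial.map_mul, Polynomial.map_pow, map_X, map_mul, map_pow, AdjoinRoot.mk_X]
    congr 1
    rw [AdjoinRoot.map, AdjoinRoot.lift_mk, ← eval₂_map, ← AdjoinRoot.aeval_eq, aeval_def,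
      AdjoinRoot.algebraMap_eq]
  rw [e]
  simp only [b, c, Module.Basis.repr_reindex, Finsupp.mapDomain_equiv_apply,
    AdjoinRoot.powerBasisAux'_repr_apply_to_fun, AdjoinRoot.modByMonicHom_mk]
  rw [← AdjoinRoot.mk_X (f := p), ← map_pow, ← map_mul, AdjoinRoot.modByMonicHom_mk,
    ← map_modByMonic f hp, coeff_map]
  simp

variable {Φ : A[X]} {Ψ : B[X]}

variable (Φ) in
/-- The polynomial satisfied by the second root over the algebra of the first one. -/
noncomputable def sndPoly : (AdjoinRoot Φ)[X] :=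
  divDiff (Φ.map (AdjoinRoot.of Φ)) (AdjoinRoot.root Φ)

variable (Φ) in
/-- Ordered pairs of roots of `Φ`. -/
abbrev Pairs : Type _ := AdjoinRoot (sndPoly Φ)

namespace Pairs

theorem monic_sndPoly (hΦ : Φ.Monic) (hd : 0 < Φ.natDegree) : (sndPoly Φ).Monic := by
  nontriviality (AdjoinRoot Φ)
  exact monic_divDiff (hΦ.map _) (by rwa [hΦ.natDegree_map]) _

theorem natDegree_sndPoly [Nontrivial (AdjoinRoot Φ)] (hΦ : Φ.Monic) (hd : 0 < Φ.natDegree) :
    (sndPoly Φ).natDegree = Φ.natDegree - 1 := by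
  rw [sndPoly, natDegree_divDiff (hΦ.map _) (by rwa [hΦ.natDegree_map]), hΦ.natDegree_map]

variable (Φ) in
/-- The structure map. -/
noncomputable def ofBase : A →+* Pairs Φ :=
  (AdjoinRoot.of (sndPoly Φ)).comp (AdjoinRoot.of Φ)

variable (Φ) in
/-- The first root. -/
noncomputable def fst : Pairs Φ :=
  AdjoinRoot.of (sndPoly Φ) (AdjoinRoot.root Φ)

variable (Φ) in
/-- The second root. -/
noncomputable def snd : Pairs Φ := AdjoinRoot.root (sndPoly Φ)

theorem eval₂_fst : Φ.eval₂ (ofBase Φ) (fst Φ) = 0 := by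
  rw [ofBase, fst, ← hom_eval₂, AdjoinRoot.eval₂_root, map_zero]

theorem divDiff_fst_eval_snd :
    (divDiff (Φ.map (ofBase Φ)) (fst Φ)).eval (snd Φ) = 0 := by
  have h := AdjoinRoot.eval₂_root (sndPoly Φ)
  rwa [← eval_map, sndPoly, map_divDiff, Polynomial.map_map] at h

theorem eval₂_snd : Φ.eval₂ (ofBase Φ) (snd Φ) = 0 := by
  have h := sub_mul_divDiff_eval (Φ.map (ofBase Φ)) (fst Φ) (snd Φ)
  rw [divDiff_fst_eval_snd, mul_zero, eval_map, eval_map, eval₂_fst, sub_zero] at h
  exact h.symm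

/-- Homomorphisms out of the algebra of pairs. -/
noncomputable def lift (i : A →+* C) (x z : C) (hx : Φ.eval₂ i x = 0)
    (hz : (divDiff (Φ.map i) x).eval z = 0) : Pairs Φ →+* C :=
  AdjoinRoot.lift (AdjoinRoot.lift i x hx) z (by
    rw [← eval_map, sndPoly, map_divDiff, Polynomial.map_map, AdjoinRoot.lift_comp_of,
      AdjoinRoot.lift_root, hz])

section Lift

variable (i : A →+* C) (x z : C) (hx : Φ.eval₂ i x = 0) (hz : (divDiff (Φ.map i) x).eval z = 0)

@[simp] theorem lift_ofBase (a : A) : lift i x z hx hz (ofBase Φ a) = i a := by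
  simp [lift, ofBase]

@[simp] theorem lift_comp_ofBase : (lift i x z hx hz).comp (ofBase Φ) = i :=
  RingHom.ext (lift_ofBase i x z hx hz)

@[simp] theorem lift_fst : lift i x z hx hz (fst Φ) = x := by simp [lift, fst]

@[simp] theorem lift_snd : lift i x z hx hz (snd Φ) = z := by simp [lift, snd]

end Lift

theorem ringHom_ext {f g : Pairs Φ →+* C} (h : f.comp (ofBase Φ) = g.comp (ofBase Φ))
    (hx : f (fst Φ) = g (fst Φ)) (hz : f (snd Φ) = g (snd Φ)) : f = g :=
  AdjoinRoot.ringHom_ext (AdjoinRoot.ringHom_ext h hx) hz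

/-- Two distinct roots in a domain give a homomorphism. -/
theorem divDiff_eval_eq_zero [IsDomain C] (i : A →+* C) {x z : C} (hne : x ≠ z)
    (hx : Φ.eval₂ i x = 0) (hz : Φ.eval₂ i z = 0) : (divDiff (Φ.map i) x).eval z = 0 := by
  have h := sub_mul_divDiff_eval (Φ.map i) x z
  rw [eval_map, eval_map, hx, hz, sub_zero] at h
  exact (mul_eq_zero.1 h).resolve_left (sub_ne_zero.2 hne.symm)

/-- Base change. -/
noncomputable def map (f : A →+* B) (h : Φ.map f = Ψ) : Pairs Φ →+* Pairs Ψ :=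
  lift ((ofBase Ψ).comp f) (fst Ψ) (snd Ψ)
    (by rw [← eval₂_map, h, eval₂_fst])
    (by rw [← Polynomial.map_map, h, divDiff_fst_eval_snd])

@[simp] theorem map_ofBase (f : A →+* B) (h : Φ.map f = Ψ) (a : A) :
    map f h (ofBase Φ a) = ofBase Ψ (f a) := by simp [map]

@[simp] theorem map_fst (f : A →+* B) (h : Φ.map f = Ψ) : map f h (fst Φ) = fst Ψ := by
  simp [map]

@[simp] theorem map_snd (f : A →+* B) (h : Φ.map f = Ψ) : map f h (snd Φ) = snd Ψ := by
  simp [map]

theorem map_map {D : Type*} [CommRing D] {Θ : D[X]} (f : A →+* B) (h : Φ.map f = Ψ)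
    (g : B →+* D) (h' : Ψ.map g = Θ) :
    (map g h').comp (map f h) = map (g.comp f) (by rw [← Polynomial.map_map, h, h']) := by
  refine ringHom_ext (RingHom.ext fun a => ?_) ?_ ?_ <;> simp

variable (Φ) in
/-- Exchange of the two roots. -/
noncomputable def swap : Pairs Φ →+* Pairs Φ :=
  lift (ofBase Φ) (snd Φ) (fst Φ) eval₂_snd
    (by rw [divDiff_eval_comm, divDiff_fst_eval_snd])

@[simp] theorem swap_ofBase (a : A) : swap Φ (ofBase Φ a) = ofBase Φ a := by simp [swap]

@[simp] theorem swap_fst : swap Φ (fst Φ) = snd Φ := by simp [swap]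

@[simp] theorem swap_snd : swap Φ (snd Φ) = fst Φ := by simp [swap]

@[simp] theorem swap_swap (y : Pairs Φ) : swap Φ (swap Φ y) = y := by
  have : (swap Φ).comp (swap Φ) = RingHom.id _ := by
    refine ringHom_ext (RingHom.ext fun a => ?_) ?_ ?_ <;> simp
  exact RingHom.congr_fun this y

theorem map_swap (f : A →+* B) (h : Φ.map f = Ψ) (y : Pairs Φ) :
    map f h (swap Φ y) = swap Ψ (map f h y) := by
  have : (map f h).comp (swap Φ) = (swap Ψ).comp (map f h) := by
    refine ringHom_ext (RingHom.ext fun a => ?_) ?_ ?_ <;> simp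
  exact RingHom.congr_fun this y

variable (Φ) in
/-- The norm to the first root. -/
noncomputable def normFst : Pairs Φ →* AdjoinRoot Φ := Algebra.norm (AdjoinRoot Φ)

variable (Φ) in
/-- The norm to the second root, seen in the algebra of one root. -/
noncomputable def normSnd : Pairs Φ →* AdjoinRoot Φ :=
  (normFst Φ).comp (swap Φ).toMonoidHom

theorem map_eq_adjoinRootMap (f : A →+* B) (h : Φ.map f = Ψ) :
    ∃ h' : (sndPoly Φ).map (AdjoinRoot.map f Φ Ψ h.symm.dvd) = sndPoly Ψ,
      map f h = AdjoinRoot.map _ _ _ h'.symm.dvd := by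
  have e : (AdjoinRoot.map f Φ Ψ h.symm.dvd).comp (AdjoinRoot.of Φ) =
      (AdjoinRoot.of Ψ).comp f := RingHom.ext fun a => AdjoinRoot.map_of f Φ Ψ h.symm.dvd a
  refine ⟨?_, ?_⟩
  · rw [sndPoly, map_divDiff, Polynomial.map_map, e, AdjoinRoot.map_root, ← Polynomial.map_map,
      h, sndPoly]
  · refine ringHom_ext (RingHom.ext fun a => ?_) ?_ ?_ <;> simp [map, lift, ofBase, fst, snd]

theorem normFst_map (hΦ : Φ.Monic) (hd : 0 < Φ.natDegree) (f : A →+* B) (h : Φ.map f = Ψ)
    (y : Pairs Φ) :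
    normFst Ψ (map f h y) = AdjoinRoot.map f Φ Ψ h.symm.dvd (normFst Φ y) := by
  obtain ⟨h', e⟩ := map_eq_adjoinRootMap f h
  rw [e]
  exact norm_adjoinRoot_map (monic_sndPoly hΦ hd) _ h' y

theorem normSnd_map (hΦ : Φ.Monic) (hd : 0 < Φ.natDegree) (f : A →+* B) (h : Φ.map f = Ψ)
    (y : Pairs Φ) :
    normSnd Ψ (map f h y) = AdjoinRoot.map f Φ Ψ h.symm.dvd (normSnd Φ y) := by
  show normFst Ψ (swap Ψ (map f h y)) = _
  rw [← map_swap, normFst_map hΦ hd]
  rfl

end Pairs

end FLTA.Carayol
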