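import Fermat.Agent.Carayol.PointsDefs
import Fermat.Agent.Carayol.SSRoot
import Fermat.Agent.Carayol.OrdinaryRoot
import Fermat.Agent.Carayol.OrdOfModEq
import Fermat.Agent.Carayol.SeriesRing

/-!
# The modular equation in a regular local algebra over the line

At an ordinary residue the modular equation has a rational root and three regular branches, at
a supersingular residue the algebra of pairs is a regular local ring; in both cases an element
with horizontal multiplicities divisible by `n` which is an `n`-th power over the completion at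
the vertical prime is an `n`-th power.
-/

set_option autoImplicit false
set_option linter.style.haveILetI false

noncomputable section

open Polynomial IsLocalRing

namespace FLTA.Carayol

section

variable {R : Type} [CommRing R] [IsLocalRing R] [IsDomain R] [IsNoetherianRing R]
  [IsAdicComplete (maximalIdeal R) R] {K : Type} [Field K] [CharZero K] [Algebra R K]
  [IsFractionRing R K] {q L : ℕ} [hqf : Fact q.Prime] [NeZero L] {Φ H : ℤ[X][X]}

omit [IsAdicComplete (maximalIdeal R) R] [IsNoetherianRing R] [CharZero K] in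
theorem IsSSPoint.isFractionRing_pairs (hR : IsReg2 R) {Φ : R[X]} {a : R} (h : IsSSPoint Φ a) :
    letI := (Pairs.map (Φ := Φ) (algebraMap R K) rfl).toAlgebra
    letI : Field (Pairs (Φ.map (algebraMap R K))) := (h.isField_pairs hR).toField
    IsFractionRing (Pairs Φ) (Pairs (Φ.map (algebraMap R K))) := by
  letI : Field (Pairs (Φ.map (algebraMap R K))) := (h.isField_pairs hR).toField
  letI : Algebra (Pairs Φ) (Pairs (Φ.map (algebraMap R K))) :=
    (Pairs.map (algebraMap R K) rfl).toAlgebra
  have hinj : Function.Injective (Pairs.map (Φ := Φ) (algebraMap R K) rfl) := h.map_injective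
  have : FaithfulSMul (Pairs Φ) (Pairs (Φ.map (algebraMap R K))) :=
    (faithfulSMul_iff_algebraMap_injective _ _).2 hinj
  refine IsFractionRing.of_field _ _ fun z => ?_
  obtain ⟨r, w, hr, hw⟩ := Pairs.exists_mul_eq_map z
  refine ⟨w, Pairs.ofBase Φ r, ?_⟩
  rw [RingHom.algebraMap_toAlgebra, ← hw, Pairs.map_ofBase, mul_div_cancel_left₀]
  exact (_root_.map_ne_zero _).2 ((map_ne_zero_iff _ (IsFractionRing.injective R K)).2 hr)

/-- The point is supersingular. -/
theorem isSSPoint_kronecker (hq : q.Prime) (g : ℤ[X] →+* R)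
    (hH : Φ = (X ^ q - C X) * (X - C (X ^ q)) + (q : ℤ[X][X]) * H)
    (hdeg : Φ.natDegree = q + 1) (hmon : Φ.Monic) (hq0 : (q : R) ∈ maximalIdeal R)
    (hgen : maximalIdeal R = Ideal.span {(q : R), g X ^ (q * q) - g X})
    (hu : IsUnit ((H.map g).eval (g X ^ q))) :
    IsSSPoint (Φ.map g) (g X ^ q) := by
  have e : Φ.map g = (X ^ q - C (g X)) * (X - C (g X ^ q)) + C (q : R) * H.map g := by
    rw [hH]; simp
  have hd : (Φ.map g).natDegree = q + 1 := by rw [hmon.natDegree_map, hdeg]
  refine ⟨hmon.map g, by rw [hd]; have := hq.two_le; omega, fun i hi => ?_, ?_⟩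
  · rw [← residue_eq_zero_iff, ← coeff_map, Polynomial.map_comp, Polynomial.map_add, map_X, map_C]
    have : CharP (ResidueField R) q := (CharP.charP_iff_prime_eq_zero hq).2 (by
      rw [← map_natCast (residue R), residue_eq_zero_iff]; exact hq0)
    have := Fact.mk hq
    set τ := residue R (g X)
    have hτ : τ ^ (q * q) = τ := by
      have : g X ^ (q * q) - g X ∈ maximalIdeal R := hgen ▸ Ideal.subset_span (by simp)
      rw [← residue_eq_zero_iff, map_sub, map_pow, sub_eq_zero] at this
      exact this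
    have : ((Φ.map g).map (residue R)).comp (X + C (residue R (g X ^ q))) = X ^ (q + 1) := by
      rw [e]
      simp only [Polynomial.map_add, Polynomial.map_mul, Polynomial.map_sub, Polynomial.map_pow,
        map_X, map_C, map_natCast, Polynomial.map_natCast, CharP.cast_eq_zero, map_zero, zero_mul,
        add_zero, map_pow, mul_comp, sub_comp, pow_comp, X_comp, C_comp]
      rw [add_pow_char, ← pow_mul, ← map_pow C τ (q * q), hτ, add_sub_cancel_right, add_sub_cancel_right,
        pow_succ]
    rw [this, coeff_X_pow, if_neg (by omega)]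
  · obtain ⟨u, hu⟩ := hu
    have e1 : (Φ.map g).eval (g X ^ q) = (q : R) * u := by
      rw [e, hu]; simp
    obtain ⟨c, hc⟩ : ∃ c, (Φ.map g).derivative.eval (g X ^ q) =
        g X ^ (q * q) - g X + (q : R) * c := by
      refine ⟨(H.map g).derivative.eval (g X ^ q), ?_⟩
      rw [e]
      simp [← pow_mul, derivative_pow]
    rw [e1, hc, hgen]
    refine le_antisymm ?_ ?_ <;> rw [Ideal.span_le, Set.insert_subset_iff, Set.singleton_subset_iff]
    · refine ⟨Ideal.mem_span_pair.2 ⟨↑u⁻¹, 0, ?_⟩, Ideal.mem_span_pair.2 ⟨-(c * ↑u⁻¹), 1, ?_⟩⟩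
      · rw [mul_comm (q : R) u, ← mul_assoc, Units.inv_mul]; ring
      · linear_combination (-(c * (q : R))) * u.inv_mul
    · exact ⟨Ideal.mem_span_pair.2 ⟨u, 0, by ring⟩, Ideal.mem_span_pair.2 ⟨c, 1, by ring⟩⟩

/-- The root at a residue of the line off the cusps. -/
theorem localRoot_of_isModEq (hR : IsReg2 R) (hL : Haupt.IsHauptLevel L) (hqL : ¬ q ∣ L)
    (hΦ : Haupt.IsModEq q L Φ) (g : Haupt.TRing L →+* R)
    (hinj : Function.Injective ((algebraMap R K).comp (g.comp (Haupt.toT L))))
    {T : R} (hT : g (Haupt.toT L X) = T)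
    (hord : ∃ a : R, maximalIdeal R = Ideal.span {(q : R), T - a ^ q})
    (hss : T ^ (q * q) - T ∈ maximalIdeal R →
      maximalIdeal R = Ideal.span {(q : R), T ^ (q * q) - T})
    {n : ℕ} (hn : IsUnit (n : R)) (hk : ∀ c : ResidueField R, c ≠ 0 → ∃ d, d ^ n = c)
    (π : R) [Fact (Prime π)] (hπ : π = (q : R))
    {M : Type} [Field M] [Algebra (HatAt π) M] [IsFractionRing (HatAt π) M]
    (j : K →+* M) (hj : j.comp (algebraMap R K) = (algebraMap (HatAt π) M).comp (toHat π))
    {ζ : K} (hζ : IsPrimitiveRoot ζ n) {Ψ : K[X]}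
    (hΨ : Φ.map ((algebraMap R K).comp (g.comp (Haupt.toT L))) = Ψ)
    (y : Pairs Ψ) (hy : IsUnit y)
    (hdiv : ∀ (F : Type) [Field F] (ψ : Pairs Ψ →+* F)
      (v : Valuation F (WithZero (Multiplicative ℤ))),
      (∀ r : R, IsUnit r → v (ψ (Pairs.ofBase Ψ (algebraMap R K r))) = 1) →
      v (ψ (Pairs.ofBase Ψ (algebraMap R K (q : R)))) = 1 → ∃ z, v (ψ y) = z ^ n)
    (hloc : ∃ Y, Y ^ n = Pairs.map (Φ := Ψ) j rfl y) :
    LocalRoot Ψ n y := by
  subst hπ
  have hq := hqf.out
  have hqR : Prime (q : R) := Fact.out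
  have hqm : (q : R) ∈ maximalIdeal R := (mem_maximalIdeal _).2 hqR.not_isUnit
  set f : ℤ[X] →+* R := g.comp (Haupt.toT L) with hf
  rw [← Polynomial.map_map] at hΨ
  subst hΨ
  obtain ⟨H, hH⟩ := hΦ.exists_kronecker hL hqL
  obtain ⟨χ, ρ, hχm, -, hchar, hχmod, hkey⟩ := hΦ.exists_vPoly hL hqL hH
  obtain ⟨hsep, hcp⟩ := hchar K ((algebraMap R K).comp g) hinj
  have hfX : f X = T := hT
  by_cases hρ : IsUnit (g ρ)
  · -- ordinary
    obtain ⟨a, ha⟩ := hord
    have hfinj : Function.Injective f := Function.Injective.of_comp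
      (f := algebraMap R K) (by rw [← RingHom.coe_comp]; exact hinj)
    subst hfX
    have hOrd : IsOrd K q (Φ.map f) ((Haupt.innerDeriv Φ).map f) (χ.map g) (f X) (g ρ) :=
      IsModEq.isOrd_spec hΦ hH hχm (fun K => by intro _ _ f' hf'; exact hchar K f' hf') hχmod g
        hfinj hqR (not_dvd_pow_sub_of_gen hR hq ha) hρ
    have : UniqueFactorizationMonoid R := hR.uniqueFactorizationMonoid
    have : HenselianLocalRing R := ⟨fun p hp a₀ h₁ h₂ =>
      HenselianRing.is_henselian (I := maximalIdeal R) p hp a₀ h₁ (h₂.map _)⟩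
    obtain ⟨s, -, -, -, -, -, -, -⟩ := hOrd.exists_rootSplit
    obtain ⟨Y, hY⟩ := hloc
    obtain ⟨G, hG, -⟩ := hOrd.exists_root hR ha hn hk j hj hζ y hy hdiv Y hY
    exact ⟨Or.inr ⟨_, (s.map (algebraMap R K)).eval_x₀⟩, G, hG⟩
  · -- supersingular
    have hρ0 : residue R (g ρ) = 0 := by rwa [residue_eq_zero_iff, mem_maximalIdeal]
    have : CharP (ResidueField R) q := (CharP.charP_iff_prime_eq_zero hq).2 (by
      rw [← map_natCast (residue R), residue_eq_zero_iff]; exact hqm)
    obtain ⟨hτ, -⟩ := hkey _ ((residue R).comp g) hρ0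
    obtain ⟨-, hH0⟩ := hkey _ ((frobenius (ResidueField R) q).comp ((residue R).comp g))
      (by rw [RingHom.comp_apply, RingHom.comp_apply, hρ0, map_zero])
    simp only [RingHom.comp_apply, hT, frobenius_def] at hτ hH0
    rw [← pow_mul, hτ] at hH0
    have hgen := hss (by rw [← residue_eq_zero_iff, map_sub, map_pow, hτ, sub_self])
    have hu : IsUnit ((H.map f).eval (f X ^ q)) := by
      rw [← notMem_maximalIdeal, ← residue_eq_zero_iff]
      rw [eval_map, hom_eval₂, map_pow, hfX]
      have e : (residue R).comp f = (aeval (residue R T)).toRingHom :=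
        Polynomial.ringHom_ext (fun a => by simp) (by simp [hfX])
      rw [e]
      exact hH0
    have h := isSSPoint_kronecker hq f hH hΦ.natDegree hΦ.monic hqm (by rwa [hfX]) hu
    refine ⟨Or.inl (h.isDomain_adjoinRoot hR), ?_⟩
    have := h.isLocalRing_pairs hR
    have hreg := h.isReg2_pairs hR
    have := hreg.isDomain
    have := hreg.isNoetherian
    letI : Algebra (Pairs (Φ.map f)) (Pairs ((Φ.map f).map (algebraMap R K))) :=
      (Pairs.map (algebraMap R K) rfl).toAlgebra
    letI : Field (Pairs ((Φ.map f).map (algebraMap R K))) := (h.isField_pairs hR).toField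
    have := h.isFractionRing_pairs (K := K) hR
    refine h.exists_root (π := (q : R)) hR hn hk hqm (hR.not_mem_sq_of_gen hgen) j hj hy.ne_zero
      (fun p hp hpq u v hv huv => ?_) hloc
    have hu0 : u ≠ 0 := by
      rintro rfl
      rw [map_zero] at huv
      exact mul_ne_zero hy.ne_zero ((map_ne_zero_iff _ h.map_injective).2 hv) huv
    obtain ⟨z, a, b, ha, hb, hab⟩ :=
      exists_local_rep_of_valuation (O := Pairs (Φ.map f))
        (KO := Pairs ((Φ.map f).map (algebraMap R K))) hy.ne_zero hp (n := n)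
        fun F _ ψ w hw => by
          have h1 : ∀ r : R, ¬ p ∣ Pairs.ofBase (Φ.map f) r →
              w (ψ (Pairs.ofBase _ (algebraMap R K r))) = 1 := fun r hr => by
            rw [← Pairs.map_ofBase (algebraMap R K) rfl r]
            exact hw _ hr
          exact hdiv F ψ w
            (fun r hr => h1 r fun h2 => hp.not_isUnit (isUnit_of_dvd_unit h2 (hr.map _))) (h1 _ hpq)
    exact dvd_multiplicity_sub_of_rep hp hu0 hv huv hab ha hb

end

end FLTA.Carayol
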