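import Fermat.Agent.Carayol.MatchCompare
import Fermat.Agent.GaloisReps.Attach
import Fermat.Agent.GaloisReps.EigenChar
import Fermat.Agent.Periods.HomForm
import Fermat.Agent.RepTheory.DVRExtension
import Fermat.Prelude.Def_CuspForm_Newforms

/-!
# The good eigensystem of a newform does not occur below, in integral form

If the eigenvalues `a_ℓ` (outside a finite set) of a newform of level `M` occur at no proper
divisor `M'`, then some nonzero integer lies in the ideal of the Hecke algebra of level `M'`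
generated by the integral relations among the `a_ℓ`.
-/

set_option autoImplicit false

open Polynomial ModularFormClass

namespace FLTA.Carayol

/-- A ring map out of an integral domain over `ℤ` into a ring of characteristic zero is
injective. -/
theorem injective_of_integral_domain {A B : Type*} [CommRing A] [IsDomain A]
    [Algebra.IsIntegral ℤ A] [CommRing B] [IsDomain B] [CharZero B] (f : A →+* B) :
    Function.Injective f :=
  RepTheory.algHom_injective_of_integral_domain f.toIntAlgHom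
    (by rw [algebraMap_int_eq]; exact Int.cast_injective)

/-- If no character of the finite ring `R` takes the values `a` at the `t i`, then the relations
among the `a i` generate an ideal of `R` containing a positive integer. -/
theorem exists_natCast_mem_map_ker {ι R : Type*} [CommRing R] [Module.Finite ℤ R] (t : ι → R)
    (a : ι → ℂ) (hint : ∀ i, IsIntegral ℤ (a i))
    (hocc : ∀ Θ : R →+* ℂ, ¬ ∀ i, Θ (t i) = a i) :
    ∃ c : ℕ, c ≠ 0 ∧ (c : R) ∈
      (RingHom.ker (MvPolynomial.aeval (R := ℤ) a)).map (MvPolynomial.aeval (R := ℤ) t) := by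
  set J := (RingHom.ker (MvPolynomial.aeval (R := ℤ) a)).map (MvPolynomial.aeval (R := ℤ) t)
  by_contra hc
  have hdisj : Disjoint (J : Set R) ((nonZeroDivisors ℤ).map (Int.castRingHom R) : Set R) := by
    rw [Set.disjoint_left]
    rintro _ hz ⟨z, hz0, rfl⟩
    refine hc ⟨z.natAbs, Int.natAbs_ne_zero.mpr (nonZeroDivisors.ne_zero hz0), ?_⟩
    rcases Int.natAbs_eq z with h | h
    · rw [h] at hz; simpa using hz
    · rw [h] at hz; simpa using hz
  obtain ⟨P, hP, hJP, hPd⟩ := Ideal.exists_le_prime_disjoint _ _ hdisj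
  have hinj : Function.Injective (Int.castRingHom (R ⧸ P)) := by
    refine (injective_iff_map_eq_zero _).mpr fun z hz => by_contra fun hz0 => ?_
    rw [eq_intCast, ← map_intCast (Ideal.Quotient.mk P) z] at hz
    exact Set.disjoint_left.mp hPd (Ideal.Quotient.eq_zero_iff_mem.mp hz)
      ⟨z, mem_nonZeroDivisors_of_ne_zero hz0, rfl⟩
  have hfin : Module.Finite ℤ (R ⧸ P) :=
    Module.Finite.of_surjective (Ideal.Quotient.mkₐ ℤ P).toLinearMap Ideal.Quotient.mk_surjective
  obtain ⟨θ, -⟩ := RepTheory.exists_extend_of_integral (Int.castRingHom (R ⧸ P)) hinj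
    (algebraMap_isIntegral_iff.mpr (Algebra.IsIntegral.of_finite ℤ (R ⧸ P)))
    (Int.castRingHom ℂ) Int.cast_injective
  let Θ : R →ₐ[ℤ] ℂ := (θ.comp (Ideal.Quotient.mk P)).toIntAlgHom
  let Ra : Subalgebra ℤ ℂ := (MvPolynomial.aeval (R := ℤ) a).range
  let RT : Subalgebra ℤ ℂ := Θ.range
  have hΘker : ∀ F, MvPolynomial.aeval (R := ℤ) a F = 0 →
      MvPolynomial.aeval (R := ℤ) (fun i => Θ (t i)) F = 0 := by
    intro F hF
    have hmem : MvPolynomial.aeval (R := ℤ) t F ∈ P := hJP (Ideal.mem_map_of_mem _ hF)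
    rw [← MvPolynomial.comp_aeval_apply]
    show θ (Ideal.Quotient.mk P (MvPolynomial.aeval (R := ℤ) t F)) = 0
    rw [Ideal.Quotient.eq_zero_iff_mem.mpr hmem, _root_.map_zero]
  have : Algebra.IsIntegral ℤ Ra := by
    refine ⟨fun x => ?_⟩
    obtain ⟨F, hF⟩ := x.2
    refine (isIntegral_algHom_iff Ra.val Subtype.val_injective).mp ?_
    show IsIntegral ℤ (x : ℂ)
    rw [← hF]
    show IsIntegral ℤ (MvPolynomial.aeval (R := ℤ) a F)
    clear hF
    induction F using MvPolynomial.induction_on with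
    | C r => rw [MvPolynomial.aeval_C]; exact isIntegral_algebraMap
    | add p q hp hq =>
      rw [map_add]
      exact (show IsIntegral ℤ (MvPolynomial.aeval (R := ℤ) a p) from hp).add hq
    | mul_X p i hp =>
      rw [map_mul, MvPolynomial.aeval_X]
      exact (show IsIntegral ℤ (MvPolynomial.aeval (R := ℤ) a p) from hp).mul (hint i)
  have : Algebra.IsIntegral ℤ RT := by
    have : Module.Finite ℤ RT := Module.Finite.of_surjective Θ.rangeRestrict.toLinearMap
      Θ.rangeRestrict_surjective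
    exact Algebra.IsIntegral.of_finite ℤ RT
  let evT : MvPolynomial ι ℤ →+* RT :=
    (MvPolynomial.aeval (R := ℤ) fun i => Θ.rangeRestrict (t i)).toRingHom
  let eva : MvPolynomial ι ℤ →+* Ra := (MvPolynomial.aeval (R := ℤ) a).rangeRestrict.toRingHom
  have hevT : ∀ F, ((evT F : RT) : ℂ) = MvPolynomial.aeval (R := ℤ) (fun i => Θ (t i)) F := by
    intro F
    exact MvPolynomial.comp_aeval_apply _ RT.val F
  obtain ⟨σ, hσ⟩ : ∃ σ : Ra →+* RT, σ.comp eva = evT := by
    have hs : Function.Surjective eva := (MvPolynomial.aeval (R := ℤ) a).rangeRestrict_surjective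
    refine ⟨RingHom.liftOfSurjective eva hs ⟨evT, fun F hF => ?_⟩,
      RingHom.liftOfSurjective_comp eva hs ⟨evT, _⟩⟩
    refine Subtype.ext ?_
    show ((evT F : RT) : ℂ) = 0
    rw [hevT]
    exact hΘker F (congrArg Subtype.val hF)
  obtain ⟨g, hg⟩ := RepTheory.exists_extend_of_integral σ (injective_of_integral_domain σ)
    (RingHom.IsIntegral.tower_top (algebraMap ℤ Ra) σ (by
      rw [RingHom.ext_int (σ.comp (algebraMap ℤ Ra)) (algebraMap ℤ RT)]
      exact algebraMap_isIntegral_iff.mpr inferInstance))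
    Ra.val.toRingHom Subtype.val_injective
  refine hocc (g.comp Θ.rangeRestrict.toRingHom) fun i => ?_
  have h1 : σ (eva (MvPolynomial.X i)) = evT (MvPolynomial.X i) := RingHom.congr_fun hσ _
  have h2 : evT (MvPolynomial.X i) = Θ.rangeRestrict (t i) := MvPolynomial.aeval_X _ _
  show g (Θ.rangeRestrict (t i)) = a i
  rw [← h2, ← h1, ← RingHom.comp_apply g σ, hg]
  exact MvPolynomial.aeval_X _ _

variable {M M' : ℕ} [NeZero M] [NeZero M'] {g : CuspForm (CongruenceSubgroup.Gamma0 M) 2}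
  {g' : CuspForm (CongruenceSubgroup.Gamma0 M') 2}

/-- Eigenforms with the same eigenvalues at almost all primes have the same eigenvalues at every
prime not dividing the levels. -/
theorem qCoeff_eq_of_eq_outside (hg : g.IsNormalizedEigenform) (hg' : g'.IsNormalizedEigenform)
    (S : Finset ℕ) (h : ∀ ℓ : ℕ, ℓ.Prime → ℓ ∉ S → qCoeff g ℓ = qCoeff g' ℓ)
    {ℓ : ℕ} (hℓ : ℓ.Prime) (hℓM : ¬ ℓ ∣ M) (hℓM' : ¬ ℓ ∣ M') : qCoeff g ℓ = qCoeff g' ℓ := by
  classical
  obtain ⟨p, hp, hne⟩ : ∃ p : ℕ, p.Prime ∧ ℓ ≠ p := by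
    by_cases h2 : ℓ = 2
    · exact ⟨3, Nat.prime_three, by omega⟩
    · exact ⟨2, Nat.prime_two, h2⟩
  have : Fact p.Prime := ⟨hp⟩
  have := GaloisReps.module_finite_fullHecke M
  have := GaloisReps.module_finite_fullHecke M'
  let Λ : GaloisReps.FullHecke M →ₐ[ℤ] ℂ := (GaloisReps.eigenCharC hg).toIntAlgHom
  let Λ' : GaloisReps.FullHecke M' →ₐ[ℤ] ℂ := (GaloisReps.eigenCharC hg').toIntAlgHom
  have : Module.Finite ℤ Λ.range :=
    Module.Finite.of_surjective Λ.rangeRestrict.toLinearMap Λ.rangeRestrict_surjective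
  have : Module.Finite ℤ Λ'.range :=
    Module.Finite.of_surjective Λ'.rangeRestrict.toLinearMap Λ'.rangeRestrict_surjective
  let R : Subalgebra ℤ ℂ := Λ.range ⊔ Λ'.range
  have : Module.Finite ℤ R := Subalgebra.finite_sup _ _
  have : Algebra.IsIntegral ℤ R := Algebra.IsIntegral.of_finite ℤ R
  obtain ⟨E, ψ, -⟩ := RepTheory.exists_ext_character ℤ_[p] (R₀ := ℤ) (R := R) (Int.castRingHom R)
    (fun x y hxy => Int.cast_injective (α := ℂ) (by simpa using congrArg Subtype.val hxy))
    (Int.castRingHom ℤ_[p])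
  have hψ : Function.Injective ψ := injective_of_integral_domain ψ
  have hpE : (p : E.R) ∈ IsLocalRing.maximalIdeal E.R := by
    rw [← map_natCast (algebraMap ℤ_[p] E.R), IsLocalRing.mem_maximalIdeal, mem_nonunits_iff,
      isUnit_map_iff]
    exact PadicInt.p_nonunit
  let χ : GaloisReps.FullHecke M →+* E.R :=
    ψ.comp ((Subalgebra.inclusion le_sup_left).toRingHom.comp Λ.rangeRestrict.toRingHom)
  let χ' : GaloisReps.FullHecke M' →+* E.R :=
    ψ.comp ((Subalgebra.inclusion le_sup_right).toRingHom.comp Λ'.rangeRestrict.toRingHom)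
  obtain ⟨ρ, hρ, -, -⟩ := GaloisReps.exists_galoisRepAdic_attached hpE χ
  obtain ⟨ρ', hρ', -, -⟩ := GaloisReps.exists_galoisRepAdic_attached hpE χ'
  have heq := adic_charpoly_eq_of_frobenius ρ ρ'
    (insert p (S ∪ M.primeFactors ∪ M'.primeFactors)) fun r hr hrS A hA τ hτ => by
      simp only [Finset.mem_insert, Finset.mem_union, Nat.mem_primeFactors, hr, true_and, not_or,
        not_and, not_not] at hrS
      obtain ⟨hrp, ⟨hrS, hrM⟩, hrM'⟩ := hrS
      have h1 : ¬ r ∣ M := fun hd => NeZero.ne M (hrM hd)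
      have h2 : ¬ r ∣ M' := fun hd => NeZero.ne M' (hrM' hd)
      rw [hρ r hr h1 hrp A hA τ hτ, hρ' r hr h2 hrp A hA τ hτ]
      have e : χ (CuspForm.heckeAlgebra.T hr h1 (Set.notMem_empty r)) =
          χ' (CuspForm.heckeAlgebra.T hr h2 (Set.notMem_empty r)) := by
        refine congrArg ψ (Subtype.ext ?_)
        exact (GaloisReps.eigenCharC_T hg hr h1 _).trans
          ((h r hr hrS).trans (GaloisReps.eigenCharC_T hg' hr h2 _).symm)
      rw [e]
  obtain ⟨A, hA⟩ := Galois.exists_liesOverPrime hℓ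
  obtain ⟨τ, hτ⟩ := Galois.exists_isFrobeniusAt hℓ hA
  have e := heq τ
  rw [hρ ℓ hℓ hℓM hne A hA τ hτ, hρ' ℓ hℓ hℓM' hne A hA τ hτ] at e
  have e1 := congrArg (fun f => Polynomial.coeff f 1) e
  simp only [coeff_add, coeff_sub, coeff_X_pow, coeff_C_mul, coeff_X_one, coeff_C, one_ne_zero,
    if_false, mul_one, OfNat.one_ne_ofNat, zero_sub, add_zero, neg_inj] at e1
  have e2 := congrArg Subtype.val (hψ e1)
  exact (GaloisReps.eigenCharC_T hg hℓ hℓM _).symm.trans
    (e2.trans (GaloisReps.eigenCharC_T hg' hℓ hℓM' _))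

/-- The good eigensystem of a newform occurs at no proper divisor of the level, even away from a
finite set of primes. -/
theorem not_exists_char_of_isNewform (hg : g.IsNewform) (hMM : M' ∣ M) (hne : M' ≠ M)
    (S : Finset ℕ) (Θ : GaloisReps.FullHecke M' →+* ℂ) :
    ¬ ∀ (ℓ : ℕ) (hℓ : ℓ.Prime) (hℓM' : ¬ ℓ ∣ M'), ℓ ∉ S →
      Θ (CuspForm.heckeAlgebra.T hℓ hℓM' (Set.notMem_empty ℓ)) = qCoeff g ℓ := by
  classical
  intro h
  have hg' := Periods.isNormalizedEigenform_formOfHom M' Θ
  have hcoef : ∀ (ℓ : ℕ) (hℓ : ℓ.Prime) (hℓM' : ¬ ℓ ∣ M'),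
      qCoeff (Periods.formOfHom M' Θ) ℓ =
        Θ (CuspForm.heckeAlgebra.T hℓ hℓM' (Set.notMem_empty ℓ)) := by
    intro ℓ hℓ hℓM'
    rw [← Periods.qCoeff_one_hecke_formOfHom, CuspForm.heckeAlgebra.coe_T, Periods.qCoeff_heckeTLin,
      if_neg hℓ.not_dvd_one, one_mul, add_zero]
  refine hg.2 M' hMM hne ⟨_, hg', fun ℓ hℓ hℓM => ?_⟩
  refine (qCoeff_eq_of_eq_outside hg.1 hg' (S ∪ M'.primeFactors) (fun r hr hrS => ?_) hℓ hℓM
    fun hd => hℓM (hd.trans hMM)).symm
  simp only [Finset.mem_union, Nat.mem_primeFactors, hr, true_and, not_or, not_and, not_not] at hrS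
  have hrM' : ¬ r ∣ M' := fun hd => NeZero.ne M' (hrS.2 hd)
  rw [hcoef r hr hrM', h r hr hrM' hrS.1]

end FLTA.Carayol
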