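import Fermat.Agent.GaloisReps.Plane
import Fermat.Agent.GaloisReps.DetTrick
import Fermat.Agent.RepTheory.Basic
import Fermat.Prelude.Def_GaloisRep_LocalConditions

/-!
# The eigenplane lattice, and vectors fixed by unipotent inertia

`planeRep D hp χ` is the Galois lattice cut out of `O^r` by the Hecke character `χ`. If inertia
acts unipotently on it, some nonzero vector with coordinates in `ℤ_[p]` is fixed by inertia and
killed by the relations of `χ`.
-/

set_option autoImplicit false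

noncomputable section

open scoped Matrix
open Polynomial

namespace FLTA.Carayol

section TwoByTwo

variable {R : Type*} [CommRing R] [IsDomain R]

/-- Trace zero nilpotents of size two whose product has trace zero multiply to zero. -/
theorem mul_eq_zero_of_trace_mul (N L : Matrix (Fin 2) (Fin 2) R) (hN : N.trace = 0)
    (hN' : N.det = 0) (hL : L.trace = 0) (hL' : L.det = 0) (hNL : (N * L).trace = 0) :
    L * N = 0 := by
  rw [Matrix.trace_fin_two] at hN hL
  rw [Matrix.det_fin_two, eq_neg_of_add_eq_zero_right hN] at hN'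
  rw [Matrix.det_fin_two, eq_neg_of_add_eq_zero_right hL] at hL'
  simp only [Matrix.trace_fin_two, Matrix.mul_apply, Fin.sum_univ_two,
    eq_neg_of_add_eq_zero_right hN, eq_neg_of_add_eq_zero_right hL] at hNL
  set a := N 0 0
  set b := N 0 1
  set c := N 1 0
  set e := L 0 0
  set f := L 0 1
  set g := L 1 0
  have h1 : e * a + f * c = 0 := mul_self_eq_zero.mp (by
    linear_combination -a ^ 2 * hL' + f * g * hN' + f * c * hNL)
  have h2 : e * b - f * a = 0 := mul_self_eq_zero.mp (by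
    linear_combination -b ^ 2 * hL' - f ^ 2 * hN' - f * b * hNL)
  have h3 : g * a - e * c = 0 := mul_self_eq_zero.mp (by
    linear_combination -g ^ 2 * hN' - c ^ 2 * hL' - g * c * hNL)
  have h4 : g * b + e * a = 0 := mul_self_eq_zero.mp (by
    linear_combination -a ^ 2 * hL' + f * g * hN' + g * b * hNL)
  ext i j
  fin_cases i <;> fin_cases j <;>
    simp [Matrix.mul_apply, Fin.sum_univ_two, eq_neg_of_add_eq_zero_right hN,
      eq_neg_of_add_eq_zero_right hL]
  · linear_combination h1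
  · linear_combination h2
  · linear_combination h3
  · linear_combination h4

/-- A group of unipotent two by two matrices has a common fixed vector. -/
theorem exists_fixed_of_unipotent {G : Type*} [Monoid G] (φ : G →* Matrix (Fin 2) (Fin 2) R)
    (H : Submonoid G) (ht : ∀ h ∈ H, (φ h).trace = 2) (hd : ∀ h ∈ H, (φ h).det = 1) :
    ∃ w : Fin 2 → R, w ≠ 0 ∧ ∀ h ∈ H, φ h *ᵥ w = w := by
  by_cases hall : ∀ h ∈ H, φ h = 1
  · exact ⟨![1, 0], fun h => one_ne_zero (congrFun h 0), fun h hh => by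
      rw [hall h hh, Matrix.one_mulVec]⟩
  obtain ⟨h₀, hH₀, hne⟩ : ∃ h ∈ H, φ h ≠ 1 := by simpa using hall
  have htr : ∀ h ∈ H, (φ h - 1).trace = 0 := fun h hh => by
    rw [Matrix.trace_sub, ht h hh, Matrix.trace_one, Fintype.card_fin, Nat.cast_ofNat, sub_self]
  have hdet : ∀ h ∈ H, (φ h - 1).det = 0 := fun h hh => by
    have h1 := ht h hh
    have h2 := hd h hh
    rw [Matrix.trace_fin_two] at h1
    rw [Matrix.det_fin_two] at h2
    simp [Matrix.det_fin_two]
    linear_combination h2 - h1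
  obtain ⟨j, hj⟩ : ∃ j, (φ h₀ - 1) *ᵥ Pi.single j 1 ≠ 0 := by
    by_contra! h
    refine sub_ne_zero.mpr hne (Matrix.ext fun i j => ?_)
    simpa using congrFun (h j) i
  refine ⟨_, hj, fun h hh => ?_⟩
  have hprod : ((φ h₀ - 1) * (φ h - 1)).trace = 0 := by
    have e : (φ h₀ - 1) * (φ h - 1) = φ (h₀ * h) - φ h₀ - φ h + 1 := by rw [map_mul]; noncomm_ring
    rw [e, Matrix.trace_add, Matrix.trace_sub, Matrix.trace_sub, ht _ (mul_mem hH₀ hh), ht _ hH₀,
      ht _ hh, Matrix.trace_one, Fintype.card_fin, Nat.cast_ofNat]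
    ring
  have hzero := mul_eq_zero_of_trace_mul _ _ (htr _ hH₀) (hdet _ hH₀) (htr _ hh) (hdet _ hh) hprod
  have h5 : (φ h - 1) *ᵥ ((φ h₀ - 1) *ᵥ Pi.single j 1) = 0 := by
    rw [Matrix.mulVec_mulVec, hzero, Matrix.zero_mulVec]
  rwa [Matrix.sub_mulVec, Matrix.one_mulVec, sub_eq_zero] at h5

end TwoByTwo

open GaloisReps

variable {N : ℕ} [NeZero N] {p : ℕ} [Fact p.Prime]
variable {O : Type} [CommRing O] [IsDomain O] [IsDiscreteValuationRing O] [CharZero O]
  [Algebra ℤ_[p] O]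

/-- The plane cut out by a Hecke character. -/
abbrev planeSpace (D : TateData N p) (χ : FullHecke N →+* O) : Submodule O (Fin D.r → O) :=
  matEigenspace (fun t => D.hecke t) (fun t => χ t)

theorem matrixRep_mem_planeSpace (D : TateData N p) (χ : FullHecke N →+* O) :
    ∀ σ, ∀ x ∈ planeSpace D χ, matrixRep O D.rho σ x ∈ planeSpace D χ := by
  intro σ x hx t
  have h := congrArg (fun M => M.map (algebraMap ℤ_[p] O)) (D.commute σ t).eq
  simp only [Matrix.map_mul, map_intCast_map] at h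
  rw [matrixRep_apply, Matrix.mulVec_mulVec, ← h, ← Matrix.mulVec_mulVec, hx t,
    Matrix.mulVec_smul]

theorem finrank_planeSpace (D : TateData N p) (χ : FullHecke N →+* O) :
    Module.finrank O (planeSpace D χ) = 2 := by
  rw [finrank_matEigenspace (fun t => D.hecke t) (FractionRing O)]
  exact D.plane (FractionRing O) ((algebraMap O (FractionRing O)).comp χ)

/-- The lattice of a Hecke character in the Tate module. -/
def planeRep (D : TateData N p) (hp : (p : O) ∈ IsLocalRing.maximalIdeal O)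
    (χ : FullHecke N →+* O) : GaloisRepAdic O :=
  RepTheory.galoisRepAdicOfSubmodule (matrixRep O D.rho)
    (matrixRep_isAdicContinuous O hp D.rho D.isContinuous) (planeSpace D χ)
    (matrixRep_mem_planeSpace D χ) (finrank_planeSpace D χ)

variable (D : TateData N p) (hp : (p : O) ∈ IsLocalRing.maximalIdeal O) (χ : FullHecke N →+* O)

theorem planeRep_apply (σ : GalQ) (v : planeSpace D χ) :
    (((planeRep D hp χ).ρ σ) v : planeSpace D χ).1 = (D.rho σ).map (algebraMap ℤ_[p] O) *ᵥ v.1 :=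
  rfl

theorem planeRep_quadratic {ℓ : ℕ} (hℓ : ℓ.Prime) (hℓN : ¬ ℓ ∣ N) (hℓp : ℓ ≠ p)
    {A : ValuationSubring (AlgebraicClosure ℚ)} (hA : A.LiesOverPrime ℓ) {σ : GalQ}
    (hσ : A.IsFrobeniusAt σ ℓ) (v : (planeRep D hp χ).V) :
    (planeRep D hp χ).ρ σ ((planeRep D hp χ).ρ σ v)
      - χ (CuspForm.heckeAlgebra.T hℓ hℓN (Set.notMem_empty ℓ)) • (planeRep D hp χ).ρ σ v
      + (ℓ : O) • v = 0 := by
  change ↥(planeSpace D χ) at v
  refine Subtype.ext ?_
  have h := congrArg (fun M => (M.map (algebraMap ℤ_[p] O)) *ᵥ (v : Fin D.r → O))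
    (D.frobenius ℓ hℓ hℓN hℓp A hA σ hσ)
  simp only [Matrix.map_add _ (map_add _), Matrix.map_sub _ (map_sub _), Matrix.map_mul,
    map_intCast_map, Matrix.map_natCast (map_zero (algebraMap ℤ_[p] O)), map_natCast,
    Matrix.map_zero _ (map_zero _), Matrix.add_mulVec, Matrix.sub_mulVec,
    ← Matrix.mulVec_mulVec, Matrix.zero_mulVec] at h
  have hT := matrixRep_mem_planeSpace D χ σ _ v.2
    (CuspForm.heckeAlgebra.T hℓ hℓN (Set.notMem_empty ℓ))
  rw [matrixRep_apply] at hT
  rw [hT, Matrix.diagonal_const_mulVec] at h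
  exact h

theorem planeRep_conj_ne_smul (a : O) :
    (planeRep D hp χ).ρ complexConjugation ≠ a • (1 : Module.End O (planeRep D hp χ).V) := by
  intro ha
  obtain ⟨w, hw, hne⟩ := D.conj_not_scalar (FractionRing O)
    ((algebraMap O (FractionRing O)).comp χ) (algebraMap O (FractionRing O) a)
  refine hne ?_
  have hw' : w ∈ Submodule.span (FractionRing O)
      (piAlgebraMap (FractionRing O) '' (planeSpace D χ : Set (Fin D.r → O))) := by
    rw [span_image_matEigenspace]
    exact hw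
  refine Submodule.span_induction ?_ ?_ ?_ ?_ hw'
  · rintro _ ⟨v, hv, rfl⟩
    have h := congrArg Subtype.val (LinearMap.congr_fun ha ⟨v, hv⟩)
    change matrixRep O D.rho complexConjugation v = a • v at h
    rw [matrixRep_apply, D.conj_spec, map_intCast_map] at h
    have h' := compAlgebraMap_mulVec (O := O) (FractionRing O) D.conjMat v
    rw [h] at h'
    refine h'.trans (funext fun i => ?_)
    simp [piAlgebraMap_apply]
  · rw [Matrix.mulVec_zero, smul_zero]
  · intro x y _ _ hx hy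
    rw [Matrix.mulVec_add, hx, hy, smul_add]
  · intro c x _ hx
    rw [Matrix.mulVec_smul, hx, smul_comm]

/-- Frobenius characteristic polynomials on the lattice. -/
theorem planeRep_charpoly [IsAdicComplete (IsLocalRing.maximalIdeal O) O] {ℓ : ℕ} (hℓ : ℓ.Prime)
    (hℓN : ¬ ℓ ∣ N) (hℓp : ℓ ≠ p) {A : ValuationSubring (AlgebraicClosure ℚ)}
    (hA : A.LiesOverPrime ℓ) {σ : GalQ} (hσ : A.IsFrobeniusAt σ ℓ) :
    LinearMap.charpoly ((planeRep D hp χ).ρ σ) =
      X ^ 2 - C (χ (CuspForm.heckeAlgebra.T hℓ hℓN (Set.notMem_empty ℓ))) * X + C (ℓ : O) := by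
  let a : ℕ → O := fun r =>
    if h : r.Prime ∧ ¬ r ∣ N then χ (CuspForm.heckeAlgebra.T h.1 h.2 (Set.notMem_empty r)) else 0
  let S : Finset ℕ := insert p N.primeFactors
  have hS : ∀ r : ℕ, r.Prime → (r ∉ S ↔ ¬ r ∣ N ∧ r ≠ p) := fun r hr => by
    simp [S, Nat.mem_primeFactors, hr, NeZero.ne N, and_comm]
  obtain ⟨-, hcp⟩ := det_eq_cyclo_and_charpoly hp (planeRep D hp χ) S (Finset.mem_insert_self _ _)
    a (fun r hr hrS B hB τ hτ v => by
      obtain ⟨h1, h2⟩ := (hS r hr).mp hrS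
      rw [show a r = χ (CuspForm.heckeAlgebra.T hr h1 (Set.notMem_empty r)) from dif_pos ⟨hr, h1⟩]
      exact planeRep_quadratic D hp χ hr h1 h2 hB hτ v)
    ⟨complexConjugation, planeRep_conj_ne_smul D hp χ⟩
  rw [hcp ℓ hℓ ((hS ℓ hℓ).mpr ⟨hℓN, hℓp⟩) A hA σ hσ,
    show a ℓ = χ (CuspForm.heckeAlgebra.T hℓ hℓN (Set.notMem_empty ℓ)) from dif_pos ⟨hℓ, hℓN⟩]

/-- Unipotent inertia fixes a nonzero vector of `ℤ_[p]^r` killed by the kernel of `χ`. -/
theorem exists_fixed_of_isUnipotentOnInertiaAt {q : ℕ}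
    (h : (planeRep D hp χ).IsUnipotentOnInertiaAt q)
    {A : ValuationSubring (AlgebraicClosure ℚ)} (hA : A.LiesOverPrime q) :
    ∃ u : Fin D.r → ℤ_[p], u ≠ 0 ∧ (∀ σ ∈ A.inertiaSubgroupIn ℚ, D.rho σ *ᵥ u = u) ∧
      ∀ t : FullHecke N, χ t = 0 → (D.hecke t).map (Int.cast : ℤ → ℤ_[p]) *ᵥ u = 0 := by
  classical
  let P := planeRep D hp χ
  let b := Module.finBasisOfFinrankEq O P.V P.finrank_eq
  have hunit : ∀ σ ∈ (A.inertiaSubgroupIn ℚ).toSubmonoid,
      (RepTheory.matHom b P.ρ σ).trace = 2 ∧ (RepTheory.matHom b P.ρ σ).det = 1 := by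
    intro σ hσ
    have e : (P.ρ σ).charpoly = X ^ 2 - C (2 : O) * X + C (1 : O) := by
      rw [h A hA σ hσ, map_one, map_ofNat]; ring
    obtain ⟨et, ed⟩ := RepTheory.trace_eq_of_charpoly P.finrank_eq e
    rw [RepTheory.matHom_apply, LinearMap.det_toMatrix, ← LinearMap.trace_eq_matrix_trace O b]
    exact ⟨et, ed⟩
  obtain ⟨w, hw, hfix⟩ := exists_fixed_of_unipotent (RepTheory.matHom b P.ρ) _
    (fun σ hσ => (hunit σ hσ).1) (fun σ hσ => (hunit σ hσ).2)
  let v : planeSpace D χ := b.equivFun.symm w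
  have hv0 : v.1 ≠ 0 := fun h0 => hw (b.equivFun.symm.injective (by
    rw [map_zero]; exact Subtype.ext h0))
  have hvfix : ∀ σ ∈ A.inertiaSubgroupIn ℚ, (D.rho σ).map (algebraMap ℤ_[p] O) *ᵥ v.1 = v.1 := by
    intro σ hσ
    rw [← planeRep_apply D hp χ σ v]
    refine congrArg Subtype.val (show P.ρ σ v = v from b.equivFun.injective ?_)
    have e1 := LinearMap.toMatrix_mulVec_repr b b (P.ρ σ) v
    have e2 : ⇑(b.repr v) = w := b.equivFun.apply_symm_apply w
    rw [e2] at e1
    show ⇑(b.repr (P.ρ σ v)) = ⇑(b.repr v)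
    rw [← e1, e2]
    exact hfix σ hσ
  -- pass to `ℚ_[p]` through a linear functional on the fraction field
  let K := FractionRing O
  have hinjO : Function.Injective (algebraMap ℤ_[p] O) := by
    have hne : (p : O) ≠ 0 := Nat.cast_ne_zero.mpr (Fact.out : p.Prime).ne_zero
    refine (injective_iff_map_eq_zero _).mpr fun x hx => by_contra fun hx0 => ?_
    rw [PadicInt.unitCoeff_spec hx0, map_mul, map_pow, map_natCast] at hx
    rcases mul_eq_zero.mp hx with h1 | h1
    · exact ((PadicInt.unitCoeff hx0).isUnit.map _).ne_zero h1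
    · exact hne (pow_eq_zero_iff'.mp h1).1
  let ι : ℚ_[p] →+* K := IsFractionRing.lift (A := ℤ_[p]) (g := (algebraMap O K).comp
    (algebraMap ℤ_[p] O)) ((IsFractionRing.injective O K).comp hinjO)
  letI : Algebra ℚ_[p] K := ι.toAlgebra
  have hι : ∀ x : ℤ_[p], algebraMap ℚ_[p] K (algebraMap ℤ_[p] ℚ_[p] x) =
      algebraMap O K (algebraMap ℤ_[p] O x) := fun x =>
    IsFractionRing.lift_algebraMap _ x
  obtain ⟨i, hi⟩ := Function.ne_iff.mp hv0
  obtain ⟨φ, hφ⟩ : ∃ φ : Module.Dual ℚ_[p] K, φ (algebraMap O K (v.1 i)) ≠ 0 := by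
    by_contra! hc
    exact (_root_.map_ne_zero_iff _ (IsFractionRing.injective O K)).mpr hi
      ((Module.forall_dual_apply_eq_zero_iff ℚ_[p] _).mp hc)
  have hmul : ∀ (M : Matrix (Fin D.r) (Fin D.r) ℤ_[p]) (x : Fin D.r → O),
      M.map (algebraMap ℤ_[p] ℚ_[p]) *ᵥ (fun j => φ (algebraMap O K (x j))) =
        fun j => φ (algebraMap O K ((M.map (algebraMap ℤ_[p] O) *ᵥ x) j)) := by
    intro M x
    funext j
    simp only [Matrix.mulVec, dotProduct, Matrix.map_apply, map_sum, map_mul]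
    refine Finset.sum_congr rfl fun l _ => ?_
    rw [← hι, ← Algebra.smul_def (algebraMap ℤ_[p] ℚ_[p] (M j l)) (algebraMap O K (x l)), map_smul,
      smul_eq_mul]
  obtain ⟨z, hz, u, hu⟩ := exists_piAlgebraMap_eq_smul (O := ℤ_[p]) ℚ_[p]
    (fun j => φ (algebraMap O K (v.1 j)))
  have hu' : ∀ M : Matrix (Fin D.r) (Fin D.r) ℤ_[p],
      M.map (algebraMap ℤ_[p] ℚ_[p]) *ᵥ piAlgebraMap ℚ_[p] u =
        piAlgebraMap ℚ_[p] (M *ᵥ u) := fun M => funext fun j =>
    (RingHom.map_mulVec (algebraMap ℤ_[p] ℚ_[p]) M u j).symm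
  refine ⟨u, fun h0 => ?_, fun σ hσ => piAlgebraMap_injective (O := ℤ_[p]) ℚ_[p] ?_,
    fun t ht => piAlgebraMap_injective (O := ℤ_[p]) ℚ_[p] ?_⟩
  · rw [h0, map_zero] at hu
    rcases smul_eq_zero.mp hu.symm with h1 | h1
    · exact hz h1
    · exact hφ (congrFun h1 i)
  · rw [← hu', hu, Matrix.mulVec_smul, hmul, hvfix σ hσ]
  · rw [← hu', hu, Matrix.mulVec_smul, hmul, map_intCast_map]
    have e : (D.hecke t).map (Int.cast : ℤ → O) *ᵥ v.1 = 0 := by
      refine (v.2 t).trans ?_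
      show χ t • v.1 = 0
      rw [ht, zero_smul]
    rw [e]
    simp only [Pi.zero_apply, _root_.map_zero]
    exact smul_zero z

end FLTA.Carayol
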