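import Fermat.Agent.GaloisReps.TateData
import Fermat.Agent.Galois.Places
import Mathlib.Algebra.MvPolynomial.Basic

/-!
# Galois equivariant maps of torsion respect the Hecke relations

At a good prime `ℓ` the Frobenius identity `σ² + ℓ = T_ℓ σ` shows that any Galois equivariant map
`J₀(M) → J₀(M')` commutes with `T_ℓ` on torsion. So torsion killed by the relations among some
numbers `a_ℓ` goes to torsion killed by the relations at level `M'`.
-/

set_option autoImplicit false

open scoped Matrix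

namespace FLTA.Carayol

open GaloisReps

/-- The primes outside a finite set. -/
abbrev GoodPrimes (S : Finset ℕ) : Type := {ℓ : ℕ // ℓ.Prime ∧ ℓ ∉ S}

/-- The operators `T_ℓ` for `ℓ` outside `S`. -/
noncomputable def goodT (M : ℕ) [NeZero M] (S : Finset ℕ)
    (hMS : ∀ q : ℕ, q.Prime → q ∣ M → q ∈ S) (i : GoodPrimes S) : FullHecke M :=
  CuspForm.heckeAlgebra.T i.2.1 (fun h => i.2.2 (hMS _ i.2.1 h)) (Set.notMem_empty _)

variable {M M' : ℕ} [NeZero M] [NeZero M'] {p : ℕ} [Fact p.Prime]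

/-- The Hecke action on the coordinates of `p ^ k`-torsion. -/
noncomputable def heckeMod (D : TateData M p) (k : ℕ) :
    FullHecke M →+* Matrix (Fin D.r) (Fin D.r) (ZMod (p ^ k)) :=
  (Int.castRingHom (ZMod (p ^ k))).mapMatrix.comp D.hecke

/-- The Galois action on the coordinates of `p ^ k`-torsion. -/
noncomputable def galMod (D : TateData M p) (k : ℕ) :
    GalQ →* Matrix (Fin D.r) (Fin D.r) (ZMod (p ^ k)) :=
  (PadicInt.toZModPow (p := p) k).mapMatrix.toMonoidHom.comp D.rho

theorem galMod_frobenius (D : TateData M p) (k : ℕ) {ℓ : ℕ} (hℓ : ℓ.Prime) (hℓM : ¬ ℓ ∣ M)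
    (hℓp : ℓ ≠ p) {A : ValuationSubring (AlgebraicClosure ℚ)} (hA : A.LiesOverPrime ℓ) {σ : GalQ}
    (hσ : A.IsFrobeniusAt σ ℓ) :
    galMod D k σ * galMod D k σ + (ℓ : Matrix (Fin D.r) (Fin D.r) (ZMod (p ^ k))) =
      heckeMod D k (CuspForm.heckeAlgebra.T hℓ hℓM (Set.notMem_empty ℓ)) * galMod D k σ := by
  have h := congrArg (PadicInt.toZModPow (p := p) k).mapMatrix
    (D.frobenius ℓ hℓ hℓM hℓp A hA σ hσ)
  have e : ∀ t, (PadicInt.toZModPow (p := p) k).mapMatrix
      ((D.hecke t).map (Int.cast : ℤ → ℤ_[p])) = heckeMod D k t := fun t => by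
    ext i j
    simp [heckeMod]
  rw [map_add, map_sub, map_mul, map_mul, map_natCast, map_zero, e] at h
  rw [← sub_eq_zero, ← h]
  simp only [galMod, MonoidHom.coe_comp, Function.comp_apply, RingHom.toMonoidHom_eq_coe,
    MonoidHom.coe_coe]
  abel

/-- Torsion killed by the relations among the `a_ℓ` maps, under an equivariant map, to torsion
killed by every integer in the ideal those relations generate at level `M'`. -/
theorem nsmul_map_torsion_eq_zero (D : TateData M p) (D' : TateData M' p) (S : Finset ℕ)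
    (hpS : p ∈ S) (hMS : ∀ q : ℕ, q.Prime → q ∣ M → q ∈ S)
    (hM'S : ∀ q : ℕ, q.Prime → q ∣ M' → q ∈ S) (a : GoodPrimes S → ℂ) {c : ℕ}
    (hc : (c : FullHecke M') ∈ (RingHom.ker (MvPolynomial.aeval (R := ℤ) a)).map
      (MvPolynomial.aeval (R := ℤ) (goodT M' S hM'S)))
    (π : ModularCurve.JZero M →+ ModularCurve.JZero M')
    (hπ : ∀ (σ : GalQ) (P : ModularCurve.JZero M), π (σ • P) = σ • π P) (k : ℕ)
    (v : Fin D.r → ZMod (p ^ k))
    (hv : ∀ F, MvPolynomial.aeval (R := ℤ) a F = 0 →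
      heckeMod D k (MvPolynomial.aeval (R := ℤ) (goodT M S hMS) F) *ᵥ v = 0) :
    c • π (D.torsionEquiv k v : ModularCurve.JZero M) = 0 := by
  have hmem : ∀ x : Fin D.r → ZMod (p ^ k), π (D.torsionEquiv k x : ModularCurve.JZero M) ∈
      Submodule.torsionBy ℤ (ModularCurve.JZero M') ((p : ℤ) ^ k) := fun x => by
    rw [Submodule.mem_torsionBy_iff, ← map_zsmul]
    exact (congrArg π ((Submodule.mem_torsionBy_iff _ _).mp (D.torsionEquiv k x).2)).trans π.map_zero
  let f : (Fin D.r → ZMod (p ^ k)) →+ (Fin D'.r → ZMod (p ^ k)) :=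
    (D'.torsionEquiv k).symm.toAddMonoidHom.comp
      (AddMonoidHom.mk' (fun x => (⟨_, hmem x⟩ :
        ↥(Submodule.torsionBy ℤ (ModularCurve.JZero M') ((p : ℤ) ^ k))))
        fun x y => Subtype.ext (by simp))
  have hf : ∀ x, (D'.torsionEquiv k (f x) : ModularCurve.JZero M') =
      π (D.torsionEquiv k x : ModularCurve.JZero M) := fun x => by simp [f]
  have hgal : ∀ σ x, f (galMod D k σ *ᵥ x) = galMod D' k σ *ᵥ f x := by
    intro σ x
    apply (D'.torsionEquiv k).injective
    refine Subtype.ext ?_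
    rw [hf]
    show π _ = _
    refine (congrArg π (D.torsionEquiv_galois k σ x)).trans ?_
    rw [hπ, ← hf x]
    exact (D'.torsionEquiv_galois k σ (f x)).symm
  have hT : ∀ (i : GoodPrimes S) (x : Fin D.r → ZMod (p ^ k)),
      f (heckeMod D k (goodT M S hMS i) *ᵥ x) = heckeMod D' k (goodT M' S hM'S i) *ᵥ f x := by
    intro i x
    obtain ⟨A, hA⟩ := Galois.exists_liesOverPrime i.2.1
    obtain ⟨σ, hσ⟩ := Galois.exists_isFrobeniusAt i.2.1 hA
    have hip : (i : ℕ) ≠ p := fun h => i.2.2 (h ▸ hpS)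
    have hx : galMod D k σ *ᵥ (galMod D k σ⁻¹ *ᵥ x) = x := by
      rw [Matrix.mulVec_mulVec, ← map_mul, mul_inv_cancel, map_one, Matrix.one_mulVec]
    have h1 := galMod_frobenius D k i.2.1 (fun h => i.2.2 (hMS _ i.2.1 h)) hip hA hσ
    have h2 := galMod_frobenius D' k i.2.1 (fun h => i.2.2 (hM'S _ i.2.1 h)) hip hA hσ
    rw [← hx]
    generalize galMod D k σ⁻¹ *ᵥ x = u
    unfold goodT
    rw [Matrix.mulVec_mulVec, ← h1, hgal, Matrix.mulVec_mulVec (f u), ← h2, Matrix.add_mulVec,
      Matrix.add_mulVec, ← Matrix.mulVec_mulVec, ← Matrix.mulVec_mulVec, Matrix.natCast_mulVec,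
      Matrix.natCast_mulVec, map_add, hgal, hgal, Nat.cast_smul_eq_nsmul, Nat.cast_smul_eq_nsmul, map_nsmul]
  have hpoly : ∀ F x, f (heckeMod D k (MvPolynomial.aeval (R := ℤ) (goodT M S hMS) F) *ᵥ x) =
      heckeMod D' k (MvPolynomial.aeval (R := ℤ) (goodT M' S hM'S) F) *ᵥ f x := by
    intro F
    induction F using MvPolynomial.induction_on with
    | C r =>
      intro x
      rw [MvPolynomial.aeval_C, MvPolynomial.aeval_C, algebraMap_int_eq, algebraMap_int_eq,
        eq_intCast, eq_intCast, map_intCast, map_intCast, Matrix.intCast_mulVec,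
        Matrix.intCast_mulVec, Int.cast_smul_eq_zsmul, Int.cast_smul_eq_zsmul, map_zsmul]
    | add F G hF hG =>
      intro x
      rw [map_add, map_add, map_add, map_add, Matrix.add_mulVec, Matrix.add_mulVec, map_add, hF,
        hG]
    | mul_X F i hF =>
      intro x
      simp only [map_mul, MvPolynomial.aeval_X]
      rw [
        ← Matrix.mulVec_mulVec, ← Matrix.mulVec_mulVec, hF, hT]
  have hideal : ∀ x ∈ (RingHom.ker (MvPolynomial.aeval (R := ℤ) a)).map
      (MvPolynomial.aeval (R := ℤ) (goodT M' S hM'S)), heckeMod D' k x *ᵥ f v = 0 := by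
    intro x hx
    refine Submodule.span_induction ?_ ?_ ?_ ?_ hx
    · rintro _ ⟨F, hF, rfl⟩
      rw [← hpoly, hv F hF, map_zero]
    · rw [map_zero, Matrix.zero_mulVec]
    · intro y z _ _ hy hz
      rw [map_add, Matrix.add_mulVec, hy, hz, add_zero]
    · intro r y _ hy
      rw [smul_eq_mul, map_mul, ← Matrix.mulVec_mulVec, hy, Matrix.mulVec_zero]
  have h0 := hideal _ hc
  rw [map_natCast, Matrix.natCast_mulVec, Nat.cast_smul_eq_nsmul] at h0
  have h1 := congrArg (fun y => (D'.torsionEquiv k y : ModularCurve.JZero M')) h0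
  simp only [map_nsmul, map_zero, Submodule.coe_zero] at h1
  rw [← hf]
  exact h1

end FLTA.Carayol
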