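import Fermat.Agent.Carayol.Pushforward
import Fermat.Agent.Carayol.S36ReductionOccur
import Fermat.Agent.Carayol.S36ReductionPlane
import Fermat.Agent.Carayol.S36ReductionPush
import Fermat.Prelude.Def_CuspForm_HeckeGaloisRepDatum

/-!
# Non-unipotence from the vanishing of inertia fixed torsion killed by both pushforwards

`KernelBound q M` is the shape of the main result about `X₀(M q q)`. It is assumed for the
exponents `e` satisfying `E`, and gives a representation attached to a newform that is not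
unipotent at any prime whose exponent in the level satisfies `E`.
-/

set_option autoImplicit false

noncomputable section

open scoped Matrix
open Polynomial ModularCurve FLTA.GaloisReps

namespace FLTA.Carayol

/-- Torsion of `J₀(M q q)` prime to `q`, fixed by inertia at `q` and killed by both pushforwards
to level `M q`, has bounded order. -/
def KernelBound (q M : ℕ) [NeZero q] [NeZero M] : Prop :=
  ∃ C : ℕ, C ≠ 0 ∧ ∀ n : ℕ, n.Coprime q →
    ∀ A : ValuationSubring (AlgebraicClosure ℚ), A.LiesOverPrime q →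
      ∀ P : JZero (M * q * q), n • P = 0 → (∀ σ ∈ A.inertiaSubgroupIn ℚ, σ • P = P) →
        pushAlpha (M * q) q P = 0 → pushBeta (M * q) q P = 0 → C • P = 0

variable {M : ℕ} [NeZero M] {p : ℕ} [Fact p.Prime]
variable {O : Type} [CommRing O] [IsDomain O] [IsDiscreteValuationRing O] [CharZero O]
  [Algebra ℤ_[p] O]

/-- The plane lattice of a newform is not unipotent at `q` when `KernelBound` holds. -/
theorem not_isUnipotentOnInertiaAt_planeRep {g : CuspForm (CongruenceSubgroup.Gamma0 M) 2}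
    (hg : g.IsNewform) (D : TateData M p) (hp : (p : O) ∈ IsLocalRing.maximalIdeal O)
    (χ : FullHecke M →+* O) (hχ : ∀ t : FullHecke M, eigenCharC hg.1 t = 0 → χ t = 0)
    {q : ℕ} [Fact q.Prime] [NeZero q] (hqp : q ≠ p) {M₀ : ℕ} [NeZero M₀] (hM : M = M₀ * q * q)
    (hker : KernelBound q M₀) : ¬ (planeRep D hp χ).IsUnipotentOnInertiaAt q := by
  classical
  subst hM
  intro hunip
  obtain ⟨A, hA⟩ := Galois.exists_liesOverPrime (Fact.out : q.Prime)
  obtain ⟨u, hu0, hufix, hukill⟩ := exists_fixed_of_isUnipotentOnInertiaAt D hp χ hunip hA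
  obtain ⟨C, hC, hbound⟩ := hker
  let S : Finset ℕ := insert p (M₀ * q * q).primeFactors
  have hpS : p ∈ S := Finset.mem_insert_self _ _
  have hMS : ∀ r : ℕ, r.Prime → r ∣ M₀ * q * q → r ∈ S := fun r hr hd =>
    Finset.mem_insert_of_mem (Nat.mem_primeFactors.mpr ⟨hr, hd, NeZero.ne _⟩)
  have hM'S : ∀ r : ℕ, r.Prime → r ∣ M₀ * q → r ∈ S := fun r hr hd =>
    hMS r hr (hd.trans (dvd_mul_right _ _))
  let a : GoodPrimes S → ℂ := fun i => ModularFormClass.qCoeff g i
  have := module_finite_fullHecke (M₀ * q * q)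
  have := module_finite_fullHecke (M₀ * q)
  have ha : ∀ i, eigenCharC hg.1 (goodT (M₀ * q * q) S hMS i) = a i := fun i =>
    eigenCharC_T hg.1 i.2.1 _ _
  obtain ⟨c, hc0, hc⟩ := exists_natCast_mem_map_ker (goodT (M₀ * q) S hM'S) a
    (fun i => ha i ▸ map_isIntegral_int (eigenCharC hg.1) (Algebra.IsIntegral.isIntegral _))
    (fun Θ h => not_exists_char_of_isNewform hg (dvd_mul_right (M₀ * q) q)
      (fun e => (Fact.out : q.Prime).one_lt.ne'
        ((Nat.mul_eq_left (NeZero.ne (M₀ * q))).mp e.symm))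
      S Θ fun ℓ hℓ hℓM hℓS => h ⟨ℓ, hℓ, hℓS⟩)
  obtain ⟨D'⟩ := exists_tateData (M₀ * q) p
  have key : ∀ k : ℕ, (C * c) • (fun j => PadicInt.toZModPow k (u j)) = (0 : Fin D.r → _) := by
    intro k
    set v : Fin D.r → ZMod (p ^ k) := fun j => PadicInt.toZModPow k (u j) with hv
    have hmap : ∀ R : Matrix (Fin D.r) (Fin D.r) ℤ_[p],
        R.map (PadicInt.toZModPow (p := p) k) *ᵥ v = fun j => PadicInt.toZModPow k ((R *ᵥ u) j) :=
      fun R => funext fun j => (RingHom.map_mulVec (PadicInt.toZModPow k) R u j).symm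
    have hkill : ∀ F, MvPolynomial.aeval (R := ℤ) a F = 0 →
        heckeMod D k (MvPolynomial.aeval (R := ℤ) (goodT (M₀ * q * q) S hMS) F) *ᵥ v = 0 := by
      intro F hF
      set t := MvPolynomial.aeval (R := ℤ) (goodT (M₀ * q * q) S hMS) F with ht
      have h1 : eigenCharC hg.1 t = 0 := by
        rw [← hF, ht]
        have e := MvPolynomial.comp_aeval_apply (goodT (M₀ * q * q) S hMS)
          (eigenCharC hg.1).toIntAlgHom F
        simp only [RingHom.toIntAlgHom_apply] at e
        rw [e]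
        simp only [ha]
      have e : heckeMod D k t = ((D.hecke t).map (Int.cast : ℤ → ℤ_[p])).map
          (PadicInt.toZModPow (p := p) k) := by
        ext i j
        simp [heckeMod]
      rw [e, hmap, hukill t (hχ t h1)]
      funext j
      simp
    set P : JZero (M₀ * q * q) := (D.torsionEquiv k v : JZero (M₀ * q * q)) with hP
    have hn : (p ^ k) • P = 0 := by
      rw [← natCast_zsmul, Nat.cast_pow]
      exact (Submodule.mem_torsionBy_iff _ _).mp (D.torsionEquiv k v).2
    have hfix : ∀ σ ∈ A.inertiaSubgroupIn ℚ, σ • (c • P) = c • P := by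
      intro σ hσ
      have hσP : σ • P = P := by rw [hP, ← D.torsionEquiv_galois, hmap, hufix σ hσ]
      exact (map_nsmul (DistribSMul.toAddMonoidHom (JZero (M₀ * q * q)) σ) c P).trans
        (congrArg (c • ·) hσP)
    have hcop : (p ^ k).Coprime q :=
      Nat.Coprime.pow_left _ ((Nat.coprime_primes Fact.out Fact.out).mpr hqp.symm)
    have h2 := hbound (p ^ k) hcop A hA (c • P) (by rw [smul_comm, hn, smul_zero]) hfix
      (by
        rw [map_nsmul]
        exact nsmul_map_torsion_eq_zero D D' S hpS hMS hM'S a hc (pushAlpha (M₀ * q) q)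
          (pushAlpha_galois (M₀ * q) q) k v hkill)
      (by
        rw [map_nsmul]
        exact nsmul_map_torsion_eq_zero D D' S hpS hMS hM'S a hc (pushBeta (M₀ * q) q)
          (pushBeta_galois (M₀ * q) q) k v hkill)
    rw [← mul_smul] at h2
    apply (D.torsionEquiv k).injective
    rw [map_nsmul, map_zero]
    exact Subtype.ext h2
  refine hu0 (funext fun j => ?_)
  have h3 : ((C * c : ℕ) : ℤ_[p]) * u j = 0 := by
    refine PadicInt.ext_of_toZModPow.mp fun k => ?_
    rw [map_mul, map_natCast, _root_.map_zero, ← nsmul_eq_mul]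
    exact congrFun (key k) j
  exact (mul_eq_zero.mp h3).resolve_left (Nat.cast_ne_zero.mpr (mul_ne_zero hC hc0))

omit [NeZero M] [Fact p.Prime] in
/-- The conclusion of Carayol's statement for the exponents satisfying `E`. -/
theorem exists_rep_of_kernelBound (E : ℕ → Prop) (hE : ∀ e, E e → 2 ≤ e)
    (hker : ∀ (q M₀ : ℕ) [Fact q.Prime] [NeZero q] [NeZero M₀],
      E ((M₀ * q * q).factorization q) → KernelBound q M₀)
    {M : ℕ} [NeZero M] {g : CuspForm (CongruenceSubgroup.Gamma0 M) 2} (hg : g.IsNewform)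
    (lam : ℕ) [Fact lam.Prime] (S : Finset ℕ)
    (O' : Type) [CommRing O'] [IsDomain O'] [IsDiscreteValuationRing O']
    [IsAdicComplete (IsLocalRing.maximalIdeal O') O'] [Finite (IsLocalRing.ResidueField O')]
    [CharZero O'] (hlamO' : (lam : O') ∈ IsLocalRing.maximalIdeal O')
    (chig : CuspForm.heckeAlgebra M 2 (↑S : Set ℕ) →+* ℂ)
    (hchig : ∀ (ℓ : ℕ) (hℓ : ℓ.Prime) (hℓM : ¬ ℓ ∣ M) (hℓS : ℓ ∉ (↑S : Set ℕ)),
      chig (CuspForm.heckeAlgebra.T hℓ hℓM hℓS) = ModularFormClass.qCoeff g ℓ)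
    (iota : chig.range →+* O')
    (hlamS : lam ∈ S) (hMS : ∀ q : ℕ, q.Prime → q ∣ M → q ∈ S) :
    ∃ (O'' : Type) (_ : CommRing O'') (_ : IsDomain O'') (_ : IsDiscreteValuationRing O'')
      (_ : IsAdicComplete (IsLocalRing.maximalIdeal O'') O'')
      (_ : Finite (IsLocalRing.ResidueField O''))
      (_ : CharZero O'') (_ : Algebra O' O'') (_ : Module.Finite O' O'')
      (_ : IsLocalHom (algebraMap O' O'')),
      Function.Injective (algebraMap O' O'') ∧
      ∃ ρ : GaloisRepAdic O'',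
        (∀ (ℓ : ℕ) (hℓ : ℓ.Prime) (hℓM : ¬ ℓ ∣ M) (hℓS : ℓ ∉ (↑S : Set ℕ)),
          ∀ A : ValuationSubring (AlgebraicClosure ℚ), A.LiesOverPrime ℓ →
            ∀ σ : AlgebraicClosure ℚ ≃ₐ[ℚ] AlgebraicClosure ℚ, A.IsFrobeniusAt σ ℓ →
              LinearMap.charpoly (ρ.ρ σ) =
                X ^ 2 - C (algebraMap O' O'' ((iota.comp chig.rangeRestrict)
                  (CuspForm.heckeAlgebra.T hℓ hℓM hℓS))) * X + C ((ℓ : O''))) ∧
        (∀ q : ℕ, q.Prime → q ≠ lam → E (M.factorization q) → ¬ ρ.IsUnipotentOnInertiaAt q) := by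
  classical
  have := module_finite_fullHecke M
  let Λ : FullHecke M →+* ℂ := eigenCharC hg.1
  have : Module.Finite ℤ Λ.range :=
    Module.Finite.of_surjective Λ.rangeRestrict.toAddMonoidHom.toIntLinearMap
      Λ.rangeRestrict_surjective
  have hle : CuspForm.heckeAlgebra M 2 (↑S : Set ℕ) ≤ CuspForm.heckeAlgebra M 2 (∅ : Set ℕ) := by
    refine Algebra.adjoin_le ?_
    rintro x (⟨r, hr, hrM, -, rfl⟩ | ⟨r, hrM, hr, -, rfl⟩)
    · exact CuspForm.heckeTLin_mem_heckeAlgebra hr hrM (Set.notMem_empty r)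
    · exact CuspForm.heckeULin_mem_heckeAlgebra hr hrM (Set.notMem_empty r)
  have hagree : ∀ t, chig t = Λ (Subalgebra.inclusion hle t) := by
    rintro ⟨t, ht⟩
    induction ht using Algebra.adjoin_induction with
    | mem x hx =>
      rcases hx with ⟨r, hr, hrM, hrS, rfl⟩ | ⟨r, hrM, hr, hrS, rfl⟩
      · exact (hchig r hr hrM hrS).trans
          (eigenCharC_T hg.1 hr hrM (Set.notMem_empty r)).symm
      · exact absurd (hMS r hr hrM) hrS
    | algebraMap r =>
      exact (map_intCast chig r).trans (map_intCast (Λ.comp (Subalgebra.inclusion hle).toRingHom) r).symm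
    | add x y hx hy h1 h2 =>
      have e : (⟨x + y, add_mem hx hy⟩ : CuspForm.heckeAlgebra M 2 (↑S : Set ℕ)) = ⟨x, hx⟩ + ⟨y, hy⟩ := rfl
      rw [e, map_add, map_add, map_add, h1, h2]
    | mul x y hx hy h1 h2 =>
      have e : (⟨x * y, mul_mem hx hy⟩ : CuspForm.heckeAlgebra M 2 (↑S : Set ℕ)) = ⟨x, hx⟩ * ⟨y, hy⟩ := rfl
      rw [e, map_mul, map_mul, map_mul, h1, h2]
  have hrange : chig.range ≤ Λ.range := by
    rintro _ ⟨t, rfl⟩
    exact ⟨_, (hagree t).symm⟩
  obtain ⟨E', ψ, hψ⟩ := RepTheory.exists_ext_character O' (Subring.inclusion hrange)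
    (Subring.inclusion_injective hrange) iota
  let O'' := E'.R
  let χ : FullHecke M →+* O'' := ψ.comp Λ.rangeRestrict
  have hlamO : (lam : O'') ∈ IsLocalRing.maximalIdeal O'' := by
    rw [← map_natCast (algebraMap O' O''), IsLocalRing.mem_maximalIdeal, mem_nonunits_iff,
      isUnit_map_iff]
    exact hlamO'
  letI : Algebra ℤ_[lam] O'' := padicIntAlgebra O'' hlamO
  obtain ⟨D⟩ := exists_tateData M lam
  refine ⟨O'', inferInstance, inferInstance, inferInstance, inferInstance, inferInstance,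
    inferInstance, inferInstance, inferInstance, inferInstance, E'.injective,
    planeRep D hlamO χ, ?_, ?_⟩
  · intro ℓ hℓ hℓM hℓS A hA σ hσ
    rw [planeRep_charpoly D hlamO χ hℓ hℓM (fun h => hℓS (h ▸ hlamS)) hA hσ]
    have e : χ (CuspForm.heckeAlgebra.T hℓ hℓM (Set.notMem_empty ℓ)) = algebraMap O' O''
        ((iota.comp chig.rangeRestrict) (CuspForm.heckeAlgebra.T hℓ hℓM hℓS)) := by
      refine Eq.trans ?_ (RingHom.congr_fun hψ (chig.rangeRestrict (CuspForm.heckeAlgebra.T hℓ hℓM hℓS)))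
      exact congrArg ψ (Subtype.ext (hagree (CuspForm.heckeAlgebra.T hℓ hℓM hℓS)).symm)
    rw [e]
  · intro q hq hqlam hEq
    have : Fact q.Prime := ⟨hq⟩
    have : NeZero q := ⟨hq.ne_zero⟩
    have hsq : q ^ 2 ∣ M :=
      (hq.pow_dvd_iff_le_factorization (NeZero.ne M)).mpr (hE _ hEq)
    obtain ⟨M₀, hM₀⟩ := hsq
    have hM : M = M₀ * q * q := by rw [hM₀]; ring
    have : NeZero M₀ := ⟨fun h => NeZero.ne M (by rw [hM, h, zero_mul, zero_mul])⟩
    refine not_isUnipotentOnInertiaAt_planeRep hg D hlamO χ (fun t ht => ?_) hqlam hM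
      (hker q M₀ (hM ▸ hEq))
    show ψ (Λ.rangeRestrict t) = 0
    rw [show Λ.rangeRestrict t = 0 from Subtype.ext ht, _root_.map_zero]

end FLTA.Carayol

end
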