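import Fermat.Agent.Carayol.UnitPoint
import Fermat.Agent.Carayol.PointCusp

/-!
# The root at a cusp, up to a vertical unit

The variants of the roots at the totally ramified points in which the power over the completion at
the vertical prime is only known up to an integral unit.
-/

set_option autoImplicit false
set_option linter.style.haveILetI false

noncomputable section

open Polynomial IsLocalRing

namespace FLTA.Carayol

variable {W : Type} [CommRing W] {q : ℕ} [hqp : Fact q.Prime] [IsDomain W]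
  [IsDiscreteValuationRing W] [CharZero W] [IsAdicComplete (maximalIdeal W) W]
  [IsAlgClosed (ResidueField W)] [Fact (Prime (PowerSeries.C (q : W) : PowerSeries W))]

set_option maxHeartbeats 800000 in
omit [CharZero W] in
/-- The root on one branch, up to a vertical unit. -/
theorem exists_branchRoot_unit {W' : Type} [CommRing W'] [IsDomain W'] [IsDiscreteValuationRing W']
    (hW : maximalIdeal W = Ideal.span {(q : W)}) (ι : W →+* W') (hι : Function.Injective ι)
    {ϖ : W'} (hW' : maximalIdeal W' = Ideal.span {ϖ})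
    (hres : ∀ w' : W', ∃ w : W, w' - ι w ∈ maximalIdeal W')
    {d : ℕ} (b : Fin d → W') (hb : ∀ w : W', ∃ c : Fin d → W, w = ∑ k, ι (c k) * b k)
    (θ : PowerSeries W ≃+* PowerSeries W) (hθC : ∀ w, θ (PowerSeries.C w) = PowerSeries.C w)
    {n : ℕ} (hn : 0 < n) (hnq : n.Coprime q) {LO : Type*} [CommRing LO]
    (jO : FractionRing (PowerSeries W') →+* LO)
    (ιL : FractionRing (HatAt (PowerSeries.C (q : W) : PowerSeries W)) →+* LO)
    (hext : ∀ (M : Type) [Field M]
      (μ : FractionRing (HatAt (PowerSeries.C (q : W) : PowerSeries W)) →+* M)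
      (g : PowerSeries W' →+* M), Function.Injective g →
      (∀ r, μ (algebraMap _ _ (toHat (PowerSeries.C (q : W) : PowerSeries W) r)) =
        g (PowerSeries.map ι (branchMap q θ r))) →
      ∃ ψ : LO →+* M, ∀ x, ψ (jO (algebraMap _ _ x)) = g x ∧ ψ.comp ιL = μ)
    {f : FractionRing (PowerSeries W')} (hf : f ≠ 0)
    (hval : ∀ (F : Type) [Field F] (ψ : FractionRing (PowerSeries W') →+* F)
      (v : Valuation F (WithZero (Multiplicative ℤ))),
      (∀ w : W, w ≠ 0 → v (ψ (algebraMap _ _ (PowerSeries.C (ι w)))) = 1) → ∃ z, v (ψ f) = z ^ n)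
    (hloc : HasRootUpToUnit
      (ιL.comp (algebraMap (HatAt (PowerSeries.C (q : W) : PowerSeries W)) _)) n (jO f)) :
    ∃ G, G ^ n = f := by
  let j : PowerSeries W →+* PowerSeries W' := (PowerSeries.map ι).comp (branchMap q θ)
  have hjC : ∀ w, j (PowerSeries.C w) = PowerSeries.C (ι w) := fun w => by
    simp [j, branchMap, hθC, PowerSeries.expand_C]
  letI := j.toAlgebra
  have hjinj : Function.Injective (algebraMap (PowerSeries W) (PowerSeries W')) :=
    (map_powerSeries_injective hι).comp (branchMap_injective θ)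
  have : FaithfulSMul (PowerSeries W) (PowerSeries W') :=
    (faithfulSMul_iff_algebraMap_injective _ _).2 hjinj
  let g₀ : Fin (d * q) → PowerSeries W' := fun i =>
    PowerSeries.C (b i.divNat) * PowerSeries.X ^ (i.modNat : ℕ)
  have : Module.Finite (PowerSeries W) (PowerSeries W') := by
    refine Module.Finite.of_surjective (Fintype.linearCombination (PowerSeries W) g₀) fun x => ?_
    obtain ⟨p, hp⟩ := exists_sum_expand_mul ι b hb hqp.out.ne_zero x
    refine ⟨fun i => θ.symm (p i), ?_⟩
    rw [Fintype.linearCombination_apply, hp]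
    refine Finset.sum_congr rfl fun i _ => ?_
    simp [Algebra.smul_def, RingHom.algebraMap_toAlgebra, j, branchMap, g₀]
  have := isAdicComplete_series (W := W)
  have hR := isReg2_series hW
  have hO := isReg2_series hW'
  have hπ : (PowerSeries.C (q : W)) ∈ maximalIdeal (PowerSeries W) :=
    maximalIdeal_series hW ▸ Ideal.subset_span (by simp)
  have hπ2 : (PowerSeries.C (q : W)) ∉ maximalIdeal (PowerSeries W) ^ 2 :=
    hR.not_mem_sq_of_gen (maximalIdeal_series hW)
  have hn' : IsUnit (n : PowerSeries W) := by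
    simpa using (isUnit_natCast_of_coprime hW hnq).map (PowerSeries.C : W →+* PowerSeries W)
  refine exists_root_of_finite_unit (O := PowerSeries W') hR hO hn' ?_
    (fun c _ => exists_pow_eq_residue_series hn c) (PowerSeries.C (q : W) : PowerSeries W)
    hπ hπ2 jO ιL ?_ hf ?_ hloc
  · intro c
    obtain ⟨z, rfl⟩ := residue_surjective c
    obtain ⟨w, hw⟩ := hres (PowerSeries.constantCoeff z)
    refine ⟨PowerSeries.C w, ?_⟩
    show residue _ (j (PowerSeries.C w)) = _
    rw [hjC, eq_comm, ← sub_eq_zero, ← map_sub, residue_eq_zero_iff, mem_maximalIdeal_series_iff,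
      map_sub, PowerSeries.constantCoeff_C]
    exact hw
  · intro M _ μ g hμ
    have hμ' := fun r => RingHom.congr_fun hμ r
    have hg : Function.Injective g := by
      rw [injective_iff_map_eq_zero]
      intro x hx
      by_contra hne
      have hker : RingHom.ker g ≠ ⊥ := fun h0 =>
        hne ((RingHom.ker_eq_bot_iff_eq_zero g).1 h0 x hx)
      have : (RingHom.ker g).IsPrime := RingHom.ker_isPrime g
      refine hker (Ideal.eq_bot_of_comap_eq_bot (R := PowerSeries W) ?_)
      rw [RingHom.comap_ker, ← RingHom.injective_iff_ker_eq_bot]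
      intro a c hac
      refine toHat_injective (PowerSeries.C (q : W) : PowerSeries W) (IsFractionRing.injective
        (HatAt (PowerSeries.C (q : W) : PowerSeries W))
        (FractionRing (HatAt (PowerSeries.C (q : W) : PowerSeries W))) (μ.injective ?_))
      exact (hμ' a).trans (hac.trans (hμ' c).symm)
    obtain ⟨ψ, hψ⟩ := hext M μ g hg fun r => hμ' r
    exact ⟨ψ, fun x => (hψ x).1, (hψ 0).2⟩
  · intro p hp hpq
    refine exists_local_rep_of_valuation hf hp fun F _ ψ v hv => hval F ψ v fun w hw => hv _ ?_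
    have hpq' : ¬ p ∣ PowerSeries.C (ι (q : W)) := by
      rwa [RingHom.algebraMap_toAlgebra, hjC] at hpq
    obtain ⟨k, u, rfl⟩ := IsDiscreteValuationRing.eq_unit_mul_pow_irreducible hw
      ((IsDiscreteValuationRing.irreducible_iff_uniformizer _).2 hW)
    rw [map_mul, map_mul, map_pow, map_pow]
    intro h
    rcases hp.dvd_or_dvd h with h | h
    · exact hp.not_isUnit (isUnit_of_dvd_unit h ((u.isUnit.map ι).map _))
    · exact hpq' (hp.dvd_of_dvd_pow h)

set_option maxHeartbeats 800000 in
/-- **The root at a totally ramified point, up to a vertical unit.** -/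
theorem exists_root_of_branches_unit (hW : maximalIdeal W = Ideal.span {(q : W)}) {n : ℕ}
    (hn : 0 < n) (hnq : n.Coprime q) {Ψ : (FractionRing (PowerSeries W))[X]} (hΨ : Ψ.Monic)
    (hdeg : Ψ.natDegree = q + 1) (θ : PowerSeries W ≃+* PowerSeries W)
    (hθC : ∀ w, θ (PowerSeries.C w) = PowerSeries.C w)
    (y : Pairs Ψ) (hy : IsUnit y)
    (hhor : HorizAt ((algebraMap (PowerSeries W) (FractionRing (PowerSeries W))).comp
      PowerSeries.C) n y)
    (hloc : HasRootUpToUnit (unitBase q (Ψ.map (toHatFrac q))) n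
      (Pairs.map (Φ := Ψ) (toHatFrac q) rfl y))
    {x₀ : FractionRing (PowerSeries W)} (hx₀ : Ψ.eval x₀ = 0)
    {ξ : FractionRing (PowerSeries W)} (hξ : Ψ.eval₂ (branchFrac q θ) ξ = 0)
    (hne : ξ ≠ branchFrac q θ x₀) {a : PowerSeries W} {e : ℕ} (heq : e.Coprime q)
    (hae : PowerSeries.coeff e a ≠ 0)
    (hξa : ξ = algebraMap _ _ a ∨ ξ = (algebraMap _ _ a)⁻¹) :
    ∃ G, G ^ n = y := by
  classical
  have hq := hqp.out
  have hqW := natCast_ne_zero_of_prime (W := W) (q := q)
  let J := branchFrac q θ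
  let jL := toHatFrac (W := W) q
  -- the ring `W[ζ]`
  let W' := cycRing W q
  let ι : W →+* W' := AdjoinRoot.of (cyclotomic q W)
  have hE := isShiftEis_cyclotomic hW
  have := isDomain_cycRing hW
  have := hE.isLocalRing
  have := hE.isDiscreteValuationRing
  have hι : Function.Injective ι := injective_of_cycRing
  set ζ : W' := AdjoinRoot.root (cyclotomic q W) with hζdef
  have hζ : IsPrimitiveRoot ζ q := isPrimitiveRoot_root hW
  have hζ0 : ∀ i : ℕ, ζ ^ i ≠ 0 := fun i => pow_ne_zero i (hζ.ne_zero hq.ne_zero)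
  have hζi : ∀ i : ℕ, (ζ ^ i) ^ q = 1 := fun i => by
    rw [← pow_mul, mul_comm, pow_mul, hζ.pow_eq_one, one_pow]
  -- maps into the largest field
  let I : FractionRing (PowerSeries W) →+* FractionRing (PowerSeries W') :=
    IsFractionRing.map (map_powerSeries_injective hι)
  let J₂ := I.comp J
  let σ : ℕ → FractionRing (PowerSeries W') →+* FractionRing (PowerSeries W') := fun i =>
    IsFractionRing.map (rescale_injective (hζ0 i))
  have hI : ∀ f, I (algebraMap _ _ f) = algebraMap _ _ (PowerSeries.map ι f) :=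
    fun f => IsLocalization.map_eq _ f
  have hσ : ∀ i f, σ i (algebraMap _ _ f) = algebraMap _ _ (PowerSeries.rescale (ζ ^ i) f) :=
    fun i f => IsLocalization.map_eq _ f
  have hJ : ∀ f, J (algebraMap _ _ f) = algebraMap _ _ (branchMap q θ f) :=
    fun f => branchFrac_algebraMap θ f
  have hσJ : ∀ i, (σ i).comp J₂ = J₂ := fun i => by
    refine IsLocalization.ringHom_ext (nonZeroDivisors (PowerSeries W)) (RingHom.ext fun f => ?_)
    simp only [RingHom.comp_apply, J₂, hJ, hI, hσ, branchMap, AlgHom.toRingHom_eq_coe,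
      RingHom.coe_coe, PowerSeries.map_expand, rescale_expand_of_pow_eq_one hq.ne_zero (hζi i)]
  let z : ℕ → FractionRing (PowerSeries W') := fun i => σ i (I ξ)
  have hz_inj : ∀ i < q, ∀ k < q, z i = z k → i = k := by
    intro i hi k hk hik
    have h1 : σ i (I (algebraMap _ _ a)) = σ k (I (algebraMap _ _ a)) := by
      rcases hξa with h | h
      · simpa [z, h] using hik
      · refine inv_injective ?_
        rw [show (σ i (I (algebraMap (PowerSeries W) _ a)))⁻¹ = z i by
            simp only [z, h, map_inv₀], hik]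
        simp only [z, h, map_inv₀]
    rw [hI, hσ, hσ] at h1
    have h2 := congrArg (PowerSeries.coeff e) (IsFractionRing.injective _ _ h1)
    rw [PowerSeries.coeff_rescale, PowerSeries.coeff_rescale, PowerSeries.coeff_map,
      ← pow_mul, ← pow_mul, mul_comm i, mul_comm k, pow_mul, pow_mul] at h2
    exact (hζ.pow_of_coprime e heq).pow_inj hi hk
      (mul_right_cancel₀ ((map_ne_zero_iff ι hι).2 hae) h2)
  have hz_ne : ∀ i, z i ≠ J₂ x₀ := fun i h => by
    have h1 : σ i (I ξ) = σ i (J₂ x₀) := h.trans (RingHom.congr_fun (hσJ i) x₀).symm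
    exact hne (I.injective ((σ i).injective h1))
  -- the polynomial of the first root
  let s : RootSplit Ψ := ⟨x₀, hx₀⟩
  have hd : 1 < Ψ.natDegree := by rw [hdeg]; have := hq.two_le; omega
  have hquo : s.quo.Monic := s.monic_quo hΨ (by omega)
  have hquod : s.quo.natDegree = q := by
    rw [s.natDegree_quo hΨ (by omega), hdeg, Nat.add_sub_cancel]
  have hquoξ : s.quo.eval₂ J ξ = 0 := by
    have h1 := congrArg (eval₂ J ξ) s.sub_mul_quo
    rw [eval₂_mul, hξ, eval₂_sub, eval₂_X, eval₂_C, mul_eq_zero] at h1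
    exact h1.resolve_left (sub_ne_zero.2 hne)
  have hquoz : ∀ i, s.quo.eval₂ J₂ (z i) = 0 := fun i => by
    rw [show z i = (σ i).comp I ξ from rfl, ← hσJ i, ← RingHom.comp_assoc, ← hom_eval₂, hquoξ,
      map_zero]
  have hirr : Irreducible s.quo := by
    refine irreducible_of_conjugates J₂ hquo (x := I ξ) ?_ (fun i => z i) ?_ fun i =>
      ⟨σ i, hσJ i, rfl⟩
    · rw [← hom_eval₂, hquoξ, map_zero]
    · intro i k hik
      exact Fin.ext (hz_inj i (hquod ▸ i.2) k (hquod ▸ k.2) hik)
  have := Fact.mk hirr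
  have h0 : s.quo.eval s.x₀ ≠ 0 := fun h =>
    hirr.not_isRoot_of_natDegree_ne_one (by rw [hquod]; exact hq.ne_one) h
  -- the models
  let ε : s.E →+* FractionRing (PowerSeries W) := AdjoinRoot.lift J ξ hquoξ
  have hεof : ε.comp (AdjoinRoot.of s.quo) = J := AdjoinRoot.lift_comp_of _
  have hb1 : ∀ w : W, ∃ c : Fin 1 → W, w = ∑ k, RingHom.id W (c k) * (1 : W) := fun w =>
    ⟨fun _ => w, by simp⟩
  have hεsurj : Function.Surjective ε := by
    refine surjective_of_generators J ε hεof (branchMap q θ) (algebraMap _ _)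
      (fun r => (hJ r).symm) (fun i : Fin (1 * q) => PowerSeries.C (1 : W) *
        PowerSeries.X ^ (i.modNat : ℕ)) (fun o => ?_) (le_of_eq ?_)
    · obtain ⟨p, hp⟩ := exists_sum_expand_mul (RingHom.id W) (fun _ => 1) hb1 hq.ne_zero o
      refine ⟨fun i => θ.symm (p i), hp.trans (Finset.sum_congr rfl fun i _ => ?_)⟩
      simp [branchMap]
    · rw [(AdjoinRoot.powerBasis' hquo).finrank, AdjoinRoot.powerBasis'_dim, hquod, one_mul]
  let e₁ := RingEquiv.ofBijective ε ⟨ε.injective, hεsurj⟩
  let t := s.map jL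
  -- `n`-th roots in the first field
  have root₁ : ∀ br : Pairs Ψ →+* s.E, (∀ c, br (Pairs.ofBase Ψ c) = AdjoinRoot.of s.quo c) →
      HasRootUpToUnit ((AdjoinRoot.of t.quo).comp
        (algebraMap (HatAt (PowerSeries.C (q : W) : PowerSeries W)) _)) n (s.mapE jL (br y)) → ∃ g, g ^ n = br y := by
    intro br hbr hZ
    refine (exists_branchRoot_unit hW (RingHom.id W) Function.injective_id hW
      (fun w => ⟨w, by simp⟩) (fun _ => (1 : W)) hb1 θ hθC hn hnq
      ((s.mapE jL).comp e₁.symm.toRingHom) (AdjoinRoot.of t.quo) (fun M _ μ g hg hμ => ?_)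
      (f := ε (br y)) ((hy.map br).map ε).ne_zero (fun F _ ψ v hv => ?_)
      (by
        rw [RingHom.comp_apply]
        convert hZ using 2
        exact e₁.symm_apply_apply (br y))).elim fun G hG =>
        ⟨e₁.symm G, e₁.injective (by rw [map_pow, e₁.apply_symm_apply, hG]; rfl)⟩
    · let gh : FractionRing (PowerSeries W) →+* M := IsFractionRing.lift hg
      have hgh : μ.comp jL = gh.comp J := by
        refine IsLocalization.ringHom_ext (nonZeroDivisors (PowerSeries W))
          (RingHom.ext fun r => ?_)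
        simp only [RingHom.comp_apply, jL, toHatFrac, IsLocalization.map_eq, hJ, hμ, gh,
          IsFractionRing.lift_algebraMap, PowerSeries.map_id, id_eq]
      have hev : t.quo.eval₂ μ (gh ξ) = 0 := by
        rw [RootSplit.quo_map, eval₂_map, hgh, ← hom_eval₂, hquoξ, map_zero]
      refine ⟨AdjoinRoot.lift μ _ hev, fun x => ⟨?_, AdjoinRoot.lift_comp_of _⟩⟩
      have key : (AdjoinRoot.lift μ _ hev).comp (s.mapE jL) = gh.comp ε := by
        refine AdjoinRoot.ringHom_ext (RingHom.ext fun c => ?_) ?_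
        · simpa [RootSplit.mapE, ε, t] using RingHom.congr_fun hgh c
        · simp [RootSplit.mapE, ε, t]
      show ((AdjoinRoot.lift μ _ hev).comp (s.mapE jL)) (e₁.symm _) = _
      rw [key, RingHom.comp_apply, show ε (e₁.symm _) = _ from e₁.apply_symm_apply _]
      simp [gh]
    · refine hhor F (ψ.comp (ε.comp br)) v fun w hw => ?_
      rw [RingHom.comp_apply, RingHom.comp_apply, hbr, RingHom.comp_apply, ← RingHom.comp_apply ε,
        hεof, hJ]
      simpa [branchMap, hθC, PowerSeries.expand_C] using hv w hw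
  obtain ⟨g₀, hg₀⟩ := root₁ s.br₀ (fun c => by simp [RootSplit.br₀])
    (branchUnit hloc t.br₀ _ (Pairs.lift_comp_ofBase ..) (s.mapE_br₀ jL y))
  obtain ⟨g₁, hg₁⟩ := root₁ s.br₁ (fun c => by simp [RootSplit.br₁])
    (branchUnit hloc t.br₁ _ (Pairs.lift_comp_ofBase ..) (s.mapE_br₁ jL y))
  -- the middle branch
  let ε' : s.E →+* FractionRing (PowerSeries W') := I.comp ε
  have hε'of : ε'.comp (AdjoinRoot.of s.quo) = J₂ := by rw [RingHom.comp_assoc, hεof]
  have hGm := s.monic_G hΨ hd
  have hGd : s.G.natDegree = q - 1 := by rw [s.natDegree_G hΨ hd, hdeg]; omega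
  have hz0 : z 0 = I ξ := by
    have h1 : σ 0 = RingHom.id _ := by
      refine IsLocalization.ringHom_ext (nonZeroDivisors (PowerSeries W'))
        (RingHom.ext fun f => ?_)
      simp [hσ]
    simp [z, h1]
  have hGz : ∀ i, 0 < i → i < q → s.G.eval₂ ε' (z i) = 0 := by
    intro i hi hiq
    have hmap : s.G.map ε' = divDiff (s.quo.map J₂) (I ξ) := by
      rw [RootSplit.G, map_divDiff, Polynomial.map_map, hε'of]
      congr 1
      simp [ε', ε]
    have h1 := sub_mul_divDiff_eval (s.quo.map J₂) (I ξ) (z i)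
    rw [eval_map, eval_map, hquoz, ← hz0, hquoz, sub_zero, mul_eq_zero] at h1
    rw [← eval_map, hmap, ← hz0]
    exact h1.resolve_left (sub_ne_zero.2 fun h => hi.ne' (hz_inj i hiq 0 hq.pos h))
  have hτ : ∀ i, 0 < i → i < q → ∃ τ : FractionRing (PowerSeries W') →+*
      FractionRing (PowerSeries W'), τ.comp ε' = ε' ∧ τ (z 1) = z i := by
    intro i hi hiq
    obtain ⟨τ, hτinj, hτι, hτζ⟩ := exists_cycConj hW
      ((Nat.coprime_of_lt_prime hi.ne' hiq hq).symm)
    let T : FractionRing (PowerSeries W') →+* FractionRing (PowerSeries W') :=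
      IsFractionRing.map (map_powerSeries_injective hτinj)
    have hT : ∀ f : PowerSeries W', T (algebraMap (PowerSeries W') _ f) =
        algebraMap (PowerSeries W') _ ((PowerSeries.map τ f : PowerSeries W')) :=
      fun f => IsLocalization.map_eq _ f
    have hmm : ∀ f : PowerSeries W,
        PowerSeries.map τ (PowerSeries.map ι f) = PowerSeries.map ι f := fun f => by
      ext m
      rw [PowerSeries.coeff_map, PowerSeries.coeff_map]
      exact RingHom.congr_fun hτι _
    have hTI : T.comp I = I := by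
      refine IsLocalization.ringHom_ext (nonZeroDivisors (PowerSeries W)) (RingHom.ext fun f => ?_)
      simp only [RingHom.comp_apply, hI, hT, hmm]
    have hTσ : (T.comp (σ 1)).comp I = (σ i).comp I := by
      refine IsLocalization.ringHom_ext (nonZeroDivisors (PowerSeries W)) (RingHom.ext fun f => ?_)
      simp only [RingHom.comp_apply, hI, hσ, hT, pow_one, ← PowerSeries.rescale_map, hmm, hτζ,
        hζdef]
    exact ⟨T, by rw [← RingHom.comp_assoc, hTI], RingHom.congr_fun hTσ ξ⟩
  have hirrG : Irreducible s.G := by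
    refine irreducible_of_conjugates ε' hGm (hGz 1 one_pos hq.one_lt)
      (fun i => z (i.1 + 1)) ?_ fun i => hτ _ (Nat.succ_pos _) (by have := i.2; omega)
    intro i k hik
    have hi := i.2
    have hk := k.2
    exact Fin.ext (Nat.succ_injective (hz_inj _ (by omega) _ (by omega) hik))
  have := Fact.mk hirrG
  let ε₂ : s.E' →+* FractionRing (PowerSeries W') :=
    AdjoinRoot.lift ε' (z 1) (hGz 1 one_pos hq.one_lt)
  have hε₂of : ε₂.comp (AdjoinRoot.of s.G) = ε' := AdjoinRoot.lift_comp_of _
  have hε₂J : ε₂.comp (algebraMap (FractionRing (PowerSeries W)) s.E') = J₂ := by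
    rw [show algebraMap (FractionRing (PowerSeries W)) s.E' =
      (AdjoinRoot.of s.G).comp (AdjoinRoot.of s.quo) from rfl, ← RingHom.comp_assoc, hε₂of, hε'of]
  have hb' : ∀ w : W', ∃ c : Fin (q - 1) → W, w = ∑ k, ι (c k) * ζ ^ (k : ℕ) :=
    exists_sum_cycRing
  have hε₂surj : Function.Surjective ε₂ := by
    refine surjective_of_generators J₂ ε₂ hε₂J ((PowerSeries.map ι).comp (branchMap q θ))
      (algebraMap _ _) (fun r => by simp only [RingHom.comp_apply, J₂, hJ, hI])
      (fun i : Fin ((q - 1) * q) => PowerSeries.C (ζ ^ (i.divNat : ℕ)) *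
        PowerSeries.X ^ (i.modNat : ℕ)) (fun o => ?_) (le_of_eq ?_)
    · obtain ⟨p, hp⟩ := exists_sum_expand_mul ι (fun k => ζ ^ (k : ℕ)) hb' hq.ne_zero o
      refine ⟨fun i => θ.symm (p i), hp.trans (Finset.sum_congr rfl fun i _ => ?_)⟩
      simp [branchMap]
    · have := hquo.free_adjoinRoot
      have := hquo.finite_adjoinRoot
      have := hGm.free_adjoinRoot
      have := hGm.finite_adjoinRoot
      rw [← Module.finrank_mul_finrank (FractionRing (PowerSeries W)) s.E s.E',
        (AdjoinRoot.powerBasis' hquo).finrank, (AdjoinRoot.powerBasis' hGm).finrank,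
        AdjoinRoot.powerBasis'_dim, AdjoinRoot.powerBasis'_dim, hquod, hGd, mul_comm]
  have hε₂inj : Function.Injective ε₂ :=
    (letI : Field s.E' := AdjoinRoot.instField (f := s.G)
     ε₂.injective)
  let e₂ := RingEquiv.ofBijective ε₂ ⟨hε₂inj, hε₂surj⟩
  obtain ⟨Gm, hGmy⟩ := exists_branchRoot_unit (f := ε₂ (s.brₘ y)) hW ι hι hE.maximalIdeal_eq
    (fun w' => by
      obtain ⟨p, rfl⟩ := AdjoinRoot.mk_surjective w'
      refine ⟨p.eval 1, ?_⟩
      show AdjoinRoot.mk (cyclotomic q W) p - AdjoinRoot.of _ (p.eval 1) ∈ _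
      rw [hE.maximalIdeal_eq, Ideal.mem_span_singleton, ← AdjoinRoot.mk_C, ← AdjoinRoot.mk_C,
        ← AdjoinRoot.mk_X, ← map_sub, ← map_sub]
      exact map_dvd _ (dvd_iff_isRoot.2 (by simp)))
    (fun k => ζ ^ (k : ℕ)) hb' θ hθC hn hnq
    ((s.mapE' jL).comp e₂.symm.toRingHom) ((AdjoinRoot.of t.G).comp (AdjoinRoot.of t.quo))
    (fun M _ μ g hg hμ => by
      let gh : FractionRing (PowerSeries W') →+* M := IsFractionRing.lift hg
      have hgh : μ.comp jL = gh.comp J₂ := by
        refine IsLocalization.ringHom_ext (nonZeroDivisors (PowerSeries W))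
          (RingHom.ext fun r => ?_)
        simp only [RingHom.comp_apply, jL, toHatFrac, IsLocalization.map_eq, J₂, hJ, hI, hμ, gh,
          IsFractionRing.lift_algebraMap]
      have hev : t.quo.eval₂ μ (gh (I ξ)) = 0 := by
        rw [RootSplit.quo_map, eval₂_map, hgh, ← hom_eval₂, ← hz0, hquoz, map_zero]
      let ψ₀ := AdjoinRoot.lift μ _ hev
      have key₀ : ψ₀.comp (s.mapE jL) = gh.comp ε' := by
        refine AdjoinRoot.ringHom_ext (RingHom.ext fun c => ?_) ?_
        · simpa [RootSplit.mapE, ψ₀, ε', ε, J₂, t] using RingHom.congr_fun hgh c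
        · simp [RootSplit.mapE, ψ₀, ε', ε, t]
      have hev' : t.G.eval₂ ψ₀ (gh (z 1)) = 0 := by
        rw [← RootSplit.G_map, eval₂_map, key₀, ← hom_eval₂, hGz 1 one_pos hq.one_lt, map_zero]
      refine ⟨AdjoinRoot.lift ψ₀ _ hev', fun x => ⟨?_, ?_⟩⟩
      · have key : (AdjoinRoot.lift ψ₀ _ hev').comp (s.mapE' jL) = gh.comp ε₂ := by
          refine AdjoinRoot.ringHom_ext (RingHom.ext fun c => ?_) ?_
          · simpa [RootSplit.mapE', ε₂, t] using RingHom.congr_fun key₀ c
          · simp [RootSplit.mapE', ε₂, t]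
        show ((AdjoinRoot.lift ψ₀ _ hev').comp (s.mapE' jL)) (e₂.symm _) = _
        rw [key, RingHom.comp_apply, show ε₂ (e₂.symm _) = _ from e₂.apply_symm_apply _]
        simp [gh]
      · rw [← RingHom.comp_assoc, AdjoinRoot.lift_comp_of, AdjoinRoot.lift_comp_of])
    ((hy.map s.brₘ).map ε₂).ne_zero
    (fun F _ ψ v hv => by
      refine hhor F (ψ.comp (ε₂.comp s.brₘ)) v fun w hw => ?_
      have h1 : ε₂ (s.brₘ (Pairs.ofBase Ψ (algebraMap _ _ (PowerSeries.C w)))) =
          algebraMap _ _ (PowerSeries.C (ι w)) := by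
        rw [RootSplit.brₘ, Pairs.lift_ofBase, ← RingHom.comp_apply ε₂, ← RingHom.comp_assoc,
          hε₂of, hε'of, RingHom.comp_apply, hJ, hI]
        simp [branchMap, hθC, PowerSeries.expand_C]
      rw [RingHom.comp_apply, RingHom.comp_apply, RingHom.comp_apply, h1]
      exact hv w hw)
    (branchUnit hloc t.brₘ _ (Pairs.lift_comp_ofBase ..) (by
      rw [← s.mapE'_brₘ]
      exact congrArg (s.mapE' jL) (e₂.symm_apply_apply _)))
  obtain ⟨G, hG₀, hG₁, hG₂⟩ := s.br_surjective hΨ hd h0 g₀ g₁ (e₂.symm Gm)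
  refine ⟨G, sub_eq_zero.1 (s.br_injective hΨ hd h0 ?_ ?_ ?_)⟩
  · rw [map_sub, map_pow, hG₀, hg₀, sub_self]
  · rw [map_sub, map_pow, hG₁, hg₁, sub_self]
  · rw [map_sub, map_pow, hG₂, sub_eq_zero]
    exact e₂.injective (by rw [map_pow, e₂.apply_symm_apply, hGmy]; rfl)

section Points

/-- The root up to a unit at a finite cusp value. -/
theorem pointRootUnit_cusp {L : ℕ} [NeZero L]
    (hW : maximalIdeal W = Ideal.span {(q : W)}) (hL : Haupt.IsHauptLevel L) (hqL : ¬ q ∣ L)
    {Φ : ℤ[X][X]} (hΦ : Haupt.IsModEq q L Φ) (t₀ : W)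
    (ht₀ : ((Haupt.cuspPoly L).map (Int.castRingHom W)).eval t₀ = 0)
    {e : ℕ} (he : 0 < e) (heq : e.Coprime q) {n : ℕ} (hn : 0 < n) (hnq : n.Coprime q) :
    PointRootUnit q Φ n (pointHom W t₀ e) := by
  intro y hy hhor hloc
  have hq : q.Prime := Fact.out
  have hLW : IsUnit (L : W) :=
    isUnit_natCast_of_coprime hW (hq.coprime_iff_not_dvd.2 hqL).symm
  obtain ⟨g, g', hg0, hg1, -, hg'1, hA, hB⟩ := hΦ.exists_cuspSeries hL hqL hLW t₀ ht₀
  obtain ⟨θ, hθC, hθ⟩ := exists_cuspParam hW he heq (h := g - PowerSeries.C t₀) (by simp [hg0])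
    (by simpa [PowerSeries.coeff_C] using hg1)
  let E : PowerSeries W →+* PowerSeries W := (PowerSeries.expand e he.ne').toRingHom
  let Eq' : PowerSeries W →+* PowerSeries W := (PowerSeries.expand q hq.ne_zero).toRingHom
  let ι : PowerSeries W →+* FractionRing (PowerSeries W) := algebraMap _ _
  have hT : θ (pointMap W t₀ e X) = E g := by
    simp [pointMap, hθC, hθ, E, PowerSeries.expand_C]
  have hEE : ∀ f, Eq' (E f) = E (Eq' f) := fun f => by
    simp only [E, Eq', AlgHom.toRingHom_eq_coe, RingHom.coe_coe]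
    rw [← PowerSeries.expand_mul q hq.ne_zero e he.ne',
      ← PowerSeries.expand_mul e he.ne' q hq.ne_zero]
    congr 2
    exact mul_comm q e
  have hA' : (phiAt Φ (pointHom W t₀ e)).eval₂ (branchFrac q θ) (ι (E g')) = 0 := by
    have e1 : (branchFrac q θ).comp ((pointHom W t₀ e).comp (mapRingHom (Int.castRingHom W))) =
        (ι.comp E).comp (aeval (PowerSeries.expand q (NeZero.ne q) g)).toRingHom :=
      Polynomial.ringHom_ext' (RingHom.ext_int _ _) (by
        simp only [RingHom.comp_apply, coe_mapRingHom, map_X, pointHom, branchFrac_algebraMap,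
          AlgHom.toRingHom_eq_coe, RingHom.coe_coe, aeval_X]
        exact congrArg ι ((congrArg Eq' hT).trans (hEE g)))
    rw [eval₂_map, e1, ← RingHom.comp_apply, ← hom_eval₂, hA, map_zero]
  have hB' : (phiAt Φ (pointHom W t₀ e)).eval
      (ι (θ.symm (E (PowerSeries.expand q (NeZero.ne q) g')))) = 0 := by
    have e1 : (pointHom W t₀ e).comp (mapRingHom (Int.castRingHom W)) =
        (ι.comp (θ.symm.toRingHom.comp E)).comp (aeval g).toRingHom :=
      Polynomial.ringHom_ext' (RingHom.ext_int _ _) (by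
        simp [pointHom, ι, ← hT])
    rw [eval_map, e1, show ι (θ.symm (E _)) =
      (ι.comp (θ.symm.toRingHom.comp E)) (PowerSeries.expand q (NeZero.ne q) g') from rfl,
      ← hom_eval₂, hB, map_zero]
  refine exists_root_of_branches_unit hW hn hnq (hΦ.monic.map _)
    (by rw [hΦ.monic.natDegree_map, hΦ.natDegree]) θ hθC y hy ?_ hloc hB' hA' ?_
    (a := E g') heq ?_ (Or.inl rfl)
  · rwa [show (pointHom W t₀ e).comp C = ι.comp PowerSeries.C from
      RingHom.ext fun w => by simp [pointHom, pointMap, ι]] at hhor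
  · rw [branchFrac_algebraMap]
    intro h
    have h1 := congrArg (PowerSeries.coeff (e * 1)) (IsFractionRing.injective _ _ h)
    simp only [E, branchMap, RingHom.comp_apply, RingEquiv.toRingHom_eq_coe, RingHom.coe_coe,
      RingEquiv.apply_symm_apply, AlgHom.toRingHom_eq_coe] at h1
    rw [PowerSeries.coeff_expand_mul,
      PowerSeries.coeff_expand_of_not_dvd q hq.ne_zero _ (by
        rw [mul_one]; exact hq.coprime_iff_not_dvd.1 heq.symm)] at h1
    exact hg'1.ne_zero h1
  · have h1 : PowerSeries.coeff e (E g') = PowerSeries.coeff 1 g' := by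
      have := PowerSeries.coeff_expand_mul e he.ne' g' 1
      rwa [mul_one] at this
    rw [h1]
    exact hg'1.ne_zero

/-- The root up to a unit at infinity. -/
theorem pointRootUnit_inf {L : ℕ} [NeZero L]
    (hW : maximalIdeal W = Ideal.span {(q : W)}) (hL : Haupt.IsHauptLevel L) (hqL : ¬ q ∣ L)
    {Φ : ℤ[X][X]} (hΦ : Haupt.IsModEq q L Φ)
    {e : ℕ} (he : 0 < e) (heq : e.Coprime q) {n : ℕ} (hn : 0 < n) (hnq : n.Coprime q) :
    PointRootUnit q Φ n (infHom W e) := by
  intro y hy hhor hloc
  have hq : q.Prime := Fact.out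
  set h : PowerSeries W := PowerSeries.map (Int.castRingHom W) (Haupt.tInv L) with hh
  have h0 : PowerSeries.constantCoeff h = 0 := by
    rw [hh, ← PowerSeries.coeff_zero_eq_constantCoeff_apply, PowerSeries.coeff_map,
      PowerSeries.coeff_zero_eq_constantCoeff_apply, Haupt.constantCoeff_tInv, map_zero]
  have h1 : PowerSeries.coeff 1 h = 1 := by
    rw [hh, PowerSeries.coeff_map, Haupt.coeff_one_tInv, map_one]
  obtain ⟨θ, hθC, hθ⟩ := exists_cuspParam hW he heq h0 (h1 ▸ isUnit_one)
  let E : PowerSeries W →+* PowerSeries W := (PowerSeries.expand e he.ne').toRingHom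
  let ι : PowerSeries W →+* FractionRing (PowerSeries W) := algebraMap _ _
  let c : PowerSeries ℤ →+* PowerSeries W := PowerSeries.map (Int.castRingHom W)
  have hι : Function.Injective ι := IsFractionRing.injective _ _
  have hX : c PowerSeries.X ≠ 0 := by simp [c, PowerSeries.X_ne_zero]
  have hinf : infHom W e X = (ι (PowerSeries.X ^ e))⁻¹ := by
    simp [infHom, ι, inv_pow]
  have hEE : ∀ f, PowerSeries.expand q hq.ne_zero (E f) =
      E (PowerSeries.expand q hq.ne_zero f) := fun f => by
    simp only [E, AlgHom.toRingHom_eq_coe, RingHom.coe_coe]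
    rw [← PowerSeries.expand_mul q hq.ne_zero e he.ne',
      ← PowerSeries.expand_mul e he.ne' q hq.ne_zero]
    congr 2
    exact mul_comm q e
  have hA' : (phiAt Φ (infHom W e)).eval₂ (branchFrac q θ) (ι (E h))⁻¹ = 0 := by
    rw [eval₂_map]
    refine hΦ.eval₂_tInv (ι.comp (E.comp c)) ?_ _ ?_
    · exact (map_ne_zero_iff ι hι).2 ((map_ne_zero_iff E (expand_injective e he.ne')).2 hX)
    · simp only [RingHom.comp_apply, coe_mapRingHom, map_X, hinf, map_inv₀, ι,
        branchFrac_algebraMap]
      congr 2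
      simp only [branchMap, RingHom.comp_apply, RingEquiv.toRingHom_eq_coe, RingHom.coe_coe,
        AlgHom.toRingHom_eq_coe, hθ, c, PowerSeries.map_expand]
      exact hEE h
  have hB' : (phiAt Φ (infHom W e)).eval
      (ι (θ.symm (E (PowerSeries.expand q hq.ne_zero h))))⁻¹ = 0 := by
    rw [eval_map]
    have h2 := hΦ.eval₂_tInv_swap (ι.comp ((θ.symm.toRingHom.comp E).comp c)) ?_
      ((infHom W e).comp (mapRingHom (Int.castRingHom W))) ?_
    · simpa [c, h, E, PowerSeries.map_expand] using h2
    · exact (map_ne_zero_iff ι hι).2 ((map_ne_zero_iff (θ.symm.toRingHom.comp E)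
        (θ.symm.injective.comp (expand_injective e he.ne'))).2 hX)
    · simp only [RingHom.comp_apply, coe_mapRingHom, map_X, hinf]
      congr 2
      rw [show θ.symm.toRingHom (E (c (Haupt.tInv L))) = θ.symm (E h) from rfl,
        show E h = θ (PowerSeries.X ^ e) from hθ.symm, RingEquiv.symm_apply_apply]
  refine exists_root_of_branches_unit hW hn hnq (hΦ.monic.map _)
    (by rw [hΦ.monic.natDegree_map, hΦ.natDegree]) θ hθC y hy ?_ hloc hB' hA' ?_
    (a := E h) heq ?_ (Or.inr rfl)
  · rwa [show (infHom W e).comp C = ι.comp PowerSeries.C from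
      RingHom.ext fun w => by simp [infHom, ι]] at hhor
  · rw [map_inv₀, branchFrac_algebraMap]
    intro h'
    have h2 := congrArg (PowerSeries.coeff (e * 1)) (hι (inv_injective h'))
    simp only [E, branchMap, RingHom.comp_apply, RingEquiv.toRingHom_eq_coe, RingHom.coe_coe,
      RingEquiv.apply_symm_apply, AlgHom.toRingHom_eq_coe] at h2
    rw [PowerSeries.coeff_expand_mul,
      PowerSeries.coeff_expand_of_not_dvd q hq.ne_zero _ (by
        rw [mul_one]; exact hq.coprime_iff_not_dvd.1 heq.symm), h1] at h2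
    exact one_ne_zero h2
  · have h2 : PowerSeries.coeff e (E h) = PowerSeries.coeff 1 h := by
      have := PowerSeries.coeff_expand_mul e he.ne' h 1
      rwa [mul_one] at this
    rw [h2, h1]
    exact one_ne_zero

end Points

end FLTA.Carayol

end
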