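import Fermat.Agent.Carayol.UnitRoot
import Fermat.Agent.Carayol.PointsDefs
import Fermat.Agent.Carayol.CoreLocal

/-!
# Local roots up to a vertical unit

At a point of the line, an element with divisible horizontal multiplicities which is a power up to
an integral unit over the completion at the vertical prime is a power.
-/

set_option autoImplicit false

noncomputable section

open Polynomial

namespace FLTA.Carayol

variable {W : Type} [CommRing W] [IsDomain W] [IsNoetherianRing W] (q : ℕ)
  [Fact (Prime (PowerSeries.C (q : W) : PowerSeries W))]

/-- The integers of the completion at the vertical prime in the pair algebra over it. -/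
def unitBase (ΨM : (FractionRing (HatAt (PowerSeries.C (q : W) : PowerSeries W)))[X]) :
    HatAt (PowerSeries.C (q : W) : PowerSeries W) →+* Pairs ΨM :=
  (Pairs.ofBase ΨM).comp (algebraMap _ _)

/-- The unit-twisted form of what is proved at a point with parametrisation `β`. -/
def PointRootUnit (Φ : ℤ[X][X]) (n : ℕ) (β : W[X] →+* FractionRing (PowerSeries W)) : Prop :=
  ∀ z : Pairs (phiAt Φ β), IsUnit z → HorizAt (β.comp C) n z →
    HasRootUpToUnit (unitBase q ((phiAt Φ β).map (toHatFrac q))) n
      (Pairs.map (Φ := phiAt Φ β) (toHatFrac q) rfl z) →
    ∃ G, G ^ n = z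

end FLTA.Carayol

end
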