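import Fermat.Agent.Carayol.UnitDefs
import Fermat.Agent.Carayol.PointFinite

/-!
# The root at a point which is not a cusp, up to a vertical unit

The variants of the roots at ordinary and supersingular points in which the power over the
completion at the vertical prime is only known up to an integral unit.
-/

set_option autoImplicit false
set_option linter.style.haveILetI false

noncomputable section

open IsLocalRing Ideal Polynomial

namespace FLTA.Carayol

/-- A root up to a unit in the pairs gives one on a branch. -/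
theorem branchUnit {B L P LO : Type*} [CommRing B] [CommRing L] [CommRing P] [CommRing LO]
    {e : B →+* L} {b : L →+* P} {n : ℕ} {f : P} (h : HasRootUpToUnit (b.comp e) n f)
    (br : P →+* LO) (ι : L →+* LO) (hbr : br.comp b = ι) {f' : LO} (hf : f' = br f) :
    HasRootUpToUnit (ι.comp e) n f' := by
  subst hbr hf
  exact h.map br

section Ordinary

universe u

variable {R : Type u} [CommRing R] [IsDomain R] [IsLocalRing R] {K : Type*} [Field K] [CharZero K]
  [Algebra R K] [IsFractionRing R K] {q : ℕ} {Φ P χ : R[X]} {T ρ a : R}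

omit [CharZero K] in
set_option maxHeartbeats 1600000 in
/-- **The root at an ordinary point, up to a vertical unit.** -/
theorem IsOrd.exists_root_unit [IsNoetherianRing R] [IsAdicComplete (maximalIdeal R) R] (hR : IsReg2 R)
    (h : IsOrd K q Φ P χ T ρ) (hgen : maximalIdeal R = span {(q : R), T - a ^ q}) {n : ℕ}
    (hn : IsUnit (n : R)) (hk : ∀ c : ResidueField R, c ≠ 0 → ∃ d, d ^ n = c)
    [Fact (Prime (q : R))] {L : Type*} [Field L] [Algebra (HatAt (q : R)) L]
    [IsFractionRing (HatAt (q : R)) L] (j : K →+* L)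
    (hj : j.comp (algebraMap R K) = (algebraMap (HatAt (q : R)) L).comp (toHat (q : R)))
    (y : Pairs (Φ.map (algebraMap R K))) (hy : IsUnit y)
    (hdiv : ∀ (F : Type u) [Field F] (ψ : Pairs (Φ.map (algebraMap R K)) →+* F)
      (v : Valuation F (WithZero (Multiplicative ℤ))),
      (∀ r : R, IsUnit r → v (ψ (Pairs.ofBase _ (algebraMap R K r))) = 1) →
      v (ψ (Pairs.ofBase _ (algebraMap R K (q : R)))) = 1 → ∃ z, v (ψ y) = z ^ n)
    (hloc : HasRootUpToUnit ((Pairs.ofBase ((Φ.map (algebraMap R K)).map j)).comp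
      (algebraMap (HatAt (q : R)) L)) n (Pairs.map j rfl y)) :
    ∃ G, G ^ n = y := by
  classical
  have hn0 : NeZero n := ⟨by rintro rfl; simp at hn⟩
  have := hR.uniqueFactorizationMonoid
  have : HenselianLocalRing R := ⟨fun f hf a₀ h₁ h₂ =>
    HenselianRing.is_henselian (I := maximalIdeal R) f hf a₀ h₁ (h₂.map _)⟩
  obtain ⟨s, y₁, ψ, hx₀, hquo, hχψ, hψ, hP⟩ := h.exists_rootSplit
  have hq := h.prime_q
  have hd := h.one_lt_natDegree
  have hqm : (q : R) ∈ maximalIdeal R := hgen ▸ subset_span (by simp)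
  have hqm2 : (q : R) ∉ maximalIdeal R ^ 2 := hR.not_mem_sq_of_gen hgen
  have := h.isLocalRing_E hgen s hquo hR
  have hE := h.isReg2_E hgen s hquo hR
  have := hE.isDomain
  have := hE.isNoetherian
  have := hE.uniqueFactorizationMonoid
  have hmid := h.exists_mid s hquo hx₀ hχψ hψ hP (h.prime_q_E hgen s hquo hR)
    (h.not_dvd_root_sub s)
  have hEisG := h.isEis_G hgen s hquo hR hmid
  have := hEisG.isLocalRing
  have : IsLocalRing s.E' := (shiftEquiv s.G (AdjoinRoot.root s.quo)).isLocalRing
  have hE' : IsReg2 s.E' := (hEisG.isReg2 hE).of_ringEquiv (shiftEquiv s.G _)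
  have := hE'.isDomain
  -- the Gauss point
  set f₀ := toHat (q : R) with hf₀
  have hres : ∀ r : R, (q : R) ∣ r → residue (HatAt (q : R)) (f₀ r) = 0 := by
    rintro r ⟨c, rfl⟩
    rw [residue_eq_zero_iff, map_mul]
    exact Ideal.mul_mem_right _ _ (toHat_self_mem _)
  have hG : IsGauss q (Φ.map f₀) (s.map f₀) (f₀ T) := by
    refine ⟨hq, by rw [maximalIdeal_hatAt, map_natCast], h.monic.map f₀,
      by rw [h.monic.natDegree_map, h.natDegree_eq], ?_, ?_,
      not_pow_residue_hatAt hR hq hgen, ?_⟩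
    · rw [RootSplit.map_x₀, ← map_pow, ← map_pow, ← sub_eq_zero, ← map_sub, ← map_sub]
      exact hres _ hx₀
    · obtain ⟨g, hg⟩ := hquo
      rw [RootSplit.quo_map, Polynomial.map_map]
      have h1 := congrArg (Polynomial.map ((residue (HatAt (q : R))).comp f₀)) hg
      rw [Polynomial.map_sub, Polynomial.map_mul, map_C, RingHom.comp_apply,
        hres _ dvd_rfl, map_zero, zero_mul, sub_eq_zero] at h1
      simpa using h1
    · obtain ⟨u, hu, hue⟩ := hmid
      refine ⟨s.mapE f₀ u, hu.map _, ?_⟩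
      have hroot : s.mapE f₀ (AdjoinRoot.root s.quo) = AdjoinRoot.root (s.map f₀).quo :=
        AdjoinRoot.map_root f₀ _ _ (s.quo_map f₀).dvd
      have hdq : (s.map f₀).quo.derivative = s.quo.derivative.map f₀ := by
        rw [RootSplit.quo_map, derivative_map]
      rw [hdq, eval₂_map, ← RootSplit.mapE_comp_of, ← hroot,
        ← hom_eval₂, hue, map_mul, map_natCast]
  let sK := s.map (algebraMap R K)
  let sL := sK.map j
  obtain ⟨hirrL, hirrGL⟩ : Irreducible sL.quo ∧ Irreducible sL.G := by
    have := Fact.mk (hG.irreducible_quo (L := L))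
    refine RootSplit.irreducible_congr ?_ ((s.map f₀).map (algebraMap (HatAt (q : R)) L)) sL ?_
      hG.irreducible_G
    · rw [Polynomial.map_map, Polynomial.map_map, hj]
    · simpa [sL, sK] using (RingHom.congr_fun hj s.x₀).symm
  have := Fact.mk hirrL
  have hdK : 1 < (Φ.map (algebraMap R K)).natDegree := by rwa [h.monic.natDegree_map]
  have hirrK : Irreducible sK.quo :=
    (sK.monic_quo (h.monic.map _) (by omega)).irreducible_of_irreducible_map j _
      (by rw [← RootSplit.quo_map]; exact hirrL)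
  have := Fact.mk hirrK
  have := Fact.mk hirrGL
  have hirrGK : Irreducible sK.G :=
    (sK.monic_G (h.monic.map _) hdK).irreducible_of_irreducible_map (sK.mapE j) _
      (by rw [sK.G_map]; exact hirrGL)
  have := Fact.mk hirrGK
  have h0 : sK.quo.eval sK.x₀ ≠ 0 := by
    rw [RootSplit.quo_map, RootSplit.map_x₀, eval_map, eval₂_at_apply, Ne,
      map_eq_zero_iff _ (IsFractionRing.injective R K)]
    intro h1
    have h2 := eval_mem_span_of_C_dvd hquo s.x₀
    rw [h1, zero_sub, dvd_neg, eval_sub, eval_pow, eval_X, eval_C] at h2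
    exact not_dvd_pow_sub_of_gen hR hq hgen _ h2
  -- the two algebras as fraction fields
  letI : Algebra s.E sK.E := (s.mapE (algebraMap R K)).toAlgebra
  have : IsFractionRing s.E sK.E :=
    isFractionRing_adjoinRoot_map (h.monic_quo s) (s.quo_map (algebraMap R K)).symm
  letI : Algebra s.E' sK.E' := (s.mapE' (algebraMap R K)).toAlgebra
  have : IsFractionRing s.E' sK.E' :=
    isFractionRing_adjoinRoot_map (A := s.E) (L := sK.E) (s.monic_G h.monic hd) (s.G_map (algebraMap R K))
  have := (h.monic_quo s).finite_adjoinRoot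
  have := (h.monic_quo s).free_adjoinRoot
  have := (s.monic_G h.monic hd).finite_adjoinRoot
  have := (s.monic_G h.monic hd).free_adjoinRoot
  have : Module.Finite R s.E' := Module.Finite.trans s.E _
  have : Module.Free R s.E' := Module.Free.trans (R := R) (S := s.E)
  have hsE : Function.Surjective fun r : R => residue s.E (algebraMap R s.E r) :=
    (h.isEis_quo hgen s hquo hR).1.exists_residue_of_shift
  have hsE' : Function.Surjective fun r : R => residue s.E' (algebraMap R s.E' r) := by
    intro c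
    obtain ⟨e, rfl⟩ := hEisG.exists_residue_of_shift c
    obtain ⟨r, hr⟩ := hsE (residue s.E e)
    have : IsLocalHom (AdjoinRoot.of s.G) := RingHom.IsIntegral.isLocalHom
      (algebraMap_isIntegral_iff.2 (Algebra.IsIntegral.of_finite s.E s.E') :
        (algebraMap s.E s.E').IsIntegral)
      (FaithfulSMul.algebraMap_injective s.E s.E')
    refine ⟨r, ?_⟩
    have h1 := congrArg (ResidueField.map (AdjoinRoot.of s.G)) hr
    rw [ResidueField.map_residue, ResidueField.map_residue] at h1
    exact h1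
  -- roots on the branches
  obtain ⟨hy₀, hy₁', hym⟩ := (⟨hy.map sK.br₀, hy.map sK.br₁, hy.map sK.brₘ⟩ :
    IsUnit (sK.br₀ y) ∧ IsUnit (sK.br₁ y) ∧ IsUnit (sK.brₘ y))
  have extE : ∀ (M : Type _) [Field M] (μ : L →+* M) (g : s.E →+* M),
      μ.comp ((algebraMap (HatAt (q : R)) L).comp (toHat (q : R))) =
        g.comp (algebraMap R s.E) →
      ∃ ψ : sL.E →+* M, (∀ x, ψ (sK.mapE j (algebraMap s.E sK.E x)) = g x) ∧
        ψ.comp (AdjoinRoot.of sL.quo) = μ := by
    intro M _ μ g hμ
    rw [← hj, ← RingHom.comp_assoc, AdjoinRoot.algebraMap_eq] at hμ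
    have hev : sL.quo.eval₂ μ (g (AdjoinRoot.root s.quo)) = 0 := by
      rw [RootSplit.quo_map, RootSplit.quo_map, eval₂_map, eval₂_map, hμ, ← hom_eval₂,
        AdjoinRoot.eval₂_root, map_zero]
    refine ⟨AdjoinRoot.lift μ _ hev, fun x => ?_, AdjoinRoot.lift_comp_of _⟩
    · refine RingHom.congr_fun (f := ((AdjoinRoot.lift μ _ hev).comp (sK.mapE j)).comp
        (s.mapE (algebraMap R K))) ?_ x
      refine AdjoinRoot.ringHom_ext (RingHom.ext fun r => ?_) ?_
      · simpa [RootSplit.mapE, sK, sL] using RingHom.congr_fun hμ r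
      · simp [RootSplit.mapE, sK, sL]
  have base₀ : ∀ r : R, sK.br₀ (Pairs.ofBase _ (algebraMap R K r)) =
      algebraMap s.E sK.E (algebraMap R s.E r) := fun r => by
    simp [sK, RootSplit.br₀, RootSplit.mapE, RingHom.algebraMap_toAlgebra]
  have base₁ : ∀ r : R, sK.br₁ (Pairs.ofBase _ (algebraMap R K r)) =
      algebraMap s.E sK.E (algebraMap R s.E r) := fun r => by
    simp [sK, RootSplit.br₁, RootSplit.mapE, RingHom.algebraMap_toAlgebra]
  have baseₘ : ∀ r : R, sK.brₘ (Pairs.ofBase _ (algebraMap R K r)) =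
      algebraMap s.E' sK.E' (algebraMap R s.E' r) := fun r => by
    have e : algebraMap R s.E' r = AdjoinRoot.of s.G (AdjoinRoot.of s.quo r) := rfl
    simp [sK, e, RootSplit.brₘ, RootSplit.mapE, RootSplit.mapE', RingHom.algebraMap_toAlgebra]
  have hd1 := hdK
  have hcomb : (∃ g, g ^ n = sK.br₀ y) → (∃ g, g ^ n = sK.br₁ y) → (∃ g, g ^ n = sK.brₘ y) →
      ∃ G, G ^ n = y := by
    rintro ⟨g₀, hg₀⟩ ⟨g₁, hg₁⟩ ⟨gₘ, hgₘ⟩
    obtain ⟨G, hG₀, hG₁, hG₂⟩ := sK.br_surjective (h.monic.map _) hdK h0 g₀ g₁ gₘ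
    refine ⟨G, sub_eq_zero.1 (sK.br_injective (h.monic.map _) hdK h0 ?_ ?_ ?_)⟩
    · rw [map_sub, map_pow, hG₀, hg₀, sub_self]
    · rw [map_sub, map_pow, hG₁, hg₁, sub_self]
    · rw [map_sub, map_pow, hG₂, hgₘ, sub_self]
  refine hcomb ?_ ?_ ?_
  · refine exists_root_of_finite_unit (O := s.E) hR hE hn hsE hk (q : R) hqm hqm2 (sK.mapE j)
      (AdjoinRoot.of sL.quo) extE hy₀.ne_zero (fun p hp hpq => ?_)
      (branchUnit hloc sL.br₀ _ (by ext c; simp [RootSplit.br₀]) (sK.mapE_br₀ j y))
    refine exists_local_rep_of_valuation hy₀.ne_zero hp fun F _ ψ v hv => ?_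
    have h1 : ∀ r : R, ¬ p ∣ algebraMap R _ r →
        v ((ψ.comp sK.br₀) (Pairs.ofBase _ (algebraMap R K r))) = 1 := fun r hr => by
      rw [RingHom.comp_apply, base₀]
      exact hv _ hr
    exact hdiv F (ψ.comp sK.br₀) v
      (fun r hr => h1 r fun h2 => hp.not_isUnit (isUnit_of_dvd_unit h2 (hr.map _))) (h1 _ hpq)
  · refine exists_root_of_finite_unit (O := s.E) hR hE hn hsE hk (q : R) hqm hqm2 (sK.mapE j)
      (AdjoinRoot.of sL.quo) extE hy₁'.ne_zero (fun p hp hpq => ?_)
      (branchUnit hloc sL.br₁ _ (by ext c; simp [RootSplit.br₁]) (sK.mapE_br₁ j y))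
    refine exists_local_rep_of_valuation hy₁'.ne_zero hp fun F _ ψ v hv => ?_
    have h1 : ∀ r : R, ¬ p ∣ algebraMap R _ r →
        v ((ψ.comp sK.br₁) (Pairs.ofBase _ (algebraMap R K r))) = 1 := fun r hr => by
      rw [RingHom.comp_apply, base₁]
      exact hv _ hr
    exact hdiv F (ψ.comp sK.br₁) v
      (fun r hr => h1 r fun h2 => hp.not_isUnit (isUnit_of_dvd_unit h2 (hr.map _))) (h1 _ hpq)
  · refine exists_root_of_finite_unit (O := s.E') hR hE' hn hsE' hk (q : R) hqm hqm2 (sK.mapE' j)
      ((AdjoinRoot.of sL.G).comp (AdjoinRoot.of sL.quo)) ?_ hym.ne_zero (fun p hp hpq => ?_)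
      (branchUnit hloc sL.brₘ _ (by ext c; simp [RootSplit.brₘ]) (sK.mapE'_brₘ j y))
    · intro M _ μ g hμ
      obtain ⟨ψ₀, hψ₀, hψμ⟩ := extE M μ (g.comp (AdjoinRoot.of s.G)) (by
        rw [hμ, RingHom.comp_assoc]; rfl)
      have hev : sL.G.eval₂ ψ₀ (g (AdjoinRoot.root s.G)) = 0 := by
        rw [← RootSplit.G_map, ← RootSplit.G_map, eval₂_map, eval₂_map,
          show (ψ₀.comp (sK.mapE j)).comp (s.mapE (algebraMap R K)) = g.comp (AdjoinRoot.of s.G) from
            RingHom.ext hψ₀, ← hom_eval₂, AdjoinRoot.eval₂_root, map_zero]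
      refine ⟨AdjoinRoot.lift ψ₀ _ hev, fun x => ?_, ?_⟩
      · refine RingHom.congr_fun (f := ((AdjoinRoot.lift ψ₀ _ hev).comp (sK.mapE' j)).comp
          (s.mapE' (algebraMap R K))) ?_ x
        refine AdjoinRoot.ringHom_ext (RingHom.ext fun r => ?_) ?_
        · simpa [RootSplit.mapE', sK, sL, RingHom.algebraMap_toAlgebra] using hψ₀ r
        · simp [RootSplit.mapE', sK, sL]
      · rw [← RingHom.comp_assoc, AdjoinRoot.lift_comp_of, hψμ]
    refine exists_local_rep_of_valuation hym.ne_zero hp fun F _ ψ v hv => ?_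
    have h1 : ∀ r : R, ¬ p ∣ algebraMap R _ r →
        v ((ψ.comp sK.brₘ) (Pairs.ofBase _ (algebraMap R K r))) = 1 := fun r hr => by
      rw [RingHom.comp_apply, baseₘ]
      exact hv _ hr
    exact hdiv F (ψ.comp sK.brₘ) v
      (fun r hr => h1 r fun h2 => hp.not_isUnit (isUnit_of_dvd_unit h2 (hr.map _))) (h1 _ hpq)


end Ordinary

section Supersingular

variable {R : Type} [CommRing R] [IsDomain R] [IsLocalRing R] [IsNoetherianRing R]
  [IsAdicComplete (maximalIdeal R) R] {K : Type} [Field K] [Algebra R K] [IsFractionRing R K]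

set_option maxHeartbeats 800000 in
/-- **The root at a supersingular point, up to a vertical unit.** -/
theorem IsSSPoint.exists_root_unit (hR : IsReg2 R) {Φ : R[X]} {a : R} (h : IsSSPoint Φ a) {n : ℕ}
    (hn : IsUnit (n : R)) (hk : ∀ c : ResidueField R, c ≠ 0 → ∃ d, d ^ n = c) (π : R)
    [Fact (Prime π)] (hπ : π ∈ maximalIdeal R) (hπ2 : π ∉ maximalIdeal R ^ 2)
    {L : Type} [Field L] [Algebra (HatAt π) L] [IsFractionRing (HatAt π) L] (j : K →+* L)
    (hj : j.comp (algebraMap R K) = (algebraMap (HatAt π) L).comp (toHat π))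
    (y : Pairs (Φ.map (algebraMap R K))) (hy : IsUnit y)
    (hdiv : ∀ (F : Type) [Field F] (ψ : Pairs (Φ.map (algebraMap R K)) →+* F)
      (v : Valuation F (WithZero (Multiplicative ℤ))),
      (∀ r : R, IsUnit r → v (ψ (Pairs.ofBase _ (algebraMap R K r))) = 1) →
      v (ψ (Pairs.ofBase _ (algebraMap R K π))) = 1 → ∃ z, v (ψ y) = z ^ n)
    (hloc : HasRootUpToUnit ((Pairs.ofBase ((Φ.map (algebraMap R K)).map j)).comp
      (algebraMap (HatAt π) L)) n (Pairs.map (Φ := Φ.map (algebraMap R K)) j rfl y)) :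
    ∃ G, G ^ n = y := by
  have := h.isLocalRing_pairs hR
  have hreg := h.isReg2_pairs hR
  have := hreg.isDomain
  have := hreg.isNoetherian
  letI : Field (Pairs (Φ.map (algebraMap R K))) := (h.isField_pairs hR).toField
  letI : Algebra (Pairs Φ) (Pairs (Φ.map (algebraMap R K))) :=
    (Pairs.map (algebraMap R K) rfl).toAlgebra
  have := h.isFractionRing_pairs (K := K) hR
  have := h.monic.free_adjoinRoot
  have := h.monic.finite_adjoinRoot
  have hs := Pairs.monic_sndPoly h.monic (Φ := Φ) (by have := h.two_lt; omega)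
  have := hs.free_adjoinRoot
  have := hs.finite_adjoinRoot
  have : Module.Finite R (Pairs Φ) := Module.Finite.trans (AdjoinRoot Φ) _
  have : Module.Free R (Pairs Φ) := Module.Free.trans (R := R) (S := AdjoinRoot Φ)
  have hres : Function.Surjective fun r : R => residue (Pairs Φ) (algebraMap R (Pairs Φ) r) := by
    intro c
    obtain ⟨r, hr⟩ := h.residue_ofBase_surjective hR c
    exact ⟨r, hr⟩
  refine exists_root_of_finite_unit (O := Pairs Φ) hR hreg hn hres hk π hπ hπ2
    (Pairs.map (Φ := Φ.map (algebraMap R K)) j rfl) (Pairs.ofBase _) (fun M _ μ g hμ => ?_)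
    hy.ne_zero (fun p hp hpπ => ?_) hloc
  · have hbase : (μ.comp j).comp (algebraMap R K) = g.comp (Pairs.ofBase Φ) := by
      rw [RingHom.comp_assoc, hj, hμ]
      rfl
    let ψ : Pairs ((Φ.map (algebraMap R K)).map j) →+* M :=
      Pairs.lift μ (g (Pairs.fst Φ)) (g (Pairs.snd Φ))
        (by rw [eval₂_map, eval₂_map, hbase, ← hom_eval₂, Pairs.eval₂_fst, map_zero])
        (by
          rw [Polynomial.map_map, Polynomial.map_map, hbase, ← Polynomial.map_map,
            ← map_divDiff, eval_map, eval₂_at_apply, Pairs.divDiff_fst_eval_snd, map_zero])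
    refine ⟨ψ, fun z => ?_, RingHom.ext fun c => by simp [ψ]⟩
    have e : (ψ.comp (Pairs.map j rfl)).comp (Pairs.map (algebraMap R K) rfl) = g := by
      refine Pairs.ringHom_ext ?_ (by simp [ψ]) (by simp [ψ])
      rw [← hbase]
      ext r
      simp [ψ]
    exact RingHom.congr_fun e z
  · refine exists_local_rep_of_valuation hy.ne_zero hp fun F _ ψ w hw => ?_
    have h1 : ∀ r : R, ¬ p ∣ Pairs.ofBase Φ r →
        w (ψ (Pairs.ofBase _ (algebraMap R K r))) = 1 := fun r hr => by
      rw [← Pairs.map_ofBase (algebraMap R K) rfl r]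
      exact hw _ hr
    exact hdiv F ψ w
      (fun r hr => h1 r fun h2 => hp.not_isUnit (isUnit_of_dvd_unit h2 (hr.map _))) (h1 _ hpπ)

end Supersingular

section Line

variable {R : Type} [CommRing R] [IsLocalRing R] [IsDomain R] [IsNoetherianRing R]
  [IsAdicComplete (maximalIdeal R) R] {K : Type} [Field K] [CharZero K] [Algebra R K]
  [IsFractionRing R K] {q L : ℕ} [hqf : Fact q.Prime] [NeZero L] {Φ H : ℤ[X][X]}

/-- The root at a residue of the line off the cusps, up to a vertical unit. -/
theorem exists_root_unit_of_isModEq (hR : IsReg2 R) (hL : Haupt.IsHauptLevel L) (hqL : ¬ q ∣ L)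
    (hΦ : Haupt.IsModEq q L Φ) (g : Haupt.TRing L →+* R)
    (hinj : Function.Injective ((algebraMap R K).comp (g.comp (Haupt.toT L))))
    {T : R} (hT : g (Haupt.toT L X) = T)
    (hord : ∃ a : R, maximalIdeal R = Ideal.span {(q : R), T - a ^ q})
    (hss : T ^ (q * q) - T ∈ maximalIdeal R →
      maximalIdeal R = Ideal.span {(q : R), T ^ (q * q) - T})
    {n : ℕ} (hn : IsUnit (n : R)) (hk : ∀ c : ResidueField R, c ≠ 0 → ∃ d, d ^ n = c)
    (π : R) [Fact (Prime π)] (hπ : π = (q : R))
    {M : Type} [Field M] [Algebra (HatAt π) M] [IsFractionRing (HatAt π) M]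
    (j : K →+* M) (hj : j.comp (algebraMap R K) = (algebraMap (HatAt π) M).comp (toHat π))
    {Ψ : K[X]}
    (hΨ : Φ.map ((algebraMap R K).comp (g.comp (Haupt.toT L))) = Ψ)
    (y : Pairs Ψ) (hy : IsUnit y)
    (hdiv : ∀ (F : Type) [Field F] (ψ : Pairs Ψ →+* F)
      (v : Valuation F (WithZero (Multiplicative ℤ))),
      (∀ r : R, IsUnit r → v (ψ (Pairs.ofBase Ψ (algebraMap R K r))) = 1) →
      v (ψ (Pairs.ofBase Ψ (algebraMap R K (q : R)))) = 1 → ∃ z, v (ψ y) = z ^ n)
    (hloc : HasRootUpToUnit ((Pairs.ofBase (Ψ.map j)).comp (algebraMap (HatAt π) M)) n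
      (Pairs.map (Φ := Ψ) j rfl y)) :
    ∃ G, G ^ n = y := by
  subst hπ
  have hq := hqf.out
  have hqR : Prime (q : R) := Fact.out
  have hqm : (q : R) ∈ maximalIdeal R := (mem_maximalIdeal _).2 hqR.not_isUnit
  set f : ℤ[X] →+* R := g.comp (Haupt.toT L) with hf
  rw [← Polynomial.map_map] at hΨ
  subst hΨ
  obtain ⟨H, hH⟩ := hΦ.exists_kronecker hL hqL
  obtain ⟨χ, ρ, hχm, -, hchar, hχmod, hkey⟩ := hΦ.exists_vPoly hL hqL hH
  obtain ⟨hsep, hcp⟩ := hchar K ((algebraMap R K).comp g) hinj
  have hfX : f X = T := hT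
  by_cases hρ : IsUnit (g ρ)
  · -- ordinary
    obtain ⟨a, ha⟩ := hord
    have hfinj : Function.Injective f := Function.Injective.of_comp
      (f := algebraMap R K) (by rw [← RingHom.coe_comp]; exact hinj)
    subst hfX
    have hOrd : IsOrd K q (Φ.map f) ((Haupt.innerDeriv Φ).map f) (χ.map g) (f X) (g ρ) :=
      IsModEq.isOrd_spec hΦ hH hχm (fun K => by intro _ _ f' hf'; exact hchar K f' hf') hχmod g
        hfinj hqR (not_dvd_pow_sub_of_gen hR hq ha) hρ
    have : UniqueFactorizationMonoid R := hR.uniqueFactorizationMonoid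
    have : HenselianLocalRing R := ⟨fun p hp a₀ h₁ h₂ =>
      HenselianRing.is_henselian (I := maximalIdeal R) p hp a₀ h₁ (h₂.map _)⟩
    exact hOrd.exists_root_unit hR ha hn hk j hj y hy hdiv hloc
  · -- supersingular
    have hρ0 : residue R (g ρ) = 0 := by rwa [residue_eq_zero_iff, mem_maximalIdeal]
    have : CharP (ResidueField R) q := (CharP.charP_iff_prime_eq_zero hq).2 (by
      rw [← map_natCast (residue R), residue_eq_zero_iff]; exact hqm)
    obtain ⟨hτ, -⟩ := hkey _ ((residue R).comp g) hρ0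
    obtain ⟨-, hH0⟩ := hkey _ ((frobenius (ResidueField R) q).comp ((residue R).comp g))
      (by rw [RingHom.comp_apply, RingHom.comp_apply, hρ0, map_zero])
    simp only [RingHom.comp_apply, hT, frobenius_def] at hτ hH0
    rw [← pow_mul, hτ] at hH0
    have hgen := hss (by rw [← residue_eq_zero_iff, map_sub, map_pow, hτ, sub_self])
    have hu : IsUnit ((H.map f).eval (f X ^ q)) := by
      rw [← notMem_maximalIdeal, ← residue_eq_zero_iff]
      rw [eval_map, hom_eval₂, map_pow, hfX]
      have e : (residue R).comp f = (aeval (residue R T)).toRingHom :=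
        Polynomial.ringHom_ext (fun a => by simp) (by simp [hfX])
      rw [e]
      exact hH0
    have h := isSSPoint_kronecker hq f hH hΦ.natDegree hΦ.monic hqm (by rwa [hfX]) hu
    exact h.exists_root_unit hR hn hk (q : R) hqm (hR.not_mem_sq_of_gen hgen) j hj y hy hdiv hloc

end Line

variable {W : Type} [CommRing W] [IsDomain W] [IsDiscreteValuationRing W] [CharZero W]
  [IsAdicComplete (maximalIdeal W) W] [IsAlgClosed (ResidueField W)]

/-- The root at a point of the line which is not a cusp. -/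
theorem pointRootUnit_point {q L : ℕ} [Fact q.Prime] [NeZero L]
    [Fact (Prime (PowerSeries.C (q : W) : PowerSeries W))]
    (hW : maximalIdeal W = Ideal.span {(q : W)}) (hL : Haupt.IsHauptLevel L) (hqL : ¬ q ∣ L)
    {Φ : ℤ[X][X]} (hΦ : Haupt.IsModEq q L Φ) (t₀ : W)
    (ht₀ : IsUnit (((Haupt.cuspPoly L).map (Int.castRingHom W)).eval t₀))
    {n : ℕ} (hn : 0 < n) (hnq : n.Coprime q) :
    PointRootUnit q Φ n (pointHom W t₀ 1) := by
  intro y hy hhor hloc
  have := isAdicComplete_series (W := W)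
  have hq := (Fact.out : q.Prime)
  have : CharZero (PowerSeries W) :=
    charZero_of_injective_ringHom (f := PowerSeries.C (R := W)) PowerSeries.C_injective
  have : CharZero (FractionRing (PowerSeries W)) :=
    charZero_of_injective_ringHom (IsFractionRing.injective (PowerSeries W) _)
  set f : ℤ[X] →+* PowerSeries W := (pointMap W t₀ 1).comp (mapRingHom (Int.castRingHom W))
    with hf
  have hfinj : Function.Injective f :=
    (pointMap_injective t₀).comp (map_injective _ Int.cast_injective)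
  have hunit : IsUnit (f (Haupt.cuspPoly L)) := by
    rw [PowerSeries.isUnit_iff_constantCoeff, hf, RingHom.comp_apply, constantCoeff_pointMap]
    exact ht₀
  set g : Haupt.TRing L →+* PowerSeries W := IsLocalization.Away.lift (Haupt.cuspPoly L) hunit
    with hg
  have hgf : g.comp (Haupt.toT L) = f := IsLocalization.Away.lift_comp _ _
  have hT : g (Haupt.toT L X) = PowerSeries.C t₀ + PowerSeries.X := by
    rw [← RingHom.comp_apply, hgf]
    simp [hf, pointMap]
  have hcq : PowerSeries.C (q : W) = (q : PowerSeries W) := map_natCast _ q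
  have hqW : (q : W) ∈ maximalIdeal W := hW ▸ Ideal.mem_span_singleton_self _
  have hnW := isUnit_natCast_of_coprime hW hnq
  set K := FractionRing (PowerSeries W)
  have hKinj : Function.Injective (algebraMap (PowerSeries W) K) := IsFractionRing.injective _ _
  have hinj : Function.Injective ((algebraMap (PowerSeries W) K).comp (g.comp (Haupt.toT L))) := by
    rw [hgf, RingHom.coe_comp]
    exact hKinj.comp hfinj
  have hord : ∃ a : PowerSeries W, maximalIdeal (PowerSeries W) =
      Ideal.span {(q : PowerSeries W), PowerSeries.C t₀ + PowerSeries.X - a ^ q} := by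
    obtain ⟨b, hb⟩ := IsAlgClosed.exists_pow_nat_eq (residue W t₀) hq.pos
    obtain ⟨a, rfl⟩ := residue_surjective b
    refine ⟨PowerSeries.C a, ?_⟩
    rw [← hcq]
    refine maximalIdeal_series_eq_span hW ?_ ?_
    · rw [← residue_eq_zero_iff]
      simp [hb]
    · simp [← map_pow]
  have hss : (PowerSeries.C t₀ + PowerSeries.X) ^ (q * q) - (PowerSeries.C t₀ + PowerSeries.X) ∈
        maximalIdeal (PowerSeries W) →
      maximalIdeal (PowerSeries W) = Ideal.span {(q : PowerSeries W),
        (PowerSeries.C t₀ + PowerSeries.X) ^ (q * q) - (PowerSeries.C t₀ + PowerSeries.X)} := by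
    intro hmem
    rw [← hcq]
    refine maximalIdeal_series_eq_span hW ((mem_maximalIdeal_series_iff _).1 hmem) ?_
    have hq0 : residue W (q : W) = 0 := (residue_eq_zero_iff _).2 hqW
    rw [← notMem_maximalIdeal, ← residue_eq_zero_iff, map_sub, PowerSeries.coeff_one_pow, map_sub,
      map_mul, map_mul, Nat.cast_mul, map_mul, hq0]
    simp [PowerSeries.coeff_C]
  have hconst : ∀ x : W, ((pointHom W t₀ 1).comp C) x =
      algebraMap (PowerSeries W) K (PowerSeries.C x) :=
    fun x => by simp [pointHom, pointMap, K]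
  have hdiv : ∀ (F : Type) [Field F] (ψ : Pairs (phiAt Φ (pointHom W t₀ 1)) →+* F)
      (v : Valuation F (WithZero (Multiplicative ℤ))),
      (∀ r : PowerSeries W, IsUnit r → v (ψ (Pairs.ofBase _ (algebraMap _ K r))) = 1) →
      v (ψ (Pairs.ofBase _ (algebraMap _ K (q : PowerSeries W)))) = 1 →
        ∃ z, v (ψ y) = z ^ n := by
    intro F _ ψ v hu hqv
    refine hhor F ψ v fun w hw => ?_
    obtain ⟨k, u, rfl⟩ := IsDiscreteValuationRing.eq_unit_mul_pow_irreducible hw
      ((IsDiscreteValuationRing.irreducible_iff_uniformizer _).2 hW)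
    rw [hconst, map_mul, map_pow, hcq, map_mul, map_pow, map_mul, map_pow, map_mul, map_pow,
      map_mul, map_pow, hu _ (u.isUnit.map _), hqv, one_pow, one_mul]
  have hj : (toHatFrac q).comp (algebraMap (PowerSeries W) K) =
      (algebraMap _ (FractionRing (HatAt (PowerSeries.C (q : W) : PowerSeries W)))).comp
        (toHat (PowerSeries.C (q : W) : PowerSeries W)) :=
    IsLocalization.map_comp _
  exact exists_root_unit_of_isModEq (K := K)
    (M := FractionRing (HatAt (PowerSeries.C (q : W) : PowerSeries W))) (isReg2_series hW) hL hqL hΦ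
    g hinj hT hord hss (n := n) (by simpa using hnW.map (PowerSeries.C (R := W)))
    (fun c _ => exists_pow_eq_residue_series hn c) (PowerSeries.C (q : W)) hcq (toHatFrac q) hj
    (Ψ := phiAt Φ (pointHom W t₀ 1)) (by rw [hgf]; rfl) y hy hdiv hloc

end FLTA.Carayol

end
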