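import Fermat.Agent.Carayol.DivisorRoot

/-!
# Roots in a branch up to a unit at the vertical prime

A fraction with multiplicities divisible by `n` off the vertical parameter is an `n`-th power as
soon as it is one over the completion at the vertical prime up to an integral unit.
-/

set_option autoImplicit false
set_option linter.style.haveILetI false

open IsLocalRing Ideal Polynomial

namespace FLTA.Carayol

/-- `f` is an `n`-th power up to a unit integral over `B`. -/
def HasRootUpToUnit {B LO : Type*} [CommRing B] [CommRing LO] (ι : B →+* LO) (n : ℕ) (f : LO) :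
    Prop :=
  ∃ Y ε ε' : LO, ε * ε' = 1 ∧ ι.IsIntegralElem ε ∧ ι.IsIntegralElem ε' ∧ Y ^ n * ε = f

/-- Integrality passes to the image. -/
theorem isIntegralElem_apply {B C D : Type*} [CommRing B] [CommRing C] [CommRing D] {ι : B →+* C}
    (g : C →+* D) {x : C} (h : ι.IsIntegralElem x) : (g.comp ι).IsIntegralElem (g x) := by
  obtain ⟨P, hP, hx⟩ := h
  exact ⟨P, hP, by rw [← hom_eval₂, hx, map_zero]⟩

theorem HasRootUpToUnit.map {B LO LO' : Type*} [CommRing B] [CommRing LO] [CommRing LO']
    {ι : B →+* LO} {n : ℕ} {f : LO} (h : HasRootUpToUnit ι n f) (g : LO →+* LO') :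
    HasRootUpToUnit (g.comp ι) n (g f) := by
  obtain ⟨Y, ε, ε', h1, h2, h3, h4⟩ := h
  exact ⟨g Y, g ε, g ε', by rw [← map_mul, h1, map_one], isIntegralElem_apply g h2,
    isIntegralElem_apply g h3, by rw [← map_pow, ← map_mul, h4]⟩

/-- An integral unit comes from a unit of an integrally closed ring. -/
theorem exists_unit_of_integralElem {B : Type*} [CommRing B] {D : Type*} [CommRing D] [IsDomain D]
    [IsIntegrallyClosed D] {M : Type*} [Field M] [Algebra D M] [IsFractionRing D M]
    (F : B →+* D) {z z' : M} (hz : z * z' = 1)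
    (h : ((algebraMap D M).comp F).IsIntegralElem z)
    (h' : ((algebraMap D M).comp F).IsIntegralElem z') :
    ∃ e : Dˣ, algebraMap D M e = z := by
  have key : ∀ {w : M}, ((algebraMap D M).comp F).IsIntegralElem w →
      ∃ d : D, algebraMap D M d = w := by
    rintro w ⟨P, hP, hw⟩
    refine IsIntegrallyClosed.isIntegral_iff.1 ⟨P.map F, hP.map F, ?_⟩
    rwa [eval₂_map]
  obtain ⟨d, hd⟩ := key h
  obtain ⟨d', hd'⟩ := key h'
  exact ⟨Units.mkOfMulEqOne d d' (IsFractionRing.injective D M (by
    rw [map_mul, hd, hd', hz, map_one])), hd⟩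

section Multiplicity

variable {O : Type*} [CommRing O] [IsDomain O] [IsNoetherianRing O] (p : O) [hp : Fact (Prime p)]

/-- A quotient which is a power up to a unit in the completion has divisible multiplicity. -/
theorem dvd_multiplicity_sub_of_unit_pow {M : Type*} [Field M] [Algebra (HatAt p) M]
    [IsFractionRing (HatAt p) M] {n : ℕ} (hn : 0 < n) {u v : O} (hu : u ≠ 0) (hv : v ≠ 0) {Z : M}
    {w : (HatAt p)ˣ}
    (h : algebraMap (HatAt p) M (toHat p v) * (Z ^ n * algebraMap (HatAt p) M w) =
      algebraMap (HatAt p) M (toHat p u)) :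
    (n : ℤ) ∣ (multiplicity p u : ℤ) - multiplicity p v := by
  obtain ⟨α, β, hβ, rfl⟩ := IsFractionRing.div_surjective (HatAt p) Z
  have hβ' : β ≠ 0 := nonZeroDivisors.ne_zero hβ
  have hu' : algebraMap (HatAt p) M (toHat p u) ≠ 0 :=
    (map_ne_zero_iff _ (IsFractionRing.injective (HatAt p) M)).2
      ((map_ne_zero_iff _ (toHat_injective p)).2 hu)
  have hα : α ≠ 0 := by
    rintro rfl
    rw [map_zero, zero_div, zero_pow hn.ne', zero_mul, mul_zero] at h
    exact hu' h.symm
  have hβM : algebraMap (HatAt p) M β ≠ 0 :=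
    (map_ne_zero_iff _ (IsFractionRing.injective (HatAt p) M)).2 hβ'
  have hh : toHat p v * (α ^ n * w) = toHat p u * β ^ n := by
    apply IsFractionRing.injective (HatAt p) M
    simp only [map_mul, map_pow]
    rw [← h, div_pow]
    field_simp
  obtain ⟨e, he⟩ := exists_toHat_eq_pow_multiplicity p hu
  obtain ⟨e', he'⟩ := exists_toHat_eq_pow_multiplicity p hv
  obtain ⟨i, a, rfl⟩ := exists_eq_unit_mul_pow_hat p hα
  obtain ⟨k, b, rfl⟩ := exists_eq_unit_mul_pow_hat p hβ'
  rw [he, he', mul_pow, mul_pow, ← pow_mul, ← pow_mul, ← Units.val_pow_eq_pow_val,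
    ← Units.val_pow_eq_pow_val] at hh
  have hh' : ((e' * (a ^ n * w) : (HatAt p)ˣ) : HatAt p) *
      toHat p p ^ (multiplicity p v + i * n) =
      ((e * b ^ n : (HatAt p)ˣ) : HatAt p) * toHat p p ^ (multiplicity p u + k * n) := by
    rw [pow_add, pow_add, Units.val_mul, Units.val_mul, Units.val_mul]
    linear_combination hh
  have := IsDiscreteValuationRing.unit_mul_pow_congr_pow (irreducible_toHat_self p)
    (irreducible_toHat_self p) _ _ _ _ hh'
  refine ⟨(i : ℤ) - k, ?_⟩
  have : (multiplicity p v : ℤ) + i * n = multiplicity p u + k * n := by exact_mod_cast this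
  linear_combination -this

end Multiplicity

universe u v w

variable {R : Type*} [CommRing R] [IsLocalRing R] {O : Type w} [CommRing O] [IsLocalRing O]
  [Algebra R O]

set_option maxHeartbeats 800000 in
/-- **The root in a branch, up to a vertical unit.** -/
theorem exists_root_of_finite_unit [IsDomain R] [IsNoetherianRing R]
    [IsAdicComplete (maximalIdeal R) R] [Module.Finite R O] [FaithfulSMul R O]
    (hR : IsReg2 R) (hO : IsReg2 O) {n : ℕ} (hn : IsUnit (n : R))
    (hres : Function.Surjective fun r : R => residue O (algebraMap R O r))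
    (hk : ∀ c : ResidueField R, c ≠ 0 → ∃ d, d ^ n = c)
    (π : R) [Fact (Prime π)] (hπ : π ∈ maximalIdeal R) (hπ2 : π ∉ maximalIdeal R ^ 2)
    {L : Type u} [Field L] [Algebra (HatAt π) L] [IsFractionRing (HatAt π) L]
    {KO : Type v} [Field KO] [Algebra O KO] [IsFractionRing O KO]
    {LO : Type*} [CommRing LO] (jO : KO →+* LO) (ιL : L →+* LO)
    (hext : ∀ (M : Type w) [Field M] (μ : L →+* M) (g : O →+* M),
      μ.comp ((algebraMap (HatAt π) L).comp (toHat π)) = g.comp (algebraMap R O) →
      ∃ ψ : LO →+* M, (∀ x, ψ (jO (algebraMap O KO x)) = g x) ∧ ψ.comp ιL = μ)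
    {f : KO} (hf : f ≠ 0)
    (hgen : ∀ p : O, Prime p → ¬ p ∣ algebraMap R O π → ∃ (g : KO) (a b : O),
      ¬ p ∣ a ∧ ¬ p ∣ b ∧ f * algebraMap O KO b = g ^ n * algebraMap O KO a)
    (hloc : HasRootUpToUnit (ιL.comp (algebraMap (HatAt π) L)) n (jO f)) :
    ∃ G : KO, G ^ n = f := by
  have := hO.isDomain
  have := hO.isNoetherian
  have := hO.uniqueFactorizationMonoid
  have hn0 : 0 < n := Nat.pos_of_ne_zero fun h => by
    rw [h, Nat.cast_zero] at hn
    exact not_isUnit_zero hn
  have : IsLocalHom (algebraMap R O) :=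
    RingHom.IsIntegral.isLocalHom
      (algebraMap_isIntegral_iff.2 (Algebra.IsIntegral.of_finite R O))
      (FaithfulSMul.algebraMap_injective R O)
  have : HenselianLocalRing O := by
    have : IsAdicComplete (maximalIdeal O) O :=
      IsLocalRing.isAdicComplete_of_module_finite (𝒪 := R) (T := O)
    exact ⟨fun f hf a₀ h₁ h₂ =>
      HenselianRing.is_henselian (I := maximalIdeal O) f hf a₀ h₁ (h₂.map _)⟩
  obtain ⟨u, v, hv, huv⟩ := IsFractionRing.div_surjective O f
  have hv0 : v ≠ 0 := nonZeroDivisors.ne_zero hv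
  have hvK : algebraMap O KO v ≠ 0 := (map_ne_zero_iff _ (IsFractionRing.injective O KO)).2 hv0
  have hu0 : u ≠ 0 := by rintro rfl; rw [map_zero, zero_div] at huv; exact hf huv.symm
  have hfuv : f * algebraMap O KO v = algebraMap O KO u := by
    rw [← huv, div_mul_cancel₀ _ hvK]
  have hn' : IsUnit (n : O) := by simpa using hn.map (algebraMap R O)
  have hk' : ∀ c : ResidueField O, c ≠ 0 → ∃ d, d ^ n = c := by
    intro c hc
    obtain ⟨r, rfl⟩ := hres c
    have hr : residue R r ≠ 0 := fun h0 => hc (by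
      have := map_zero (ResidueField.map (algebraMap R O))
      rwa [← h0, ResidueField.map_residue] at this)
    obtain ⟨d, hd⟩ := hk _ hr
    exact ⟨ResidueField.map (algebraMap R O) d, by
      rw [← map_pow, hd, ResidueField.map_residue]⟩
  obtain ⟨G, hG⟩ := exists_pow_eq_div (K := KO) hn' hk' hu0 hv0 fun p hp => by
    by_cases hpπ : p ∣ algebraMap R O π
    swap
    · obtain ⟨g, a, b, ha, hb, hab⟩ := hgen p hp hpπ
      exact dvd_multiplicity_sub_of_rep hp hu0 hv0 hfuv hab ha hb
    have : Fact (Prime p) := ⟨hp⟩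
    let g₀ : R →+* HatAt p := (toHat p).comp (algebraMap R O)
    have hg0 : g₀ π ∈ maximalIdeal (HatAt p) := by
      obtain ⟨c, hc⟩ := hpπ
      simp only [g₀, RingHom.comp_apply, hc, map_mul]
      exact Ideal.mul_mem_right _ _ (toHat_self_mem p)
    obtain ⟨F, hF⟩ := exists_hat_lift π g₀ hg0 fun r hr =>
      isUnit_toHat p (not_dvd_algebraMap_of_isReg2 hR hO hπ hπ2 hp hpπ hr)
    have hFinj : Function.Injective F := by
      rw [injective_iff_map_eq_zero]
      intro x hx
      by_contra hx0
      obtain ⟨k, e, rfl⟩ := exists_eq_unit_mul_pow_hat π hx0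
      rw [map_mul, (e.isUnit.map F).mul_right_eq_zero, map_pow] at hx
      have h0 := eq_zero_of_pow_eq_zero hx
      rw [← RingHom.comp_apply, hF] at h0
      simp only [g₀, RingHom.comp_apply] at h0
      rw [map_eq_zero_iff _ (toHat_injective p),
        map_eq_zero_iff _ (FaithfulSMul.algebraMap_injective R O)] at h0
      exact (Fact.out : Prime π).ne_zero h0
    let M := FractionRing (HatAt p)
    have hMinj : Function.Injective ((algebraMap (HatAt p) M).comp F) :=
      (IsFractionRing.injective (HatAt p) M).comp hFinj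
    let μ : L →+* M := IsFractionRing.lift hMinj
    let g' : O →+* M := (algebraMap (HatAt p) M).comp (toHat p)
    have hbase : μ.comp ((algebraMap (HatAt π) L).comp (toHat π)) = g'.comp (algebraMap R O) := by
      ext r
      simp only [μ, g', RingHom.comp_apply, IsFractionRing.lift_algebraMap]
      rw [← RingHom.comp_apply F, hF]
      rfl
    obtain ⟨ψ, hψ, hψμ⟩ := hext M μ g' hbase
    obtain ⟨Y, ε, ε', hεε, hε, hε', hY⟩ := hloc.map ψ
    have hι : ψ.comp (ιL.comp (algebraMap (HatAt π) L)) = (algebraMap (HatAt p) M).comp F := by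
      rw [← RingHom.comp_assoc, hψμ]
      refine RingHom.ext fun x => ?_
      simp only [μ, RingHom.comp_apply, IsFractionRing.lift_algebraMap]
    rw [hι] at hε hε'
    obtain ⟨e, he⟩ := exists_unit_of_integralElem F hεε hε hε'
    refine dvd_multiplicity_sub_of_unit_pow p hn0 hu0 hv0 (Z := Y) (w := e) ?_
    show g' v * (Y ^ n * algebraMap (HatAt p) M e) = g' u
    rw [he, hY, ← hψ v, ← hψ u, ← map_mul, ← map_mul, mul_comm, hfuv]
  exact ⟨G, hG.trans huv⟩

end FLTA.Carayol
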